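import Fermat.Prelude.Def_CuspForm_HeckeGaloisRepDatum
import Fermat.Prelude.Def_ModularCurve_HeckeModule
import Fermat.Prelude.Def_GaloisRep_Residual
import Fermat.Prelude.Def_GaloisRep_ComplexConjugation
import Fermat.Prelude.Def_FreyPackage_EigenformResidualAttachment

/-!
# WAVE 3, block G (item 80): Galois representations of Hecke eigensystems — INTERFACE (helper11)

Targets: `S42`, `S29` (mod `p`), `S30` (`p`-adic).  Plan: `NOTES/W3G-lead-plan.md` (lead) and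
`NOTES/W3G-slices.md` (helper11).  This file contains ONLY definitions and the exact `Prop`s of the
slices; prove `theorem xyz : H11W3G.<Name>Statement ...` in your own file
`Fermat/Agent/W3G/<Slice>_<seat>.lean`.

## ALGEBRAIC BLOCK (prelude + Mathlib only)
* `ChebStatement`      weak Chebotarev in `G_ℚ`-form
* `CycModStatement`    the mod `p` cyclotomic character with values in a field of char. `p`
* `CycAdicStatement`   the `p`-adic cyclotomic character with values in a complete DVR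
* `ExtAModStatement`   quadratic relation at Frobenius lifts ⇒ at every `g` (finite level)
* `ExtAAdicStatement`  the same `p`-adically
* `ExtCoreStatement`   EXT-core (lead, `W3G/EXT_lead.lean`): 2-dimensional representation
* `ExtLatticeStatement` integral EXT with complex conjugation: rank 2 lattice, NO field extension

## GEOMETRIC BLOCK (top level; inner slices KUM, HEQ, RIG, ... in `W3G/DefsGeom.lean`)
* `ESInertiaStatement`, `ESFrobeniusStatement`   Eichler–Shimura on torsion points of `J₀(N)`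
* `CommStatement`, `FinLevStatement`             `G_ℚ` commutes with `T_ℓ`; open stabilisers
* `EigenModStatement`   the Hecke–Galois module mod `p` of an eigenform
* `EigenAdicStatement`  the Hecke–Galois lattice of a character of the Hecke algebra
-/

set_option autoImplicit false

noncomputable section

open Polynomial

namespace H11W3G

/-- The absolute Galois group of `ℚ`. -/
abbrev GQ : Type := AlgebraicClosure ℚ ≃ₐ[ℚ] AlgebraicClosure ℚ

/-- the algebraic integers `ℤ̄ ⊂ ℂ` -/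
abbrev Zbar : Type := integralClosure ℤ ℂ

/-! ## Algebraic block -/

/-- **CHEB** (weak Chebotarev): every `g ∈ G_ℚ` agrees on every finite extension `L` of `ℚ`
(inside `ℚ̄`) with a positive power of a Frobenius element at a prime `ℓ ∉ S`. -/
def ChebStatement : Prop :=
  ∀ (L : IntermediateField ℚ (AlgebraicClosure ℚ)), FiniteDimensional ℚ L →
    ∀ (g : GQ) (S : Finset ℕ),
      ∃ (ℓ : ℕ) (A : ValuationSubring (AlgebraicClosure ℚ)) (σ : GQ) (b : ℕ),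
        ℓ.Prime ∧ ℓ ∉ S ∧ A.LiesOverPrime ℓ ∧ A.IsFrobeniusAt σ ℓ ∧ 0 < b ∧
          ∀ x ∈ L, (σ ^ b) x = g x

/-- **CYC mod p**: the cyclotomic character with values in a field of characteristic `p`. -/
def CycModStatement (p : ℕ) : Prop :=
  ∀ (K : Type) [Field K] [CharP K p],
    ∃ d : GQ →* Kˣ,
      GaloisFactorsThroughFiniteLevel d ∧
      (∀ ℓ : ℕ, ℓ.Prime → ℓ ≠ p → ∀ A : ValuationSubring (AlgebraicClosure ℚ),
        A.LiesOverPrime ℓ → ∀ σ : GQ, A.IsFrobeniusAt σ ℓ → ((d σ : Kˣ) : K) = (ℓ : K)) ∧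
      (∀ q : ℕ, q.Prime → q ≠ p → ∀ A : ValuationSubring (AlgebraicClosure ℚ),
        A.LiesOverPrime q → ∀ σ ∈ A.inertiaSubgroupIn ℚ, d σ = 1) ∧
      ((d complexConjugation : Kˣ) : K) = -1

/-- **CYC p-adic**: the cyclotomic character with values in a complete DVR of residue
characteristic `p`. -/
def CycAdicStatement (p : ℕ) : Prop :=
  ∀ (𝒪 : Type) [CommRing 𝒪] [IsDomain 𝒪] [IsDiscreteValuationRing 𝒪]
    [IsAdicComplete (IsLocalRing.maximalIdeal 𝒪) 𝒪],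
    (p : 𝒪) ∈ IsLocalRing.maximalIdeal 𝒪 →
    ∃ d : GQ →* 𝒪ˣ,
      (∀ n : ℕ, ∃ L : IntermediateField ℚ (AlgebraicClosure ℚ), FiniteDimensional ℚ L ∧
        ∀ σ : GQ, (∀ x ∈ L, σ x = x) →
          ((d σ : 𝒪ˣ) : 𝒪) - 1 ∈ IsLocalRing.maximalIdeal 𝒪 ^ n) ∧
      (∀ ℓ : ℕ, ℓ.Prime → ℓ ≠ p → ∀ A : ValuationSubring (AlgebraicClosure ℚ),
        A.LiesOverPrime ℓ → ∀ σ : GQ, A.IsFrobeniusAt σ ℓ → ((d σ : 𝒪ˣ) : 𝒪) = (ℓ : 𝒪)) ∧
      (∀ q : ℕ, q.Prime → q ≠ p → ∀ A : ValuationSubring (AlgebraicClosure ℚ),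
        A.LiesOverPrime q → ∀ σ ∈ A.inertiaSubgroupIn ℚ, d σ = 1) ∧
      ((d complexConjugation : 𝒪ˣ) : 𝒪) = -1

/-- the quadratic relation `x² - t x + δ = 0` in an endomorphism ring -/
def QuadRel {R : Type*} [CommRing R] {V : Type*} [AddCommGroup V] [Module R V]
    (x : Module.End R V) (t δ : R) : Prop :=
  x * x - t • x + δ • (1 : Module.End R V) = 0

/-- **EXT-A mod p**: if the Frobenius lifts outside `S` satisfy a quadratic relation with
constant term `d`, then every element of `G_ℚ` does (finite level; from `ChebStatement`). -/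
def ExtAModStatement : Prop :=
  ∀ (K : Type) [Field K] (V : Type) [AddCommGroup V] [Module K V]
    (ρ : GQ →* Module.End K V) (d : GQ →* Kˣ) (S : Finset ℕ) (a : ℕ → K),
    GaloisFactorsThroughFiniteLevel ρ → GaloisFactorsThroughFiniteLevel d →
    (∀ ℓ : ℕ, ℓ.Prime → ℓ ∉ S → ∀ A : ValuationSubring (AlgebraicClosure ℚ),
      A.LiesOverPrime ℓ → ∀ σ : GQ, A.IsFrobeniusAt σ ℓ →
        QuadRel (ρ σ) (a ℓ) ((d σ : Kˣ) : K)) →
    ∀ g : GQ, ∃ t : K, QuadRel (ρ g) t ((d g : Kˣ) : K)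

/-- **EXT-A p-adic**: the same for an adic-continuous action on a finite free module over a
complete DVR. -/
def ExtAAdicStatement : Prop :=
  ∀ (𝒪 : Type) [CommRing 𝒪] [IsDomain 𝒪] [IsDiscreteValuationRing 𝒪]
    [IsAdicComplete (IsLocalRing.maximalIdeal 𝒪) 𝒪]
    (M : Type) [AddCommGroup M] [Module 𝒪 M] [Module.Free 𝒪 M] [Module.Finite 𝒪 M]
    [Nontrivial M]
    (ρ : GQ →* Module.End 𝒪 M) (d : GQ →* 𝒪ˣ) (S : Finset ℕ) (a : ℕ → 𝒪),
    GaloisActionIsAdicContinuous 𝒪 ρ →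
    (∀ n : ℕ, ∃ L : IntermediateField ℚ (AlgebraicClosure ℚ), FiniteDimensional ℚ L ∧
        ∀ σ : GQ, (∀ x ∈ L, σ x = x) →
          ((d σ : 𝒪ˣ) : 𝒪) - 1 ∈ IsLocalRing.maximalIdeal 𝒪 ^ n) →
    (∀ ℓ : ℕ, ℓ.Prime → ℓ ∉ S → ∀ A : ValuationSubring (AlgebraicClosure ℚ),
      A.LiesOverPrime ℓ → ∀ σ : GQ, A.IsFrobeniusAt σ ℓ →
        QuadRel (ρ σ) (a ℓ) ((d σ : 𝒪ˣ) : 𝒪)) →
    ∀ g : GQ, ∃ t : 𝒪, QuadRel (ρ g) t ((d g : 𝒪ˣ) : 𝒪)

/-- **EXT-core** (fields): a nonzero finite-dimensional representation all of whose elements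
satisfy a quadratic relation with constant term `d`, over a field in which every monic quadratic
polynomial has a root, contains/produces a 2-dimensional representation with
`trace = t`, `det = d`. -/
def ExtCoreStatement : Prop :=
  ∀ (G : Type) [Group G] (K : Type) [Field K]
    (_ : ∀ b c : K, ∃ x : K, x * x + b * x + c = 0)
    (V : Type) [AddCommGroup V] [Module K V] [FiniteDimensional K V] [Nontrivial V]
    (ρ : G →* Module.End K V) (d : G →* Kˣ),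
    (∀ g : G, ∃ t : K, QuadRel (ρ g) t ((d g : Kˣ) : K)) →
    ∃ (W : Type) (_ : AddCommGroup W) (_ : Module K W) (_ : FiniteDimensional K W)
      (ρ' : G →* Module.End K W),
      Module.finrank K W = 2 ∧
      (∀ g : G, ρ g = 1 → d g = 1 → ρ' g = 1) ∧
      ∀ (g : G) (t : K), QuadRel (ρ g) t ((d g : Kˣ) : K) →
        LinearMap.charpoly (ρ' g) = X ^ 2 - C t * X + C ((d g : Kˣ) : K)

/-- **EXT-lattice** (integral, with complex conjugation; NO field extension, NO Burnside):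
`𝒪` a DVR with `2 ≠ 0`, `M ≠ 0` finite free with an action of `G` all of whose elements satisfy a
quadratic relation with constant term `d`, `c ∈ G` with `c² = 1`, `d c = -1`.  Then there is a
free `𝒪`-module of rank 2 with `G`-action, `charpoly = X² - t X + d`, and congruences
`ρ g ≡ 1`, `d g ≡ 1 mod 𝔪ⁿ` are inherited.
(Proof: minimal saturated `G`-stable submodule `Λ`; with `x = ρ c`: `(x ± 1)(ρ g w) ∈ K w` for
`x w = ± w`, so `rank Λ ≤ 2`; rank 1: `ψ ⊕ d ψ⁻¹`.) -/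
def ExtLatticeStatement : Prop :=
  ∀ (G : Type) [Group G] (𝒪 : Type) [CommRing 𝒪] [IsDomain 𝒪] [IsDiscreteValuationRing 𝒪]
    (_ : (2 : 𝒪) ≠ 0)
    (M : Type) [AddCommGroup M] [Module 𝒪 M] [Module.Free 𝒪 M] [Module.Finite 𝒪 M]
    [Nontrivial M]
    (ρ : G →* Module.End 𝒪 M) (d : G →* 𝒪ˣ) (c : G),
    c * c = 1 → ((d c : 𝒪ˣ) : 𝒪) = -1 →
    (∀ g : G, ∃ t : 𝒪, QuadRel (ρ g) t ((d g : 𝒪ˣ) : 𝒪)) →
    ∃ (Λ : Type) (_ : AddCommGroup Λ) (_ : Module 𝒪 Λ) (_ : Module.Free 𝒪 Λ)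
      (_ : Module.Finite 𝒪 Λ) (ρ' : G →* Module.End 𝒪 Λ),
      Module.finrank 𝒪 Λ = 2 ∧
      (∀ (g : G) (n : ℕ),
        (∀ v : M, ρ g v - v ∈ (IsLocalRing.maximalIdeal 𝒪 ^ n) • (⊤ : Submodule 𝒪 M)) →
        ((d g : 𝒪ˣ) : 𝒪) - 1 ∈ IsLocalRing.maximalIdeal 𝒪 ^ n →
        ∀ v : Λ, ρ' g v - v ∈ (IsLocalRing.maximalIdeal 𝒪 ^ n) • (⊤ : Submodule 𝒪 Λ)) ∧
      (∀ g : G, ρ g = 1 → d g = 1 → ρ' g = 1) ∧
      ∀ (g : G) (t : 𝒪), QuadRel (ρ g) t ((d g : 𝒪ˣ) : 𝒪) →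
        LinearMap.charpoly (ρ' g) = X ^ 2 - C t * X + C ((d g : 𝒪ˣ) : 𝒪)

/-! ## Geometric block, top level -/

open ModularCurve

/-- **ES (inertia)**: inertia at `q ∤ N n` acts trivially on `J₀(N)[n]`. -/
def ESInertiaStatement (N : ℕ) [NeZero N] : Prop :=
  ∀ (n q : ℕ), q.Prime → ¬ q ∣ N → ¬ q ∣ n →
    ∀ A : ValuationSubring (AlgebraicClosure ℚ), A.LiesOverPrime q →
      ∀ σ ∈ A.inertiaSubgroupIn ℚ, ∀ x : JZero N, n • x = 0 → σ • x = x

/-- **ES (Frobenius)**: `φ² - T_ℓ φ + ℓ = 0` on `J₀(N)[n]` for every Frobenius lift `φ` at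
`ℓ ∤ N n`. -/
def ESFrobeniusStatement (N : ℕ) [NeZero N] : Prop :=
  ∀ (n ℓ : ℕ) (hℓ : ℓ.Prime), ¬ ℓ ∣ N → ¬ ℓ ∣ n →
    ∀ A : ValuationSubring (AlgebraicClosure ℚ), A.LiesOverPrime ℓ →
      ∀ σ : GQ, A.IsFrobeniusAt σ ℓ → ∀ x : JZero N, n • x = 0 →
        σ • σ • x - heckeOperatorBar N ⟨ℓ, hℓ⟩ (σ • x) + ℓ • x = 0

/-- **COMM**: the Galois action commutes with the Hecke operators `T_ℓ`, `ℓ ∤ N`. -/
def CommStatement (N : ℕ) [NeZero N] : Prop :=
  ∀ (ℓ : ℕ) (hℓ : ℓ.Prime), ¬ ℓ ∣ N → ∀ (σ : GQ) (x : JZero N),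
    σ • heckeOperatorBar N ⟨ℓ, hℓ⟩ x = heckeOperatorBar N ⟨ℓ, hℓ⟩ (σ • x)

/-- **FINLEV**: every point of `J₀(N)(ℚ̄)` has an open stabiliser. -/
def FinLevStatement (N : ℕ) [NeZero N] : Prop :=
  ∀ x : JZero N, ∃ L : IntermediateField ℚ (AlgebraicClosure ℚ), FiniteDimensional ℚ L ∧
    ∀ σ : GQ, (∀ y ∈ L, σ y = y) → σ • x = x

/-- **EIGEN mod p**: the Hecke–Galois module mod `p` of a normalised eigenform `g` of level `M`:
a nonzero finite-dimensional representation of `G_ℚ` of finite level over `K`, unramified outside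
`M p`, on which every Frobenius lift at `ℓ ∤ M p` satisfies `φ² - ψ(a_ℓ) φ + ℓ = 0`.
(`V` = span of the `G`-orbit of an eigenvector in `K ⊗ J₀(M)[p]`.) -/
def EigenModStatement (M : ℕ) [NeZero M] : Prop :=
  ∀ (p : ℕ) (_ : p.Prime) (g : CuspForm (CongruenceSubgroup.Gamma0 M) 2),
    g.IsNormalizedEigenform →
    ∀ (K : Type) [Field K] [CharP K p] (ψ : Zbar →+* K),
      ∃ (V : Type) (_ : AddCommGroup V) (_ : Module K V) (_ : FiniteDimensional K V)
        (_ : Nontrivial V) (ρ : GQ →* Module.End K V),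
        GaloisFactorsThroughFiniteLevel ρ ∧
        (∀ q : ℕ, q.Prime → ¬ q ∣ M * p → ∀ A : ValuationSubring (AlgebraicClosure ℚ),
          A.LiesOverPrime q → ∀ σ ∈ A.inertiaSubgroupIn ℚ, ρ σ = 1) ∧
        (∀ ℓ : ℕ, ℓ.Prime → ¬ ℓ ∣ M → ℓ ≠ p →
          ∀ A : ValuationSubring (AlgebraicClosure ℚ), A.LiesOverPrime ℓ →
            ∀ σ : GQ, A.IsFrobeniusAt σ ℓ →
              ∃ a : Zbar, (a : ℂ) = ModularFormClass.qCoeff g ℓ ∧
                QuadRel (ρ σ) (ψ a) (ℓ : K))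

/-- **EIGEN p-adic**: the Hecke–Galois lattice of a character `χ` of the Hecke algebra:
a nonzero finite free `𝒪'`-module with adic-continuous `G_ℚ`-action, unramified outside `N p`,
on which every Frobenius lift at `ℓ ∉ S` satisfies `φ² - χ(T_ℓ) φ + ℓ = 0`.
(`M` = `χ`-eigenspace of `T_p J₀(N) ⊗ 𝒪'`.) -/
def EigenAdicStatement : Prop :=
  ∀ (p : ℕ) [Fact p.Prime] (N : ℕ) [NeZero N] (S : Finset ℕ)
    (_hpS : p ∈ S) (_hNS : ∀ q : ℕ, q.Prime → q ∣ N → q ∈ S)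
    (𝒪' : Type) [CommRing 𝒪'] [IsDomain 𝒪'] [IsDiscreteValuationRing 𝒪']
    [IsAdicComplete (IsLocalRing.maximalIdeal 𝒪') 𝒪'] [Finite (IsLocalRing.ResidueField 𝒪')]
    [CharZero 𝒪'] (_hp𝒪' : (p : 𝒪') ∈ IsLocalRing.maximalIdeal 𝒪')
    (χ : CuspForm.heckeAlgebra N 2 (↑S : Set ℕ) →+* 𝒪'),
    ∃ (M : Type) (_ : AddCommGroup M) (_ : Module 𝒪' M) (_ : Module.Free 𝒪' M)
      (_ : Module.Finite 𝒪' M) (_ : Nontrivial M) (ρ : GQ →* Module.End 𝒪' M),
      GaloisActionIsAdicContinuous 𝒪' ρ ∧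
      (∀ q : ℕ, q.Prime → ¬ q ∣ N → q ≠ p → ∀ A : ValuationSubring (AlgebraicClosure ℚ),
        A.LiesOverPrime q → ∀ σ ∈ A.inertiaSubgroupIn ℚ, ρ σ = 1) ∧
      (∀ (ℓ : ℕ) (hℓ : ℓ.Prime) (hℓN : ¬ ℓ ∣ N) (hℓS : ℓ ∉ (↑S : Set ℕ)),
        ∀ A : ValuationSubring (AlgebraicClosure ℚ), A.LiesOverPrime ℓ →
          ∀ σ : GQ, A.IsFrobeniusAt σ ℓ →
            QuadRel (ρ σ) (χ (CuspForm.heckeAlgebra.T hℓ hℓN hℓS)) (ℓ : 𝒪'))

end H11W3G

end
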