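import Fermat.Agent.W3G.CHEBAbs_helper29
import Fermat.Agent.W3G.Defs
import Fermat.Agent.S54.Frobenius

/-!
# W3-G, slice CHEB (helper29): the weak Chebotarev theorem in `G_ℚ`-form

`h29cheb_chebStatement : H11W3G.ChebStatement` : every `g ∈ G_ℚ` agrees on every finite
extension `L` of `ℚ` inside `ℚ̄` with a positive power of a Frobenius element at a prime
`ℓ ∉ S`.
-/

set_option autoImplicit false
set_option linter.unusedSectionVars false
set_option linter.style.haveILetI false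

namespace H29CHEB

open NumberField

local notation "Qb" => AlgebraicClosure ℚ

/-- elementwise form of `IsFrobeniusAt`. -/
theorem h29cheb_frob_sub_mem (A : ValuationSubring Qb) (τ : Qb ≃ₐ[ℚ] Qb) (ℓ : ℕ)
    (h : A.IsFrobeniusAt τ ℓ) (a : Qb) (ha : a ∈ A) : τ a - a ^ ℓ ∈ A.nonunits := by
  obtain ⟨hτ, hres⟩ := h
  have h1 := hres (IsLocalRing.residue A ⟨a, ha⟩)
  rw [← IsLocalRing.ResidueField.residue_smul, ← map_pow, ← sub_eq_zero, ← map_sub,
    IsLocalRing.residue_eq_zero_iff, ← ValuationSubring.coe_mem_nonunits_iff] at h1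
  exact h1

theorem h29cheb_add_mem_nonunits (A : ValuationSubring Qb) {x y : Qb} (hx : x ∈ A.nonunits)
    (hy : y ∈ A.nonunits) : x + y ∈ A.nonunits := by
  rw [ValuationSubring.mem_nonunits_iff] at hx hy ⊢
  exact Valuation.map_add_lt _ hx hy

/-- a valuation subring of `ℚ̄` cutting out the prime `Q` of the number field `F ⊆ ℚ̄`. -/
theorem h29cheb_exists_valSubring (F : IntermediateField ℚ Qb) [NumberField F]
    (Q : Ideal (𝓞 F)) [Q.IsPrime] (hQ0 : Q ≠ ⊥) :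
    ∃ A : ValuationSubring Qb, ∀ x : 𝓞 F, (((x : F) : Qb) ∈ A.nonunits ↔ x ∈ Q) := by
  set f : 𝓞 F →+* Qb := (algebraMap F Qb).comp (algebraMap (𝓞 F) F) with hf
  have hfinj : Function.Injective f :=
    (algebraMap F Qb).injective.comp (RingOfIntegers.coe_injective)
  have hfx : ∀ x : 𝓞 F, f x = ((x : F) : Qb) := fun x => rfl
  set I : Ideal f.range := Ideal.map f.rangeRestrict Q with hI
  have hsurj : Function.Surjective f.rangeRestrict := f.rangeRestrict_surjective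
  have hItop : I ≠ ⊤ := by
    intro htop
    have h1 : (1 : f.range) ∈ I := by rw [htop]; trivial
    rw [hI, Ideal.mem_map_iff_of_surjective _ hsurj] at h1
    obtain ⟨x, hxQ, hx1⟩ := h1
    have h2 : f x = 1 := congrArg Subtype.val hx1
    have h3 : x = 1 := hfinj (by rw [h2, map_one])
    rw [h3] at hxQ
    exact (Ideal.ne_top_iff_one Q).mp (Ideal.IsPrime.ne_top inferInstance) hxQ
  obtain ⟨B, hAB, hIB⟩ := Ideal.image_subset_nonunits_valuationSubring I hItop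
  have hQmax : Q.IsMaximal := Ring.DimensionLEOne.maximalOfPrime hQ0 inferInstance
  have hmemB : ∀ x : 𝓞 F, f x ∈ B := fun x => hAB ⟨x, rfl⟩
  have hfwd : ∀ x : 𝓞 F, x ∈ Q → f x ∈ B.nonunits := by
    intro x hx
    apply hIB
    exact ⟨f.rangeRestrict x, Ideal.mem_map_of_mem _ hx, rfl⟩
  refine ⟨B, fun x => ⟨fun hx => ?_, hfwd x⟩⟩
  by_contra hxQ
  obtain ⟨y, i, hi, hyx⟩ := hQmax.exists_inv hxQ
  have h1 : f x * f y + f i = 1 := by
    rw [← map_mul, ← map_add, mul_comm, hyx, map_one]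
  have h2 : f x * f y ∈ B.nonunits :=
    Fermat.Agent.H9.h9_mul_mem_nonunits B hx (hmemB y)
  have h3 := h29cheb_add_mem_nonunits B h2 (hfwd i hi)
  rw [h1] at h3
  exact Fermat.Agent.H9.h9_one_not_mem_nonunits B h3

theorem h29cheb_card_quot_int (ℓ : ℕ) (hℓ : ℓ.Prime) {R : Type*} [CommRing R] (Q : Ideal R)
    [Q.IsPrime] (hmem : ((ℓ : ℤ) : R) ∈ Q) : Nat.card (ℤ ⧸ Q.under ℤ) = ℓ := by
  have hirr : Irreducible (ℓ : ℤ) := (Nat.prime_iff_prime_int.mp hℓ).irreducible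
  have hmax : (Ideal.span {(ℓ : ℤ)}).IsMaximal :=
    PrincipalIdealRing.isMaximal_of_irreducible hirr
  have hle : Ideal.span {(ℓ : ℤ)} ≤ Q.under ℤ := by
    rw [Ideal.span_singleton_le_iff_mem, Ideal.under_def, Ideal.mem_comap]
    simpa using hmem
  have hne : Q.under ℤ ≠ ⊤ := Ideal.IsPrime.ne_top inferInstance
  have heq : Ideal.span {(ℓ : ℤ)} = Q.under ℤ := hmax.eq_of_le hne hle
  rw [← heq]
  haveI : NeZero ℓ := ⟨hℓ.ne_zero⟩
  rw [Nat.card_congr (Int.quotientSpanNatEquivZMod ℓ).toEquiv, Nat.card_zmod]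

/-- uniqueness of the Frobenius element over `ℤ` at an unramified prime. -/
theorem h29cheb_frob_unique (F : Type) [Field F] [NumberField F] [IsGalois ℚ F]
    (Q : Ideal (𝓞 F)) [Q.IsPrime] [Algebra.IsUnramifiedAt ℤ Q] (ℓ : ℕ) (hℓ : ℓ.Prime)
    (hmem : ((ℓ : ℤ) : 𝓞 F) ∈ Q) (φ ψ : F ≃ₐ[ℚ] F)
    (hφ : ∀ x : 𝓞 F, φ • x - x ^ ℓ ∈ Q) (hψ : ∀ x : 𝓞 F, ψ • x - x ^ ℓ ∈ Q) : φ = ψ := by
  have hcard := h29cheb_card_quot_int ℓ hℓ Q hmem
  have h1 : IsArithFrobAt ℤ φ Q := by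
    intro x
    rw [hcard]
    exact hφ x
  have h2 : IsArithFrobAt ℤ ψ Q := by
    intro x
    rw [hcard]
    exact hψ x
  have h3 := AlgHom.IsArithFrobAt.eq_of_isUnramifiedAt h1 h2 Q.primeCompl_le_nonZeroDivisors
  have h4 : ∀ x : 𝓞 F, φ • x = ψ • x := fun x => DFunLike.congr_fun h3 x
  haveI hfaith : FaithfulSMul (F ≃ₐ[ℚ] F) (𝓞 F) :=
    IsGaloisGroup.faithful (G := F ≃ₐ[ℚ] F) ℤ
  exact eq_of_smul_eq_smul h4

/-- **Weak Chebotarev** in the form of the interface. -/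
theorem h29cheb_chebStatement : H11W3G.ChebStatement := by
  intro L hL g S
  haveI := hL
  haveI : Algebra.IsAlgebraic ℚ Qb := AlgebraicClosure.isAlgebraic ℚ
  haveI : IsAlgClosure ℚ Qb := ⟨inferInstance, inferInstance⟩
  haveI : Normal ℚ Qb := IsAlgClosure.normal ℚ Qb
  set F : IntermediateField ℚ Qb := IntermediateField.normalClosure ℚ L Qb with hF
  haveI : FiniteDimensional ℚ F := inferInstance
  haveI : Normal ℚ F := normalClosure.normal ℚ L Qb
  haveI : NumberField F := ⟨⟩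
  haveI : IsGalois ℚ F := ⟨⟩
  have hLF : L ≤ F := IntermediateField.le_normalClosure L
  set gF : F ≃ₐ[ℚ] F := AlgEquiv.restrictNormalHom F g with hgF
  set D : ℕ := ∏ p ∈ S.filter (fun p => p ≠ 0), p with hD
  have hD0 : D ≠ 0 := by
    rw [hD, Finset.prod_ne_zero_iff]
    intro p hp
    exact (Finset.mem_filter.mp hp).2
  obtain ⟨Q, hQ, φ, ℓ, hQ0, hℓ, hnd, hmem, hunr, hφ, hgen⟩ := h29cheb_absolute F gF D hD0
  haveI := hQ
  haveI := hunr
  have hℓS : ℓ ∉ S := by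
    intro hS
    apply hnd
    rw [hD]
    exact Finset.dvd_prod_of_mem _ (Finset.mem_filter.mpr ⟨hS, hℓ.ne_zero⟩)
  obtain ⟨A, hA⟩ := h29cheb_exists_valSubring F Q hQ0
  have hAℓ : A.LiesOverPrime ℓ := by
    have h1 := (hA ((ℓ : ℤ) : 𝓞 F)).mpr hmem
    have h2 : (((((ℓ : ℤ) : 𝓞 F) : 𝓞 F) : F) : Qb) = (ℓ : Qb) := by
      simp
    rw [h2] at h1
    exact h1
  obtain ⟨τ, hτ⟩ := Fermat.Agent.H9.h9_exists_isFrobeniusAt A hℓ hAℓ
  set τF : F ≃ₐ[ℚ] F := AlgEquiv.restrictNormalHom F τ with hτF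
  have hτFrob : ∀ x : 𝓞 F, τF • x - x ^ ℓ ∈ Q := by
    intro x
    rw [← hA]
    have h1 : ((((τF • x - x ^ ℓ : 𝓞 F) : 𝓞 F) : F) : Qb) =
        τ (((x : F) : Qb)) - (((x : F) : Qb)) ^ ℓ := by
      have h2 : (((τF • x : 𝓞 F) : F) : Qb) = τ (((x : F) : Qb)) :=
        AlgEquiv.restrictNormal_commutes τ F (x : F)
      have h3 : ((((τF • x - x ^ ℓ : 𝓞 F) : 𝓞 F) : F) : Qb) =
          (((τF • x : 𝓞 F) : F) : Qb) - (((x : F) : Qb)) ^ ℓ := by
        push_cast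
        rfl
      rw [h3, h2]
    rw [h1]
    exact h29cheb_frob_sub_mem A τ ℓ hτ _
      (Fermat.Agent.H9.h9_mem_of_isIntegral A
        ((RingOfIntegers.isIntegral_coe x).map
          ((algebraMap F Qb).toIntAlgHom)))
  have heq : τF = φ := h29cheb_frob_unique F Q ℓ hℓ hmem τF φ hτFrob hφ
  rw [← heq] at hgen
  obtain ⟨k, hk⟩ := Subgroup.mem_zpowers_iff.mp hgen
  -- a positive exponent
  have hm : 0 < orderOf τF := orderOf_pos τF
  set b : ℕ := (k % (orderOf τF : ℤ)).toNat + orderOf τF with hb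
  have hbpos : 0 < b := by omega
  have hkb : τF ^ b = gF := by
    have h1 : (0 : ℤ) ≤ k % (orderOf τF : ℤ) := Int.emod_nonneg _ (by exact_mod_cast hm.ne')
    rw [hb, pow_add, pow_orderOf_eq_one, mul_one, ← zpow_natCast, Int.toNat_of_nonneg h1,
      zpow_mod_orderOf, hk]
  refine ⟨ℓ, A, τ, b, hℓ, hℓS, hAℓ, hτ, hbpos, fun x hx => ?_⟩
  have hxF : x ∈ F := hLF hx
  have h1 : (τ ^ b) x = ((AlgEquiv.restrictNormalHom F (τ ^ b)) ⟨x, hxF⟩ : Qb) :=
    (AlgEquiv.restrictNormal_commutes (τ ^ b) F ⟨x, hxF⟩).symm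
  have h2 : g x = ((AlgEquiv.restrictNormalHom F g) ⟨x, hxF⟩ : Qb) :=
    (AlgEquiv.restrictNormal_commutes g F ⟨x, hxF⟩).symm
  rw [h1, h2, map_pow, ← hτF, hkb]

end H29CHEB
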