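/-
Item 80 (W3G), RIGORD sub-slice ORD-RAM (helper6): exact ramification by counting (Layer A).

In the situation of `RH24.h2a5_card_places_over_of_sum` (local data `D`, classes `r`, the
fundamental identity `∑ e_v = n`), the ramification index of the place attached to `x` is
EXACTLY the size of the class of `x`:  `(D.place hz x).ord z = card {x' // r x' x}`.
-/
import Fermat.Agent.S24.A5Count

set_option autoImplicit false
set_option linter.style.haveILetI false

noncomputable section

open scoped WithZero

namespace H6ORD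

open AlgebraicCurve IntermediateField Polynomial RH24

/-- **ORD-RAM**: exact ramification index = class size -/
theorem ord_z_eq_card {K F : Type*} [Field K] [Field F] [Algebra K F] (z : F) (hz : z ≠ 0)
    [FiniteDimensional K⟮z⟯ F] {X E : Type*} [Field E] [Finite X]
    (hdeg : Module.finrank K⟮z⟯ F ≤ Nat.card X) (r : Setoid X) (D : RH24.H2LocalData K z X E)
    (H1 : ∀ x x', r x x' → ∀ f, D.w (D.σ x f) = D.w (D.σ x' f))
    (H2 : ∀ x (f : F), f ≠ 0 → ∃ m : ℤ,
      D.w (D.σ x f) ^ Nat.card {x' // r x' x} = D.w (D.σ x z) ^ m)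
    (hfin : Finite {v : Place K F // 0 < v.ord z})
    (hsum : ∑ᶠ v : {v : Place K F // 0 < v.ord z}, v.1.ord z = (Module.finrank K⟮z⟯ F : ℤ))
    (x : X) :
    (D.place hz x).ord z = (Nat.card {x' // r x' x} : ℤ) := by
  classical
  letI : Fintype X := Fintype.ofFinite X
  letI : Fintype {v : Place K F // 0 < v.ord z} := Fintype.ofFinite _
  letI : Fintype (Quotient r) := Fintype.ofFinite _
  -- the map from classes to places
  let φ : Quotient r → {v : Place K F // 0 < v.ord z} :=
    Quotient.lift (fun x => ⟨D.place hz x, D.place_ord_z_pos hz x⟩)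
      (fun x x' hxx' => Subtype.ext (D.place_eq_of_w_eq hz x x' (H1 x x' hxx')))
  have hφ : Function.Surjective φ := by
    rintro ⟨v, hv⟩
    obtain ⟨x, hx⟩ := D.exists_place_eq hz hdeg v hv
    exact ⟨Quotient.mk r x, Subtype.ext hx⟩
  -- sizes of classes
  let N : Quotient r → ℕ := fun q => Fintype.card {x : X // Quotient.mk r x = q}
  have hNpos : ∀ q, 0 < N q := by
    intro q
    induction q using Quotient.inductionOn with
    | _ x => exact Fintype.card_pos_iff.mpr ⟨⟨x, rfl⟩⟩
  have hNsum : ∑ q, N q = Fintype.card X := by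
    rw [← Fintype.card_sigma]
    exact Fintype.card_congr (Equiv.sigmaFiberEquiv (Quotient.mk r))
  have hcardX : Fintype.card X ≤ Module.finrank K⟮z⟯ F := by
    have := D.card_le
    rwa [Nat.card_eq_fintype_card] at this
  -- ramification indices
  let e : {v : Place K F // 0 < v.ord z} → ℕ := fun v => (v.1.ord z).toNat
  have hesum : ∑ v, e v = Module.finrank K⟮z⟯ F := by
    rw [finsum_eq_sum_of_fintype] at hsum
    have : ((∑ v, e v : ℕ) : ℤ) = (Module.finrank K⟮z⟯ F : ℤ) := by
      rw [← hsum]
      push_cast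
      refine Finset.sum_congr rfl (fun v _ => ?_)
      exact Int.toNat_of_nonneg v.2.le
    exact_mod_cast this
  have hcard : ∀ x : X, Nat.card {x' // r x' x} = N (Quotient.mk r x) := by
    intro x
    rw [Nat.card_eq_fintype_card]
    refine Fintype.card_congr (Equiv.subtypeEquivRight (fun x' => ?_))
    exact (Quotient.eq (r := r)).symm
  have heN : ∀ q, e (φ q) ≤ N q := by
    intro q
    induction q using Quotient.inductionOn with
    | _ x =>
      have hdvd := D.ord_z_dvd hz x (Nat.card {x' // r x' x}) (H2 x)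
      rw [hcard] at hdvd
      exact h2a5_le_of_dvd (D.place_ord_z_pos hz x) (hNpos _) hdvd
  -- a section of `φ`
  let ψ : {v : Place K F // 0 < v.ord z} → Quotient r := Function.surjInv hφ
  have hψinj : Function.Injective ψ := Function.injective_surjInv hφ
  have hψφ : ∀ v, φ (ψ v) = v := Function.surjInv_eq hφ
  have h1 : ∑ v, e v ≤ ∑ v, N (ψ v) := by
    refine Finset.sum_le_sum (fun v _ => ?_)
    have := heN (ψ v)
    rwa [hψφ] at this
  have h2 : ∑ v, N (ψ v) = ∑ q ∈ Finset.univ.image ψ, N q :=
    (Finset.sum_image (fun a _ b _ hab => hψinj hab)).symm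
  have h3 : ∑ q ∈ Finset.univ.image ψ, N q ≤ ∑ q, N q :=
    Finset.sum_le_sum_of_subset (Finset.subset_univ _)
  have hψsurj : Function.Surjective ψ := by
    by_contra hns
    rw [Function.Surjective, not_forall] at hns
    obtain ⟨q₀, hq₀⟩ := hns
    rw [not_exists] at hq₀
    have h3' : ∑ q ∈ Finset.univ.image ψ, N q < ∑ q, N q := by
      refine Finset.sum_lt_sum_of_subset (Finset.subset_univ _) (Finset.mem_univ q₀) ?_
        (hNpos q₀) (fun _ _ _ => Nat.zero_le _)
      intro hmem
      obtain ⟨v, -, hv⟩ := Finset.mem_image.mp hmem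
      exact hq₀ v hv
    omega
  -- termwise equality
  have heq : ∑ v, e v = ∑ v, N (ψ v) := by omega
  have hterm : ∀ v, e v = N (ψ v) := by
    have hle : ∀ v ∈ (Finset.univ : Finset {v : Place K F // 0 < v.ord z}), e v ≤ N (ψ v) := by
      intro v _
      have := heN (ψ v)
      rwa [hψφ] at this
    intro v
    exact (Finset.sum_eq_sum_iff_of_le hle).1 heq v (Finset.mem_univ v)
  -- conclusion
  obtain ⟨v, hv⟩ := hψsurj (Quotient.mk r x)
  have hv' : φ (Quotient.mk r x) = v := by rw [← hv, hψφ]
  have hfinal : e (φ (Quotient.mk r x)) = N (Quotient.mk r x) := by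
    rw [hv', hterm v, hv]
  rw [hcard x, ← hfinal]
  exact (Int.toNat_of_nonneg (D.place_ord_z_pos hz x).le).symm

end H6ORD
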