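import Fermat.Agent.W3G.RIGOrdDefs_helper27
import Fermat.Agent.S24.A5Count
import Fermat.Agent.S24.BJ12
import Fermat.Agent.S24.BL
import Fermat.Agent.S24.A1Deg

/-!
# Item 80 (W3G), RIGORD, slice ORD (helper27): local data at the points of `ℍ`, with `E = Mer`

For an analytic realisation `φ : F →+* Mer` of level `N` of a function field `F / K`
(`H27RIG.MerReal`: constants go to constants, `φ F` is `Γ₀(N)`-invariant and contains `j` and
`j(N z)`), and a point `z₀ ∈ ℍ` with `j(z₀) = c`: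

* `MerReal.localData` : the local data `RH24.H2LocalData K (j - c) (SL(2,ℤ) ⧸ Γ₀(N)) Mer`,
  `w = merVal z₀`, `σ [δ] = (precompMer δ⁻¹) ∘ φ`;
* `MerReal.exists_point` : every place `v` of `F / K` over `j = c` is analytic: there are
  `δ` and `m > 0` with `- log (merVal (δ⁻¹ • z₀) (φ f)) = m * v.ord f`;
* `MerReal.exists_point_generic` : for `c ≠ 0, 1728`, `m = 1`;
* `MerReal.dvd_ord_generic` : if `φ W = Gⁿ` then `n ∣ v.ord W` for `v` over a generic `c`.

Instances: `realQ N` (`K = ℚ̄`, `phi N`) and `realC N` (`K = ℂ`, `F = KN N`).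
-/

set_option autoImplicit false

noncomputable section

open UpperHalfPlane WithZero AlgebraicCurve CongruenceSubgroup ModularCurve IntermediateField
open scoped MatrixGroups

namespace H27RIG

open H24D
open RH24 (Kbar Jbar iota Dv Jgen jf jd)

/-- an analytic realisation of level `N` of a function field `F / K` -/
structure MerReal (K F : Type*) [Field K] [Field F] [Algebra K F] (N : ℕ) [NeZero N] where
  /-- the realisation -/
  φ : F →+* Mer
  /-- the embedding of the constants -/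
  cst : K →+* ℂ
  φ_const : ∀ c : K, φ (algebraMap K F c) = constMer (cst c)
  inv : ∀ γ ∈ Gamma0 N, ∀ h : F, precompMer γ (φ h) = φ h
  /-- the function `j` -/
  j : F
  φ_j : φ j = algebraMap Hol Mer jHol
  /-- the function `j(N z)` -/
  jN : F
  φ_jN : φ jN = jdMer (⟨N, dvd_rfl⟩ : Dv N)

namespace MerReal

variable {K F : Type*} [Field K] [Field F] [Algebra K F] {N : ℕ} [NeZero N] (R : MerReal K F N)

/-- the embedding attached to `δ`: `f ↦ f ∘ δ⁻¹` -/
def emb (δ : SL(2, ℤ)) : F →+* Mer := (precompMer δ⁻¹).comp R.φ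

theorem emb_apply (δ : SL(2, ℤ)) (h : F) : R.emb δ h = precompMer δ⁻¹ (R.φ h) := rfl

theorem emb_mul_right (δ γ : SL(2, ℤ)) (hγ : γ ∈ Gamma0 N) : R.emb (δ * γ) = R.emb δ := by
  ext h
  rw [emb_apply, emb_apply, mul_inv_rev, precompMer_mul_apply, R.inv γ⁻¹ (inv_mem hγ)]

/-- the embedding attached to a coset -/
def sig (x : SL(2, ℤ) ⧸ Gamma0 N) : F →+* Mer := R.emb x.out

theorem sig_mk (δ : SL(2, ℤ)) : R.sig (δ : SL(2, ℤ) ⧸ Gamma0 N) = R.emb δ := by
  have h : ((δ : SL(2, ℤ) ⧸ Gamma0 N)).out = δ * (δ⁻¹ * ((δ : SL(2, ℤ) ⧸ Gamma0 N)).out) := by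
    group
  have hmem : δ⁻¹ * ((δ : SL(2, ℤ) ⧸ Gamma0 N)).out ∈ Gamma0 N := by
    rw [← QuotientGroup.eq]
    exact (QuotientGroup.out_eq' _).symm
  rw [sig, h, R.emb_mul_right δ _ hmem]

theorem precompMer_constMer (γ : SL(2, ℤ)) (c : ℂ) : precompMer γ (constMer c) = constMer c := by
  have h0 : precomp γ (constHol c) = constHol c := by
    apply Subtype.ext
    funext z
    rfl
  rw [constMer_apply, precompMer_algebraMap, h0]

theorem emb_const (δ : SL(2, ℤ)) (c : K) : R.emb δ (algebraMap K F c) = constMer (R.cst c) := by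
  rw [emb_apply, R.φ_const, precompMer_constMer]

theorem emb_j (δ : SL(2, ℤ)) : R.emb δ R.j = algebraMap Hol Mer jHol := by
  have h0 : precomp δ⁻¹ jHol = jHol := by
    apply Subtype.ext
    funext z
    exact RH24.jf_smul δ⁻¹ z
  rw [emb_apply, R.φ_j, precompMer_algebraMap, h0]

theorem sig_injective : Function.Injective R.sig := by
  intro x x' hxx
  obtain ⟨δ, rfl⟩ := QuotientGroup.mk_surjective x
  obtain ⟨δ', rfl⟩ := QuotientGroup.mk_surjective x'
  rw [sig_mk, sig_mk] at hxx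
  have h1 : R.emb δ R.jN = R.emb δ' R.jN := by rw [hxx]
  rw [emb_apply, emb_apply, R.φ_jN] at h1
  unfold jdMer at h1
  rw [precompMer_algebraMap, precompMer_algebraMap] at h1
  have h2 := IsFractionRing.injective Hol Mer h1
  have h3 : ∀ z, jd N (δ⁻¹ • z) = jd N (δ'⁻¹ • z) := fun z =>
    congrFun (congrArg Subtype.val h2) z
  rw [QuotientGroup.eq]
  apply RH24.mem_Gamma0_of_jd_invariant
  intro z
  have h4 := h3 (δ' • z)
  rw [inv_smul_smul] at h4
  rw [mul_smul]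
  exact h4

theorem merVal_constMer_le (z₀ : ℍ) (c : ℂ) : merVal z₀ (constMer c) ≤ 1 := by
  rw [constMer_apply, merVal_algebraMap]
  exact ordVal_le_one _ _

theorem emb_j_sub (δ : SL(2, ℤ)) (c : K) :
    R.emb δ (R.j - algebraMap K F c) = algebraMap Hol Mer (jHol - constHol (R.cst c)) := by
  rw [map_sub, emb_j, emb_const, constMer_apply, ← map_sub]

/-- **the local data at `z₀`** -/
def localData (z₀ : ℍ) (c : K) (hc : jf z₀ = R.cst c) :
    RH24.H2LocalData K (R.j - algebraMap K F c) (SL(2, ℤ) ⧸ Gamma0 N) Mer where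
  w := merVal z₀
  σ := R.sig
  inj := R.sig_injective
  agreeK := by
    intro x x' a
    obtain ⟨δ, rfl⟩ := QuotientGroup.mk_surjective x
    obtain ⟨δ', rfl⟩ := QuotientGroup.mk_surjective x'
    rw [sig_mk, sig_mk, emb_const, emb_const]
  leK := by
    intro x a
    obtain ⟨δ, rfl⟩ := QuotientGroup.mk_surjective x
    rw [sig_mk, emb_const]
    exact merVal_constMer_le z₀ _
  agreez := by
    intro x x'
    obtain ⟨δ, rfl⟩ := QuotientGroup.mk_surjective x
    obtain ⟨δ', rfl⟩ := QuotientGroup.mk_surjective x'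
    rw [sig_mk, sig_mk, emb_j_sub, emb_j_sub]
  ltz := by
    intro x
    obtain ⟨δ, rfl⟩ := QuotientGroup.mk_surjective x
    rw [sig_mk, emb_j_sub, merVal_algebraMap, ordVal_lt_one_iff]
    show jf z₀ - R.cst c = 0
    rw [hc, sub_self]

theorem localData_u (z₀ : ℍ) (c : K) (hc : jf z₀ = R.cst c) (δ : SL(2, ℤ)) (f : F) :
    (R.localData z₀ c hc).u (δ : SL(2, ℤ) ⧸ Gamma0 N) f
      = - WithZero.log (merVal (δ⁻¹ • z₀) (R.φ f)) := by
  show - WithZero.log (merVal z₀ (R.sig (δ : SL(2, ℤ) ⧸ Gamma0 N) f)) = _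
  rw [sig_mk, emb_apply, merVal_precompMer]

/-- **Exhaustion**: every place over `j = c` is analytic. -/
theorem exists_point (c : K) (hz : R.j - algebraMap K F c ≠ 0)
    [FiniteDimensional K⟮R.j - algebraMap K F c⟯ F]
    (hdeg : Module.finrank K⟮R.j - algebraMap K F c⟯ F ≤ Nat.card (SL(2, ℤ) ⧸ Gamma0 N))
    (z₀ : ℍ) (hc : jf z₀ = R.cst c) (v : Place K F)
    (hv : 0 < v.ord (R.j - algebraMap K F c)) :
    ∃ (δ : SL(2, ℤ)) (m : ℤ), 0 < m ∧
      (R.localData z₀ c hc).place hz (δ : SL(2, ℤ) ⧸ Gamma0 N) = v ∧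
      ∀ f : F, f ≠ 0 → - WithZero.log (merVal (δ⁻¹ • z₀) (R.φ f)) = m * v.ord f := by
  have : Finite (SL(2, ℤ) ⧸ Gamma0 N) := Subgroup.finite_quotient_of_finiteIndex
  obtain ⟨x, hx⟩ := (R.localData z₀ c hc).exists_place_eq hz hdeg v hv
  obtain ⟨δ, rfl⟩ := QuotientGroup.mk_surjective x
  obtain ⟨m, hm, -, hspec⟩ := (R.localData z₀ c hc).place_spec hz (δ : SL(2, ℤ) ⧸ Gamma0 N)
  refine ⟨δ, m, hm, hx, fun f hf => ?_⟩
  rw [← R.localData_u z₀ c hc δ f, hspec f hf, hx]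

theorem jf_smul_eq (δ : SL(2, ℤ)) (z₀ : ℍ) : jf (δ⁻¹ • z₀) = jf z₀ := RH24.jf_smul δ⁻¹ z₀

/-- the order of `j - j(z₁)` at a generic point `z₁` is `1` -/
theorem log_merVal_j_sub_generic (z₁ : ℍ) (h0 : jf z₁ ≠ 0) (h1 : jf z₁ ≠ 1728) :
    - WithZero.log (merVal z₁ (algebraMap Hol Mer (jHol - constHol (jf z₁)))) = 1 := by
  have hne : jHol - constHol (jf z₁) ≠ 0 := by
    intro h
    obtain ⟨z, hz⟩ := RH24.exists_jf_eq (jf z₁ + 1)
    have h2 := congrArg (fun F : Hol => (F : ℍ → ℂ) z) h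
    have h3 : jf z - jf z₁ = 0 := h2
    rw [hz] at h3
    simp at h3
  rw [merVal_algebraMap, ordVal_apply z₁ _ hne, WithZero.log_exp, neg_neg]
  have hord := RH24.ordAt_jf_sub_generic z₁ h0 h1
  have hco := coe_ordNat (f := ((jHol - constHol (jf z₁) : Hol) : ℍ → ℂ))
    (jHol - constHol (jf z₁) : Hol).2 (fun h => hne (Subtype.ext h)) z₁
  have hsame : ordFun z₁ ((jHol - constHol (jf z₁) : Hol) : ℍ → ℂ)
      = RH24.ordAt z₁ (fun z => jf z - jf z₁) := rfl
  rw [hsame, hord] at hco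
  exact_mod_cast hco

/-- **Exhaustion, generic case**: over `c ≠ 0, 1728` the analytic order is the order. -/
theorem exists_point_generic (c : K) (hz : R.j - algebraMap K F c ≠ 0)
    [FiniteDimensional K⟮R.j - algebraMap K F c⟯ F]
    (hdeg : Module.finrank K⟮R.j - algebraMap K F c⟯ F ≤ Nat.card (SL(2, ℤ) ⧸ Gamma0 N))
    (h0 : R.cst c ≠ 0) (h1 : R.cst c ≠ 1728) (v : Place K F)
    (hv : 0 < v.ord (R.j - algebraMap K F c)) :
    ∃ z₁ : ℍ, ∀ f : F, f ≠ 0 → - WithZero.log (merVal z₁ (R.φ f)) = v.ord f := by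
  obtain ⟨z₀, hz₀⟩ := RH24.exists_jf_eq (R.cst c)
  obtain ⟨δ, m, hm, -, hspec⟩ := R.exists_point c hz hdeg z₀ hz₀ v hv
  refine ⟨δ⁻¹ • z₀, fun f hf => ?_⟩
  have hj : jf (δ⁻¹ • z₀) = R.cst c := by rw [jf_smul_eq, hz₀]
  have h2 := hspec _ hz
  have h3 : R.φ (R.j - algebraMap K F c)
      = algebraMap Hol Mer (jHol - constHol (jf (δ⁻¹ • z₀))) := by
    rw [map_sub, R.φ_j, R.φ_const, constMer_apply, ← map_sub, hj]
  rw [h3, log_merVal_j_sub_generic _ (by rw [hj]; exact h0) (by rw [hj]; exact h1)] at h2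
  have hm1 : m = 1 := by
    have hpos : 0 < v.ord (R.j - algebraMap K F c) := hv
    have : m ∣ 1 := ⟨_, h2⟩
    exact Int.eq_one_of_dvd_one hm.le this
  rw [hspec f hf, hm1, one_mul]

/-- **ORD at a generic place**. -/
theorem dvd_ord_generic (c : K) (hz : R.j - algebraMap K F c ≠ 0)
    [FiniteDimensional K⟮R.j - algebraMap K F c⟯ F]
    (hdeg : Module.finrank K⟮R.j - algebraMap K F c⟯ F ≤ Nat.card (SL(2, ℤ) ⧸ Gamma0 N))
    (h0 : R.cst c ≠ 0) (h1 : R.cst c ≠ 1728) (v : Place K F)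
    (hv : 0 < v.ord (R.j - algebraMap K F c))
    (n : ℕ) (G : Mer) (W : F) (hW : W ≠ 0) (hG : G ^ n = R.φ W) : (n : ℤ) ∣ v.ord W := by
  obtain ⟨z₁, hz₁⟩ := R.exists_point_generic c hz hdeg h0 h1 v hv
  rw [← hz₁ W hW, ← hG, map_pow]
  by_cases hG0 : G = 0
  · subst hG0
    rcases Nat.eq_zero_or_pos n with hn | hn
    · subst hn
      simp
    · exfalso
      rw [zero_pow hn.ne'] at hG
      exact hW ((map_eq_zero R.φ).mp hG.symm)
  · have hne : merVal z₁ G ≠ 0 := (Valuation.ne_zero_iff _).mpr hG0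
    rw [WithZero.log_pow]
    exact ⟨- WithZero.log (merVal z₁ G), by simp⟩

end MerReal

end H27RIG

end
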