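import Fermat.Agent.W3G.RIGDefs_helper27
import Fermat.Agent.S24.BDegree
import Fermat.Agent.S24.PlaceBasic

/-!
# Item 80 (W3G), RIGORD, slice ORD over `ℚ̄` (helper27): the three cases of
`H27RIG.OrdQbarStatement` and its assembly

* `OrdCuspStatement` : places over `j = ∞` (helper16);
* `OrdEllStatement`  : places over `j = 0` and `j = 1728` (helper6);
* `OrdGenQStatement` : all other places (helper27).
-/

set_option autoImplicit false

noncomputable section

open UpperHalfPlane WithZero AlgebraicCurve CongruenceSubgroup ModularCurve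
open scoped MatrixGroups

namespace H27RIG

open H24D
open RH24 (Kbar Jbar iota Dv Jgen)

variable (N : ℕ) [NeZero N]

/-- **ORD over `ℚ̄`, cusps**. -/
def OrdCuspStatement (n : ℕ) : Prop :=
  ∀ (G : Mer) (χ : Gamma0 N → ℂ) (f : modularFunctionFieldBar N), f ≠ 0 → G ^ n = phi N f →
    H8KUM.IsParEll χ →
    (∀ γ : Gamma0 N, precompMer (γ : SL(2, ℤ)) G = constMer (χ γ) * G) →
    ∀ v : Place Kbar (modularFunctionFieldBar N), v.ord (Jbar N) < 0 → (n : ℤ) ∣ v.ord f

/-- **ORD over `ℚ̄`, places over `j = 0` and `j = 1728`**. -/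
def OrdEllStatement (n : ℕ) : Prop :=
  ∀ (G : Mer) (χ : Gamma0 N → ℂ) (f : modularFunctionFieldBar N), f ≠ 0 → G ^ n = phi N f →
    H8KUM.IsParEll χ →
    (∀ γ : Gamma0 N, precompMer (γ : SL(2, ℤ)) G = constMer (χ γ) * G) →
    ∀ v : Place Kbar (modularFunctionFieldBar N),
      (0 < v.ord (Jbar N) ∨ 0 < v.ord (Jbar N - algebraMap Kbar _ 1728)) → (n : ℤ) ∣ v.ord f

/-- **ORD over `ℚ̄`, generic places**. -/
def OrdGenQStatement (n : ℕ) : Prop :=
  ∀ (G : Mer) (f : modularFunctionFieldBar N), f ≠ 0 → G ^ n = phi N f →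
    ∀ v : Place Kbar (modularFunctionFieldBar N), v.ord (Jbar N) = 0 →
      v.ord (Jbar N - algebraMap Kbar _ 1728) = 0 → (n : ℤ) ∣ v.ord f

theorem Jbar_sub_ne_zero (c : Kbar) : Jbar N - algebraMap Kbar _ c ≠ 0 := by
  intro h
  have h1 : Jbar N = algebraMap Kbar _ c := sub_eq_zero.mp h
  exact RH24.B_transcendental N (h1 ▸ isAlgebraic_algebraMap c)

/-- assembly of the three cases -/
theorem ordQbar_of (n : ℕ) (h1 : OrdCuspStatement N n) (h2 : OrdEllStatement N n)
    (h3 : OrdGenQStatement N n) : OrdQbarStatement N n := by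
  intro G χ f hf hG hpe hmul v
  rcases lt_trichotomy (v.ord (Jbar N)) 0 with hlt | heq | hgt
  · exact h1 G χ f hf hG hpe hmul v hlt
  · have hnn : 0 ≤ v.ord (Jbar N - algebraMap Kbar _ 1728) := by
      have hJ0 : Jbar N ≠ 0 := by
        have := Jbar_sub_ne_zero N 0
        rwa [map_zero, sub_zero] at this
      have hJm : Jbar N ∈ v.toValuationSubring :=
        (RH24.h20_mem_iff_ord_nonneg v hJ0).2 heq.ge
      have hm : Jbar N - algebraMap Kbar _ 1728 ∈ v.toValuationSubring :=
        sub_mem hJm (v.algebraMap_mem' 1728)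
      exact (RH24.h20_mem_iff_ord_nonneg v (Jbar_sub_ne_zero N 1728)).1 hm
    rcases hnn.lt_or_eq with hpos | hz
    · exact h2 G χ f hf hG hpe hmul v (Or.inr hpos)
    · exact h3 G f hf hG v heq hz.symm
  · exact h2 G χ f hf hG hpe hmul v (Or.inl hgt)

end H27RIG

end
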