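/-
Item 80 (W3G), slice AN3 (helper2): "automorphic ⇒ algebraic".  INTERFACE.

Setting (`H24D`, `Fermat/Agent/RR/Dict*.lean`): `Hol` = holomorphic functions on `ℍ`,
`Mer = Frac Hol`, `precompMer γ : Mer →+* Mer` (`g ↦ g ∘ γ`, a right action),
`constMer : ℂ →+* Mer`, `jdMer d = j(d z)` (`d ∣ N`), `phi N : ℚ̄·F_N →+* Mer`.

* `K1`   = `ℂ(j) ⊆ Mer`;
* `KN N` = `ℂ(j(d z) : d ∣ N) ⊆ Mer` (= the field generated by `ℂ` and `phi N (ℚ̄·F_N)`);
* `AlgStatement N`  (form A): a `Γ₀(N)`-invariant element of `Mer` which is algebraic over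
  `KN N` lies in `KN N`;
* `FormStatement N` (form B): a quotient of two modular forms of the same weight on `Γ₀(N)`
  lies in `KN N`.
-/
import Mathlib
import Fermat.Agent.RR.DictPhi
import Fermat.Agent.RR.DictAct

set_option autoImplicit false

noncomputable section

open UpperHalfPlane ModularForm MatrixGroups CongruenceSubgroup
open scoped Manifold

namespace H2AN3

open H24D
open RH24 (Dv jf jd)

/-- `j` as an element of `Mer`. -/
def jMer : Mer := algebraMap Hol Mer jHol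

/-- `ℂ(j) ⊆ Mer`. -/
def K1 : Subfield Mer := Subfield.closure (Set.range constMer ∪ {jMer})

/-- `ℂ(j(d z) : d ∣ N) ⊆ Mer`. -/
def KN (N : ℕ) [NeZero N] : Subfield Mer :=
  Subfield.closure (Set.range constMer ∪ Set.range (fun d : Dv N => jdMer d))

/-- a holomorphic function as an element of `Mer` -/
def ofFun (f : ℍ → ℂ) (hf : MDiff f) : Mer := algebraMap Hol Mer ⟨f, hf⟩

/-- **AN3, form A**: `Γ₀(N)`-invariant + algebraic over `ℂ(j_d : d ∣ N)` ⟹ in `ℂ(j_d : d ∣ N)`. -/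
def AlgStatement (N : ℕ) [NeZero N] : Prop :=
  ∀ g : Mer, (∀ γ ∈ Gamma0 N, precompMer γ g = g) → IsAlgebraic (KN N) g → g ∈ KN N

/-- **AN3, form B**: a quotient of two modular forms of weight `k` on `Γ₀(N)` lies in
`ℂ(j_d : d ∣ N)`. -/
def FormStatement (N : ℕ) [NeZero N] : Prop :=
  ∀ (k : ℤ) (F₁ F₂ : ModularForm (Gamma0 N) k), F₂ ≠ 0 →
    ∃ g ∈ KN N, g * ofFun F₂ F₂.holo' = ofFun F₁ F₁.holo'

end H2AN3

end
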