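/-
Item 80 (W3G), slice AN3 (helper2), part (a): the structure of level one modular forms of
weight `12 m`:  `M_{12 m}(SL₂(ℤ)) = Δ^m · ℂ[j]_{≤ m}`.
-/
import Mathlib
import Fermat.Agent.W3G.AN3Defs_helper2

set_option autoImplicit false

noncomputable section

open UpperHalfPlane ModularForm MatrixGroups CongruenceSubgroup EisensteinSeries
open scoped Manifold

namespace H2AN3

open H24D
open RH24 (Dv jf jd)

local notation "Δ" => ModularForm.discriminant

theorem jf_mul_disc (z : ℍ) : jf z * Δ z = E₄ z ^ 3 := by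
  unfold RH24.jf
  exact div_mul_cancel₀ _ (discriminant_ne_zero z)

/-- `E₄ ^ (3 m)` as a modular form of weight `12 m`. -/
def e4pow (m : ℕ) : ModularForm 𝒮ℒ (12 * (m : ℤ)) :=
  ModularForm.mcast (by push_cast; ring) (E₄.pow (3 * m))

theorem e4pow_apply (m : ℕ) (z : ℍ) : e4pow m z = E₄ z ^ (3 * m) := by
  show (E₄.pow (3 * m)) z = _
  rw [ModularForm.coe_pow]
  rfl

theorem e4pow_coeff_zero (m : ℕ) : (qExpansion 1 (e4pow m)).coeff 0 = 1 := by
  show (qExpansion 1 (E₄.pow (3 * m))).coeff 0 = 1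
  rw [ModularForm.qExpansion_pow one_pos one_mem_strictPeriods_SL]
  rw [PowerSeries.coeff_zero_eq_constantCoeff, map_pow]
  rw [← PowerSeries.coeff_zero_eq_constantCoeff_apply,
    E_qExpansion_coeff_zero (by norm_num) ⟨2, rfl⟩, one_pow]

/-- **Structure of level one forms of weight `12 m`.** -/
theorem levelOne_structure (m : ℕ) :
    ∀ (k : ℤ) (_ : k = 12 * (m : ℤ)) (G : ModularForm 𝒮ℒ k),
      ∃ P : Polynomial ℂ, ∀ z : ℍ, G z = Δ z ^ m * P.eval (jf z) := by
  induction m with
  | zero =>
    intro k hk G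
    simp only [Nat.cast_zero, mul_zero] at hk
    subst hk
    obtain ⟨c, hc⟩ := ModularFormClass.levelOne_weight_zero_const G
    refine ⟨Polynomial.C c, fun z => ?_⟩
    rw [hc]
    simp
  | succ m ih =>
    intro k hk G
    subst hk
    set c : ℂ := (qExpansion 1 G).coeff 0 with hc
    have hcusp : ModularForm.IsCuspForm (G - c • e4pow (m + 1)) :=
      ModularForm.sub_smul_isCuspForm G (e4pow (m + 1)) (e4pow_coeff_zero (m + 1))
    obtain ⟨H, hH⟩ := hcusp
    obtain ⟨P, hP⟩ := ih (12 * ((m + 1 : ℕ) : ℤ) - 12) (by push_cast; ring)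
      (CuspForm.discriminantEquiv H)
    refine ⟨Polynomial.C c * Polynomial.X ^ (m + 1) + P, fun z => ?_⟩
    have h1 : H z = G z - c * e4pow (m + 1) z := by
      have := congrFun (congrArg DFunLike.coe hH) z
      simpa using this
    have h2 : H z = Δ z * (Δ z ^ m * P.eval (jf z)) := by
      rw [← hP z, discriminant_mul_discriminantEquiv_apply]
    have h3 : E₄ z ^ (3 * (m + 1)) = (jf z * Δ z) ^ (m + 1) := by
      rw [jf_mul_disc, ← pow_mul]
    rw [e4pow_apply, h3] at h1
    simp only [Polynomial.eval_add, Polynomial.eval_mul, Polynomial.eval_C, Polynomial.eval_pow,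
      Polynomial.eval_X]
    have : G z = H z + c * (jf z * Δ z) ^ (m + 1) := by rw [h1]; ring
    rw [this, h2]
    ring

end H2AN3

end
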