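/-
Item 80 (W3G), slice AN3 (helper2), part (L1), first half: an element of `Mer` which is integral
over `ℂ[j]` is a holomorphic function of moderate growth.
-/
import Mathlib
import Fermat.Agent.W3G.AN3LevelOne_helper2
import Fermat.Agent.RR.DictDH_helper15
import Fermat.Agent.S24.BI
import Fermat.Agent.S24.BJ12
import Fermat.Agent.S24.BL
import Fermat.Agent.RR.DictMain1

set_option autoImplicit false

noncomputable section

open UpperHalfPlane ModularForm MatrixGroups CongruenceSubgroup EisensteinSeries Filter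
open scoped Manifold Topology

namespace H2AN3

open H24D
open RH24 (Dv jf jd)

local notation "Δ" => ModularForm.discriminant

/-- polynomials in `j`, as holomorphic functions -/
def polyJHol : Polynomial ℂ →+* Hol := Polynomial.eval₂RingHom constHol jHol

/-- polynomials in `j`, as elements of `Mer` -/
def polyJ : Polynomial ℂ →+* Mer := (algebraMap Hol Mer).comp polyJHol

theorem polyJ_apply (P : Polynomial ℂ) : polyJ P = algebraMap Hol Mer (polyJHol P) := rfl

theorem evalAt_comp_polyJHol (z : ℍ) :
    (evalAt z).comp polyJHol = Polynomial.evalRingHom (jf z) := by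
  apply Polynomial.ringHom_ext
  · intro c
    simp [polyJHol]
  · simp [polyJHol]

theorem polyJHol_apply (P : Polynomial ℂ) (z : ℍ) :
    (polyJHol P : ℍ → ℂ) z = P.eval (jf z) := by
  have := congrArg (fun φ : Polynomial ℂ →+* ℂ => φ P) (evalAt_comp_polyJHol z)
  simpa using this

theorem polyJ_C (c : ℂ) : polyJ (Polynomial.C c) = constMer c := by
  simp [polyJ, polyJHol, constMer]

theorem polyJ_X : polyJ Polynomial.X = jMer := by
  simp [polyJ, polyJHol, jMer]

theorem algebraMap_Hol_injective : Function.Injective (algebraMap Hol Mer) :=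
  IsFractionRing.injective Hol Mer

/-- `j` takes infinitely many values: a polynomial vanishing on `j` is zero. -/
theorem polyJHol_injective : Function.Injective polyJHol := by
  rw [injective_iff_map_eq_zero]
  intro P hP
  by_contra hne
  -- every complex number is a value of `j`, so `P` has infinitely many roots
  have hroot : ∀ c : ℂ, P.IsRoot c := by
    intro c
    obtain ⟨z, hz⟩ := RH24.exists_jf_eq c
    have := polyJHol_apply P z
    rw [hP] at this
    rw [Polynomial.IsRoot.def, ← hz]
    exact this.symm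
  have hfin : (Set.univ : Set ℂ).Finite := by
    refine (P.roots.toFinset.finite_toSet).subset ?_
    intro c _
    simp only [Finset.mem_coe, Multiset.mem_toFinset]
    exact (Polynomial.mem_roots hne).mpr (hroot c)
  exact Set.infinite_univ hfin

theorem polyJ_injective : Function.Injective polyJ :=
  algebraMap_Hol_injective.comp polyJHol_injective

/-- an element of `Mer` which is integral over `Hol` has no poles -/
theorem merVal_le_one_of_isIntegralElem (h : Mer) (hint : (algebraMap Hol Mer).IsIntegralElem h)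
    (z : ℍ) : merVal z h ≤ 1 := by
  obtain ⟨p, hp, hpx⟩ := hint
  have hle : ∀ f : Hol, algebraMap Hol Mer f ∈ (merVal z).integer := by
    intro f
    rw [Valuation.mem_integer_iff, merVal_algebraMap]
    exact ordVal_le_one z f
  let φ : Hol →+* (merVal z).integer := (algebraMap Hol Mer).codRestrict (merVal z).integer hle
  have hφ : ((merVal z).integer.subtype).comp φ = algebraMap Hol Mer := by
    ext f; rfl
  have hint' : IsIntegral (merVal z).integer h := by
    refine ⟨p.map φ, hp.map φ, ?_⟩
    rw [Polynomial.eval₂_map]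
    show Polynomial.eval₂ (((merVal z).integer.subtype).comp φ) h p = 0
    rw [hφ]
    exact hpx
  exact (Valuation.integer.integers (merVal z)).mem_of_integral hint'

/-- an element of `Mer` which is integral over `ℂ[j]` is a holomorphic function, and satisfies
the same equation in `Hol` -/
theorem exists_hol_of_integral (h : Mer) (q : Polynomial (Polynomial ℂ)) (hq : q.Monic)
    (hroot : q.eval₂ polyJ h = 0) :
    ∃ f : Hol, algebraMap Hol Mer f = h ∧ q.eval₂ polyJHol f = 0 := by
  have hint : (algebraMap Hol Mer).IsIntegralElem h := by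
    refine ⟨q.map polyJHol, hq.map polyJHol, ?_⟩
    rw [Polynomial.eval₂_map]
    exact hroot
  obtain ⟨f, hf⟩ := exists_hol_of_merVal_le h (merVal_le_one_of_isIntegralElem h hint)
  refine ⟨f, hf, ?_⟩
  apply algebraMap_Hol_injective
  rw [map_zero, Polynomial.hom_eval₂, hf]
  exact hroot

/-- the equation, pointwise -/
theorem pointwise_of_eval₂ (f : Hol) (q : Polynomial (Polynomial ℂ))
    (hroot : q.eval₂ polyJHol f = 0) (z : ℍ) :
    (q.map (Polynomial.evalRingHom (jf z))).eval ((f : ℍ → ℂ) z) = 0 := by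
  have := congrArg (evalAt z) hroot
  rw [map_zero, Polynomial.hom_eval₂, evalAt_comp_polyJHol] at this
  rw [Polynomial.eval_map]
  exact this

/-! ### moderate growth -/

theorem bdd_E4 : IsBoundedAtImInfty (fun z : ℍ => E₄ z) :=
  ModularFormClass.bdd_at_infty E₄

theorem moderateGrowth_jf : RH24.ModerateGrowth jf := by
  refine ⟨1, ?_⟩
  have h : (fun z : ℍ => jf z * Δ z ^ 1) = fun z => E₄ z * E₄ z * E₄ z := by
    funext z
    rw [pow_one, jf_mul_disc]
    ring
  rw [h]
  exact (bdd_E4.mul bdd_E4).mul bdd_E4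

theorem moderateGrowth_poly (P : Polynomial ℂ) :
    RH24.ModerateGrowth (fun z : ℍ => P.eval (jf z)) := by
  induction P using Polynomial.induction_on' with
  | add p q hp hq =>
    simp only [Polynomial.eval_add]
    exact RH24.moderateGrowth_add _ _ hp hq
  | monomial n a =>
    simp only [Polynomial.eval_monomial]
    refine RH24.moderateGrowth_mul _ _ (RH24.moderateGrowth_const a) ?_
    induction n with
    | zero =>
      simp only [pow_zero]
      exact RH24.moderateGrowth_const 1
    | succ n ih =>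
      simp only [pow_succ]
      exact RH24.moderateGrowth_mul _ _ ih moderateGrowth_jf

theorem bdd_mul_disc_pow_of_le {g : ℍ → ℂ} {M M' : ℕ}
    (h : IsBoundedAtImInfty (fun z => g z * Δ z ^ M)) (hle : M ≤ M') :
    IsBoundedAtImInfty (fun z => g z * Δ z ^ M') := by
  obtain ⟨k, rfl⟩ := Nat.exists_eq_add_of_le hle
  have h2 := h.mul (RH24.h24_bdd_disc_pow k)
  have he : (fun z : ℍ => g z * Δ z ^ (M + k))
      = (fun z => g z * Δ z ^ M) * fun z => Δ z ^ k := by
    funext z
    simp only [Pi.mul_apply, pow_add]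
    ring
  rw [he]
  exact h2

theorem exists_common_exponent {ι : Type*} (s : Finset ι) (g : ι → ℍ → ℂ)
    (hg : ∀ i ∈ s, RH24.ModerateGrowth (g i)) :
    ∃ M : ℕ, ∀ i ∈ s, IsBoundedAtImInfty (fun z => g i z * Δ z ^ M) := by
  classical
  induction s using Finset.induction_on with
  | empty => exact ⟨0, fun i hi => absurd hi (Finset.notMem_empty i)⟩
  | insert a s ha ih =>
    obtain ⟨M, hM⟩ := ih (fun i hi => hg i (Finset.mem_insert_of_mem hi))
    obtain ⟨M', hM'⟩ := hg a (Finset.mem_insert_self a s)
    refine ⟨M + M', fun i hi => ?_⟩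
    rcases Finset.mem_insert.mp hi with rfl | hi
    · exact bdd_mul_disc_pow_of_le hM' (Nat.le_add_left _ _)
    · exact bdd_mul_disc_pow_of_le (hM i hi) (Nat.le_add_right _ _)

/-- a function bounded by `1 + ∑ ‖g i‖` with `g i` of moderate growth has moderate growth -/
theorem moderateGrowth_of_le {ι : Type*} (s : Finset ι) (g : ι → ℍ → ℂ)
    (hg : ∀ i ∈ s, RH24.ModerateGrowth (g i)) (f : ℍ → ℂ)
    (hf : ∀ z, ‖f z‖ ≤ 1 + ∑ i ∈ s, ‖g i z‖) : RH24.ModerateGrowth f := by
  obtain ⟨M, hM⟩ := exists_common_exponent s g hg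
  refine ⟨M, ?_⟩
  have h1 : IsBoundedAtImInfty (fun z : ℍ => Δ z ^ M) := RH24.h24_bdd_disc_pow M
  -- the real majorant
  have hG : (fun z : ℍ => ‖Δ z ^ M‖ + ∑ i ∈ s, ‖g i z * Δ z ^ M‖)
      =O[atImInfty] (1 : ℍ → ℝ) := by
    refine Asymptotics.IsBigO.add ?_ ?_
    · exact Asymptotics.IsBigO.norm_left h1
    · exact Asymptotics.IsBigO.fun_sum (fun i hi => Asymptotics.IsBigO.norm_left (hM i hi))
  refine Asymptotics.IsBigO.trans (Asymptotics.isBigO_of_le _ (fun z => ?_)) hG
  have hnn : 0 ≤ ‖Δ z ^ M‖ + ∑ i ∈ s, ‖g i z * Δ z ^ M‖ :=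
    add_nonneg (norm_nonneg _) (Finset.sum_nonneg fun i _ => norm_nonneg _)
  rw [Real.norm_of_nonneg hnn, norm_mul]
  calc ‖f z‖ * ‖Δ z ^ M‖ ≤ (1 + ∑ i ∈ s, ‖g i z‖) * ‖Δ z ^ M‖ :=
        mul_le_mul_of_nonneg_right (hf z) (norm_nonneg _)
    _ = ‖Δ z ^ M‖ + ∑ i ∈ s, ‖g i z * Δ z ^ M‖ := by
        rw [add_mul, one_mul, Finset.sum_mul]
        simp only [norm_mul]

/-- Cauchy's bound for a monic polynomial -/
theorem norm_le_of_monic_root (p : Polynomial ℂ) (hp : p.Monic) (w : ℂ) (hw : p.eval w = 0) :
    ‖w‖ ≤ 1 + ∑ i ∈ Finset.range p.natDegree, ‖p.coeff i‖ := by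
  have h1 := Polynomial.IsRoot.norm_lt_cauchyBound hp.ne_zero (a := w) hw
  have h2 : (Polynomial.cauchyBound p : ℝ) ≤ 1 + ∑ i ∈ Finset.range p.natDegree, ‖p.coeff i‖ := by
    unfold Polynomial.cauchyBound
    rw [hp.leadingCoeff, nnnorm_one, div_one]
    push_cast
    rw [add_comm]
    gcongr
    have : (Finset.range p.natDegree).sup (fun i => ‖p.coeff i‖₊)
        ≤ ∑ i ∈ Finset.range p.natDegree, ‖p.coeff i‖₊ := by
      apply Finset.sup_le
      intro i hi
      exact Finset.single_le_sum (f := fun i => ‖p.coeff i‖₊) (fun _ _ => bot_le) hi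
    have h3 := NNReal.coe_le_coe.mpr this
    push_cast at h3
    exact h3
  have h4 : (‖w‖₊ : ℝ) < Polynomial.cauchyBound p := NNReal.coe_lt_coe.mpr h1
  rw [coe_nnnorm] at h4
  linarith

/-- a holomorphic function which is integral over `ℂ[j]` has moderate growth -/
theorem moderateGrowth_of_integral (f : Hol) (q : Polynomial (Polynomial ℂ)) (hq : q.Monic)
    (hroot : q.eval₂ polyJHol f = 0) : RH24.ModerateGrowth (f : ℍ → ℂ) := by
  refine moderateGrowth_of_le (Finset.range q.natDegree)
    (fun i z => (q.coeff i).eval (jf z)) (fun i _ => moderateGrowth_poly _) _ (fun z => ?_)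
  have hm : (q.map (Polynomial.evalRingHom (jf z))).Monic := hq.map _
  have h := norm_le_of_monic_root _ hm _ (pointwise_of_eval₂ f q hroot z)
  rw [hq.natDegree_map] at h
  simpa [Polynomial.coeff_map] using h

end H2AN3

end
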