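import Fermat.Agent.W3G.KUMDefs_helper8

/-!
# Item 80 (W3G), slice RIG + ORD (helper27): shared definitions for `H8KUM.RigOrdStatement`

* the `ℂ`-algebra structure on `KN N = ℂ(j(d z) : d ∣ N) ⊆ Mer` (through `constMer`);
* `jKN N`, `jdKN d`, `phiKN N : ℚ̄·F_N →+* KN N`;
* the interface statements of the slice ORD:
  `OrdCGenStatement` (over `ℂ`, places of `KN N` not over `j ∈ {0, 1728, ∞}`) and
  `OrdQbarStatement` (over `ℚ̄`, all places).
-/

set_option autoImplicit false

noncomputable section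

open UpperHalfPlane WithZero AlgebraicCurve CongruenceSubgroup ModularCurve
open scoped MatrixGroups

namespace H27RIG

open H24D
open RH24 (Kbar Jbar iota Dv Jgen)

variable (N : ℕ) [NeZero N]

theorem constMer_mem_KN (c : ℂ) : constMer c ∈ H2AN3.KN N :=
  Subfield.subset_closure (Or.inl ⟨c, rfl⟩)

theorem jdMer_mem_KN (d : Dv N) : jdMer d ∈ H2AN3.KN N :=
  Subfield.subset_closure (Or.inr ⟨d, rfl⟩)

/-- the constants of `KN N` -/
def constKN : ℂ →+* H2AN3.KN N :=
  constMer.codRestrict (H2AN3.KN N).toSubring (constMer_mem_KN N)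

/-- the `ℂ`-algebra structure on `KN N` (through `constMer`) -/
instance instAlgebraKN : Algebra ℂ (H2AN3.KN N) := (constKN N).toAlgebra

theorem coe_algebraMap_KN (c : ℂ) :
    ((algebraMap ℂ (H2AN3.KN N) c : H2AN3.KN N) : Mer) = constMer c := rfl

/-- the generators `j(d z)` as elements of `KN N` -/
def jdKN (d : Dv N) : H2AN3.KN N := ⟨jdMer d, jdMer_mem_KN N d⟩

/-- `j` as an element of `KN N` -/
def jKN : H2AN3.KN N := jdKN N (dOne N)

theorem coe_jKN : ((jKN N : H2AN3.KN N) : Mer) = algebraMap Hol Mer jHol := by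
  show jdMer (dOne N) = _
  unfold jdMer
  rw [jdHol_dOne]

theorem eval₂_mem_KN (P : MvPolynomial (Dv N) Kbar) :
    MvPolynomial.eval₂ (constMer.comp iota) (fun d : Dv N => jdMer d) P ∈ H2AN3.KN N := by
  induction P using MvPolynomial.induction_on with
  | C a =>
    rw [MvPolynomial.eval₂_C]
    exact constMer_mem_KN N _
  | add p q hp hq =>
    rw [MvPolynomial.eval₂_add]
    exact add_mem hp hq
  | mul_X p d hp =>
    rw [MvPolynomial.eval₂_mul, MvPolynomial.eval₂_X]
    exact mul_mem hp (jdMer_mem_KN N d)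

theorem phi_aeval_eq (P : MvPolynomial (Dv N) Kbar) :
    phi N (MvPolynomial.aeval (fun d : Dv N => Jgen d) P)
      = MvPolynomial.eval₂ (constMer.comp iota) (fun d : Dv N => jdMer d) P := by
  rw [MvPolynomial.aeval_def, MvPolynomial.eval₂_comp_left (phi N)]
  congr 1
  · ext c
    simp only [RingHom.comp_apply]
    exact phi_const N c
  · funext d
    exact phi_Jgen N d

/-- the realisation of `ℚ̄·F_N` lies in `KN N` -/
theorem phi_mem_KN (h : modularFunctionFieldBar N) : phi N h ∈ H2AN3.KN N := by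
  obtain ⟨P, Q, -, rfl⟩ := RH24.exists_frac N h
  rw [map_div₀, phi_aeval_eq, phi_aeval_eq]
  exact div_mem (eval₂_mem_KN N P) (eval₂_mem_KN N Q)

/-- the realisation `ℚ̄·F_N →+* KN N` -/
def phiKN : modularFunctionFieldBar N →+* H2AN3.KN N :=
  (phi N).codRestrict (H2AN3.KN N).toSubring (phi_mem_KN N)

theorem coe_phiKN (h : modularFunctionFieldBar N) :
    ((phiKN N h : H2AN3.KN N) : Mer) = phi N h := rfl

theorem phiKN_const (c : Kbar) :
    phiKN N (algebraMap Kbar _ c) = algebraMap ℂ (H2AN3.KN N) (iota c) :=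
  Subtype.ext (phi_const N c)

theorem phiKN_Jgen (d : Dv N) : phiKN N (Jgen d) = jdKN N d :=
  Subtype.ext (phi_Jgen N d)

theorem phiKN_Jbar : phiKN N (Jbar N) = jKN N := by
  rw [← Jgen_dOne, phiKN_Jgen]
  rfl

/-- **FC-C, basics** (helper2): the function field `KN N / ℂ(j)`. -/
def FCBasicsStatement : Prop :=
  Transcendental ℂ (jKN N) ∧
    ∀ c : ℂ, FiniteDimensional (IntermediateField.adjoin ℂ {jKN N - algebraMap ℂ _ c})
        (H2AN3.KN N) ∧
      Module.finrank (IntermediateField.adjoin ℂ {jKN N - algebraMap ℂ _ c}) (H2AN3.KN N)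
        ≤ Nat.card (SL(2, ℤ) ⧸ Gamma0 N)

/-- **ORD over `ℂ`, generic places**: if `W ∈ KN N` is an `n`-th power in `Mer`, then `n` divides
the order of `W` at every place of `KN N / ℂ` which does not lie over `j ∈ {0, 1728, ∞}`. -/
def OrdCGenStatement (n : ℕ) : Prop :=
  ∀ (G : Mer) (W : H2AN3.KN N), W ≠ 0 → G ^ n = (W : Mer) →
    ∀ v : Place ℂ (H2AN3.KN N), v.ord (jKN N) = 0 →
      v.ord (jKN N - algebraMap ℂ _ 1728) = 0 → (n : ℤ) ∣ v.ord W

/-- **ORD over `ℚ̄`**: if `phi N f` is the `n`-th power of `G ∈ Mer` with a multiplier trivial on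
parabolic and elliptic elements, then `n` divides the order of `f` at every place of `ℚ̄·F_N`. -/
def OrdQbarStatement (n : ℕ) : Prop :=
  ∀ (G : Mer) (χ : Gamma0 N → ℂ) (f : modularFunctionFieldBar N), f ≠ 0 → G ^ n = phi N f →
    H8KUM.IsParEll χ →
    (∀ γ : Gamma0 N, precompMer (γ : SL(2, ℤ)) G = constMer (χ γ) * G) →
    ∀ v : Place Kbar (modularFunctionFieldBar N), (n : ℤ) ∣ v.ord f

/-- **RIG (descent)** (helper10): an element of `KN N` whose orders at the places not over
`j ∈ {0, 1728, ∞}` are divisible by `n` is, up to an `n`-th power, the realisation of an element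
of `ℚ̄·F_N`. -/
def DescentStatement (n : ℕ) : Prop :=
  ∀ W : H2AN3.KN N, W ≠ 0 →
    (∀ v : Place ℂ (H2AN3.KN N), v.ord (jKN N) = 0 →
      v.ord (jKN N - algebraMap ℂ _ 1728) = 0 → (n : ℤ) ∣ v.ord W) →
    ∃ (H : H2AN3.KN N) (f : modularFunctionFieldBar N), H ≠ 0 ∧ f ≠ 0 ∧
      W * H ^ n = phiKN N f

end H27RIG

end
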