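import Mathlib

set_option autoImplicit false

noncomputable section

namespace H2FCC

/-- **Base change of the degree.**  `K0 ⊆ F` finite, `L ⊆ E`, `φ : F → E` compatible with
`φ0 : K0 → L`, and `E` generated as a field by `L` and `φ F`.  Then `[E : L] ≤ [F : K0]`. -/
theorem finrank_le_of_generated {K0 F L E : Type*} [Field K0] [Field F] [Field L] [Field E]
    [Algebra K0 F] [Algebra L E] [FiniteDimensional K0 F]
    (φ : F →+* E) (φ0 : K0 →+* L)
    (hcomp : ∀ x : K0, φ (algebraMap K0 F x) = algebraMap L E (φ0 x))
    (hgen : ∀ S : Subfield E, (∀ l : L, algebraMap L E l ∈ S) → (∀ f : F, φ f ∈ S) → S = ⊤) :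
    FiniteDimensional L E ∧ Module.finrank L E ≤ Module.finrank K0 F := by
  classical
  set b := Module.finBasis K0 F with hb
  set V : Submodule L E := Submodule.span L (Set.range (fun i => φ (b i))) with hV
  have hφV : ∀ f : F, φ f ∈ V := by
    intro f
    have hf : f = ∑ i, (b.repr f i) • b i := (b.sum_repr f).symm
    rw [hf, map_sum]
    refine Submodule.sum_mem _ (fun i _ => ?_)
    rw [Algebra.smul_def, map_mul, hcomp, ← Algebra.smul_def]
    exact Submodule.smul_mem _ _ (Submodule.subset_span ⟨i, rfl⟩)
  have hone : (1 : E) ∈ V := by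
    have := hφV 1
    rwa [map_one] at this
  have hmul : ∀ x y : E, x ∈ V → y ∈ V → x * y ∈ V := by
    intro x y hx hy
    have h1 : x * y ∈ V * V := Submodule.mul_mem_mul hx hy
    have h2 : V * V ≤ V := by
      rw [hV, Submodule.span_mul_span]
      apply Submodule.span_le.mpr
      rintro _ ⟨_, ⟨i, rfl⟩, _, ⟨j, rfl⟩, rfl⟩
      show φ (b i) * φ (b j) ∈ _
      rw [← map_mul]
      exact hφV _
    exact h2 h1
  let A : Subalgebra L E := V.toSubalgebra hone hmul
  have hAfg : A.toSubmodule.FG := by
    have : A.toSubmodule = V := by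
      ext x
      rfl
    rw [this]
    exact Submodule.fg_span (Set.finite_range _)
  have hinv : ∀ x ∈ A, x⁻¹ ∈ A := by
    intro x hx
    have hint : IsIntegral L x := IsIntegral.of_mem_of_fg A hAfg x hx
    have := A.inv_mem_of_algebraic (x := ⟨x, hx⟩) hint.isAlgebraic
    exact this
  let S : Subfield E :=
    { A.toSubring with
      inv_mem' := hinv }
  have hStop : S = ⊤ := by
    apply hgen
    · intro l
      exact A.algebraMap_mem l
    · intro f
      exact hφV f
  have hVtop : V = ⊤ := by
    rw [eq_top_iff]
    intro x _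
    have : x ∈ S := by rw [hStop]; trivial
    exact this
  have hfd : FiniteDimensional L E := by
    refine Module.finite_def.mpr ?_
    rw [← hVtop]
    exact Submodule.fg_span (Set.finite_range _)
  refine ⟨hfd, ?_⟩
  have h1 : Module.finrank L E = Module.finrank L (⊤ : Submodule L E) := (finrank_top L E).symm
  rw [h1, ← hVtop]
  have h2 := finrank_range_le_card (R := L) (fun i => φ (b i))
  have h3 : Fintype.card (Fin (Module.finrank K0 F)) = Module.finrank K0 F := Fintype.card_fin _
  rw [h3] at h2
  exact h2

end H2FCC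

end
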