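/-
Item 80 (W3G), RIGORD slice FC-C (helper2): the function field `KN N = ℂ(j(d z) : d ∣ N)` over
`ℂ(j)`: `j` is transcendental over `ℂ`, and `[KN N : ℂ(j − c)] ≤ #(SL₂(ℤ) ⧸ Γ₀(N))`
(base change of `RH24.B_degree`).  Result: `H2FCC.fcBasics N : H27RIG.FCBasicsStatement N`.
-/
import Mathlib
import Fermat.Agent.W3G.RIGDefs_helper27
import Fermat.Agent.W3G.RIGFCCAbs_helper2
import Fermat.Agent.W3G.AN3L1a_helper2
import Fermat.Agent.S24.BDegreeFinal

set_option autoImplicit false

noncomputable section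

open UpperHalfPlane WithZero AlgebraicCurve CongruenceSubgroup ModularCurve IntermediateField
open scoped MatrixGroups

namespace H2FCC

open H24D H27RIG
open RH24 (Kbar Jbar iota Dv Jgen)

variable (N : ℕ) [NeZero N]

theorem coe_aeval_jKN (P : Polynomial ℂ) :
    ((Polynomial.aeval (jKN N) P : H2AN3.KN N) : Mer) = H2AN3.polyJ P := by
  have h1 : ((Polynomial.aeval (jKN N) P : H2AN3.KN N) : Mer)
      = (H2AN3.KN N).subtype (Polynomial.eval₂ (algebraMap ℂ (H2AN3.KN N)) (jKN N) P) := by
    rw [Polynomial.aeval_def]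
    rfl
  rw [h1, Polynomial.hom_eval₂]
  have h2 : H2AN3.polyJ P
      = (algebraMap Hol Mer) (Polynomial.eval₂ constHol jHol P) := rfl
  rw [h2, Polynomial.hom_eval₂]
  congr 1
  exact coe_jKN N

/-- `j` is transcendental over `ℂ`. -/
theorem transcendental_jKN : Transcendental ℂ (jKN N) := by
  rintro ⟨P, hP0, hP⟩
  apply hP0
  apply H2AN3.polyJ_injective
  rw [map_zero, ← coe_aeval_jKN N, hP]
  rfl

theorem adjoin_sub_eq (c : ℂ) :
    IntermediateField.adjoin ℂ {jKN N - algebraMap ℂ (H2AN3.KN N) c}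
      = IntermediateField.adjoin ℂ {jKN N} := by
  apply le_antisymm
  · rw [IntermediateField.adjoin_simple_le_iff]
    exact sub_mem (IntermediateField.mem_adjoin_simple_self ℂ _)
      (IntermediateField.algebraMap_mem _ c)
  · rw [IntermediateField.adjoin_simple_le_iff]
    have h : jKN N = (jKN N - algebraMap ℂ (H2AN3.KN N) c) + algebraMap ℂ (H2AN3.KN N) c := by
      ring
    have h2 : (jKN N - algebraMap ℂ (H2AN3.KN N) c) + algebraMap ℂ (H2AN3.KN N) c
        ∈ IntermediateField.adjoin ℂ {jKN N - algebraMap ℂ (H2AN3.KN N) c} :=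
      add_mem (IntermediateField.mem_adjoin_simple_self ℂ _)
        (IntermediateField.algebraMap_mem _ c)
    rw [← h] at h2
    exact h2

/-- `phiKN` maps `ℚ̄(j)` into `ℂ(j)`. -/
theorem phiKN_mem_adjoin (x : modularFunctionFieldBar N)
    (hx : x ∈ IntermediateField.adjoin Kbar {Jbar N}) :
    phiKN N x ∈ IntermediateField.adjoin ℂ {jKN N} := by
  induction hx using IntermediateField.adjoin_induction with
  | mem x hx =>
    rw [Set.mem_singleton_iff] at hx
    rw [hx, phiKN_Jbar]
    exact IntermediateField.mem_adjoin_simple_self ℂ _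
  | algebraMap c =>
    rw [phiKN_const]
    exact IntermediateField.algebraMap_mem _ _
  | add x y _ _ hx hy =>
    rw [map_add]
    exact add_mem hx hy
  | inv x _ hx =>
    rw [map_inv₀]
    exact inv_mem hx
  | mul x y _ _ hx hy =>
    rw [map_mul]
    exact mul_mem hx hy

/-- the restriction `ℚ̄(j) → ℂ(j)` of `phiKN` -/
def phi0 : IntermediateField.adjoin Kbar {Jbar N} →+* IntermediateField.adjoin ℂ {jKN N} :=
  ((phiKN N).comp (algebraMap (IntermediateField.adjoin Kbar {Jbar N})
    (modularFunctionFieldBar N))).codRestrict (IntermediateField.adjoin ℂ {jKN N})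
    (fun x => phiKN_mem_adjoin N _ x.2)

/-- `KN N` is generated by `ℂ` and the image of `phiKN`. -/
theorem eq_top_of_mem (S : Subfield (H2AN3.KN N))
    (hL : ∀ c : ℂ, algebraMap ℂ (H2AN3.KN N) c ∈ S)
    (hφ : ∀ f : modularFunctionFieldBar N, phiKN N f ∈ S) : S = ⊤ := by
  rw [eq_top_iff]
  rintro ⟨y, hy⟩ -
  have key : ∀ (y : Mer) (hy : y ∈ H2AN3.KN N), (⟨y, hy⟩ : H2AN3.KN N) ∈ S := by
    intro y hy
    induction hy using Subfield.closure_induction with
    | mem x hx =>
      rcases hx with ⟨c, rfl⟩ | ⟨d, rfl⟩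
      · exact hL c
      · have := hφ (Jgen d)
        rw [phiKN_Jgen] at this
        exact this
    | one => exact S.one_mem
    | add x y hx hy hx' hy' => exact S.add_mem hx' hy'
    | neg x hx hx' => exact S.neg_mem hx'
    | inv x hx hx' => exact S.inv_mem hx'
    | mul x y hx hy hx' hy' => exact S.mul_mem hx' hy'
  exact key y hy

/-- `[KN N : ℂ(j)] ≤ #(SL₂(ℤ) ⧸ Γ₀(N))`. -/
theorem finrank_le :
    FiniteDimensional (IntermediateField.adjoin ℂ {jKN N}) (H2AN3.KN N) ∧
      Module.finrank (IntermediateField.adjoin ℂ {jKN N}) (H2AN3.KN N)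
        ≤ Nat.card (SL(2, ℤ) ⧸ Gamma0 N) := by
  obtain ⟨hfd, hle⟩ := RH24.B_degree N
  have := hfd
  obtain ⟨h1, h2⟩ := finrank_le_of_generated
    (K0 := IntermediateField.adjoin Kbar {Jbar N}) (F := modularFunctionFieldBar N)
    (L := IntermediateField.adjoin ℂ {jKN N}) (E := H2AN3.KN N)
    (phiKN N) (phi0 N) (fun x => rfl)
    (fun S hL hφ => eq_top_of_mem N S
      (fun c => hL (algebraMap ℂ (IntermediateField.adjoin ℂ {jKN N}) c)) hφ)
  exact ⟨h1, h2.trans hle⟩

/-- **FC-C, basics.** -/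
theorem fcBasics : FCBasicsStatement N := by
  refine ⟨transcendental_jKN N, fun c => ?_⟩
  rw [adjoin_sub_eq N c]
  exact finrank_le N

end H2FCC

end
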