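import Fermat.Agent.W3G.RIGLocal_helper27
import Fermat.Agent.W3G.RIGFCC_helper2
import Fermat.Agent.S24.A2
import Fermat.Agent.S24.BDegreeFinal
import Fermat.Agent.S24.BLocalGen

/-!
# Item 80 (W3G), RIGORD, slice ORD (helper27): the generic places, over `ℚ̄` and over `ℂ`

* `H27RIG.realQ N` : the realisation `phi N` of `ℚ̄·F_N`;
* `H27RIG.realC N` : the realisation of `KN N` (the inclusion into `Mer`);
* `H27RIG.ordGenQ N n : OrdGenQStatement N n`;
* `H27RIG.ordCGen N n : OrdCGenStatement N n`.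
-/

set_option autoImplicit false
set_option linter.style.haveILetI false

noncomputable section

open UpperHalfPlane WithZero AlgebraicCurve CongruenceSubgroup ModularCurve IntermediateField
open scoped MatrixGroups

namespace H27RIG

open H24D
open RH24 (Kbar Jbar iota Dv Jgen jf jd)

variable (N : ℕ) [NeZero N]

/-- the realisation of `ℚ̄·F_N` -/
def realQ : MerReal Kbar (modularFunctionFieldBar N) N where
  φ := phi N
  cst := iota
  φ_const := phi_const N
  inv := fun γ hγ h => precompMer_phi N γ hγ h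
  j := Jbar N
  φ_j := phi_Jbar N
  jN := Jgen (⟨N, dvd_rfl⟩ : Dv N)
  φ_jN := phi_Jgen N _

theorem precompMer_of_mem_KN' (γ : SL(2, ℤ)) (hγ : γ ∈ Gamma0 N) {h : Mer}
    (hh : h ∈ H2AN3.KN N) : precompMer γ h = h := by
  have hle : H2AN3.KN N ≤ (precompMer γ).eqLocusField (RingHom.id Mer) := by
    unfold H2AN3.KN
    rw [Subfield.closure_le]
    rintro x (⟨c, rfl⟩ | ⟨d, rfl⟩)
    · exact MerReal.precompMer_constMer γ c
    · show precompMer γ (jdMer d) = jdMer d
      have h0 : precomp γ (jdHol d) = jdHol d := by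
        apply Subtype.ext
        funext z
        show jd d.1 (γ • z) = jd d.1 z
        exact RH24.jd_smul_of_mem_Gamma0 N d γ hγ z
      unfold jdMer
      rw [precompMer_algebraMap, h0]
  exact hle hh

/-- the realisation of `KN N` -/
def realC : MerReal ℂ (H2AN3.KN N) N where
  φ := (H2AN3.KN N).subtype
  cst := RingHom.id ℂ
  φ_const := fun _ => rfl
  inv := fun γ hγ h => precompMer_of_mem_KN' N γ hγ h.2
  j := jKN N
  φ_j := coe_jKN N
  jN := jdKN N (⟨N, dvd_rfl⟩ : Dv N)
  φ_jN := rfl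

/-- **ORD over `ℚ̄`, generic places**. -/
theorem ordGenQ (n : ℕ) : OrdGenQStatement N n := by
  intro G f hf hG v h0 h1728
  obtain ⟨hfd, hle⟩ := RH24.B_degree N
  haveI := hfd
  obtain ⟨c, hc⟩ := RH24.exists_center (Jbar N) (RH24.B_transcendental N) v h0.ge
  have hc0 : c ≠ 0 := by
    rintro rfl
    rw [map_zero, sub_zero] at hc
    omega
  have hc1 : c ≠ 1728 := by
    rintro rfl
    omega
  have hfd' : FiniteDimensional Kbar⟮(realQ N).j - algebraMap Kbar _ c⟯
      (modularFunctionFieldBar N) := by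
    show FiniteDimensional Kbar⟮Jbar N - algebraMap Kbar _ c⟯ (modularFunctionFieldBar N)
    rw [RH24.h5a_adjoin_sub_const]
    exact hfd
  have hdeg : Module.finrank Kbar⟮(realQ N).j - algebraMap Kbar _ c⟯
      (modularFunctionFieldBar N) ≤ Nat.card (SL(2, ℤ) ⧸ Gamma0 N) := by
    show Module.finrank Kbar⟮Jbar N - algebraMap Kbar _ c⟯ (modularFunctionFieldBar N) ≤ _
    rw [RH24.h5a_adjoin_sub_const]
    exact hle
  exact (realQ N).dvd_ord_generic c (Jbar_sub_ne_zero N c) hdeg
    (RH24.h5_iota_ne_zero c hc0) (RH24.h5_iota_ne_1728 c hc1) v hc n G f hf hG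

/-- **ORD over `ℂ`, generic places**. -/
theorem ordCGen (n : ℕ) : OrdCGenStatement N n := by
  intro G W hW hG v h0 h1728
  obtain ⟨htr, hfc⟩ := H2FCC.fcBasics N
  obtain ⟨hfd0, -⟩ := hfc 0
  have hfd : FiniteDimensional ℂ⟮jKN N⟯ (H2AN3.KN N) := by
    have h := hfd0
    rw [map_zero, sub_zero] at h
    exact h
  obtain ⟨c, hc⟩ := RH24.exists_center (jKN N) htr v h0.ge
  have hc0 : c ≠ 0 := by
    rintro rfl
    rw [map_zero, sub_zero] at hc
    omega
  have hc1 : c ≠ 1728 := by
    rintro rfl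
    omega
  obtain ⟨hfd', hdeg⟩ := hfc c
  haveI : FiniteDimensional ℂ⟮(realC N).j - algebraMap ℂ _ c⟯ (H2AN3.KN N) := hfd'
  have hz : (realC N).j - algebraMap ℂ (H2AN3.KN N) c ≠ 0 := by
    intro h
    have h1 : jKN N = algebraMap ℂ _ c := sub_eq_zero.mp h
    exact htr (h1 ▸ isAlgebraic_algebraMap c)
  exact (realC N).dvd_ord_generic c hz hdeg hc0 hc1 v hc n G W hW hG

end H27RIG

end
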