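/-
Item 80 (W3G), RIGORD sub-slice ORD-ELL (helper6): `H27RIG.OrdEllStatement N n`
(places over `j = 0` and `j = 1728`), on top of local data with `E = Mer` at the elliptic points.

* `h6oe_dvd_log`     : BE1/BE2 in `Mer`-form: a `g`-invariant meromorphic function has order
                       divisible by `p` at the fixed point of `g`;
* `h6oe_invariant`   : if `g` fixes the coset `[δ]`, then `G ∘ δ⁻¹` is `g`-invariant
                       (the multiplier is trivial on elements of finite order);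
* `h6oe_core`        : the divisibility `n ∣ v.ord f` from local data `D` with `D.w = merVal z₀`,
                       `D.σ [δ] = precompMer δ⁻¹ ∘ phi N`.
-/
import Fermat.Agent.W3G.RIGOrdDefs_helper27
import Fermat.Agent.W3G.RIGLocal_helper27
import Fermat.Agent.W3G.RIGOrdGen_helper27
import Fermat.Agent.W3G.OrdRam_helper6
import Fermat.Agent.S24.BLocalEll
import Fermat.Agent.S24.A1
import Fermat.Agent.S24.A2
import Fermat.Agent.S24.BDegreeFinal
import Fermat.Agent.S24.C2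
import Fermat.Agent.RR.DictMain1

set_option autoImplicit false
set_option linter.style.haveILetI false
set_option linter.unusedVariables false
set_option linter.unusedSectionVars false

noncomputable section

open UpperHalfPlane WithZero AlgebraicCurve CongruenceSubgroup ModularCurve IntermediateField
open scoped MatrixGroups Manifold

namespace H6ORD

open H24D
open RH24 (Kbar Jbar iota Dv Jgen)

/-! ### BE1 / BE2 in `Mer`-form -/

theorem h6oe_exists_ne_zero (a : Hol) (ha : a ≠ 0) : ∃ z, (a : ℍ → ℂ) z ≠ 0 := by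
  by_contra h
  push Not at h
  exact ha (Subtype.ext (funext h))

/-- a `g`-invariant meromorphic function has order divisible by `p` at the fixed point -/
theorem h6oe_dvd_log (g : SL(2, ℤ)) (p : ℕ) (z₀ : ℍ)
    (hE : ∀ a b : ℍ → ℂ, MDiff a → MDiff b → (∃ z, a z ≠ 0) → (∃ z, b z ≠ 0) →
      (∀ z : ℍ, a (g • z) * b z = a z * b (g • z)) →
        (p : ℤ) ∣ ((RH24.ordAt z₀ a).toNat : ℤ) - ((RH24.ordAt z₀ b).toNat : ℤ))
    (A : Mer) (hA0 : A ≠ 0) (hA : precompMer g A = A) :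
    (p : ℤ) ∣ WithZero.log (merVal z₀ A) := by
  obtain ⟨a, b, hb, rfl⟩ := IsFractionRing.div_surjective (A := Hol) A
  have hb0 : b ≠ 0 := nonZeroDivisors.ne_zero hb
  have ha0 : a ≠ 0 := by
    rintro rfl
    simp at hA0
  have hinj : Function.Injective (algebraMap Hol Mer) := IsFractionRing.injective Hol Mer
  have hbm : algebraMap Hol Mer b ≠ 0 := fun h => hb0 (hinj (by rw [h, map_zero]))
  have hgb0 : precomp g b ≠ 0 := fun h => hb0 (precomp_injective g (by rw [h, map_zero]))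
  have hgb : algebraMap Hol Mer (precomp g b) ≠ 0 := fun h => hgb0 (hinj (by rw [h, map_zero]))
  rw [map_div₀, precompMer_algebraMap, precompMer_algebraMap, div_eq_div_iff hgb hbm,
    ← map_mul, ← map_mul] at hA
  have hA' := hinj hA
  have key : ∀ z : ℍ, (a : ℍ → ℂ) (g • z) * (b : ℍ → ℂ) z =
      (a : ℍ → ℂ) z * (b : ℍ → ℂ) (g • z) := by
    intro z
    have := congrFun (congrArg Subtype.val hA') z
    exact this
  have hdvd := hE a b a.2 b.2 (h6oe_exists_ne_zero a ha0) (h6oe_exists_ne_zero b hb0) key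
  rw [map_div₀, merVal_algebraMap, merVal_algebraMap, ordVal_apply _ _ ha0, ordVal_apply _ _ hb0,
    WithZero.log_div WithZero.exp_ne_zero WithZero.exp_ne_zero, WithZero.log_exp,
    WithZero.log_exp]
  have e : (-(ordNat z₀ (a : ℍ → ℂ) : ℤ) - -(ordNat z₀ (b : ℍ → ℂ) : ℤ)) =
      -(((RH24.ordAt z₀ a).toNat : ℤ) - ((RH24.ordAt z₀ b).toNat : ℤ)) := by
    have h1 : ordNat z₀ (a : ℍ → ℂ) = (RH24.ordAt z₀ a).toNat := rfl
    have h2 : ordNat z₀ (b : ℍ → ℂ) = (RH24.ordAt z₀ b).toNat := rfl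
    rw [h1, h2]
    ring
  rw [e]
  exact (dvd_neg).2 hdvd

/-! ### invariance of `G ∘ δ⁻¹` -/

variable (N : ℕ) [NeZero N]

theorem h6oe_conj_mem (g δ : SL(2, ℤ))
    (hx : g • (QuotientGroup.mk δ : SL(2, ℤ) ⧸ Gamma0 N) = QuotientGroup.mk δ) :
    δ⁻¹ * g * δ ∈ Gamma0 N := by
  have h1 : (QuotientGroup.mk (g * δ) : SL(2, ℤ) ⧸ Gamma0 N) = QuotientGroup.mk δ := hx
  have h2 := QuotientGroup.eq.1 h1
  have h3 := (Gamma0 N).inv_mem h2
  have e : ((g * δ)⁻¹ * δ)⁻¹ = δ⁻¹ * g * δ := by group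
  rwa [e] at h3

theorem h6oe_precompMer_inv_cancel (δ : SL(2, ℤ)) (X : Mer) :
    precompMer δ⁻¹ (precompMer δ X) = X := by
  rw [← precompMer_mul_apply, mul_inv_cancel, precompMer_one]
  rfl

/-- if `g` (of finite order) fixes the coset `[δ]`, then `G ∘ δ⁻¹` is `g`-invariant -/
theorem h6oe_invariant (χ : Gamma0 N → ℂ) (hpe : H8KUM.IsParEll χ) (G : Mer)
    (hmul : ∀ γ : Gamma0 N, precompMer (γ : SL(2, ℤ)) G = constMer (χ γ) * G)
    (g δ : SL(2, ℤ)) (hg : IsOfFinOrder g)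
    (hx : g • (QuotientGroup.mk δ : SL(2, ℤ) ⧸ Gamma0 N) = QuotientGroup.mk δ) :
    precompMer g (precompMer δ⁻¹ G) = precompMer δ⁻¹ G := by
  have hmem := h6oe_conj_mem N g δ hx
  set γ : Gamma0 N := ⟨δ⁻¹ * g * δ, hmem⟩ with hγ
  have hfin : IsOfFinOrder γ := by
    obtain ⟨k, hk, hgk⟩ := (isOfFinOrder_iff_pow_eq_one).1 hg
    rw [isOfFinOrder_iff_pow_eq_one]
    refine ⟨k, hk, ?_⟩
    apply Subtype.ext
    rw [Subgroup.coe_pow, Subgroup.coe_one]
    change (δ⁻¹ * g * δ) ^ k = 1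
    have e : (δ⁻¹ * g * δ) ^ k = δ⁻¹ * g ^ k * δ := by
      have := conj_pow (a := δ⁻¹) (b := g) (i := k)
      simpa using this
    rw [e, hgk]
    group
  have hχ : χ γ = 1 := hpe γ (Or.inr hfin)
  have h1 := hmul γ
  rw [hχ, map_one, one_mul] at h1
  have h2 : precompMer ((γ : SL(2, ℤ))) G = precompMer δ (precompMer g (precompMer δ⁻¹ G)) := by
    change precompMer (δ⁻¹ * g * δ) G = _
    rw [precompMer_mul_apply, precompMer_mul_apply]
  rw [h2] at h1
  have h3 := congrArg (precompMer δ⁻¹) h1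
  rwa [h6oe_precompMer_inv_cancel] at h3

/-! ### the core -/

open H27RIG

theorem h6oe_exp_zpow (p : ℕ) (k : ℤ) :
    (WithZero.exp (-(p : ℤ)) : ℤᵐ⁰) ^ k = WithZero.exp (-((p : ℤ) * k)) := by
  rw [← WithZero.exp_zsmul]
  congr 1
  simp only [smul_eq_mul]
  ring

theorem h6oe_eq_exp_log {x : ℤᵐ⁰} (hx : x ≠ 0) : x = WithZero.exp (WithZero.log x) :=
  (WithZero.exp_log hx).symm

/-- **ORD at an elliptic point**, from the local data with `E = Mer` -/
theorem h6oe_core (n : ℕ) (g : SL(2, ℤ)) (p : ℕ) (hp : p.Prime) (hgfin : IsOfFinOrder g)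
    (hgp : ∀ q : SL(2, ℤ) ⧸ Gamma0 N, g ^ p • q = q)
    (c : Kbar) (z₀ : ℍ) (hz₀ : g • z₀ = z₀) (hc : RH24.jf z₀ = iota c)
    (hord : RH24.ordAt z₀ (fun z => RH24.jf z - iota c) = p)
    (hE : ∀ a b : ℍ → ℂ, MDiff a → MDiff b → (∃ z, a z ≠ 0) → (∃ z, b z ≠ 0) →
      (∀ z : ℍ, a (g • z) * b z = a z * b (g • z)) →
        (p : ℤ) ∣ ((RH24.ordAt z₀ a).toNat : ℤ) - ((RH24.ordAt z₀ b).toNat : ℤ))
    (G : Mer) (χ : Gamma0 N → ℂ) (f : modularFunctionFieldBar N) (hf : f ≠ 0)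
    (hG : G ^ n = phi N f) (hpe : H8KUM.IsParEll χ)
    (hmul : ∀ γ : Gamma0 N, precompMer (γ : SL(2, ℤ)) G = constMer (χ γ) * G)
    (v : Place Kbar (modularFunctionFieldBar N))
    (hv : 0 < v.ord (Jbar N - algebraMap Kbar _ c)) : (n : ℤ) ∣ v.ord f := by
  classical
  haveI : Finite (SL(2, ℤ) ⧸ Gamma0 N) := Subgroup.finite_quotient_of_finiteIndex
  obtain ⟨hfd, hle⟩ := RH24.B_degree N
  haveI := hfd
  have hfd' : FiniteDimensional Kbar⟮(realQ N).j - algebraMap Kbar _ c⟯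
      (modularFunctionFieldBar N) := by
    show FiniteDimensional Kbar⟮Jbar N - algebraMap Kbar _ c⟯ (modularFunctionFieldBar N)
    rw [RH24.h5a_adjoin_sub_const]
    exact hfd
  have hdeg : Module.finrank Kbar⟮(realQ N).j - algebraMap Kbar _ c⟯
      (modularFunctionFieldBar N) ≤ Nat.card (SL(2, ℤ) ⧸ Gamma0 N) := by
    show Module.finrank Kbar⟮Jbar N - algebraMap Kbar _ c⟯ (modularFunctionFieldBar N) ≤ _
    rw [RH24.h5a_adjoin_sub_const]
    exact hle
  have htr : Transcendental Kbar ((realQ N).j - algebraMap Kbar _ c) :=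
    RH24.h5a_transcendental_sub_const (Jbar N) (RH24.B_transcendental N) c
  have hz : (realQ N).j - algebraMap Kbar (modularFunctionFieldBar N) c ≠ 0 :=
    Jbar_sub_ne_zero N c
  set D := (realQ N).localData z₀ c hc with hD
  -- the values of the valuations
  have hval : ∀ (δ : SL(2, ℤ)) (h : modularFunctionFieldBar N),
      D.w (D.σ (δ : SL(2, ℤ) ⧸ Gamma0 N) h) = merVal z₀ (precompMer δ⁻¹ (phi N h)) := by
    intro δ h
    show merVal z₀ ((realQ N).sig (δ : SL(2, ℤ) ⧸ Gamma0 N) h) = _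
    rw [MerReal.sig_mk, MerReal.emb_apply]
    rfl
  -- the value at `z = j - c`
  have hne : jHol - constHol (iota c) ≠ 0 := by
    intro h
    obtain ⟨z, hz⟩ := RH24.exists_jf_eq (iota c + 1)
    have h2 := congrArg (fun F : Hol => (F : ℍ → ℂ) z) h
    have h3 : RH24.jf z - iota c = 0 := h2
    rw [hz] at h3
    simp at h3
  have hvalz : ∀ δ : SL(2, ℤ), D.w (D.σ (δ : SL(2, ℤ) ⧸ Gamma0 N)
      ((realQ N).j - algebraMap Kbar _ c)) = WithZero.exp (-(p : ℤ)) := by
    intro δ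
    show merVal z₀ ((realQ N).sig (δ : SL(2, ℤ) ⧸ Gamma0 N) _) = _
    rw [MerReal.sig_mk, MerReal.emb_j_sub, merVal_algebraMap]
    show ordVal z₀ (jHol - constHol (iota c)) = _
    rw [ordVal_apply z₀ _ hne]
    have hco := coe_ordNat (f := ((jHol - constHol (iota c) : Hol) : ℍ → ℂ))
      (jHol - constHol (iota c) : Hol).2 (fun h => hne (Subtype.ext h)) z₀
    have hsame : ordFun z₀ ((jHol - constHol (iota c) : Hol) : ℍ → ℂ)
        = RH24.ordAt z₀ (fun z => RH24.jf z - iota c) := rfl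
    rw [hsame, hord] at hco
    have hco' : ordNat z₀ ((jHol - constHol (iota c) : Hol) : ℍ → ℂ) = p := by
      exact_mod_cast hco
    rw [hco']
  -- invariant functions at a fixed coset
  have hinv : ∀ (δ : SL(2, ℤ)) (h : modularFunctionFieldBar N),
      g • (QuotientGroup.mk δ : SL(2, ℤ) ⧸ Gamma0 N) = QuotientGroup.mk δ → h ≠ 0 →
      (p : ℤ) ∣ WithZero.log (merVal z₀ (precompMer δ⁻¹ (phi N h))) := by
    intro δ h hx hh
    apply h6oe_dvd_log g p z₀ hE
    · intro h0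
      have h1 : ((precompMer δ⁻¹).comp (phi N)) h = 0 := h0
      exact hh ((map_eq_zero _).1 h1)
    · have hmem := h6oe_conj_mem N g δ hx
      have h1 := precompMer_phi N (δ⁻¹ * g * δ) hmem h
      rw [precompMer_mul_apply, precompMer_mul_apply] at h1
      have h2 := congrArg (precompMer δ⁻¹) h1
      rwa [h6oe_precompMer_inv_cancel] at h2
  -- (H1)
  have H1 : ∀ x x', (MulAction.orbitRel (Subgroup.zpowers g) (SL(2, ℤ) ⧸ Gamma0 N)) x x' →
      ∀ h, D.w (D.σ x h) = D.w (D.σ x' h) := by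
    intro x x' hxx' h
    have h1 : x ∈ MulAction.orbit (Subgroup.zpowers g) x' := hxx'
    obtain ⟨k, hk⟩ := h1
    obtain ⟨δ', rfl⟩ := QuotientGroup.mk_surjective x'
    have hk' : x = ((k : SL(2, ℤ)) * δ' : SL(2, ℤ)) := hk.symm
    rw [hk', hval, hval, mul_inv_rev, precompMer_mul_apply, merVal_precompMer]
    have hfix : (k : SL(2, ℤ)) • z₀ = z₀ := RH24.h20_fixed_zpowers g z₀ hz₀ k k.2
    have hfix' : (k : SL(2, ℤ))⁻¹ • z₀ = z₀ := by
      conv_lhs => rw [← hfix]
      rw [inv_smul_smul]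
    rw [hfix']
  -- (H2)
  have H2 : ∀ x (h : modularFunctionFieldBar N), h ≠ 0 → ∃ m : ℤ,
      D.w (D.σ x h) ^ Nat.card {x' // (MulAction.orbitRel (Subgroup.zpowers g)
        (SL(2, ℤ) ⧸ Gamma0 N)) x' x} = D.w (D.σ x ((realQ N).j - algebraMap Kbar _ c)) ^ m := by
    intro x h hh
    obtain ⟨δ, rfl⟩ := QuotientGroup.mk_surjective x
    rw [hvalz δ, hval]
    have hw0 : merVal z₀ (precompMer δ⁻¹ (phi N h)) ≠ 0 := by
      rw [Valuation.ne_zero_iff]
      intro h0
      have h1 : ((precompMer δ⁻¹).comp (phi N)) h = 0 := h0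
      exact hh ((map_eq_zero _).1 h1)
    by_cases hx : g • (QuotientGroup.mk δ : SL(2, ℤ) ⧸ Gamma0 N) = QuotientGroup.mk δ
    · have hcard : Nat.card {x' // (MulAction.orbitRel (Subgroup.zpowers g)
          (SL(2, ℤ) ⧸ Gamma0 N)) x' (QuotientGroup.mk δ)} = 1 :=
        RH24.class_card_one g (QuotientGroup.mk δ : SL(2, ℤ) ⧸ Gamma0 N) hx
      rw [hcard, pow_one]
      obtain ⟨k, hk⟩ := hinv δ h hx hh
      refine ⟨-k, ?_⟩
      rw [h6oe_exp_zpow]
      conv_lhs => rw [h6oe_eq_exp_log hw0, hk]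
      congr 1
      ring
    · have hcard : Nat.card {x' // (MulAction.orbitRel (Subgroup.zpowers g)
          (SL(2, ℤ) ⧸ Gamma0 N)) x' (QuotientGroup.mk δ)} = p :=
        RH24.class_card_prime g p hp (QuotientGroup.mk δ : SL(2, ℤ) ⧸ Gamma0 N) (hgp _) hx
      rw [hcard]
      refine ⟨- WithZero.log (merVal z₀ (precompMer δ⁻¹ (phi N h))), ?_⟩
      rw [h6oe_exp_zpow]
      conv_lhs => rw [h6oe_eq_exp_log hw0]
      rw [← WithZero.exp_nsmul]
      congr 1
      simp only [nsmul_eq_mul]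
      ring
  -- exact ramification
  have hT1 := fun x => ord_z_eq_card ((realQ N).j - algebraMap Kbar _ c) hz hdeg
    (MulAction.orbitRel (Subgroup.zpowers g) (SL(2, ℤ) ⧸ Gamma0 N)) D H1 H2
    (RH24.finite_places_over _ htr) (RH24.sum_ord_eq_finrank _ htr) x
  -- the point of `v`
  obtain ⟨δ, m, hm, hplace, hspec⟩ := (realQ N).exists_point c hz hdeg z₀ hc v hv
  have hspec' : ∀ h : modularFunctionFieldBar N, h ≠ 0 →
      - WithZero.log (merVal z₀ (precompMer δ⁻¹ (phi N h))) = m * v.ord h := by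
    intro h hh
    rw [merVal_precompMer]
    exact hspec h hh
  have hzval : - WithZero.log (merVal z₀ (precompMer δ⁻¹
      (phi N ((realQ N).j - algebraMap Kbar _ c)))) = p := by
    rw [← hval, hvalz, WithZero.log_exp, neg_neg]
  have hmz := hspec' _ hz
  rw [hzval] at hmz
  have hordz := hT1 (δ : SL(2, ℤ) ⧸ Gamma0 N)
  rw [hplace] at hordz
  -- the order of `f`
  have hfG : - WithZero.log (merVal z₀ (precompMer δ⁻¹ (phi N f))) =
      (n : ℤ) * (- WithZero.log (merVal z₀ (precompMer δ⁻¹ G))) := by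
    rw [← hG, map_pow, map_pow, WithZero.log_pow]
    simp only [nsmul_eq_mul]
    ring
  have hmf := hspec' f hf
  rw [hfG] at hmf
  have hp0 : (p : ℤ) ≠ 0 := by exact_mod_cast hp.ne_zero
  by_cases hx : g • (QuotientGroup.mk δ : SL(2, ℤ) ⧸ Gamma0 N) = QuotientGroup.mk δ
  · -- class size `1`, `m = p`
    have hcard : Nat.card {x' // (MulAction.orbitRel (Subgroup.zpowers g)
        (SL(2, ℤ) ⧸ Gamma0 N)) x' (QuotientGroup.mk δ)} = 1 :=
      RH24.class_card_one g (QuotientGroup.mk δ : SL(2, ℤ) ⧸ Gamma0 N) hx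
    rw [hcard] at hordz
    have hmp : m = p := by
      rw [hordz] at hmz
      simpa using hmz.symm
    have hGdvd : (p : ℤ) ∣ WithZero.log (merVal z₀ (precompMer δ⁻¹ G)) := by
      by_cases hG0 : G = 0
      · rw [hG0, map_zero, map_zero, WithZero.log_zero]
        exact dvd_zero _
      · apply h6oe_dvd_log g p z₀ hE
        · intro h0
          exact hG0 ((map_eq_zero (precompMer δ⁻¹)).1 h0)
        · exact h6oe_invariant N χ hpe G hmul g δ hgfin hx
    obtain ⟨k, hk⟩ := hGdvd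
    rw [hk, hmp] at hmf
    refine ⟨-k, ?_⟩
    have h1 : (p : ℤ) * v.ord f = (p : ℤ) * ((n : ℤ) * -k) := by
      rw [← hmf]
      ring
    exact mul_left_cancel₀ hp0 h1
  · -- class size `p`, `m = 1`
    have hcard : Nat.card {x' // (MulAction.orbitRel (Subgroup.zpowers g)
        (SL(2, ℤ) ⧸ Gamma0 N)) x' (QuotientGroup.mk δ)} = p :=
      RH24.class_card_prime g p hp (QuotientGroup.mk δ : SL(2, ℤ) ⧸ Gamma0 N) (hgp _) hx
    rw [hcard] at hordz
    have hm1 : m = 1 := by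
      rw [hordz] at hmz
      have h1 : m * (p : ℤ) = 1 * (p : ℤ) := by rw [one_mul]; exact hmz.symm
      exact mul_right_cancel₀ hp0 h1
    rw [hm1, one_mul] at hmf
    exact ⟨_, hmf.symm⟩

/-! ### the elliptic elements -/

theorem h6oe_S_finOrder : IsOfFinOrder (ModularGroup.S : SL(2, ℤ)) := by
  rw [isOfFinOrder_iff_pow_eq_one]
  refine ⟨4, by norm_num, ?_⟩
  have e : (ModularGroup.S : SL(2, ℤ)) ^ 4 = ModularGroup.S ^ 2 * ModularGroup.S ^ 2 := by
    rw [← pow_add]
  rw [e]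
  apply Subtype.ext
  rw [Matrix.SpecialLinearGroup.coe_mul, RH24.h8_S_sq_coe, Matrix.mul_fin_two]
  ext i j
  fin_cases i <;> fin_cases j <;> simp

theorem h6oe_ST_finOrder : IsOfFinOrder (ModularGroup.S * ModularGroup.T : SL(2, ℤ)) := by
  rw [isOfFinOrder_iff_pow_eq_one]
  refine ⟨6, by norm_num, ?_⟩
  have e : (ModularGroup.S * ModularGroup.T : SL(2, ℤ)) ^ 6 =
      (ModularGroup.S * ModularGroup.T) ^ 3 * (ModularGroup.S * ModularGroup.T) ^ 3 := by
    rw [← pow_add]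
  rw [e]
  apply Subtype.ext
  rw [Matrix.SpecialLinearGroup.coe_mul, RH24.h8_ST_cube_coe, Matrix.mul_fin_two]
  ext i j
  fin_cases i <;> fin_cases j <;> simp

/-- **ORD-ELL**: `H27RIG.OrdEllStatement N n` -/
theorem h6oe_ordEll (n : ℕ) : OrdEllStatement N n := by
  intro G χ f hf hG hpe hmul v hv
  rcases hv with hv | hv
  · obtain ⟨z₀, hz, hj⟩ := RH24.exists_fixed_ST
    have hv' : 0 < v.ord (Jbar N - algebraMap Kbar _ 0) := by rwa [map_zero, sub_zero]
    refine h6oe_core N n (ModularGroup.S * ModularGroup.T) 3 Nat.prime_three h6oe_ST_finOrder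
      (RH24.h8_ST_cube_smul N) 0 z₀ hz (by rw [hj, map_zero]) ?_
      (fun a b ha hb ha0 hb0 h => by
        exact_mod_cast RH24.three_dvd_ordAt_of_fixed z₀ hz a b ha hb ha0 hb0 h)
      G χ f hf hG hpe hmul v hv'
    have h1 : (fun z => RH24.jf z - iota 0) = RH24.jf := by
      funext z
      simp
    rw [h1, RH24.ordAt_jf_of_zero z₀ hj]
    rfl
  · obtain ⟨z₀, hz, hj⟩ := RH24.exists_fixed_S
    refine h6oe_core N n ModularGroup.S 2 Nat.prime_two h6oe_S_finOrder
      (RH24.h8_S_sq_smul N) 1728 z₀ hz (by rw [hj, map_ofNat]) ?_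
      (fun a b ha hb ha0 hb0 h => by
        exact_mod_cast RH24.two_dvd_ordAt_of_fixed z₀ hz a b ha hb ha0 hb0 h)
      G χ f hf hG hpe hmul v hv
    have h1 : (fun z => RH24.jf z - iota 1728) = (fun z => RH24.jf z - 1728) := by
      funext z
      rw [map_ofNat]
    rw [h1, RH24.ordAt_jf_sub_1728 z₀ hj]
    rfl

end H6ORD
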