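import Fermat.Agent.W3G.RIGOrdGen_helper27
import Fermat.Agent.FF.PrincipalDivisors

/-!
# Item 80 (W3G), RIGORD (helper27): assembly

`H27RIG.rigOrd_of` : `H8KUM.RigOrdStatement N n` from
* `DescentStatement N n` (helper10: FIN + AUT + NF), and
* `OrdQbarStatement N n` (`ordQbar_of`: cusps helper16, elliptic points helper6, generic
  `ordGenQ`),
using `ordCGen` (generic places over `ℂ`).
-/

set_option autoImplicit false
set_option linter.style.haveILetI false

noncomputable section

open UpperHalfPlane WithZero AlgebraicCurve CongruenceSubgroup ModularCurve IntermediateField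
open scoped MatrixGroups

namespace H27RIG

open H24D
open RH24 (Kbar Jbar iota Dv Jgen jf jd)

variable (N : ℕ) [NeZero N]

theorem hasPrincipalDivisors_Qbar :
    HasPrincipalDivisors Kbar (modularFunctionFieldBar N) := by
  obtain ⟨hfd, -⟩ := RH24.B_degree N
  haveI := hfd
  exact H27FF.h27ff_hasPrincipalDivisors (RH24.Jbar N) (RH24.B_transcendental N)

/-- a principal divisor all of whose coefficients are divisible by `n > 0` is `n` times a
divisor of degree `0` -/
theorem exists_divisor_div (n : ℕ) (hn : 0 < n) (f : modularFunctionFieldBar N) (hf : f ≠ 0)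
    (hdvd : ∀ v : Place Kbar (modularFunctionFieldBar N), (n : ℤ) ∣ v.ord f) :
    ∃ D : Divisor.degZero (K := Kbar) (F := modularFunctionFieldBar N),
      ∀ v : Place Kbar (modularFunctionFieldBar N),
        (n : ℤ) * (D : Divisor Kbar (modularFunctionFieldBar N)) v = v.ord f := by
  haveI := hasPrincipalDivisors_Qbar N
  obtain ⟨D₀, hD₀, hdeg⟩ := HasPrincipalDivisors.exists_divisor (K := Kbar) f hf
  set D : Divisor Kbar (modularFunctionFieldBar N) :=
    Finsupp.mapRange (fun k : ℤ => k / (n : ℤ)) (by simp) D₀ with hD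
  have hn0 : (n : ℤ) ≠ 0 := by exact_mod_cast hn.ne'
  have hDv : ∀ v, (n : ℤ) * D v = v.ord f := by
    intro v
    rw [hD, Finsupp.mapRange_apply, hD₀ v]
    exact Int.mul_ediv_cancel' (hdvd v)
  have hsmul : (n : ℤ) • D = D₀ := by
    ext v
    rw [Finsupp.smul_apply, smul_eq_mul, hDv v, hD₀ v]
  have hdegD : Divisor.degree D = 0 := by
    have h1 : (n : ℤ) • Divisor.degree D = 0 := by
      rw [← map_zsmul, hsmul, hdeg]
    rcases smul_eq_zero.mp h1 with h2 | h2
    · exact absurd h2 hn0
    · exact h2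
  exact ⟨⟨D, hdegD⟩, hDv⟩

/-- **RIGORD, assembly**. -/
theorem rigOrd_of (n : ℕ) (hD : 0 < n → DescentStatement N n)
    (hQ : 0 < n → OrdQbarStatement N n) : H8KUM.RigOrdStatement N n := by
  intro G χ hG hGn hpe hmul
  rcases Nat.eq_zero_or_pos n with hn0 | hn
  · subst hn0
    exact ⟨1, 1, 0, one_mem _, one_ne_zero, one_ne_zero, by simp, fun v => by simp⟩
  · set W : H2AN3.KN N := ⟨G ^ n, hGn⟩ with hWdef
    have hW : W ≠ 0 := by
      intro h
      have h1 : G ^ n = 0 := congrArg Subtype.val h
      exact hG (pow_eq_zero_iff hn.ne' |>.mp h1)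
    obtain ⟨H, f, hH, hf, hWH⟩ := hD hn W hW
      (fun v h0 h1 => ordCGen N n G W hW rfl v h0 h1)
    have hH0 : (H : Mer) ≠ 0 := fun h => hH (Subtype.ext h)
    have hpow : (G * (H : Mer)) ^ n = phi N f := by
      rw [mul_pow]
      exact congrArg Subtype.val hWH
    have hmul' : ∀ γ : Gamma0 N, precompMer (γ : SL(2, ℤ)) (G * (H : Mer))
        = constMer (χ γ) * (G * (H : Mer)) := by
      intro γ
      rw [map_mul, hmul γ, precompMer_of_mem_KN' N γ γ.2 H.2, mul_assoc]
    have hord := hQ hn (G * (H : Mer)) χ f hf hpow hpe hmul'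
    obtain ⟨D, hDv⟩ := exists_divisor_div N n hn f hf hord
    exact ⟨(H : Mer), f, D, H.2, hH0, hf, hpow, hDv⟩

/-- **RIGORD** from the descent and the two non-generic cases of ORD over `ℚ̄`. -/
theorem rigOrd_of' (n : ℕ) (hD : 0 < n → DescentStatement N n)
    (h1 : 0 < n → OrdCuspStatement N n) (h2 : 0 < n → OrdEllStatement N n) :
    H8KUM.RigOrdStatement N n :=
  rigOrd_of N n hD (fun hn => ordQbar_of N n (h1 hn) (h2 hn) (ordGenQ N n))

end H27RIG

end
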