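import Fermat.Agent.W3G.RIGAut_helper10
import Fermat.Agent.S24.A5Place

/-!
# Item 80 (W3G), RIGORD slice VINF (helper1): the `q`-place of `KN N = ℂ(j_d : d ∣ N)`

`H1VINF.exists_vinf`: there is a place `vinf` of `KN N / ℂ` with `vinf.ord U = ord_q (qexp U)`
(the order of the `q`-expansion); `j` has a pole at `vinf`, and `vinf` is fixed by the
coefficientwise action `rho` of `Aut ℂ`.
-/

set_option autoImplicit false
set_option linter.style.longLine false
set_option linter.unusedSectionVars false
set_option linter.unusedVariables false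
set_option linter.style.haveILetI false

noncomputable section

open ModularCurve AlgebraicCurve

namespace H1VINF

open H24D H27RIG H10RIG
open RH24 (Dv JC)

section Laurent

variable {R : Type*} [Field R]

/-- an injective coefficient map preserves the order -/
theorem order_coeffMap (σ : R →+* R) (x : LaurentSeries R) : (coeffMap σ x).order = x.order := by
  rcases eq_or_ne x 0 with rfl | hx
  · rw [map_zero]
  have hx' : coeffMap σ x ≠ 0 := (map_ne_zero _).2 hx
  apply le_antisymm
  · apply HahnSeries.order_le_of_coeff_ne_zero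
    rw [coeffMap_coeff]
    exact (map_ne_zero σ).2 (HahnSeries.coeff_order_eq_zero.not.2 hx)
  · apply HahnSeries.order_le_of_coeff_ne_zero
    have h := HahnSeries.coeff_order_eq_zero.not.2 hx'
    rw [coeffMap_coeff] at h
    exact fun h0 => h (by rw [h0, map_zero])

theorem order_jqModC' : (jqModC R).order = -1 := by
  have hne : jqModC R ≠ 0 := jqModC_ne_zero_of_nontrivial R
  apply le_antisymm
  · apply HahnSeries.order_le_of_coeff_ne_zero
    rw [coeff_jqModC_neg_one]
    exact one_ne_zero
  · by_contra hcon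
    push Not at hcon
    have h1 : (jqModC R).order < -1 := by omega
    exact HahnSeries.coeff_order_eq_zero.not.2 hne (coeff_jqModC_of_lt R h1)

end Laurent

variable (N : ℕ) [NeZero N]

/-- the order of the `q`-expansion -/
def uq (U : H2AN3.KN N) : ℤ := (qexp N U).order

theorem qexp_ne_zero {U : H2AN3.KN N} (hU : U ≠ 0) : qexp N U ≠ 0 :=
  (map_ne_zero (qexp N)).2 hU

theorem uq_isAddVal : RH24.H2IsAddVal (uq N) where
  map_mul a b ha hb := by
    unfold uq
    rw [map_mul, HahnSeries.order_mul (qexp_ne_zero N ha) (qexp_ne_zero N hb)]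
  map_add a b ha hb hab := by
    unfold uq
    rw [map_add]
    have h : qexp N a + qexp N b ≠ 0 := by
      rw [← map_add]
      exact qexp_ne_zero N hab
    exact HahnSeries.min_order_le_order_add h

theorem uq_const (c : ℂ) (hc : c ≠ 0) : uq N (algebraMap ℂ (H2AN3.KN N) c) = 0 := by
  unfold uq
  rw [qexp_algebraMap, algebraMap_laurentSeries_eq_single, HahnSeries.order_single hc]

theorem uq_jKN : uq N (jKN N) = -1 := by
  unfold uq
  have h : qexp N (jKN N) = jqModC ℂ := by
    show qexp N (jdKN N (dOne N)) = _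
    rw [qexp_jdKN]
    show qExpand ℂ 1 (jqModC ℂ) = jqModC ℂ
    exact qExpand_one_apply _
  rw [h, order_jqModC']

theorem jKN_ne_zero : jKN N ≠ 0 := by
  intro h
  have := uq_jKN N
  rw [h] at this
  unfold uq at this
  rw [map_zero, HahnSeries.order_zero] at this
  omega

theorem uq_rho (σ : ℂ ≃+* ℂ) (U : H2AN3.KN N) : uq N (rho N σ • U) = uq N U := by
  unfold uq
  rw [qexp_rho_smul, order_coeffMap]

/-- **VINF** -/
theorem exists_vinf : ∃ vinf : Place ℂ (H2AN3.KN N),
    vinf.ord (jKN N) < 0 ∧ (∀ σ : ℂ ≃+* ℂ, rho N σ • vinf = vinf) ∧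
    (∀ U : H2AN3.KN N, U ≠ 0 → vinf.ord U = (qexp N U).order) := by
  have hu := uq_isAddVal N
  have hj0 : (jKN N)⁻¹ ≠ 0 := inv_ne_zero (jKN_ne_zero N)
  have hjinv : uq N (jKN N)⁻¹ = 1 := by
    rw [hu.map_inv (jKN_ne_zero N), uq_jKN]
    rfl
  obtain ⟨v, m, hm, hv, hord⟩ := RH24.h2a5_exists_place (K := ℂ) hu (uq_const N) hj0
    (by rw [hjinv]; exact one_pos)
  -- `m = 1`
  have hm1 : m = 1 := by
    have h := hord _ hj0
    rw [hjinv] at h
    have hdvd : m ∣ 1 := ⟨_, h⟩
    exact Int.eq_one_of_dvd_one hm.le hdvd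
  have hord' : ∀ U : H2AN3.KN N, U ≠ 0 → v.ord U = uq N U := by
    intro U hU
    rw [hord U hU, hm1, one_mul]
  refine ⟨v, ?_, ?_, fun U hU => hord' U hU⟩
  · rw [hord' _ (jKN_ne_zero N), uq_jKN]
    exact neg_one_lt_zero
  · intro σ
    apply Place.ext
    rw [SemilinearAut.smul_toValuationSubring, hv]
    ext x
    rw [ValuationSubring.mem_smul_pointwise_iff_exists]
    constructor
    · rintro ⟨s, hs, rfl⟩
      rw [hu.mem_valuationSubring] at hs
      rw [hu.mem_valuationSubring]
      rcases hs with rfl | hs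
      · left
        exact smul_zero _
      · right
        rwa [uq_rho]
    · intro hx
      rw [hu.mem_valuationSubring] at hx
      refine ⟨(rho N σ)⁻¹ • x, ?_, smul_inv_smul _ _⟩
      rw [hu.mem_valuationSubring]
      rcases hx with rfl | hx
      · left
        exact smul_zero _
      · right
        rw [← map_inv, uq_rho]
        exact hx

end H1VINF
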