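import Fermat.Agent.W3G.RIGDescent_helper10
import Fermat.Agent.W3G.RIGVinf_helper1

/-!
# Item 80 (W3G), slice RIG (helper10): the descent, UNCONDITIONAL

`H10RIG.descent N n hn : H27RIG.DescentStatement N n` for `0 < n`.
-/

set_option autoImplicit false

noncomputable section

open AlgebraicCurve

namespace H10RIG

variable (N : ℕ) [NeZero N]

theorem vinfStatement : VinfStatement N := by
  obtain ⟨vinf, h1, h2, -⟩ := H1VINF.exists_vinf N
  exact ⟨vinf, h1, h2⟩

/-- **RIG (descent)**, unconditional. -/
theorem descent (n : ℕ) (hn : 0 < n) : H27RIG.DescentStatement N n :=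
  descent_of_vinf N n hn (vinfStatement N)

end H10RIG

end
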