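import Fermat.Agent.W3G.RIGCuspB_helper27

/-!
# Item 80 (W3G), RIGORD, slice ORD-CUSP (helper27), part C: the cusp dictionary in `Mer` and
the assembly of `OrdCuspStatement`

* `H27RIG.cusp_dict` : every place `v` over `j = ∞` comes from a coset `[δ]` of width `c`:
  for `f ≠ 0`, `(phi N f) ∘ δ⁻¹ = a / b` with `a, b ∈ HolInf N` and
  `ordInf a - ordInf b = (N / c) * v.ord f`;
* `H27RIG.CuspLocalStatement N` : the local lemma at the cusp (helper16);
* `H27RIG.ordCusp_of` : `OrdCuspStatement N n` from the local lemma.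
-/

set_option autoImplicit false
set_option linter.style.haveILetI false

noncomputable section

open UpperHalfPlane ModularForm MatrixGroups CongruenceSubgroup AlgebraicCurve IntermediateField
open scoped Manifold WithZero

namespace H27RIG

open RH24 (Kbar Jbar iota Dv Jgen jf jd jdt)
open H24D

variable (N : ℕ) [NeZero N]

/-- an element of `HolInf N` as an element of `Hol` -/
def toHol (a : (RH24.h8_ringInf N).A) : Hol := ⟨(a : ℍ → ℂ), (RH24.h8_ringInf N).le a.2⟩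

theorem coe_toHol (a : (RH24.h8_ringInf N).A) : ((toHol N a : Hol) : ℍ → ℂ) = (a : ℍ → ℂ) := rfl

theorem toHol_ne_zero (a : (RH24.h8_ringInf N).A) (ha : a ≠ 0) : toHol N a ≠ 0 := by
  intro h
  apply ha
  apply Subtype.ext
  have h1 : ((toHol N a : Hol) : ℍ → ℂ) = ((0 : Hol) : ℍ → ℂ) := congrArg Subtype.val h
  exact h1

theorem precomp_polyHolK (δ : SL(2, ℤ)) (P : MvPolynomial (Dv N) Kbar) :
    precomp δ⁻¹ (polyHolK N P)
      = toHol N ((RH24.h8_ringInf N).polyHol δ (MvPolynomial.map iota P)) := by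
  apply Subtype.ext
  funext z
  rw [precomp_apply, polyHolK_apply, coe_toHol, RH24.h20_Ring.polyHol_apply,
    MvPolynomial.eval_map]
  unfold polyFunAt
  simp only [one_smul]
  rfl

theorem precompMer_phi_aeval (δ : SL(2, ℤ)) (P : MvPolynomial (Dv N) Kbar) :
    precompMer δ⁻¹ (phi N (MvPolynomial.aeval (fun d : Dv N => Jgen d) P))
      = algebraMap Hol Mer
          (toHol N ((RH24.h8_ringInf N).polyHol δ (MvPolynomial.map iota P))) := by
  rw [phi_aeval, precompMer_algebraMap, precomp_polyHolK]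

/-- **The cusp dictionary.** -/
theorem cusp_dict (v : Place Kbar (ModularCurve.modularFunctionFieldBar N))
    (hv : v.ord (Jbar N) < 0) :
    ∃ (δ : SL(2, ℤ)) (c : ℕ), 0 < c ∧ c ∣ N ∧ δ⁻¹ * ModularGroup.T ^ c * δ ∈ Gamma0 N ∧
      ∀ f : ModularCurve.modularFunctionFieldBar N, f ≠ 0 →
        ∃ a b : Hol, a ≠ 0 ∧ b ≠ 0 ∧ (a : ℍ → ℂ) ∈ RH24.HolInf N ∧
          (b : ℍ → ℂ) ∈ RH24.HolInf N ∧
          precompMer δ⁻¹ (phi N f) * algebraMap Hol Mer b = algebraMap Hol Mer a ∧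
          (RH24.ordInf N (a : ℍ → ℂ)).untop₀ - (RH24.ordInf N (b : ℍ → ℂ)).untop₀
            = ((N / c : ℕ) : ℤ) * v.ord f := by
  obtain ⟨δ, c, hc, hcN, hT, hspec⟩ := cusp_exists N v hv
  refine ⟨δ, c, hc, hcN, ?_, fun f hf => ?_⟩
  · have h1 : ((ModularGroup.T ^ c * δ : SL(2, ℤ)) : SL(2, ℤ) ⧸ Gamma0 N)
        = (δ : SL(2, ℤ) ⧸ Gamma0 N) := hT
    rw [QuotientGroup.eq] at h1
    have h2 := inv_mem h1
    have h3 : ((ModularGroup.T ^ c * δ)⁻¹ * δ)⁻¹ = δ⁻¹ * ModularGroup.T ^ c * δ := by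
      group
    rwa [h3] at h2
  · obtain ⟨P, Q, hQ, rfl⟩ := RH24.exists_frac N f
    have hP : MvPolynomial.aeval (fun d : Dv N => Jgen d) P ≠ 0 := by
      intro h0
      apply hf
      rw [h0, zero_div]
    set R := RH24.h8_ringInf N with hR
    have ha := R.polyHol_ne_zero δ P hP
    have hb := R.polyHol_ne_zero δ Q hQ
    refine ⟨toHol N (R.polyHol δ (MvPolynomial.map iota P)),
      toHol N (R.polyHol δ (MvPolynomial.map iota Q)), toHol_ne_zero N _ ha,
      toHol_ne_zero N _ hb, (R.polyHol δ (MvPolynomial.map iota P)).2,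
      (R.polyHol δ (MvPolynomial.map iota Q)).2, ?_, ?_⟩
    · rw [map_div₀, map_div₀, precompMer_phi_aeval, precompMer_phi_aeval]
      have hb' : algebraMap Hol Mer (toHol N (R.polyHol δ (MvPolynomial.map iota Q))) ≠ 0 := by
        intro h
        exact toHol_ne_zero N _ hb ((IsFractionRing.injective Hol Mer) (by rw [h, map_zero]))
      exact div_mul_cancel₀ _ hb'
    · have h1 := hspec _ hf
      rw [R.w_phi_frac δ P Q hP hQ, WithZero.log_exp, neg_neg] at h1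
      exact h1

/-- **The local lemma at the cusp** (helper16). -/
def CuspLocalStatement : Prop :=
  ∀ (n c : ℕ), 0 < n → 0 < c → c ∣ N → ∀ g : Mer, g ≠ 0 →
    precompMer (ModularGroup.T ^ c) g = g →
    ∀ a b : Hol, a ≠ 0 → b ≠ 0 → (a : ℍ → ℂ) ∈ RH24.HolInf N → (b : ℍ → ℂ) ∈ RH24.HolInf N →
      g ^ n * algebraMap Hol Mer b = algebraMap Hol Mer a →
      ((n * (N / c) : ℕ) : ℤ) ∣
        (RH24.ordInf N (a : ℍ → ℂ)).untop₀ - (RH24.ordInf N (b : ℍ → ℂ)).untop₀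

theorem trace_conj_T_pow (δ : SL(2, ℤ)) (c : ℕ) :
    ((δ⁻¹ * ModularGroup.T ^ c * δ : SL(2, ℤ)) : Matrix (Fin 2) (Fin 2) ℤ).trace = 2 := by
  have h1 : ((δ⁻¹ * ModularGroup.T ^ c * δ : SL(2, ℤ)) : Matrix (Fin 2) (Fin 2) ℤ)
      = ((δ⁻¹ * ModularGroup.T ^ c : SL(2, ℤ)) : Matrix (Fin 2) (Fin 2) ℤ)
        * (δ : Matrix (Fin 2) (Fin 2) ℤ) := by
    rw [Matrix.SpecialLinearGroup.coe_mul]
  rw [h1, Matrix.trace_mul_comm, ← Matrix.SpecialLinearGroup.coe_mul]
  have h2 : δ * (δ⁻¹ * ModularGroup.T ^ c) = ModularGroup.T ^ c := by group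
  rw [h2, RH24.h8o_T_pow_coe]
  simp [Matrix.trace_fin_two]

/-- **ORD over `ℚ̄`, cusps**, from the local lemma. -/
theorem ordCusp_of (hloc : CuspLocalStatement N) (n : ℕ) (hn : 0 < n) :
    OrdCuspStatement N n := by
  intro G χ f hf hG hpe hmul v hv
  obtain ⟨δ, c, hc, hcN, hγ, hspec⟩ := cusp_dict N v hv
  obtain ⟨a, b, ha, hb, haI, hbI, hrel, hord⟩ := hspec f hf
  have hG0 : G ≠ 0 := by
    rintro rfl
    rw [zero_pow hn.ne'] at hG
    exact hf ((map_eq_zero (phi N)).mp hG.symm)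
  set g : Mer := precompMer δ⁻¹ G with hg
  have hg0 : g ≠ 0 := (map_ne_zero (precompMer δ⁻¹)).mpr hG0
  have hχ : χ ⟨δ⁻¹ * ModularGroup.T ^ c * δ, hγ⟩ = 1 := by
    apply hpe
    left
    show ((δ⁻¹ * ModularGroup.T ^ c * δ : SL(2, ℤ)) : Matrix (Fin 2) (Fin 2) ℤ).trace ^ 2 = 4
    rw [trace_conj_T_pow]
    norm_num
  have hinv : precompMer (δ⁻¹ * ModularGroup.T ^ c * δ) G = G := by
    have := hmul ⟨δ⁻¹ * ModularGroup.T ^ c * δ, hγ⟩
    rw [hχ, map_one, one_mul] at this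
    exact this
  have hper : precompMer (ModularGroup.T ^ c) g = g := by
    rw [hg, ← precompMer_mul_apply]
    have h1 : δ⁻¹ * ModularGroup.T ^ c = (δ⁻¹ * ModularGroup.T ^ c * δ) * δ⁻¹ := by group
    rw [h1, precompMer_mul_apply, hinv]
  have hrel' : g ^ n * algebraMap Hol Mer b = algebraMap Hol Mer a := by
    rw [hg, ← map_pow, hG]
    exact hrel
  have hdvd := hloc n c hn hc hcN g hg0 hper a b ha hb haI hbI hrel'
  rw [hord] at hdvd
  have hNc : 0 < N / c := Nat.div_pos (Nat.le_of_dvd (Nat.pos_of_ne_zero (NeZero.ne N)) hcN) hc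
  have hNc' : ((N / c : ℕ) : ℤ) ≠ 0 := by exact_mod_cast hNc.ne'
  rw [Nat.cast_mul, mul_comm (n : ℤ)] at hdvd
  exact (mul_dvd_mul_iff_left hNc').mp hdvd

end H27RIG

end
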