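import Fermat.Agent.W3G.RIGOrdCusp_helper16
import Fermat.Agent.W3G.RIGOrdDefs_helper27
import Fermat.Agent.W3G.RIGCuspC_helper27

/-!
# Item 80 (W3G), RIGORD, slice ORD-CUSP (helper16): assembly

`H16OC.CuspDictStatement N` (the cusp dictionary, helper27's CUSP-DICT): every place `v` of
`F = modularFunctionFieldBar N` over `j = ∞` is the place of a cusp `δ · ∞` of width `c ∣ N`:
`δ⁻¹ T^c δ ∈ Γ₀(N)` and for `f ∈ F^×` the function `(phi N f) ∘ δ⁻¹` is a quotient `a / b` of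
`N`-periodic holomorphic functions of moderate growth with
`ord_∞ a - ord_∞ b = (N / c) · ord_v f`.

`H16OC.ordCusp_of_dict : CuspDictStatement N → OrdCuspStatement N n`  (via `H16OC.cusp_local`).

FINAL (with helper27's `H27RIG.cusp_dict`):
* `H16OC.h16_cuspLocal N : H27RIG.CuspLocalStatement N`;
* `H16OC.h16_ordCusp N n : H27RIG.OrdCuspStatement N n`  (unconditional, all `n`).
-/

set_option autoImplicit false
set_option linter.style.longLine false

noncomputable section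

open UpperHalfPlane WithZero AlgebraicCurve CongruenceSubgroup ModularCurve
open scoped MatrixGroups

namespace H16OC

open H24D
open RH24 (Kbar Jbar)

/-- **CUSP-DICT**: the dictionary between the places over `j = ∞` and the cusps. -/
def CuspDictStatement (N : ℕ) [NeZero N] : Prop :=
  ∀ v : Place Kbar (modularFunctionFieldBar N), v.ord (Jbar N) < 0 →
    ∃ (δ : SL(2, ℤ)) (c : ℕ), 0 < c ∧ c ∣ N ∧ δ⁻¹ * ModularGroup.T ^ c * δ ∈ Gamma0 N ∧
      ∀ f : modularFunctionFieldBar N, f ≠ 0 → ∃ a b : Hol, a ≠ 0 ∧ b ≠ 0 ∧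
        (a : ℍ → ℂ) ∈ RH24.HolInf N ∧ (b : ℍ → ℂ) ∈ RH24.HolInf N ∧
        precompMer δ⁻¹ (phi N f) * algebraMap Hol Mer b = algebraMap Hol Mer a ∧
        (RH24.ordInf N a).untop₀ - (RH24.ordInf N b).untop₀ = ((N / c : ℕ) : ℤ) * v.ord f

/-- the trace of a conjugate of `T ^ c` is `2` -/
theorem h16_trace_conj_T (δ : SL(2, ℤ)) (c : ℕ) :
    ((δ⁻¹ * ModularGroup.T ^ c * δ : SL(2, ℤ)) : Matrix (Fin 2) (Fin 2) ℤ).trace = 2 := by
  have h1 : ((δ⁻¹ * ModularGroup.T ^ c * δ : SL(2, ℤ)) : Matrix (Fin 2) (Fin 2) ℤ)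
      = (δ⁻¹ : SL(2, ℤ)).1 * (ModularGroup.T ^ c : SL(2, ℤ)).1 * δ.1 := by
    simp [Matrix.SpecialLinearGroup.coe_mul]
  rw [h1, Matrix.trace_mul_cycle]
  have h2 : δ.1 * (δ⁻¹ : SL(2, ℤ)).1 = 1 := by
    rw [← Matrix.SpecialLinearGroup.coe_mul, mul_inv_cancel]
    rfl
  rw [h2, one_mul]
  have h3 : ((ModularGroup.T ^ c : SL(2, ℤ)) : Matrix (Fin 2) (Fin 2) ℤ) = !![1, (c : ℤ); 0, 1] := by
    rw [← zpow_natCast, ModularGroup.coe_T_zpow]
  rw [h3]
  simp [Matrix.trace_fin_two]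

/-- **ORD-CUSP** from the cusp dictionary. -/
theorem ordCusp_of_dict (N : ℕ) [NeZero N] (n : ℕ) (hdict : CuspDictStatement N) :
    H27RIG.OrdCuspStatement N n := by
  intro G χ f hf hG hpe hmul v hv
  rcases Nat.eq_zero_or_pos n with hn0 | hn
  · subst hn0
    rw [pow_zero] at hG
    have h1 : f = 1 := by
      apply (phi N).injective
      rw [← hG, map_one]
    rw [h1, v.ord_one]
    exact dvd_zero _
  obtain ⟨δ, c, hc, hcN, hγ, hd⟩ := hdict v hv
  obtain ⟨a, b, ha, hb, haI, hbI, hrel, hord⟩ := hd f hf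
  have hG0 : G ≠ 0 := by
    intro h0
    rw [h0, zero_pow hn.ne'] at hG
    exact hf ((phi N).injective (by rw [← hG, map_zero]))
  have hg0 : precompMer δ⁻¹ G ≠ 0 := (map_ne_zero _).mpr hG0
  -- invariance under `T ^ c`
  have hχ : χ ⟨δ⁻¹ * ModularGroup.T ^ c * δ, hγ⟩ = 1 := by
    apply hpe
    left
    show ((δ⁻¹ * ModularGroup.T ^ c * δ : SL(2, ℤ)) : Matrix (Fin 2) (Fin 2) ℤ).trace ^ 2 = 4
    rw [h16_trace_conj_T]
    norm_num
  have hper : precompMer (ModularGroup.T ^ c) (precompMer δ⁻¹ G) = precompMer δ⁻¹ G := by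
    have h1 : δ⁻¹ * ModularGroup.T ^ c = (δ⁻¹ * ModularGroup.T ^ c * δ) * δ⁻¹ := by group
    rw [← precompMer_mul_apply, h1, precompMer_mul_apply]
    have h2 := hmul ⟨δ⁻¹ * ModularGroup.T ^ c * δ, hγ⟩
    rw [hχ, map_one, one_mul] at h2
    rw [h2]
  have hrel' : (precompMer δ⁻¹ G) ^ n * algebraMap Hol Mer b = algebraMap Hol Mer a := by
    rw [← map_pow, hG]
    exact hrel
  have hdvd := cusp_local N n c hn hc hcN (precompMer δ⁻¹ G) hg0 hper a b ha hb haI hbI hrel'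
  rw [hord] at hdvd
  have hpos : 0 < N / c := Nat.div_pos (Nat.le_of_dvd (Nat.pos_of_ne_zero (NeZero.ne N)) hcN) hc
  push_cast at hdvd
  rw [mul_comm (n : ℤ)] at hdvd
  exact (mul_dvd_mul_iff_left (by exact_mod_cast hpos.ne')).mp hdvd

/-- the local lemma in helper27's packaging -/
theorem h16_cuspLocal (N : ℕ) [NeZero N] : H27RIG.CuspLocalStatement N :=
  fun n c hn hc hcN g hg hper a b ha hb haI hbI h =>
    cusp_local N n c hn hc hcN g hg hper a b ha hb haI hbI h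

/-- the cusp dictionary (helper27) -/
theorem h16_cuspDict (N : ℕ) [NeZero N] : CuspDictStatement N :=
  fun v hv => H27RIG.cusp_dict N v hv

/-- **ORD-CUSP**, unconditional. -/
theorem h16_ordCusp (N : ℕ) [NeZero N] (n : ℕ) : H27RIG.OrdCuspStatement N n :=
  ordCusp_of_dict N n (h16_cuspDict N)

end H16OC

end
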