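/-
Item 80 (W3G), slice AN3 (helper2), part (L1), second half: an `SL₂(ℤ)`-invariant element of
`Mer` which is algebraic over `ℂ(j)` is a rational function of `j`.
-/
import Mathlib
import Fermat.Agent.W3G.AN3L1a_helper2
import Fermat.Agent.H23.RevPrelim

set_option autoImplicit false

noncomputable section

open UpperHalfPlane ModularForm MatrixGroups CongruenceSubgroup EisensteinSeries Filter
open scoped Manifold Topology

namespace H2AN3

open H24D
open RH24 (Dv jf jd)

local notation "Δ" => ModularForm.discriminant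

theorem mdiff_disc : MDiff (fun z : ℍ => Δ z) := CuspFormClass.holo CuspForm.discriminant

/-- a holomorphic `SL₂(ℤ)`-invariant function `f` with `f Δ^M` bounded at `i∞` gives the level one
modular form `f Δ^M` of weight `12 M` -/
def mkForm (f : ℍ → ℂ) (hf : MDiff f) (hinv : ∀ (γ : SL(2, ℤ)) (z : ℍ), f (γ • z) = f z)
    (M : ℕ) (hb : IsBoundedAtImInfty (fun z => f z * Δ z ^ M)) :
    ModularForm 𝒮ℒ (12 * (M : ℤ)) where
  toFun z := f z * Δ z ^ M
  slash_action_eq' := by
    rintro _ ⟨γ, rfl⟩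
    funext z
    show ((fun z => f z * Δ z ^ M) ∣[12 * (M : ℤ)] γ) z = _
    rw [SL_slash_apply, hinv, H23.disc_smul]
    have hd : denom γ z ≠ 0 := denom_ne_zero γ z
    rw [mul_pow, ← pow_mul, zpow_neg, ← zpow_natCast (denom γ z) (12 * M)]
    push_cast
    field_simp
  holo' := hf.mul (mdiff_disc.pow M)
  bdd_at_cusps' {c} hc := by
    rw [Subgroup.IsArithmetic.isCusp_iff_isCusp_SL2Z] at hc
    rw [OnePoint.isBoundedAt_iff_forall_SL2Z hc]
    intro γ _
    have : ((fun z => f z * Δ z ^ M) ∣[12 * (M : ℤ)] γ) = fun z => f z * Δ z ^ M := by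
      funext z
      rw [SL_slash_apply, hinv, H23.disc_smul]
      have hd : denom γ z ≠ 0 := denom_ne_zero γ z
      rw [mul_pow, ← pow_mul, zpow_neg, ← zpow_natCast (denom γ z) (12 * M)]
      push_cast
      field_simp
    rw [this]
    exact hb

theorem mkForm_apply (f : ℍ → ℂ) (hf : MDiff f)
    (hinv : ∀ (γ : SL(2, ℤ)) (z : ℍ), f (γ • z) = f z)
    (M : ℕ) (hb : IsBoundedAtImInfty (fun z => f z * Δ z ^ M)) (z : ℍ) :
    mkForm f hf hinv M hb z = f z * Δ z ^ M := rfl

/-- a holomorphic, `SL₂(ℤ)`-invariant function of moderate growth is a polynomial in `j` -/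
theorem exists_poly_of_invariant (f : Hol)
    (hinv : ∀ (γ : SL(2, ℤ)) (z : ℍ), (f : ℍ → ℂ) (γ • z) = (f : ℍ → ℂ) z)
    (hmod : RH24.ModerateGrowth (f : ℍ → ℂ)) : ∃ P : Polynomial ℂ, f = polyJHol P := by
  obtain ⟨M, hM⟩ := hmod
  obtain ⟨P, hP⟩ := levelOne_structure M _ rfl (mkForm f f.2 hinv M hM)
  refine ⟨P, Subtype.ext (funext fun z => ?_)⟩
  have h := hP z
  have h0 := mkForm_apply f f.2 hinv M hM z
  rw [h0, mul_comm] at h
  have hΔ : Δ z ^ M ≠ 0 := pow_ne_zero _ (discriminant_ne_zero z)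
  rw [polyJHol_apply]
  exact mul_left_cancel₀ hΔ h

theorem precompMer_polyJ (γ : SL(2, ℤ)) (P : Polynomial ℂ) :
    precompMer γ (polyJ P) = polyJ P := by
  rw [polyJ_apply, precompMer_algebraMap]
  congr 1
  apply Subtype.ext
  funext z
  rw [precomp_apply, polyJHol_apply, polyJHol_apply, RH24.jf_smul]

/-- **(L1), integral form**: an `SL₂(ℤ)`-invariant element of `Mer` which is integral over
`ℂ[j]` is a polynomial in `j`. -/
theorem l1_integral (h : Mer) (hinv : ∀ γ : SL(2, ℤ), precompMer γ h = h)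
    (q : Polynomial (Polynomial ℂ)) (hq : q.Monic) (hroot : q.eval₂ polyJ h = 0) :
    ∃ P : Polynomial ℂ, h = polyJ P := by
  obtain ⟨f, hf, hfroot⟩ := exists_hol_of_integral h q hq hroot
  have hfinv : ∀ (γ : SL(2, ℤ)) (z : ℍ), (f : ℍ → ℂ) (γ • z) = (f : ℍ → ℂ) z := by
    intro γ z
    have h1 := hinv γ
    rw [← hf, precompMer_algebraMap] at h1
    have h2 := algebraMap_Hol_injective h1
    have h3 := congrArg (fun F : Hol => (F : ℍ → ℂ) z) h2
    simpa using h3
  obtain ⟨P, hP⟩ := exists_poly_of_invariant f hfinv (moderateGrowth_of_integral f q hq hfroot)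
  exact ⟨P, by rw [← hf, hP]; rfl⟩

/-- **(L1), algebraic form**: an `SL₂(ℤ)`-invariant element of `Mer` which is algebraic over
`ℂ[j]` is a rational function of `j`. -/
theorem l1_algebraic (g : Mer) (hinv : ∀ γ : SL(2, ℤ), precompMer γ g = g)
    (p : Polynomial (Polynomial ℂ)) (hp : p ≠ 0) (hroot : p.eval₂ polyJ g = 0) :
    ∃ P Q : Polynomial ℂ, Q ≠ 0 ∧ polyJ Q * g = polyJ P := by
  let _ : Algebra (Polynomial ℂ) Mer := polyJ.toAlgebra
  have halg : IsAlgebraic (Polynomial ℂ) g := ⟨p, hp, hroot⟩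
  obtain ⟨y, hy, hint⟩ := halg.exists_integral_multiple
  obtain ⟨q, hq, hqroot⟩ := hint
  have hyg : y • g = polyJ y * g := rfl
  rw [hyg] at hqroot
  have hinv' : ∀ γ : SL(2, ℤ), precompMer γ (polyJ y * g) = polyJ y * g := by
    intro γ
    rw [map_mul, hinv γ, precompMer_polyJ]
  obtain ⟨P, hP⟩ := l1_integral (polyJ y * g) hinv' q hq hqroot
  exact ⟨P, y, hy, hP⟩

end H2AN3

end
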