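/-
Item 80 (W3G), slice AN3 (helper2), form (A), part 1: the elements of `Mer` which are algebraic
over `ℂ[j]` form a subfield `ACF` containing `KN N = ℂ(j_d : d ∣ N)`.
-/
import Mathlib
import Fermat.Agent.W3G.AN3L1b_helper2
import Fermat.Agent.S24.BDegreeFinal

set_option autoImplicit false

noncomputable section

open UpperHalfPlane ModularForm MatrixGroups CongruenceSubgroup EisensteinSeries Filter
open IntermediateField
open scoped Manifold Topology

namespace H2AN3

open H24D
open RH24 (Dv jf jd Kbar Jbar Jgen iota)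

local notation "Δ" => ModularForm.discriminant

/-- the `ℂ[j]`-algebra structure of `Mer` (used as a local instance) -/
@[reducible] def algJ : Algebra (Polynomial ℂ) Mer := polyJ.toAlgebra

attribute [local instance] algJ

theorem algebraMap_algJ (P : Polynomial ℂ) : algebraMap (Polynomial ℂ) Mer P = polyJ P := rfl

/-- the subfield of `Mer` of the elements which are algebraic over `ℂ[j]` -/
def ACF : Subfield Mer where
  toSubring := (Subalgebra.algebraicClosure (Polynomial ℂ) Mer).toSubring
  inv_mem' := fun _ hx => IsAlgebraic.inv hx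

theorem mem_ACF {x : Mer} : x ∈ ACF ↔ IsAlgebraic (Polynomial ℂ) x := Iff.rfl

theorem polyJ_mem_ACF (P : Polynomial ℂ) : polyJ P ∈ ACF :=
  mem_ACF.mpr (isAlgebraic_algebraMap (R := Polynomial ℂ) (A := Mer) P)

theorem constMer_mem_ACF (c : ℂ) : constMer c ∈ ACF := by
  rw [← polyJ_C]; exact polyJ_mem_ACF _

theorem jMer_mem_ACF : jMer ∈ ACF := by
  rw [← polyJ_X]; exact polyJ_mem_ACF _

/-- transitivity: an element which is algebraic over a subfield of `ACF` lies in `ACF` -/
theorem mem_ACF_of_isAlgebraic (S : Subfield Mer) (hS : S ≤ ACF) (g : Mer)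
    (hg : IsAlgebraic S g) : g ∈ ACF := by
  let B := Subalgebra.algebraicClosure (Polynomial ℂ) Mer
  let incl : S →+* B := (S.subtype).codRestrict B (fun x => hS x.2)
  have hincl : Function.Injective incl := by
    intro x y hxy
    apply Subtype.ext
    exact congrArg (fun b : B => (b : Mer)) hxy
  have hB : IsAlgebraic B g := by
    obtain ⟨p, hp, hpg⟩ := hg
    refine ⟨p.map incl, (Polynomial.map_ne_zero_iff hincl).mpr hp, ?_⟩
    rw [Polynomial.aeval_def, Polynomial.eval₂_map]
    rw [Polynomial.aeval_def] at hpg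
    exact hpg
  exact mem_ACF.mpr (hB.restrictScalars (Polynomial ℂ))

variable (N : ℕ) [NeZero N]

/-- `phi` maps `ℚ̄(j)` into `ACF` -/
theorem phi_mem_ACF_of_mem (x : ModularCurve.modularFunctionFieldBar N)
    (hx : x ∈ Kbar⟮Jbar N⟯) : phi N x ∈ ACF := by
  have hle : (Kbar⟮Jbar N⟯).toSubfield ≤ ACF.comap (phi N) := by
    show Subfield.closure _ ≤ _
    rw [Subfield.closure_le]
    rintro y (⟨c, rfl⟩ | hy)
    · show phi N _ ∈ ACF
      rw [phi_const]
      exact constMer_mem_ACF _
    · rw [Set.mem_singleton_iff] at hy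
      subst hy
      show phi N _ ∈ ACF
      rw [phi_Jbar]
      exact jMer_mem_ACF
  exact hle hx

/-- the functions `j(d z)` are algebraic over `ℂ[j]` -/
theorem jdMer_mem_ACF (d : Dv N) : jdMer d ∈ ACF := by
  have hfin : FiniteDimensional Kbar⟮Jbar N⟯ (ModularCurve.modularFunctionFieldBar N) :=
    (RH24.B_degree N).1
  have halg : IsAlgebraic Kbar⟮Jbar N⟯ (Jgen d) :=
    (@IsIntegral.of_finite Kbar⟮Jbar N⟯ (ModularCurve.modularFunctionFieldBar N) _ _ _ hfin
      (Jgen d)).isAlgebraic
  let f₀ : Kbar⟮Jbar N⟯ →+* ACF :=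
    ((phi N).comp (algebraMap Kbar⟮Jbar N⟯ (ModularCurve.modularFunctionFieldBar N))).codRestrict
      ACF (fun x => phi_mem_ACF_of_mem N _ x.2)
  have hf₀ : Function.Injective f₀ := f₀.injective
  have h := halg.ringHom_of_comp_eq f₀ (phi N) hf₀ (by ext x; rfl)
  rw [phi_Jgen] at h
  exact mem_ACF_of_isAlgebraic ACF le_rfl _ h

theorem KN_le_ACF : KN N ≤ ACF := by
  unfold KN
  rw [Subfield.closure_le]
  rintro y (⟨c, rfl⟩ | ⟨d, rfl⟩)
  · exact constMer_mem_ACF c
  · exact jdMer_mem_ACF N d

theorem K1_le_KN : K1 ≤ KN N := by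
  unfold K1 KN
  rw [Subfield.closure_le]
  rintro y (⟨c, rfl⟩ | hy)
  · exact Subfield.subset_closure (Or.inl ⟨c, rfl⟩)
  · rw [Set.mem_singleton_iff] at hy
    subst hy
    refine Subfield.subset_closure (Or.inr ⟨dOne N, ?_⟩)
    show jdMer (dOne N) = jMer
    unfold jdMer jMer
    rw [jdHol_dOne]

theorem polyJ_mem_K1 (P : Polynomial ℂ) : polyJ P ∈ K1 := by
  induction P using Polynomial.induction_on' with
  | add p q hp hq => rw [map_add]; exact add_mem hp hq
  | monomial n a =>
    rw [← Polynomial.C_mul_X_pow_eq_monomial, map_mul, map_pow, polyJ_C, polyJ_X]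
    have h1 : constMer a ∈ K1 := Subfield.subset_closure (Or.inl ⟨a, rfl⟩)
    have h2 : jMer ∈ K1 := Subfield.subset_closure (Or.inr (Set.mem_singleton _))
    exact mul_mem h1 (pow_mem h2 n)

/-- an element which is algebraic over `KN N` is algebraic over `ℂ[j]` -/
theorem isAlgebraic_polyJ_of_isAlgebraic_KN (g : Mer) (hg : IsAlgebraic (KN N) g) :
    IsAlgebraic (Polynomial ℂ) g :=
  mem_ACF.mp (mem_ACF_of_isAlgebraic (KN N) (KN_le_ACF N) g hg)

end H2AN3

end
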