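import Mathlib
import Fermat.Agent.H23.ForwardR1
import Fermat.Agent.H23.RevPrelim
import Fermat.Agent.S24.BC1
import Fermat.Agent.S24.BJ12
import Fermat.Agent.S24.BH1
import Fermat.Agent.S24.BH3
import Fermat.Agent.S24.BI

set_option autoImplicit false
set_option linter.style.haveILetI false

noncomputable section

open UpperHalfPlane ModularForm SlashInvariantForm SlashInvariantFormClass ModularFormClass
  CuspFormClass MatrixGroups OnePoint Filter EisensteinSeries Asymptotics CongruenceSubgroup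
open scoped Topology Manifold
open Matrix.SpecialLinearGroup

namespace H10AN3

attribute [local instance] H23.h20_Q_fintype H23.h20_Q_decEq H23.h20_Q_nonempty

variable (N : ℕ) [NeZero N]

/-- `Δ^M · j(N z)` as a slash invariant form of weight `12 M` on `Γ₀(N)`. -/
def jT (M : ℕ) : SlashInvariantForm (CongruenceSubgroup.Gamma0 N) ((12 * M : ℕ) : ℤ) where
  toFun := fun z => ModularForm.discriminant z ^ M * RH24.jd N z
  slash_action_eq' := by
    rintro _ ⟨γ, hγ, rfl⟩
    refine H23.h20_slash_of_pointwise (fun z => ?_)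
    have h1 := RH24.jd_smul_of_mem_Gamma0 N ⟨N, dvd_rfl⟩ γ hγ z
    have h2 := H23.disc_smul γ z
    simp only at h1
    rw [h1, h2]
    ring

theorem jT_apply (M : ℕ) (z : ℍ) : jT N M z = ModularForm.discriminant z ^ M * RH24.jd N z := rfl

/-- a uniform representative: the translate attached to a coset is the slash by a fixed element
of `SL(2,ℤ)`. -/
theorem quotientFunc_eq_slash_unif (q : H23.h20_Q N) :
    ∃ γ : SL(2, ℤ), ∀ (k : ℤ) (f : SlashInvariantForm (CongruenceSubgroup.Gamma0 N) k),
      SlashInvariantForm.quotientFunc f q = (⇑f) ∣[k] γ := by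
  induction q using Quotient.inductionOn with
  | h r =>
    obtain ⟨γ, hγ⟩ := r.2
    refine ⟨γ⁻¹, fun k f => ?_⟩
    rw [SlashInvariantForm.quotientFunc_mk, SL_slash]
    congr 1
    rw [← hγ]
    simp [mapGL]

/-- pointwise form of a translate of `jT`. -/
theorem jT_slash_apply (M : ℕ) (γ : SL(2, ℤ)) (z : ℍ) :
    ((⇑(jT N M)) ∣[((12 * M : ℕ) : ℤ)] γ) z =
      ModularForm.discriminant z ^ M * RH24.jd N (γ • z) := by
  rw [SL_slash_apply, jT_apply, H23.disc_smul, zpow_neg, zpow_natCast]
  have hd : denom (γ : GL (Fin 2) ℝ) z ≠ 0 := denom_ne_zero _ z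
  have hd' : denom γ z = denom (γ : GL (Fin 2) ℝ) z := rfl
  rw [hd']
  field_simp
  ring



theorem exists_bound (q : H23.h20_Q N) :
    ∃ M₀ : ℕ, ∀ M : ℕ, M₀ ≤ M →
      SlashInvariantForm.quotientFunc (jT N M) q ∈ H23.h20_holBdd := by
  obtain ⟨γ, hγ⟩ := quotientFunc_eq_slash_unif N q
  obtain ⟨M₀, hM₀⟩ := RH24.jdt_moderateGrowth N ⟨N, dvd_rfl⟩ γ⁻¹
  refine ⟨M₀, fun M hM => ?_⟩
  have hfun : SlashInvariantForm.quotientFunc (jT N M) q =
      fun z => (RH24.jdt N γ⁻¹ z * ModularForm.discriminant z ^ M₀) *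
        ModularForm.discriminant z ^ (M - M₀) := by
    rw [hγ]
    funext z
    rw [jT_slash_apply]
    have : RH24.jdt N γ⁻¹ z = RH24.jd N (γ • z) := by
      unfold RH24.jdt
      rw [inv_inv]
    rw [this]
    have hpow : ModularForm.discriminant z ^ M =
        ModularForm.discriminant z ^ M₀ * ModularForm.discriminant z ^ (M - M₀) := by
      rw [← pow_add]
      congr 1
      omega
    rw [hpow]
    ring
  rw [hfun]
  refine ⟨?_, ?_⟩
  · have h1 : MDiff (RH24.jdt N γ⁻¹) := by
      have := RH24.mdiff_comp_smul γ (RH24.jd N) (RH24.mdiff_jd N)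
      have he : RH24.jdt N γ⁻¹ = fun z => RH24.jd N (γ • z) := by
        funext z
        unfold RH24.jdt
        rw [inv_inv]
      rw [he]
      exact this
    have h2 : MDiff (fun z : ℍ => ModularForm.discriminant z) :=
      CuspFormClass.holo CuspForm.discriminant
    exact (h1.mul (h2.pow M₀)).mul (h2.pow (M - M₀))
  · exact hM₀.mul (RH24.h24_bdd_disc_pow (M - M₀))

theorem exists_bound_all :
    ∃ M₀ : ℕ, ∀ M : ℕ, M₀ ≤ M → ∀ q : H23.h20_Q N,
      SlashInvariantForm.quotientFunc (jT N M) q ∈ H23.h20_holBdd := by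
  choose M₀ hM₀ using exists_bound N
  refine ⟨∑ q, M₀ q, fun M hM q => hM₀ q M (le_trans ?_ hM)⟩
  exact Finset.single_le_sum (f := M₀) (fun _ _ => Nat.zero_le _) (Finset.mem_univ q)


/-- the trivial coset gives back the form. -/
theorem quotientFunc_one' {k : ℤ} (f : SlashInvariantForm (CongruenceSubgroup.Gamma0 N) k) :
    SlashInvariantForm.quotientFunc f (((1 : 𝒮ℒ) : H23.h20_Q N)) = ⇑f :=
  H23.h20_quotientFunc_one f

/-- distinctness: the only coset whose translate of `Δ^M j_N` is `Δ^M j_N` is the trivial one. -/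
theorem jT_eq_one (M : ℕ) (q : H23.h20_Q N)
    (h : SlashInvariantForm.quotientFunc (jT N M) q = ⇑(jT N M)) :
    q = (((1 : 𝒮ℒ) : H23.h20_Q N)) := by
  induction q using Quotient.inductionOn with
  | h r =>
    obtain ⟨γ, hγ⟩ := r.2
    have h0 : SlashInvariantForm.quotientFunc (jT N M) ⟦r⟧ =
        (⇑(jT N M)) ∣[((12 * M : ℕ) : ℤ)] r.val⁻¹ :=
      SlashInvariantForm.quotientFunc_mk (jT N M) r
    have hr : r.val⁻¹ = mapGL ℝ γ⁻¹ := by rw [map_inv, hγ]
    have h1 : (⇑(jT N M)) ∣[((12 * M : ℕ) : ℤ)] γ⁻¹ = ⇑(jT N M) := by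
      have h' : (⇑(jT N M)) ∣[((12 * M : ℕ) : ℤ)] (mapGL ℝ γ⁻¹) = ⇑(jT N M) := by
        rw [← hr, ← h0, h]
      rw [SL_slash]
      exact h'
    have h2 : γ⁻¹ ∈ CongruenceSubgroup.Gamma0 N := by
      refine RH24.mem_Gamma0_of_jd_invariant N γ⁻¹ (fun z => ?_)
      have h3 := congrFun h1 z
      rw [jT_slash_apply, jT_apply] at h3
      exact mul_left_cancel₀ (pow_ne_zero _ (ModularForm.discriminant_ne_zero z)) h3
    have h3 : γ ∈ CongruenceSubgroup.Gamma0 N := by
      have := (CongruenceSubgroup.Gamma0 N).inv_mem h2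
      simpa using this
    symm
    refine QuotientGroup.eq.mpr ?_
    rw [Subgroup.mem_subgroupOf]
    refine ⟨γ, h3, ?_⟩
    simp [hγ]

/-- dehomogenisation `(X₀, X₁) ↦ (X₀, 1)`. -/
def dh : MvPolynomial (Fin 2) ℂ →ₐ[ℂ] MvPolynomial (Fin 2) ℂ :=
  MvPolynomial.aeval ![MvPolynomial.X 0, 1]

omit [NeZero N] in
theorem eval_dh (a b : ℂ) (R : MvPolynomial (Fin 2) ℂ) :
    MvPolynomial.eval ![a, b] (dh R) = MvPolynomial.eval ![a, 1] R := by
  have h : (MvPolynomial.aeval ![a, b] : MvPolynomial (Fin 2) ℂ →ₐ[ℂ] ℂ).comp dh =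
      MvPolynomial.aeval ![a, 1] := by
    apply MvPolynomial.algHom_ext
    intro i
    fin_cases i <;> simp [dh]
  have h2 := congrArg (fun φ : MvPolynomial (Fin 2) ℂ →ₐ[ℂ] ℂ => φ R) h
  simp only [AlgHom.comp_apply] at h2
  rw [← MvPolynomial.aeval_eq_eval, ← MvPolynomial.aeval_eq_eval]
  exact h2

omit [NeZero N] in
/-- a homogeneous polynomial in `(E₄³, Δ)` is a power of `Δ` times a polynomial in `j`. -/
theorem eval_pt2_homog {R : MvPolynomial (Fin 2) ℂ} {D : ℕ} (hR : R.IsHomogeneous D) (z : ℍ) :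
    MvPolynomial.eval (H23.pt2 z) R =
      ModularForm.discriminant z ^ D * MvPolynomial.eval ![RH24.jf z, 1] R := by
  have hΔ := ModularForm.discriminant_ne_zero z
  have hpt : H23.pt2 z = fun i => ModularForm.discriminant z * ![RH24.jf z, 1] i := by
    funext i
    fin_cases i
    · show E₄ z ^ 3 = ModularForm.discriminant z * RH24.jf z
      unfold RH24.jf
      field_simp
    · show ModularForm.discriminant z = ModularForm.discriminant z * 1
      rw [mul_one]
  rw [hpt]
  exact H23.eval_smul_of_isHomogeneous hR _ _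


/-- **Core** (Lagrange interpolation over the cosets of `Γ₀(N)` in `SL(2,ℤ)`, with nodes the
translates of `Δ^M j_N`): a slash invariant form `K` of weight `12 M` on `Γ₀(N)` all of whose
translates are holomorphic and bounded at `i∞` is `Δ^M` times a rational function of
`(j, j_N)`. -/
theorem core (M : ℕ)
    (hT : ∀ q : H23.h20_Q N, SlashInvariantForm.quotientFunc (jT N M) q ∈ H23.h20_holBdd)
    (K : SlashInvariantForm (CongruenceSubgroup.Gamma0 N) ((12 * M : ℕ) : ℤ))
    (hK : ∀ q : H23.h20_Q N, SlashInvariantForm.quotientFunc K q ∈ H23.h20_holBdd) :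
    ∃ P Q : MvPolynomial (Fin 2) ℂ,
      (∃ z : ℍ, MvPolynomial.eval ![RH24.jf z, RH24.jd N z] Q ≠ 0) ∧
      ∀ z : ℍ, K z * MvPolynomial.eval ![RH24.jf z, RH24.jd N z] Q =
        ModularForm.discriminant z ^ M * MvPolynomial.eval ![RH24.jf z, RH24.jd N z] P := by
  set T : H23.h20_Q N → ℍ → ℂ := fun q => SlashInvariantForm.quotientFunc (jT N M) q with hTdef
  set Kf : H23.h20_Q N → ℍ → ℂ := fun q => SlashInvariantForm.quotientFunc K q with hKdef
  have hperm : ∀ γ : SL(2, ℤ), ∃ σ : Equiv.Perm (H23.h20_Q N),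
      (∀ q, T q ∣[((12 * M : ℕ) : ℤ)] γ = T (σ q)) ∧
      (∀ q, Kf q ∣[((12 * M : ℕ) : ℤ)] γ = Kf (σ q)) := fun γ =>
    ⟨H23.h20_sigma N γ, fun q => H23.h20_quotientFunc_sigma (jT N M) γ q,
      fun q => H23.h20_quotientFunc_sigma K γ q⟩
  obtain ⟨ψ, hψ, hψe⟩ := H23.h20_exists_poly_nodal M T hT
    (fun γ => (hperm γ).imp fun σ h => h.1)
  obtain ⟨g, hg, hge⟩ := H23.h20_exists_poly_lagNum M T Kf hT hK hperm
  set μ := Fintype.card (H23.h20_Q N) with hμdef
  have hμ : 0 < μ := Fintype.card_pos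
  set q₀ : H23.h20_Q N := (((1 : 𝒮ℒ) : H23.h20_Q N)) with hq₀
  set Q : MvPolynomial (Fin 2) ℂ := ∑ n ∈ Finset.range μ,
    MvPolynomial.C ((n : ℂ) + 1) * dh (ψ (n + 1)) * MvPolynomial.X 1 ^ n with hQ
  set P : MvPolynomial (Fin 2) ℂ := ∑ n ∈ Finset.range μ,
    dh (g n) * MvPolynomial.X 1 ^ n with hP
  have hT₀ : ∀ z, T q₀ z = ModularForm.discriminant z ^ M * RH24.jd N z := by
    intro z
    have := congrFun (quotientFunc_one' N (jT N M)) z
    rw [hTdef]
    simp only
    rw [this]
    rfl
  have hK₀ : ∀ z, Kf q₀ z = K z := by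
    intro z
    exact congrFun (quotientFunc_one' N K) z
  have hX1 : ∀ z : ℍ, (![RH24.jf z, RH24.jd N z] : Fin 2 → ℂ) 1 = RH24.jd N z := fun z => rfl
  have hQe : ∀ z, ModularForm.discriminant z ^ (M * (μ - 1)) *
      MvPolynomial.eval ![RH24.jf z, RH24.jd N z] Q =
      Polynomial.eval (T q₀ z)
        (Polynomial.derivative (Lagrange.nodal Finset.univ (fun q => T q z))) := by
    intro z
    have hdeg : (Polynomial.derivative
        (Lagrange.nodal Finset.univ (fun q => T q z))).natDegree < μ := by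
      refine lt_of_le_of_lt (Polynomial.natDegree_derivative_le _) ?_
      rw [Lagrange.natDegree_nodal, Finset.card_univ]
      omega
    rw [Polynomial.eval_eq_sum_range' hdeg, hQ, map_sum, Finset.mul_sum]
    refine Finset.sum_congr rfl (fun n hn => ?_)
    have hn' : n < μ := Finset.mem_range.mp hn
    rw [map_mul, map_mul, map_pow, MvPolynomial.eval_C, MvPolynomial.eval_X, eval_dh, hX1,
      Polynomial.coeff_derivative, hψe z (n + 1), eval_pt2_homog (hψ (n + 1)) z, hT₀ z]
    have hpow : ModularForm.discriminant z ^ (M * (μ - 1)) =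
        ModularForm.discriminant z ^ (M * (μ - (n + 1))) *
          (ModularForm.discriminant z ^ M) ^ n := by
      rw [← pow_mul, ← pow_add]
      congr 1
      have : μ - 1 = (μ - (n + 1)) + n := by omega
      rw [this]
      ring
    rw [hpow]
    ring
  have hPe : ∀ z, ModularForm.discriminant z ^ (M * μ) *
      MvPolynomial.eval ![RH24.jf z, RH24.jd N z] P =
      Polynomial.eval (T q₀ z) (H23.h20_lagNum (fun q => T q z) (fun q => Kf q z)) := by
    intro z
    rw [Polynomial.eval_eq_sum_range' (H23.h20_natDegree_lagNum_lt _ _), hP, map_sum,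
      Finset.mul_sum]
    refine Finset.sum_congr rfl (fun n hn => ?_)
    have hn' : n < μ := Finset.mem_range.mp hn
    rw [map_mul, map_pow, MvPolynomial.eval_X, eval_dh, hX1, hge z n,
      eval_pt2_homog (hg n) z, hT₀ z]
    have hpow : ModularForm.discriminant z ^ (M * μ) =
        ModularForm.discriminant z ^ (M * (μ - n)) *
          (ModularForm.discriminant z ^ M) ^ n := by
      rw [← pow_mul, ← pow_add]
      congr 1
      have : μ = (μ - n) + n := by omega
      conv_lhs => rw [this]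
      ring
    rw [hpow]
    ring
  refine ⟨P, Q, ?_, ?_⟩
  · by_contra hall
    push Not at hall
    have hprod : ∏ q ∈ Finset.univ.erase q₀, (fun z => T q₀ z - T q z) = 0 := by
      funext z
      have h1 : Polynomial.eval (T q₀ z)
          (Polynomial.derivative (Lagrange.nodal Finset.univ (fun q => T q z))) = 0 := by
        rw [← hQe z, hall z, mul_zero]
      have h2 := Lagrange.eval_nodal_derivative_eval_node_eq (s := Finset.univ)
        (v := fun q => T q z) (Finset.mem_univ q₀)
      rw [h2, Lagrange.eval_nodal] at h1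
      rw [Finset.prod_apply]
      exact h1
    rw [UpperHalfPlane.prod_eq_zero_iff] at hprod
    · obtain ⟨q, hq, hq0⟩ := hprod
      have hne : q ≠ q₀ := (Finset.mem_erase.mp hq).1
      apply hne
      apply jT_eq_one N M q
      funext z
      have := congrFun hq0 z
      simp only [Pi.zero_apply] at this
      have h3 : T q z = T q₀ z := (sub_eq_zero.mp this).symm
      rw [hT₀ z] at h3
      exact h3
    · intro q _
      exact (hT q₀).1.sub (hT q).1
  · intro z
    have h := H23.h20_eval_lagNum_node (fun q => T q z) (fun q => Kf q z) q₀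
    rw [← hPe z, ← hQe z, hK₀ z] at h
    have hΔ := ModularForm.discriminant_ne_zero z
    have hpow : ModularForm.discriminant z ^ (M * μ) =
        ModularForm.discriminant z ^ (M * (μ - 1)) * ModularForm.discriminant z ^ M := by
      rw [← pow_add]
      congr 1
      have : μ = (μ - 1) + 1 := by omega
      conv_lhs => rw [this]
      ring
    rw [hpow] at h
    have hne : ModularForm.discriminant z ^ (M * (μ - 1)) ≠ 0 := pow_ne_zero _ hΔ
    apply mul_left_cancel₀ hne
    linear_combination -h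

end H10AN3
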