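import Mathlib
import Fermat.Agent.W3G.AN3Core_helper10

/-!
# Item 80 (W3-G), slice AN3 (helper10): automorphic ⇒ algebraic

`h10an3` : the quotient of two modular forms of the same weight on `Γ₀(N)` is a rational
function of `j` and `j_N = j(N z)`:
for `a b : ModularForm Γ₀(N) k`, `b ≠ 0`, there are `P Q ∈ ℂ[X, Y]` with `Q(j, j_N) ≢ 0` and
`a · Q(j, j_N) = b · P(j, j_N)` on `ℍ`.
-/

set_option autoImplicit false
set_option linter.style.haveILetI false
set_option linter.unusedSectionVars false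

noncomputable section

open UpperHalfPlane ModularForm SlashInvariantForm SlashInvariantFormClass ModularFormClass
  CuspFormClass MatrixGroups OnePoint Filter EisensteinSeries Asymptotics CongruenceSubgroup
open scoped Topology Manifold
open Matrix.SpecialLinearGroup

namespace H10AN3

attribute [local instance] H23.h20_Q_fintype H23.h20_Q_decEq H23.h20_Q_nonempty

variable (N : ℕ) [NeZero N]

/-- a slash invariant form from a pointwise transformation law of natural weight. -/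
def ofPointwise (w : ℕ) (F : ℍ → ℂ)
    (hF : ∀ γ : SL(2, ℤ), γ ∈ CongruenceSubgroup.Gamma0 N → ∀ z : ℍ,
      F (γ • z) = denom (γ : GL (Fin 2) ℝ) z ^ w * F z) :
    SlashInvariantForm (CongruenceSubgroup.Gamma0 N) (w : ℤ) where
  toFun := F
  slash_action_eq' := by
    rintro _ ⟨γ, hγ, rfl⟩
    exact H23.h20_slash_of_pointwise (hF γ hγ)

theorem ofPointwise_apply (w : ℕ) (F : ℍ → ℂ)
    (hF : ∀ γ : SL(2, ℤ), γ ∈ CongruenceSubgroup.Gamma0 N → ∀ z : ℍ,
      F (γ • z) = denom (γ : GL (Fin 2) ℝ) z ^ w * F z) (z : ℍ) :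
    ofPointwise N w F hF z = F z := rfl

/-- holomorphy of polynomial expressions in `(j, j_N)`. -/
theorem mdiff_eval_jj (R : MvPolynomial (Fin 2) ℂ) :
    MDiff (fun z : ℍ => MvPolynomial.eval ![RH24.jf z, RH24.jd N z] R) := by
  have h := H23.mdiff_eval (fun i : Fin 2 => (![RH24.jf, RH24.jd N] : Fin 2 → ℍ → ℂ) i)
    (fun i => by
      fin_cases i
      · exact RH24.mdiff_jf
      · exact RH24.mdiff_jd N) R
  have he : (fun z : ℍ => MvPolynomial.eval ![RH24.jf z, RH24.jd N z] R) =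
      fun z => MvPolynomial.eval (fun i => (![RH24.jf, RH24.jd N] : Fin 2 → ℍ → ℂ) i z) R := by
    funext z
    congr 2
    funext i
    fin_cases i <;> rfl
  rw [he]
  exact h

/-- the transformation law of a modular form on `Γ₀(N)` of weight `m : ℕ`. -/
theorem modForm_smul {k : ℤ} (m : ℕ) (hk : k = (m : ℤ))
    (a : ModularForm (CongruenceSubgroup.Gamma0 N) k) (γ : SL(2, ℤ))
    (hγ : γ ∈ CongruenceSubgroup.Gamma0 N) (z : ℍ) :
    a (γ • z) = denom (γ : GL (Fin 2) ℝ) z ^ m * a z := by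
  subst hk
  have hmem : (mapGL ℝ γ : GL (Fin 2) ℝ) ∈
      (Subgroup.map (mapGL ℝ) (CongruenceSubgroup.Gamma0 N)) := ⟨γ, hγ, rfl⟩
  have h : (⇑a) ∣[(m : ℤ)] γ = ⇑a := by
    rw [SL_slash]
    exact SlashInvariantFormClass.slash_action_eq a _ hmem
  have h2 := H23.apply_smul_of_slash_eq h z
  rw [zpow_natCast] at h2
  exact h2

/-- the translates of a modular form: `a(γ z) = (cz+d)^m (a|γ)(z)`. -/
theorem modForm_slash {k : ℤ} (m : ℕ) (hk : k = (m : ℤ))
    (a : ModularForm (CongruenceSubgroup.Gamma0 N) k) (γ : SL(2, ℤ)) (z : ℍ) :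
    a (γ • z) = denom (γ : GL (Fin 2) ℝ) z ^ m * ((⇑a) ∣[k] γ) z := by
  subst hk
  have h2 := H23.slash_apply_eq (⇑a) (m : ℤ) γ z
  rw [zpow_natCast] at h2
  exact h2

theorem modForm_slash_mem {k : ℤ} (a : ModularForm (CongruenceSubgroup.Gamma0 N) k)
    (γ : SL(2, ℤ)) : ((⇑a) ∣[k] γ) ∈ H23.h20_holBdd :=
  ⟨(ModularForm.translate a (mapGL ℝ γ)).holo', ModularFormClass.bdd_at_infty_slash a γ⟩


/-- the slash invariant form `u · b^11 · Δ^e` of weight `12 (m + e)` (`u`, `b` of weight `m`). -/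
def prodForm {k : ℤ} (m : ℕ) (hk : k = (m : ℤ))
    (u b : ModularForm (CongruenceSubgroup.Gamma0 N) k) (e : ℕ) :
    SlashInvariantForm (CongruenceSubgroup.Gamma0 N) ((12 * (m + e) : ℕ) : ℤ) :=
  ofPointwise N (12 * (m + e)) (fun z => u z * b z ^ 11 * ModularForm.discriminant z ^ e)
    (fun γ hγ z => by
      show u (γ • z) * b (γ • z) ^ 11 * ModularForm.discriminant (γ • z) ^ e = _
      rw [modForm_smul N m hk u γ hγ z, modForm_smul N m hk b γ hγ z, H23.disc_smul γ z]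
      have hd' : denom γ z = denom (γ : GL (Fin 2) ℝ) z := rfl
      rw [hd']
      ring)

theorem prodForm_apply {k : ℤ} (m : ℕ) (hk : k = (m : ℤ))
    (u b : ModularForm (CongruenceSubgroup.Gamma0 N) k) (e : ℕ) (z : ℍ) :
    prodForm N m hk u b e z = u z * b z ^ 11 * ModularForm.discriminant z ^ e := rfl

theorem prodForm_mem {k : ℤ} (m : ℕ) (hk : k = (m : ℤ))
    (u b : ModularForm (CongruenceSubgroup.Gamma0 N) k) (e : ℕ) (q : H23.h20_Q N) :
    SlashInvariantForm.quotientFunc (prodForm N m hk u b e) q ∈ H23.h20_holBdd := by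
  obtain ⟨γ, hγ⟩ := quotientFunc_eq_slash_unif N q
  rw [hγ]
  have hfun : (⇑(prodForm N m hk u b e)) ∣[((12 * (m + e) : ℕ) : ℤ)] γ =
      ((⇑u) ∣[k] γ) * ((⇑b) ∣[k] γ) ^ 11 *
        (fun z : ℍ => ModularForm.discriminant z) ^ e := by
    refine H23.h20_slash_of_pointwise (fun z => ?_)
    rw [prodForm_apply, modForm_slash N m hk u γ z, modForm_slash N m hk b γ z,
      H23.disc_smul γ z]
    have hd' : denom γ z = denom (γ : GL (Fin 2) ℝ) z := rfl
    rw [hd']
    simp only [Pi.mul_apply, Pi.pow_apply]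
    ring
  rw [hfun]
  have hΔ : (fun z : ℍ => ModularForm.discriminant z) ∈ H23.h20_holBdd :=
    ⟨CuspFormClass.holo CuspForm.discriminant, RH24.h24_bdd_disc⟩
  exact H23.h20_holBdd.mul_mem
    (H23.h20_holBdd.mul_mem (modForm_slash_mem N u γ)
      (H23.h20_holBdd.pow_mem (modForm_slash_mem N b γ) 11))
    (H23.h20_holBdd.pow_mem hΔ e)

/-- **AN3** (two variables): the quotient of two modular forms of the same weight on `Γ₀(N)`
is a rational function of `(j, j_N)`. -/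
theorem h10an3_fin2 {k : ℤ} (a b : ModularForm (CongruenceSubgroup.Gamma0 N) k)
    (hb : (⇑b : ℍ → ℂ) ≠ 0) :
    ∃ P Q : MvPolynomial (Fin 2) ℂ,
      (∃ z : ℍ, MvPolynomial.eval ![RH24.jf z, RH24.jd N z] Q ≠ 0) ∧
      ∀ z : ℍ, a z * MvPolynomial.eval ![RH24.jf z, RH24.jd N z] Q =
        b z * MvPolynomial.eval ![RH24.jf z, RH24.jd N z] P := by
  -- the weight is `≥ 0`
  have hk0 : 0 ≤ k := by
    by_contra hneg
    push Not at hneg
    apply hb
    have := ModularForm.isZero_of_neg_weight hneg b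
    rw [this]
    rfl
  obtain ⟨m, hk⟩ := Int.eq_ofNat_of_zero_le hk0
  obtain ⟨e, he⟩ := exists_bound_all N
  have hT := he (m + e) (Nat.le_add_left e m)
  obtain ⟨P₁, Q₁, ⟨z₁, hz₁⟩, h₁⟩ := core N (m + e) hT (prodForm N m hk a b e)
    (prodForm_mem N m hk a b e)
  obtain ⟨P₂, Q₂, ⟨z₂, hz₂⟩, h₂⟩ := core N (m + e) hT (prodForm N m hk b b e)
    (prodForm_mem N m hk b b e)
  have hbh : MDiff (⇑b : ℍ → ℂ) := ModularFormClass.holo b
  have hah : MDiff (⇑a : ℍ → ℂ) := ModularFormClass.holo a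
  have hΔh : MDiff (fun z : ℍ => ModularForm.discriminant z) :=
    CuspFormClass.holo CuspForm.discriminant
  -- the auxiliary factor `c = b^11 Δ^e` is not identically zero
  have hc : MDiff (fun z : ℍ => b z ^ 11 * ModularForm.discriminant z ^ e) :=
    (hbh.pow 11).mul (hΔh.pow e)
  have hb0 : ∃ z, b z ≠ 0 := by
    by_contra hall
    push Not at hall
    exact hb (funext hall)
  have hc0 : ¬ ∀ z, b z ^ 11 * ModularForm.discriminant z ^ e = 0 := by
    intro hall
    obtain ⟨z, hz⟩ := hb0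
    exact mul_ne_zero (pow_ne_zero _ hz) (pow_ne_zero _ (ModularForm.discriminant_ne_zero z))
      (hall z)
  have hP₂h := mdiff_eval_jj N P₂
  have hQ₁h := mdiff_eval_jj N Q₁
  have hP₁h := mdiff_eval_jj N P₁
  have hQ₂h := mdiff_eval_jj N Q₂
  -- `P₂(j, j_N)` is not identically zero
  have hP₂ : ¬ ∀ z, MvPolynomial.eval ![RH24.jf z, RH24.jd N z] P₂ = 0 := by
    intro hall
    have h3 := h₂ z₂
    rw [hall z₂, mul_zero, prodForm_apply] at h3
    rcases mul_eq_zero.mp h3 with h4 | h4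
    · -- `b^12 Δ^e` vanishes at `z₂`?  use the identity everywhere instead
      have h5 : ∀ z, (b z * (b z ^ 11 * ModularForm.discriminant z ^ e)) *
          MvPolynomial.eval ![RH24.jf z, RH24.jd N z] Q₂ = 0 := by
        intro z
        have h6 := h₂ z
        rw [hall z, mul_zero, prodForm_apply] at h6
        rw [← h6]
        ring
      rcases RH24.Hol_noZeroDivisors _ _ (hbh.mul hc) hQ₂h h5 with h7 | h7
      · rcases RH24.Hol_noZeroDivisors _ _ hbh hc h7 with h8 | h8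
        · exact hb (funext h8)
        · exact hc0 h8
      · exact hz₂ (h7 z₂)
    · exact hz₂ h4
  refine ⟨P₁ * Q₂, Q₁ * P₂, ?_, ?_⟩
  · by_contra hall
    push Not at hall
    have h5 : ∀ z, MvPolynomial.eval ![RH24.jf z, RH24.jd N z] Q₁ *
        MvPolynomial.eval ![RH24.jf z, RH24.jd N z] P₂ = 0 := by
      intro z
      rw [← map_mul]
      exact hall z
    rcases RH24.Hol_noZeroDivisors _ _ hQ₁h hP₂h h5 with h7 | h7
    · exact hz₁ (h7 z₁)
    · exact hP₂ h7
  · -- `c · (a Q₁ P₂ - b P₁ Q₂) = 0`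
    have h5 : ∀ z, (b z ^ 11 * ModularForm.discriminant z ^ e) *
        (a z * MvPolynomial.eval ![RH24.jf z, RH24.jd N z] (Q₁ * P₂) -
          b z * MvPolynomial.eval ![RH24.jf z, RH24.jd N z] (P₁ * Q₂)) = 0 := by
      intro z
      have h6 := h₁ z
      have h7 := h₂ z
      rw [prodForm_apply] at h6 h7
      rw [map_mul, map_mul]
      linear_combination (MvPolynomial.eval ![RH24.jf z, RH24.jd N z] P₂) * h6 -
        (MvPolynomial.eval ![RH24.jf z, RH24.jd N z] P₁) * h7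
    have hdiff : MDiff (fun z : ℍ =>
        a z * MvPolynomial.eval ![RH24.jf z, RH24.jd N z] (Q₁ * P₂) -
          b z * MvPolynomial.eval ![RH24.jf z, RH24.jd N z] (P₁ * Q₂)) :=
      (hah.mul (mdiff_eval_jj N (Q₁ * P₂))).sub (hbh.mul (mdiff_eval_jj N (P₁ * Q₂)))
    rcases RH24.Hol_noZeroDivisors _ _ hc hdiff h5 with h7 | h7
    · exact absurd h7 hc0
    · intro z
      exact sub_eq_zero.mp (h7 z)


theorem jd_one' (z : ℍ) : RH24.jd 1 z = RH24.jf z := by
  unfold RH24.jd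
  have : ModularForm.heckeDiagMatrix 1 = 1 := by
    apply Units.ext
    rw [ModularForm.val_heckeDiagMatrix one_ne_zero]
    ext i j
    fin_cases i <;> fin_cases j <;> simp
  rw [this, one_smul]

/-- the two generators `j`, `j_N` among the `j_d`, `d ∣ N`. -/
def rho : Fin 2 → RH24.Dv N := ![⟨1, one_dvd N⟩, ⟨N, dvd_rfl⟩]

theorem eval_rename_rho (z : ℍ) (R : MvPolynomial (Fin 2) ℂ) :
    MvPolynomial.eval (fun d : RH24.Dv N => RH24.jd d.1 z) (MvPolynomial.rename (rho N) R) =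
      MvPolynomial.eval ![RH24.jf z, RH24.jd N z] R := by
  rw [MvPolynomial.eval_rename]
  congr 2
  funext i
  fin_cases i
  · show RH24.jd 1 z = RH24.jf z
    exact jd_one' z
  · rfl

/-- **AN3**: the quotient of two modular forms of the same weight on `Γ₀(N)` is a rational
function of the `j_d = j(d z)`, `d ∣ N` (in fact of `j` and `j_N`): there are polynomials
`P`, `Q` in the `j_d` with `Q ≢ 0` on `ℍ` and `a · Q = b · P` on `ℍ`. -/
theorem h10an3 {k : ℤ} (a b : ModularForm (CongruenceSubgroup.Gamma0 N) k)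
    (hb : (⇑b : ℍ → ℂ) ≠ 0) :
    ∃ P Q : MvPolynomial (RH24.Dv N) ℂ,
      (∃ z : ℍ, MvPolynomial.eval (fun d : RH24.Dv N => RH24.jd d.1 z) Q ≠ 0) ∧
      ∀ z : ℍ, a z * MvPolynomial.eval (fun d : RH24.Dv N => RH24.jd d.1 z) Q =
        b z * MvPolynomial.eval (fun d : RH24.Dv N => RH24.jd d.1 z) P := by
  obtain ⟨P, Q, ⟨z₀, hz₀⟩, h⟩ := h10an3_fin2 N a b hb
  refine ⟨MvPolynomial.rename (rho N) P, MvPolynomial.rename (rho N) Q, ⟨z₀, ?_⟩, fun z => ?_⟩
  · rw [eval_rename_rho]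
    exact hz₀
  · rw [eval_rename_rho, eval_rename_rho]
    exact h z

/-- **AN3, function form**: the same for functions `a`, `b` on `ℍ` which are holomorphic,
invariant of weight `k` under `Γ₀(N)` and bounded at all cusps (all `SL(2,ℤ)`-translates are
bounded at `i∞`). -/
theorem h10an3_fun (k : ℤ) (a b : ℍ → ℂ) (ha : MDiff a) (hb : MDiff b)
    (hainv : ∀ γ ∈ CongruenceSubgroup.Gamma0 N, a ∣[k] γ = a)
    (hbinv : ∀ γ ∈ CongruenceSubgroup.Gamma0 N, b ∣[k] γ = b)
    (habdd : ∀ δ : SL(2, ℤ), IsBoundedAtImInfty (a ∣[k] δ))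
    (hbbdd : ∀ δ : SL(2, ℤ), IsBoundedAtImInfty (b ∣[k] δ))
    (hb0 : b ≠ 0) :
    ∃ P Q : MvPolynomial (RH24.Dv N) ℂ,
      (∃ z : ℍ, MvPolynomial.eval (fun d : RH24.Dv N => RH24.jd d.1 z) Q ≠ 0) ∧
      ∀ z : ℍ, a z * MvPolynomial.eval (fun d : RH24.Dv N => RH24.jd d.1 z) Q =
        b z * MvPolynomial.eval (fun d : RH24.Dv N => RH24.jd d.1 z) P := by
  have mk : ∀ (f : ℍ → ℂ), MDiff f →
      (∀ γ ∈ CongruenceSubgroup.Gamma0 N, f ∣[k] γ = f) →
      (∀ δ : SL(2, ℤ), IsBoundedAtImInfty (f ∣[k] δ)) →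
      ∃ F : ModularForm (CongruenceSubgroup.Gamma0 N) k, (⇑F : ℍ → ℂ) = f := by
    intro f hf hinv hbdd
    refine ⟨{ toFun := f
              slash_action_eq' := ?_
              holo' := hf
              bdd_at_cusps' := ?_ }, rfl⟩
    · rintro _ ⟨γ, hγ, rfl⟩
      have := hinv γ hγ
      rwa [SL_slash] at this
    · intro c hc
      have hc' : IsCusp c (mapGL ℝ : SL(2, ℤ) →* GL (Fin 2) ℝ).range :=
        hc.mono (Subgroup.map_le_range _ _)
      rw [isBoundedAt_iff_forall_SL2Z hc']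
      intro γ _
      have := hbdd γ
      rwa [SL_slash] at this
  obtain ⟨A, hA⟩ := mk a ha hainv habdd
  obtain ⟨B, hB⟩ := mk b hb hbinv hbbdd
  have hB0 : (⇑B : ℍ → ℂ) ≠ 0 := by rw [hB]; exact hb0
  obtain ⟨P, Q, hQ, h⟩ := h10an3 N A B hB0
  refine ⟨P, Q, hQ, fun z => ?_⟩
  have := h z
  rw [show A z = a z from congrFun hA z, show B z = b z from congrFun hB z] at this
  exact this

end H10AN3
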