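/-
Item 80 (W3G), slice AN3 (helper2), form (A): `H2AN3.AlgStatement N`.

A `Γ₀(N)`-invariant element `g` of `Mer` which is algebraic over `KN N = ℂ(j_d : d ∣ N)` lies in
`KN N`.  Proof: `g` is algebraic over `ℂ[j]`, so `h = y(j) g` is integral over `ℂ[j]` for some
`y ≠ 0`; then all `SL₂(ℤ)`-translates of `h` are holomorphic of uniformly moderate growth, so
`h Δ^M` is a modular form of weight `12 M` on `Γ₀(N)`, and helper10's `h10an3_fun` applies to
`h Δ^M / Δ^M`.
-/
import Mathlib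
import Fermat.Agent.W3G.AN3Alg1_helper2
import Fermat.Agent.W3G.AN3_helper10

set_option autoImplicit false

noncomputable section

open UpperHalfPlane ModularForm MatrixGroups CongruenceSubgroup EisensteinSeries Filter
open scoped Manifold Topology

namespace H2AN3

open H24D
open RH24 (Dv jf jd Kbar Jbar Jgen iota)

local notation "Δ" => ModularForm.discriminant

attribute [local instance] algJ

/-- the bound of `moderateGrowth_of_le` with a given exponent -/
theorem bdd_of_le {ι : Type*} (s : Finset ι) (g : ι → ℍ → ℂ) (M : ℕ)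
    (hM : ∀ i ∈ s, IsBoundedAtImInfty (fun z => g i z * Δ z ^ M)) (f : ℍ → ℂ)
    (hf : ∀ z, ‖f z‖ ≤ 1 + ∑ i ∈ s, ‖g i z‖) :
    IsBoundedAtImInfty (fun z => f z * Δ z ^ M) := by
  have h1 : IsBoundedAtImInfty (fun z : ℍ => Δ z ^ M) := RH24.h24_bdd_disc_pow M
  have hG : (fun z : ℍ => ‖Δ z ^ M‖ + ∑ i ∈ s, ‖g i z * Δ z ^ M‖)
      =O[atImInfty] (1 : ℍ → ℝ) := by
    refine Asymptotics.IsBigO.add ?_ ?_
    · exact Asymptotics.IsBigO.norm_left h1
    · exact Asymptotics.IsBigO.fun_sum (fun i hi => Asymptotics.IsBigO.norm_left (hM i hi))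
  refine Asymptotics.IsBigO.trans (Asymptotics.isBigO_of_le _ (fun z => ?_)) hG
  have hnn : 0 ≤ ‖Δ z ^ M‖ + ∑ i ∈ s, ‖g i z * Δ z ^ M‖ :=
    add_nonneg (norm_nonneg _) (Finset.sum_nonneg fun i _ => norm_nonneg _)
  rw [Real.norm_of_nonneg hnn, norm_mul]
  calc ‖f z‖ * ‖Δ z ^ M‖ ≤ (1 + ∑ i ∈ s, ‖g i z‖) * ‖Δ z ^ M‖ :=
        mul_le_mul_of_nonneg_right (hf z) (norm_nonneg _)
    _ = ‖Δ z ^ M‖ + ∑ i ∈ s, ‖g i z * Δ z ^ M‖ := by
        rw [add_mul, one_mul, Finset.sum_mul]
        simp only [norm_mul]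

/-- uniform moderate growth of the holomorphic roots of a monic polynomial over `ℂ[j]` -/
theorem exists_exponent_of_integral (q : Polynomial (Polynomial ℂ)) (hq : q.Monic) :
    ∃ M : ℕ, ∀ f : Hol, q.eval₂ polyJHol f = 0 →
      IsBoundedAtImInfty (fun z => (f : ℍ → ℂ) z * Δ z ^ M) := by
  obtain ⟨M, hM⟩ := exists_common_exponent (Finset.range q.natDegree)
    (fun i z => (q.coeff i).eval (jf z)) (fun i _ => moderateGrowth_poly _)
  refine ⟨M, fun f hroot => bdd_of_le _ _ M hM _ (fun z => ?_)⟩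
  have hm : (q.map (Polynomial.evalRingHom (jf z))).Monic := hq.map _
  have h := norm_le_of_monic_root _ hm _ (pointwise_of_eval₂ f q hroot z)
  rw [hq.natDegree_map] at h
  simpa [Polynomial.coeff_map] using h

theorem slash_mul_disc_pow (F : ℍ → ℂ) (M : ℕ) (δ : SL(2, ℤ)) :
    (fun z => F z * Δ z ^ M) ∣[12 * (M : ℤ)] δ = fun z => F (δ • z) * Δ z ^ M := by
  funext z
  rw [SL_slash_apply, H23.disc_smul]
  have hd : denom δ z ≠ 0 := denom_ne_zero δ z
  rw [mul_pow, ← pow_mul, zpow_neg, ← zpow_natCast (denom δ z) (12 * M)]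
  push_cast
  field_simp

theorem precompMer_comp_polyJ (δ : SL(2, ℤ)) : (precompMer δ).comp polyJ = polyJ :=
  RingHom.ext fun P => precompMer_polyJ δ P

variable (N : ℕ) [NeZero N]

theorem polyMer_mem_KN (P : MvPolynomial (Dv N) ℂ) : algebraMap Hol Mer (polyHol N P) ∈ KN N := by
  rw [← eval₂_constMer]
  induction P using MvPolynomial.induction_on with
  | C a =>
    rw [MvPolynomial.eval₂_C]
    exact Subfield.subset_closure (Or.inl ⟨a, rfl⟩)
  | add p q hp hq =>
    rw [MvPolynomial.eval₂_add]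
    exact add_mem hp hq
  | mul_X p d hp =>
    rw [MvPolynomial.eval₂_mul, MvPolynomial.eval₂_X]
    exact mul_mem hp (Subfield.subset_closure (Or.inr ⟨d, rfl⟩))

/-- **AN3, form (A)**. -/
theorem algStatement : AlgStatement N := by
  intro g hinv halg
  have h1 := isAlgebraic_polyJ_of_isAlgebraic_KN N g halg
  obtain ⟨y, hy, hint⟩ := h1.exists_integral_multiple
  obtain ⟨q, hq, hqroot⟩ := hint
  have hyg : y • g = polyJ y * g := rfl
  rw [hyg] at hqroot
  set h : Mer := polyJ y * g with hh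
  have hqroot' : q.eval₂ polyJ h = 0 := hqroot
  -- the translates of `h` are roots of `q`
  have hroot_δ : ∀ δ : SL(2, ℤ), q.eval₂ polyJ (precompMer δ h) = 0 := by
    intro δ
    have := congrArg (precompMer δ) hqroot'
    rw [map_zero, Polynomial.hom_eval₂, precompMer_comp_polyJ] at this
    exact this
  obtain ⟨f, hf, hfroot⟩ := exists_hol_of_integral h q hq hqroot'
  obtain ⟨M, hM⟩ := exists_exponent_of_integral q hq
  have hfδ : ∀ δ : SL(2, ℤ), q.eval₂ polyJHol (precomp δ f) = 0 := by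
    intro δ
    apply algebraMap_Hol_injective
    rw [map_zero, Polynomial.hom_eval₂, ← precompMer_algebraMap, hf]
    exact hroot_δ δ
  -- invariance of `f` under `Γ₀(N)`
  have hhinv : ∀ γ ∈ Gamma0 N, precompMer γ h = h := by
    intro γ hγ
    rw [hh, map_mul, hinv γ hγ, precompMer_polyJ]
  have hfinv : ∀ γ ∈ Gamma0 N, ∀ z : ℍ, (f : ℍ → ℂ) (γ • z) = (f : ℍ → ℂ) z := by
    intro γ hγ z
    have h1 := hhinv γ hγ
    rw [← hf, precompMer_algebraMap] at h1
    have h2 := algebraMap_Hol_injective h1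
    have h3 := congrArg (fun F : Hol => (F : ℍ → ℂ) z) h2
    simpa using h3
  -- apply helper10's AN3
  obtain ⟨P, Q, ⟨z₀, hz₀⟩, hPQ⟩ := H10AN3.h10an3_fun N (12 * (M : ℤ))
    (fun z => (f : ℍ → ℂ) z * Δ z ^ M) (fun z => (1 : ℂ) * Δ z ^ M)
    (f.2.mul (mdiff_disc.pow M)) (mdifferentiable_const.mul (mdiff_disc.pow M))
    (fun γ hγ => by
      rw [slash_mul_disc_pow]
      funext z
      rw [hfinv γ hγ z])
    (fun γ _ => by rw [slash_mul_disc_pow])
    (fun δ => by
      rw [slash_mul_disc_pow]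
      exact hM (precomp δ f) (hfδ δ))
    (fun δ => by
      rw [slash_mul_disc_pow]
      simpa using RH24.h24_bdd_disc_pow M)
    (by
      intro h0
      have := congrFun h0 UpperHalfPlane.I
      simp only [one_mul, Pi.zero_apply] at this
      exact pow_ne_zero _ (discriminant_ne_zero _) this)
  -- `f Q = P` in `Hol`
  have hfQ : f * polyHol N Q = polyHol N P := by
    apply Subtype.ext
    funext z
    have := hPQ z
    rw [one_mul] at this
    have hΔ : Δ z ^ M ≠ 0 := pow_ne_zero _ (discriminant_ne_zero z)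
    show (f : ℍ → ℂ) z * (polyHol N Q : ℍ → ℂ) z = (polyHol N P : ℍ → ℂ) z
    rw [polyHol_apply, polyHol_apply]
    have h2 : Δ z ^ M * ((f : ℍ → ℂ) z * MvPolynomial.eval (fun d : Dv N => jd d.1 z) Q)
        = Δ z ^ M * MvPolynomial.eval (fun d : Dv N => jd d.1 z) P := by
      rw [← this]; ring
    exact mul_left_cancel₀ hΔ h2
  have hQ0 : algebraMap Hol Mer (polyHol N Q) ≠ 0 := by
    intro h0
    have h1 : polyHol N Q = 0 := algebraMap_Hol_injective (by rw [h0, map_zero])
    have h2 := congrArg (fun F : Hol => (F : ℍ → ℂ) z₀) h1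
    simp only [polyHol_apply] at h2
    exact hz₀ h2
  have hhKN : h ∈ KN N := by
    have h3 : h * algebraMap Hol Mer (polyHol N Q) = algebraMap Hol Mer (polyHol N P) := by
      rw [← hf, ← map_mul, hfQ]
    have h4 : h = algebraMap Hol Mer (polyHol N P) * (algebraMap Hol Mer (polyHol N Q))⁻¹ := by
      rw [← h3, mul_assoc, mul_inv_cancel₀ hQ0, mul_one]
    rw [h4]
    exact mul_mem (polyMer_mem_KN N P) (inv_mem (polyMer_mem_KN N Q))
  have hy0 : polyJ y ≠ 0 := fun h0 => hy (polyJ_injective (by rw [h0, map_zero]))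
  have hg : g = (polyJ y)⁻¹ * h := by
    rw [hh, ← mul_assoc, inv_mul_cancel₀ hy0, one_mul]
  rw [hg]
  exact mul_mem (inv_mem (K1_le_KN N (polyJ_mem_K1 y))) hhKN

end H2AN3

end
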