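import Mathlib
import Fermat.Prelude.Def_FLTPrelim_Ramification
import Fermat.Prelude.Def_EllipticCurve_FrobeniusTrace
import Fermat.Prelude.Def_GaloisRep_ComplexConjugation
import Fermat.Agent.S05.Inertia
import Fermat.Agent.S54.Frobenius

/-!
# Item 80 (W3G), slice CYC, part 1 (helper27): the cyclotomic character modulo `n` on `G_ℚ`

For `L = ℚ̄`, `n ≥ 1` and `χ = modularCyclotomicCharacter L hn`:

* `h27cyc_frobenius` : `χ σ = ℓ` for a Frobenius element `σ` at a prime `ℓ ∤ n`;
* `h27cyc_inertia`   : `χ σ = 1` for `σ` in an inertia group at a prime `q ∤ n`;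
* `h27cyc_conj`      : `χ c = -1` for the complex conjugation `c`;
* `h27cyc_level`     : `χ σ = 1` if `σ` fixes `ℚ(ζ_n)`, a finite extension of `ℚ`.
-/

set_option autoImplicit false
set_option linter.style.longLine false
set_option linter.unusedSectionVars false
set_option linter.style.haveILetI false

noncomputable section

namespace H27CYC

open Fermat.Agent.H9

section Valuation

variable {L : Type*} [Field L]

/-- roots of unity lie in every valuation subring -/
theorem h27cyc_root_mem (A : ValuationSubring L) {n : ℕ} (hn : 0 < n) {t : L} (ht : t ^ n = 1) :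
    t ∈ A := by
  have h1 : IsIntegral ℤ t := by
    refine IsIntegral.of_pow hn ?_
    rw [ht]
    exact isIntegral_one
  exact h9_mem_of_isIntegral A h1

/-- the residue field of a valuation subring over `q` has characteristic `q` -/
theorem h27cyc_charP (A : ValuationSubring L) {q : ℕ} (hq : q.Prime) (hA : A.LiesOverPrime q) :
    CharP (IsLocalRing.ResidueField A) q := by
  refine (CharP.charP_iff_prime_eq_zero hq).mpr ?_
  have h1 : (((q : ℕ) : A) : L) ∈ A.nonunits := by
    have : (((q : ℕ) : A) : L) = (q : L) := by simp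
    rw [this]
    exact hA
  have h2 : ((q : ℕ) : A) ∈ IsLocalRing.maximalIdeal A :=
    ValuationSubring.coe_mem_nonunits_iff.mp h1
  have h3 := (IsLocalRing.residue_eq_zero_iff ((q : ℕ) : A)).mpr h2
  rwa [map_natCast] at h3

/-- **reduction is injective on roots of unity of order prime to the residue characteristic**,
basic form -/
theorem h27cyc_eq_one_of_sub_mem (A : ValuationSubring L) {q : ℕ} (hq : q.Prime)
    (hA : A.LiesOverPrime q) {n : ℕ} (hn : 0 < n) (hqn : ¬ q ∣ n) {t : L} (ht : t ^ n = 1)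
    (h : t - 1 ∈ A.nonunits) : t = 1 := by
  by_contra hne
  haveI := h27cyc_charP A hq hA
  have htA : t ∈ A := h27cyc_root_mem A hn ht
  set t' : A := ⟨t, htA⟩ with ht'
  have h1 : IsLocalRing.residue A t' = 1 := by
    have h2 : t' - 1 ∈ IsLocalRing.maximalIdeal A := by
      rw [← ValuationSubring.coe_mem_nonunits_iff]
      exact h
    have h3 := (IsLocalRing.residue_eq_zero_iff (t' - 1)).mpr h2
    rw [map_sub, map_one, sub_eq_zero] at h3
    exact h3
  have hsum : (∑ i ∈ Finset.range n, t' ^ i) = 0 := by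
    have h4 : (t' - 1) * ∑ i ∈ Finset.range n, t' ^ i = 0 := by
      rw [mul_geom_sum]
      apply Subtype.ext
      show t ^ n - 1 = 0
      rw [ht, sub_self]
    rcases mul_eq_zero.mp h4 with h5 | h5
    · exfalso
      apply hne
      have h6 := congrArg (fun x : A => (x : L)) h5
      simp only [ht'] at h6
      have h7 : t - 1 = 0 := h6
      exact sub_eq_zero.mp h7
    · exact h5
  have h8 := congrArg (IsLocalRing.residue A) hsum
  rw [map_sum, map_zero] at h8
  simp only [map_pow, h1, one_pow, Finset.sum_const, Finset.card_range, nsmul_eq_mul,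
    mul_one] at h8
  exact hqn ((CharP.cast_eq_zero_iff (IsLocalRing.ResidueField A) q n).mp h8)

/-- **reduction is injective on roots of unity of order prime to the residue characteristic** -/
theorem h27cyc_eq_of_sub_mem (A : ValuationSubring L) {q : ℕ} (hq : q.Prime)
    (hA : A.LiesOverPrime q) {n : ℕ} (hn : 0 < n) (hqn : ¬ q ∣ n) {t s : L} (ht : t ^ n = 1)
    (hs : s ^ n = 1) (h : t - s ∈ A.nonunits) : t = s := by
  have hs0 : s ≠ 0 := by
    rintro rfl
    rw [zero_pow hn.ne'] at hs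
    exact zero_ne_one hs
  have hsinv : s⁻¹ ^ n = 1 := by rw [inv_pow, hs, inv_one]
  have h1 : (t * s⁻¹) ^ n = 1 := by rw [mul_pow, ht, hsinv, one_mul]
  have h2 : t * s⁻¹ - 1 ∈ A.nonunits := by
    have h3 : t * s⁻¹ - 1 = (t - s) * s⁻¹ := by
      field_simp
    rw [h3]
    exact h9_mul_mem_nonunits A h (h27cyc_root_mem A hn hsinv)
  have h4 := h27cyc_eq_one_of_sub_mem A hq hA hn hqn h1 h2
  field_simp at h4
  exact h4

variable {K : Type*} [Field K] [Algebra K L]

/-- a Frobenius element acts as `x ↦ x ^ q` modulo the maximal ideal -/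
theorem h27cyc_frob_apply_sub_pow_mem (A : ValuationSubring L) {σ : L ≃ₐ[K] L} {q : ℕ}
    (hσ : A.IsFrobeniusAt σ q) {a : L} (ha : a ∈ A) : σ a - a ^ q ∈ A.nonunits := by
  obtain ⟨hd, hF⟩ := hσ
  have h1 := hF (IsLocalRing.residue A ⟨a, ha⟩)
  rw [← IsLocalRing.ResidueField.residue_smul, ← map_pow, ← sub_eq_zero, ← map_sub,
    IsLocalRing.residue_eq_zero_iff, ← ValuationSubring.coe_mem_nonunits_iff] at h1
  exact h1

end Valuation

/-! ### The character modulo `n` -/

section Char

abbrev Qb : Type := AlgebraicClosure ℚ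

abbrev GQ : Type := Qb ≃ₐ[ℚ] Qb

variable {n : ℕ} [NeZero n] (hn : Nat.card (rootsOfUnity n Qb) = n)

/-- the cyclotomic character modulo `n` on `G_ℚ` -/
def h27cycChar : GQ →* (ZMod n)ˣ :=
  MonoidHom.mk'
    (fun σ => modularCyclotomicCharacter Qb hn (σ : Qb ≃+* Qb))
    (fun a b => by rw [← map_mul]; congr 1)

theorem h27cycChar_apply (σ : GQ) :
    h27cycChar hn σ = modularCyclotomicCharacter Qb hn (σ : Qb ≃+* Qb) := rfl

theorem h27cyc_pow_val_natCast {t : Qb} (ht : t ^ n = 1) (m : ℕ) :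
    t ^ ((m : ZMod n).val) = t ^ m := by
  rw [ZMod.val_natCast]
  conv_rhs => rw [← Nat.div_add_mod m n, pow_add, pow_mul, ht, one_pow, one_mul]

/-- characterisation: if `σ t = t ^ m` for all `n`-th roots of unity then `χ σ = m`. -/
theorem h27cycChar_eq_natCast (σ : GQ) (m : ℕ)
    (h : ∀ t : Qb, t ^ n = 1 → σ t = t ^ m) :
    ((h27cycChar hn σ : (ZMod n)ˣ) : ZMod n) = (m : ZMod n) := by
  rw [h27cycChar_apply]
  symm
  apply modularCyclotomicCharacter.unique
  intro t ht
  have ht' : ((t : Qbˣ) : Qb) ^ n = 1 := by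
    have := (mem_rootsOfUnity n t).mp ht
    have h2 := congrArg (fun u : Qbˣ => (u : Qb)) this
    simpa using h2
  have h3 := h ((t : Qbˣ) : Qb) ht'
  rw [← h27cyc_pow_val_natCast ht' m] at h3
  exact_mod_cast h3

/-- **Frobenius**: `χ σ = ℓ`. -/
theorem h27cyc_frobenius {ℓ : ℕ} (hℓ : ℓ.Prime) (hℓn : ¬ ℓ ∣ n)
    (A : ValuationSubring Qb) (hA : A.LiesOverPrime ℓ) (σ : GQ) (hσ : A.IsFrobeniusAt σ ℓ) :
    ((h27cycChar hn σ : (ZMod n)ˣ) : ZMod n) = (ℓ : ZMod n) := by
  apply h27cycChar_eq_natCast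
  intro t ht
  have hn0 : 0 < n := Nat.pos_of_ne_zero (NeZero.ne n)
  have h1 : (σ t) ^ n = 1 := by rw [← map_pow, ht, map_one]
  have h2 : (t ^ ℓ) ^ n = 1 := by rw [← pow_mul, mul_comm, pow_mul, ht, one_pow]
  exact h27cyc_eq_of_sub_mem A hℓ hA hn0 hℓn h1 h2
    (h27cyc_frob_apply_sub_pow_mem A hσ (h27cyc_root_mem A hn0 ht))

/-- **inertia**: `χ σ = 1`. -/
theorem h27cyc_inertia {q : ℕ} (hq : q.Prime) (hqn : ¬ q ∣ n)
    (A : ValuationSubring Qb) (hA : A.LiesOverPrime q) (σ : GQ)
    (hσ : σ ∈ A.inertiaSubgroupIn ℚ) : h27cycChar hn σ = 1 := by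
  apply Units.ext
  rw [Units.val_one]
  have h0 := h27cycChar_eq_natCast hn σ 1 (by
    intro t ht
    have hn0 : 0 < n := Nat.pos_of_ne_zero (NeZero.ne n)
    have h1 : (σ t) ^ n = 1 := by rw [← map_pow, ht, map_one]
    rw [pow_one]
    exact h27cyc_eq_of_sub_mem A hq hA hn0 hqn h1 ht
      (h9_inertia_apply_sub_mem_nonunits A hσ (h27cyc_root_mem A hn0 ht)))
  rw [h0, Nat.cast_one]

/-- **finite level**: `χ σ = 1` if `σ` fixes all `n`-th roots of unity. -/
theorem h27cyc_eq_one_of_fix (σ : GQ) (h : ∀ t : Qb, t ^ n = 1 → σ t = t) :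
    h27cycChar hn σ = 1 := by
  apply Units.ext
  rw [Units.val_one]
  have h0 := h27cycChar_eq_natCast hn σ 1 (by
    intro t ht
    rw [pow_one]
    exact h t ht)
  rw [h0, Nat.cast_one]

/-- complex conjugation inverts roots of unity -/
theorem h27cyc_conj_apply {t : Qb} (ht : t ^ n = 1) : complexConjugation t = t⁻¹ := by
  have hn0 : n ≠ 0 := NeZero.ne n
  apply complexEmbedding.injective
  show complexEmbedding (complexConjugation t) = complexEmbedding t⁻¹
  rw [complexEmbedding_complexConjugation, map_inv₀]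
  set w : ℂ := complexEmbedding t with hw
  have hwn : w ^ n = 1 := by rw [hw, ← map_pow, ht, map_one]
  have hnorm : ‖w‖ = 1 := Complex.norm_eq_one_of_pow_eq_one hwn hn0
  exact (Complex.inv_eq_conj hnorm).symm

/-- **complex conjugation**: `χ c = -1`. -/
theorem h27cyc_conj : ((h27cycChar hn complexConjugation : (ZMod n)ˣ) : ZMod n) = -1 := by
  have hn0 : 0 < n := Nat.pos_of_ne_zero (NeZero.ne n)
  have h0 := h27cycChar_eq_natCast hn complexConjugation (n - 1) (by
    intro t ht
    rw [h27cyc_conj_apply ht]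
    have ht0 : t ≠ 0 := by
      rintro rfl
      rw [zero_pow hn0.ne'] at ht
      exact zero_ne_one ht
    have h5 : t ^ (n - 1) * t = 1 := by
      rw [← pow_succ, Nat.sub_add_cancel hn0, ht]
    exact (eq_inv_of_mul_eq_one_left h5).symm ▸ rfl)
  rw [h0, Nat.cast_sub hn0, ZMod.natCast_self, Nat.cast_one, zero_sub]

/-- **finite level**: there is a finite extension `L₀ / ℚ` such that `χ σ = 1` for all `σ`
fixing `L₀`. -/
theorem h27cyc_level : ∃ L₀ : IntermediateField ℚ Qb, FiniteDimensional ℚ L₀ ∧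
    ∀ σ : GQ, (∀ x ∈ L₀, σ x = x) → h27cycChar hn σ = 1 := by
  have hn0 : 0 < n := Nat.pos_of_ne_zero (NeZero.ne n)
  obtain ⟨ζ, hζ⟩ := HasEnoughRootsOfUnity.exists_primitiveRoot Qb n
  refine ⟨IntermediateField.adjoin ℚ {ζ}, ?_, ?_⟩
  · exact IntermediateField.adjoin.finiteDimensional
      ((hζ.isIntegral hn0).tower_top (R := ℤ) (A := ℚ))
  · intro σ hσ
    apply h27cyc_eq_one_of_fix
    intro t ht
    obtain ⟨i, -, rfl⟩ := hζ.eq_pow_of_pow_eq_one ht
    rw [map_pow, hσ ζ (IntermediateField.mem_adjoin_simple_self ℚ ζ)]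

end Char

end H27CYC
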