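import Mathlib
import Fermat.Agent.W3G.Defs
import Fermat.Agent.W3G.CycBase_helper27

/-!
# Item 80 (W3G), slice CYC-mod (helper27)

`h27cyc_mod p hp : H11W3G.CycModStatement p` for `p ≠ 0`: the cyclotomic character mod `p`
with values in any field of characteristic `p`.
(For `p = 0` the statement is false: a character of finite level cannot take the value `ℓ`
of infinite order.)
-/

set_option autoImplicit false
set_option linter.style.longLine false
set_option linter.unusedSectionVars false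
set_option linter.style.haveILetI false

noncomputable section

namespace H27CYC

/-- **CYC-mod** -/
theorem h27cyc_mod (p : ℕ) (hp0 : p ≠ 0) : H11W3G.CycModStatement p := by
  intro K _ _
  have hp : p.Prime := (CharP.char_is_prime_or_zero K p).resolve_right hp0
  haveI : Fact p.Prime := ⟨hp⟩
  haveI : NeZero p := ⟨hp0⟩
  have hn : Nat.card (rootsOfUnity p Qb) = p := HasEnoughRootsOfUnity.natCard_rootsOfUnity Qb p
  set ι : ZMod p →+* K := ZMod.castHom (dvd_refl p) K with hι
  set d : H11W3G.GQ →* Kˣ := (Units.map ι.toMonoidHom).comp (h27cycChar hn) with hd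
  have hdval : ∀ σ : H11W3G.GQ, ((d σ : Kˣ) : K) = ι ((h27cycChar hn σ : (ZMod p)ˣ) : ZMod p) :=
    fun σ => rfl
  refine ⟨d, ?_, ?_, ?_, ?_⟩
  · obtain ⟨L₀, hfd, hL₀⟩ := h27cyc_level hn
    refine ⟨L₀, hfd, fun σ hσ => ?_⟩
    rw [hd, MonoidHom.comp_apply, hL₀ σ hσ, map_one]
  · intro ℓ hℓ hℓp A hA σ hσ
    have hℓn : ¬ ℓ ∣ p := fun h => hℓp ((Nat.prime_dvd_prime_iff_eq hℓ hp).mp h)
    rw [hdval, h27cyc_frobenius hn hℓ hℓn A hA σ hσ, map_natCast]
  · intro q hq hqp A hA σ hσ
    have hqn : ¬ q ∣ p := fun h => hqp ((Nat.prime_dvd_prime_iff_eq hq hp).mp h)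
    rw [hd, MonoidHom.comp_apply, h27cyc_inertia hn hq hqn A hA σ hσ, map_one]
  · rw [hdval, h27cyc_conj hn, map_neg, map_one]

end H27CYC
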