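/-
Item 80 (W3-G), slice EXT (lead): the extraction lemma, pure linear algebra.

`ρ : G →* End_K V` (V nonzero, finite-dimensional), `d : G →* Kˣ`, and hypothesis (A):
every `ρ g` satisfies a quadratic relation `ρ(g)² - τ ρ(g) + d(g) = 0`  (`HypA`, `QRel`).

* `LeadEXT.ext_core_of_isAlgClosed` (K algebraically closed, ANY characteristic: S42, S29),
* `LeadEXT.ext_core` (every monic quadratic has a root),
* `LeadEXT.ext_core_conj` (ANY field with 2 ≠ 0 and an element c with ρ(c)² = 1, d(c) = -1: S30):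
    there is `ρ' : G →* Matrix (Fin 2) (Fin 2) K` with `det ρ'(g) = d(g)`,
    `trace ρ'(g) = t` whenever `ρ(g)² - t ρ(g) + d(g) = 0`, and `ρ'(g) = 1` when `ρ g = 1`, `d g = 1`.
* `LeadEXT.ext_sub_gen`, `LeadEXT.ext_sub_conj`: the same in subspace form (`GoodSub`), for lattices.

No Burnside, no hypothesis on the characteristic in the algebraically closed case.
-/
import Mathlib

set_option autoImplicit false

namespace LeadEXT

variable {K : Type*} [Field K] {V : Type*} [AddCommGroup V] [Module K V]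

/-- The quadratic relation `x² - t x + d = 0`. -/
def QRel (x : V →ₗ[K] V) (t d : K) : Prop :=
  x * x - t • x + d • (1 : V →ₗ[K] V) = 0

theorem QRel.sq {x : V →ₗ[K] V} {t d : K} (h : QRel x t d) :
    x * x = t • x - d • (1 : V →ₗ[K] V) := by
  unfold QRel at h
  have : x * x = x * x - t • x + d • (1 : V →ₗ[K] V) + (t • x - d • (1 : V →ₗ[K] V)) := by abel
  rw [this, h, zero_add]

/-- `d x⁻¹ = t - x`. -/
theorem QRel.inv {x x' : V →ₗ[K] V} {t d : K} (h : QRel x t d) (hx : x * x' = 1) :
    d • x' = t • (1 : V →ₗ[K] V) - x := by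
  have h1 : (x * x - t • x + d • (1 : V →ₗ[K] V)) * x' = 0 := by rw [h, zero_mul]
  have h2 : (x * x - t • x + d • (1 : V →ₗ[K] V)) * x' = x * (x * x') - t • (x * x') + d • x' := by
    simp only [add_mul, sub_mul, smul_mul_assoc, one_mul, mul_assoc]
  rw [h2, hx, mul_one] at h1
  have : d • x' = (x - t • (1 : V →ₗ[K] V) + d • x') + (t • (1 : V →ₗ[K] V) - x) := by abel
  rw [this, h1, zero_add]

/-- The polarised identity. -/
theorem polar {x x' y y' : V →ₗ[K] V} {tx dx ty dy txy : K}
    (hx : QRel x tx dx) (hy : QRel y ty dy) (hxy : QRel (x * y) txy (dx * dy))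
    (hx' : x * x' = 1) (hy' : y * y' = 1) :
    x * y + y * x = (txy - tx * ty) • (1 : V →ₗ[K] V) + ty • x + tx • y := by
  have hxy' : (x * y) * (y' * x') = 1 := by
    rw [mul_assoc, ← mul_assoc y, hy', one_mul, hx']
  have h1 := hxy.inv hxy'
  have h2 : (dx * dy) • (y' * x') = (dy • y') * (dx • x') := by
    rw [smul_mul_smul_comm, mul_comm dy dx]
  rw [h2, hy.inv hy', hx.inv hx'] at h1
  have h3 : (ty • (1 : V →ₗ[K] V) - y) * (tx • (1 : V →ₗ[K] V) - x)
      = (ty * tx) • (1 : V →ₗ[K] V) - ty • x - tx • y + y * x := by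
    simp only [sub_mul, mul_sub, smul_mul_assoc, mul_smul_comm, one_mul, mul_one]
    module
  rw [h3] at h1
  have : x * y + y * x = ((ty * tx) • (1 : V →ₗ[K] V) - ty • x - tx • y + y * x)
      - (txy • (1 : V →ₗ[K] V) - x * y) + (txy - tx * ty) • (1 : V →ₗ[K] V) + ty • x + tx • y := by
    module
  rw [this, h1, sub_self, zero_add]

section Group

variable {G : Type*} [Group G] (ρ : G →* (V →ₗ[K] V)) (d : G →* Kˣ)

/-- Hypothesis (A): every element satisfies a quadratic relation with constant term `d g`. -/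
def HypA : Prop := ∀ g, ∃ τ : K, QRel (ρ g) τ (d g : K)

/-- `W` is stable under the group. -/
def Stable (W : Submodule K V) : Prop := ∀ g, ∀ v ∈ W, ρ g v ∈ W

/-- Irreducibility. -/
def Irred : Prop := ∀ W : Submodule K V, Stable ρ W → W = ⊥ ∨ W = ⊤

variable {ρ d}

theorem mul_inv_eq_one (g : G) : ρ g * ρ g⁻¹ = 1 := by
  rw [← map_mul, mul_inv_cancel, map_one]

theorem polar_apply (hA : HypA ρ d) (g h : G) {tg : K} (hg : QRel (ρ g) tg (d g : K)) :
    ∃ c th : K, ∀ w : V, ρ g (ρ h w) + ρ h (ρ g w) = c • w + th • ρ g w + tg • ρ h w := by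
  obtain ⟨th, hth⟩ := hA h
  obtain ⟨tgh, htgh⟩ := hA (g * h)
  rw [map_mul, map_mul, Units.val_mul] at htgh
  have := polar hg hth htgh (mul_inv_eq_one g) (mul_inv_eq_one h)
  refine ⟨tgh - tg * th, th, fun w => ?_⟩
  have h2 := congrArg (fun f : V →ₗ[K] V => f w) this
  simpa using h2

/-- The orbit of a nonzero vector spans an irreducible representation. -/
theorem span_orbit_eq_top (hI : Irred ρ) {w : V} (hw : w ≠ 0) :
    Submodule.span K (Set.range fun h : G => ρ h w) = ⊤ := by
  have hst : Stable ρ (Submodule.span K (Set.range fun h : G => ρ h w)) := by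
    intro g v hv
    induction hv using Submodule.span_induction with
    | mem x hx =>
      obtain ⟨h, rfl⟩ := hx
      refine Submodule.subset_span ⟨g * h, ?_⟩
      simp [map_mul]
    | zero => simp
    | add x y _ _ hx hy => rw [map_add]; exact Submodule.add_mem _ hx hy
    | smul a x _ hx => rw [map_smul]; exact Submodule.smul_mem _ a hx
  rcases hI _ hst with h | h
  · exfalso
    have : w ∈ Submodule.span K (Set.range fun h : G => ρ h w) :=
      Submodule.subset_span ⟨1, by simp⟩
    rw [h] at this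
    exact hw (by simpa using this)
  · exact h

/-- Key step: if `w` is an eigenvector of `ρ g` for the root `α`, then `ρ g - β` maps everything
into the line `K w`, where `β = τ - α`. -/
theorem range_sub_le (hA : HypA ρ d) (hI : Irred ρ) (g : G) {tg α : K}
    (hg : QRel (ρ g) tg (d g : K)) {w : V} (hw : w ≠ 0) (hgw : ρ g w = α • w) (v : V) :
    ∃ c : K, ρ g v - (tg - α) • v = c • w := by
  have hv : v ∈ Submodule.span K (Set.range fun h : G => ρ h w) := by
    rw [span_orbit_eq_top hI hw]; trivial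
  induction hv using Submodule.span_induction with
  | mem x hx =>
    obtain ⟨h, rfl⟩ := hx
    obtain ⟨c, th, hc⟩ := polar_apply hA g h hg
    have := hc w
    rw [hgw, map_smul] at this
    refine ⟨c + th * α, ?_⟩
    have e : ρ g (ρ h w) - (tg - α) • ρ h w
        = (ρ g (ρ h w) + α • ρ h w) - tg • ρ h w := by module
    rw [e, this]
    module
  | zero => exact ⟨0, by simp⟩
  | add x y _ _ hx hy =>
    obtain ⟨a, ha⟩ := hx
    obtain ⟨b, hb⟩ := hy
    refine ⟨a + b, ?_⟩
    rw [map_add, smul_add, add_smul, ← ha, ← hb]; abel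
  | smul a x _ hx =>
    obtain ⟨b, hb⟩ := hx
    refine ⟨a * b, ?_⟩
    rw [map_smul, smul_comm, ← smul_sub, hb, smul_smul]

end Group


section Dim

variable {K : Type*} [Field K] {V : Type*} [AddCommGroup V] [Module K V]
variable {G : Type*} [Group G] {ρ : G →* (V →ₗ[K] V)} {d : G →* Kˣ}

/-- An endomorphism of a space of dimension `≤ 1` is a scalar. -/
theorem scalar_of_finrank_le_one [FiniteDimensional K V] (h : Module.finrank K V ≤ 1)
    (x : V →ₗ[K] V) : ∃ c : K, x = c • (1 : V →ₗ[K] V) := by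
  rcases Nat.lt_or_ge (Module.finrank K V) 1 with h0 | h1
  · have h0' : Module.finrank K V = 0 := by omega
    have : Subsingleton V := Module.finrank_zero_iff.mp h0'
    exact ⟨0, LinearMap.ext fun v => Subsingleton.elim _ _⟩
  · have h1' : Module.finrank K V = 1 := le_antisymm h h1
    obtain ⟨v, hv0, hv⟩ := finrank_eq_one_iff'.mp h1'
    obtain ⟨c, hc⟩ := hv (x v)
    refine ⟨c, LinearMap.ext fun w => ?_⟩
    obtain ⟨a, rfl⟩ := hv w
    rw [map_smul, ← hc, LinearMap.smul_apply, Module.End.one_apply, smul_comm]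

/-- In an irreducible representation satisfying (A), a non-scalar element with a rational
eigenvalue forces dimension two. -/
theorem finrank_eq_two [FiniteDimensional K V] (hA : HypA ρ d) (hI : Irred ρ) (g : G) {tg α : K}
    (hg : QRel (ρ g) tg (d g : K)) (hα : α * α - tg * α + (d g : K) = 0)
    (hns : ∀ c : K, ρ g ≠ c • (1 : V →ₗ[K] V)) : Module.finrank K V = 2 := by
  set x := ρ g with hx
  set β := tg - α with hβ
  have hαβ : tg - β = α := by rw [hβ]; ring
  -- `(x - α)(x - β) = 0`
  have hAB : ∀ v : V, x (x v - β • v) = α • (x v - β • v) := by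
    intro v
    have h1 := congrArg (fun f : V →ₗ[K] V => f v) hg
    simp only [LinearMap.add_apply, LinearMap.sub_apply, Module.End.mul_apply,
      LinearMap.smul_apply, Module.End.one_apply, LinearMap.zero_apply] at h1
    have hd : (d g : K) = tg * α - α * α := by linear_combination hα
    rw [hd] at h1
    rw [map_sub, map_smul]
    have : x (x v) - β • x v - α • (x v - β • v)
        = x (x v) - tg • x v + (tg * α - α * α) • v := by
      rw [hβ]; module
    exact sub_eq_zero.mp (this.trans h1)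
  have hBA : ∀ v : V, x (x v - α • v) = β • (x v - α • v) := by
    intro v
    have h1 := congrArg (fun f : V →ₗ[K] V => f v) hg
    simp only [LinearMap.add_apply, LinearMap.sub_apply, Module.End.mul_apply,
      LinearMap.smul_apply, Module.End.one_apply, LinearMap.zero_apply] at h1
    have hd : (d g : K) = tg * α - α * α := by linear_combination hα
    rw [hd] at h1
    rw [map_sub, map_smul]
    have : x (x v) - α • x v - β • (x v - α • v)
        = x (x v) - tg • x v + (tg * α - α * α) • v := by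
      rw [hβ]; module
    exact sub_eq_zero.mp (this.trans h1)
  -- nonzero vectors in the two ranges
  have hB : ∃ v₀, x v₀ - β • v₀ ≠ 0 := by
    by_contra hcon
    simp only [not_exists, not_not] at hcon
    exact hns β (LinearMap.ext fun v => by
      rw [LinearMap.smul_apply, Module.End.one_apply]; exact sub_eq_zero.mp (hcon v))
  have hA' : ∃ v₀, x v₀ - α • v₀ ≠ 0 := by
    by_contra hcon
    simp only [not_exists, not_not] at hcon
    exact hns α (LinearMap.ext fun v => by
      rw [LinearMap.smul_apply, Module.End.one_apply]; exact sub_eq_zero.mp (hcon v))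
  obtain ⟨v₀, hv₀⟩ := hB
  obtain ⟨v₁, hv₁⟩ := hA'
  set w₁ := x v₀ - β • v₀ with hw₁
  set w₂ := x v₁ - α • v₁ with hw₂
  have hxw₁ : x w₁ = α • w₁ := hAB v₀
  have hxw₂ : x w₂ = β • w₂ := hBA v₁
  have hβroot : QRel (ρ g) tg (d g : K) := hg
  -- range of `x - α` is in `K w₂`
  have hrange : ∀ v, ∃ c : K, x v - α • v = c • w₂ := by
    intro v
    have := range_sub_le hA hI g hg hv₁ hxw₂ v
    rwa [hαβ] at this
  -- kernel of `x - α` is in `K w₁`
  have hker : ∀ w, x w = α • w → ∃ c : K, w = c • w₁ := by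
    intro w hw
    by_cases hw0 : w = 0
    · exact ⟨0, by rw [hw0, zero_smul]⟩
    obtain ⟨c, hc⟩ := range_sub_le hA hI g hg hw0 hw v₀
    have hc0 : c ≠ 0 := by
      rintro rfl
      rw [zero_smul] at hc
      exact hv₀ hc
    refine ⟨c⁻¹, ?_⟩
    rw [hw₁, hc, smul_smul, inv_mul_cancel₀ hc0, one_smul]
  -- dimension count
  let A : V →ₗ[K] V := x - α • (1 : V →ₗ[K] V)
  have hAapp : ∀ v, A v = x v - α • v := fun v => by
    simp [A]
  have h1 : Module.finrank K (LinearMap.range A) ≤ 1 := by
    have hle : LinearMap.range A ≤ Submodule.span K {w₂} := by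
      rintro _ ⟨v, rfl⟩
      obtain ⟨c, hc⟩ := hrange v
      rw [hAapp, hc]
      exact Submodule.smul_mem _ _ (Submodule.subset_span rfl)
    calc Module.finrank K (LinearMap.range A)
        ≤ Module.finrank K (Submodule.span K {w₂}) := Submodule.finrank_mono hle
      _ ≤ 1 := by
        exact (finrank_span_singleton (K := K) hv₁).le
  have h2 : Module.finrank K (LinearMap.ker A) ≤ 1 := by
    have hle : LinearMap.ker A ≤ Submodule.span K {w₁} := by
      intro w hw
      rw [LinearMap.mem_ker, hAapp, sub_eq_zero] at hw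
      obtain ⟨c, hc⟩ := hker w hw
      rw [hc]
      exact Submodule.smul_mem _ _ (Submodule.subset_span rfl)
    calc Module.finrank K (LinearMap.ker A)
        ≤ Module.finrank K (Submodule.span K {w₁}) := Submodule.finrank_mono hle
      _ ≤ 1 := by
        exact (finrank_span_singleton (K := K) hv₀).le
  have h3 := LinearMap.finrank_range_add_finrank_ker A
  have h4 : ¬ Module.finrank K V ≤ 1 := by
    intro hle
    obtain ⟨c, hc⟩ := scalar_of_finrank_le_one hle x
    exact hns c hc
  omega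

end Dim

section Min

variable {K : Type*} [Field K] {V : Type*} [AddCommGroup V] [Module K V]
variable {G : Type*} [Group G] (ρ : G →* (V →ₗ[K] V)) (d : G →* Kˣ)

/-- The restriction of the representation to a stable subspace. -/
def restr (W : Submodule K V) (hW : Stable ρ W) : G →* (W →ₗ[K] W) where
  toFun g := (ρ g).restrict (hW g)
  map_one' := by
    ext v
    simp [LinearMap.restrict_apply]
  map_mul' g h := by
    ext v
    simp [LinearMap.restrict_apply, map_mul]

variable {ρ d}

@[simp] theorem restr_apply_coe (W : Submodule K V) (hW : Stable ρ W) (g : G) (v : W) :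
    ((restr ρ W hW g v : W) : V) = ρ g (v : V) := rfl

theorem QRel.restr {W : Submodule K V} (hW : Stable ρ W) {g : G} {t e : K}
    (h : QRel (ρ g) t e) : QRel (restr ρ W hW g) t e := by
  unfold QRel at h ⊢
  ext v
  have h1 := congrArg (fun f : V →ₗ[K] V => f (v : V)) h
  simpa using h1

theorem HypA.restr (hA : HypA ρ d) {W : Submodule K V} (hW : Stable ρ W) :
    HypA (restr ρ W hW) d := fun g => by
  obtain ⟨τ, hτ⟩ := hA g
  exact ⟨τ, hτ.restr hW⟩

/-- There is a nonzero stable subspace on which the representation is irreducible. -/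
theorem exists_irred [FiniteDimensional K V] [Nontrivial V] :
    ∃ (W : Submodule K V) (hW : Stable ρ W), W ≠ ⊥ ∧ Irred (restr ρ W hW) := by
  classical
  -- choose a nonzero stable subspace of minimal dimension
  have hex : ∃ n : ℕ, ∃ W : Submodule K V, Stable ρ W ∧ W ≠ ⊥ ∧ Module.finrank K W = n :=
    ⟨_, ⊤, fun _ _ _ => trivial, top_ne_bot, rfl⟩
  obtain ⟨W, hW, hW0, hWn⟩ := Nat.find_spec hex
  refine ⟨W, hW, hW0, ?_⟩
  intro U hU
  -- the image of `U` in `V`
  have hst : Stable ρ (U.map W.subtype) := by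
    rintro g _ ⟨u, hu, rfl⟩
    exact ⟨restr ρ W hW g u, hU g u hu, rfl⟩
  by_cases hU0 : U = ⊥
  · exact Or.inl hU0
  right
  have hmap0 : U.map W.subtype ≠ ⊥ := by
    intro h
    apply hU0
    rw [Submodule.eq_bot_iff]
    intro u hu
    have hu' : (W.subtype u) ∈ U.map W.subtype := ⟨u, hu, rfl⟩
    rw [h, Submodule.mem_bot] at hu'
    exact Subtype.ext hu'
  have hle : U.map W.subtype ≤ W := Submodule.map_subtype_le W U
  have hmin : Nat.find hex ≤ Module.finrank K (U.map W.subtype) :=
    Nat.find_min' hex ⟨_, hst, hmap0, rfl⟩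
  have hfin : Module.finrank K (U.map W.subtype) = Module.finrank K U :=
    (Submodule.equivSubtypeMap W U).symm.finrank_eq
  have h3 : Module.finrank K U = Module.finrank K W := by
    have := Submodule.finrank_le U
    rw [hfin, ← hWn] at hmin
    omega
  exact Submodule.eq_top_of_finrank_eq h3

end Min

section Mat

variable {K : Type*} [Field K] {G : Type*} [Group G]

/-- Cayley-Hamilton for `2 × 2` matrices. -/
theorem cayley_two (M : Matrix (Fin 2) (Fin 2) K) :
    M * M - M.trace • M + M.det • (1 : Matrix (Fin 2) (Fin 2) K) = 0 := by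
  ext i j
  fin_cases i <;> fin_cases j <;>
    simp [Matrix.mul_apply, Fin.sum_univ_two, Matrix.trace_fin_two, Matrix.det_fin_two] <;> ring

/-- A non-scalar `2 × 2` matrix satisfying `M² - tM + d = 0` has trace `t` and determinant `d`. -/
theorem trace_det_of_nonscalar {M : Matrix (Fin 2) (Fin 2) K} {t d : K}
    (h : M * M - t • M + d • (1 : Matrix (Fin 2) (Fin 2) K) = 0)
    (hns : ∀ c : K, M ≠ c • (1 : Matrix (Fin 2) (Fin 2) K)) : M.trace = t ∧ M.det = d := by
  have hc := cayley_two M
  have e : (M.trace - t) • M = (M.det - d) • (1 : Matrix (Fin 2) (Fin 2) K) := by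
    have : (M.trace - t) • M - (M.det - d) • (1 : Matrix (Fin 2) (Fin 2) K)
        = (M * M - t • M + d • (1 : Matrix (Fin 2) (Fin 2) K))
          - (M * M - M.trace • M + M.det • (1 : Matrix (Fin 2) (Fin 2) K)) := by module
    rw [h, hc, sub_zero] at this
    exact sub_eq_zero.mp this
  by_cases ht : M.trace = t
  · refine ⟨ht, ?_⟩
    rw [ht, sub_self, zero_smul] at e
    have := congrFun (congrFun e 0) 0
    simp at this
    exact (sub_eq_zero.mp this.symm)
  · exfalso
    have ht' : M.trace - t ≠ 0 := sub_ne_zero.mpr ht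
    refine hns ((M.trace - t)⁻¹ * (M.det - d)) ?_
    rw [mul_smul, ← e, smul_smul, inv_mul_cancel₀ ht', one_smul]

variable (M : G →* Matrix (Fin 2) (Fin 2) K) (d : G →* Kˣ)

/-- The `2`-dimensional case of the extraction lemma, in matrix form. -/
theorem two_dim (hA : ∀ g, ∃ τ : K, M g * M g - τ • M g + (d g : K) • (1 : Matrix (Fin 2) (Fin 2) K) = 0)
    (g₀ : G) (hg₀ : ∀ c : K, M g₀ ≠ c • (1 : Matrix (Fin 2) (Fin 2) K)) (g : G) :
    (M g).det = d g ∧
      ∀ t : K, M g * M g - t • M g + (d g : K) • (1 : Matrix (Fin 2) (Fin 2) K) = 0 →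
        (M g).trace = t := by
  by_cases hs : ∀ c : K, M g ≠ c • (1 : Matrix (Fin 2) (Fin 2) K)
  · obtain ⟨τ, hτ⟩ := hA g
    exact ⟨(trace_det_of_nonscalar hτ hs).2, fun t ht => (trace_det_of_nonscalar ht hs).1⟩
  · simp only [not_forall, not_not] at hs
    obtain ⟨c, hc⟩ := hs
    have hinv : M g * M g⁻¹ = 1 := by rw [← map_mul, mul_inv_cancel, map_one]
    have hc0 : c ≠ 0 := by
      rintro rfl
      rw [hc, zero_smul, zero_mul] at hinv
      exact zero_ne_one hinv
    -- `g g₀` is not scalar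
    have hns : ∀ c' : K, M (g * g₀) ≠ c' • (1 : Matrix (Fin 2) (Fin 2) K) := by
      intro c' h'
      rw [map_mul, hc, smul_mul_assoc, one_mul] at h'
      refine hg₀ (c⁻¹ * c') ?_
      rw [mul_smul, ← h', smul_smul, inv_mul_cancel₀ hc0, one_smul]
    obtain ⟨τ, hτ⟩ := hA (g * g₀)
    obtain ⟨τ₀, hτ₀⟩ := hA g₀
    have h1 := (trace_det_of_nonscalar hτ hns).2
    have h0 := (trace_det_of_nonscalar hτ₀ hg₀).2
    rw [map_mul, Matrix.det_mul, h0, map_mul, Units.val_mul] at h1
    have hd0 : (d g₀ : K) ≠ 0 := (d g₀).ne_zero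
    have hdet : (M g).det = d g := mul_right_cancel₀ hd0 h1
    refine ⟨hdet, fun t ht => ?_⟩
    have hcc : c * c = d g := by
      rw [← hdet, hc, Matrix.det_smul, Matrix.det_one, Fintype.card_fin]; ring
    rw [hc] at ht ⊢
    have := congrFun (congrFun ht 0) 0
    simp at this
    rw [Matrix.trace_fin_two]
    simp
    -- this : c * c - t * c + d g = 0
    have h2 : c * (c + c - t) = 0 := by
      have : c * (c + c - t) = (c * c - t * c + d g) + (c * c - d g) := by ring
      rw [this]
      rw [hcc] at *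
      simp_all
    rcases mul_eq_zero.mp h2 with h | h
    · exact absurd h hc0
    · exact sub_eq_zero.mp h

end Mat

section Main

variable {K : Type*} [Field K] {V : Type*} [AddCommGroup V] [Module K V]
variable {G : Type*} [Group G] {ρ : G →* (V →ₗ[K] V)} {d : G →* Kˣ}

/-- A diagonal representation. -/
def diagHom (ψ₁ ψ₂ : G →* K) : G →* Matrix (Fin 2) (Fin 2) K where
  toFun g := Matrix.diagonal ![ψ₁ g, ψ₂ g]
  map_one' := by
    ext i j
    fin_cases i <;> fin_cases j <;> simp
  map_mul' g h := by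
    ext i j
    fin_cases i <;> fin_cases j <;> simp [Matrix.mul_apply, Fin.sum_univ_two]

theorem smul_one_injective [Nontrivial V] {a b : K}
    (h : a • (1 : V →ₗ[K] V) = b • (1 : V →ₗ[K] V)) : a = b := by
  obtain ⟨v, hv⟩ := exists_ne (0 : V)
  have h1 := congrArg (fun f : V →ₗ[K] V => f v) h
  simp only [LinearMap.smul_apply, Module.End.one_apply] at h1
  by_contra hab
  have : (a - b) • v = 0 := by rw [sub_smul, h1, sub_self]
  rcases smul_eq_zero.mp this with h2 | h2
  · exact hab (sub_eq_zero.mp h2)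
  · exact hv h2

/-- The scalar character of a representation all of whose elements are scalars. -/
theorem exists_character [Nontrivial V] (hs : ∀ g, ∃ c : K, ρ g = c • (1 : V →ₗ[K] V)) :
    ∃ ψ : G →* Kˣ, ∀ g, ρ g = (ψ g : K) • (1 : V →ₗ[K] V) := by
  classical
  choose c hc using hs
  have h1 : c 1 = 1 := by
    apply smul_one_injective (V := V)
    rw [← hc, map_one, one_smul]
  have hmul : ∀ g h, c (g * h) = c g * c h := by
    intro g h
    apply smul_one_injective (V := V)
    rw [← hc, map_mul, hc g, hc h, smul_mul_smul_comm, one_mul]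
  let f : G →* K := { toFun := c, map_one' := h1, map_mul' := hmul }
  refine ⟨f.toHomUnits, fun g => ?_⟩
  rw [hc g]
  rfl

/-- The conclusion of the extraction lemma on a stable subspace `W`: either `G` acts on `W`
through a character, or `W` is two-dimensional with `det = d` and the expected traces. -/
def GoodSub (ρ : G →* (V →ₗ[K] V)) (d : G →* Kˣ) (W : Submodule K V) (hW : Stable ρ W) : Prop :=
  (∃ ψ : G →* Kˣ, ∀ g, restr ρ W hW g = (ψ g : K) • (1 : W →ₗ[K] W)) ∨
    (Module.finrank K W = 2 ∧ ∀ g, LinearMap.det (restr ρ W hW g) = (d g : K) ∧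
      ∀ t : K, QRel (ρ g) t (d g : K) → LinearMap.trace K W (restr ρ W hW g) = t)

/-- **Extraction lemma, general form.**  `hgood` asks, on every irreducible stable subspace that is
not scalar, for ONE non-scalar element whose quadratic relation has a root in `K`. -/
theorem ext_sub_gen [FiniteDimensional K V] [Nontrivial V] (hA : HypA ρ d)
    (hgood : ∀ (W : Submodule K V) (hW : Stable ρ W), Irred (restr ρ W hW) →
      (∃ g, ∀ c : K, restr ρ W hW g ≠ c • (1 : W →ₗ[K] W)) →
      ∃ (g₀ : G) (τ₀ α : K), (∀ c : K, restr ρ W hW g₀ ≠ c • (1 : W →ₗ[K] W)) ∧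
        QRel (restr ρ W hW g₀) τ₀ (d g₀ : K) ∧ α * α - τ₀ * α + (d g₀ : K) = 0) :
    ∃ (W : Submodule K V) (hW : Stable ρ W), W ≠ ⊥ ∧ GoodSub ρ d W hW := by
  classical
  obtain ⟨W, hW, hW0, hI⟩ := exists_irred (ρ := ρ)
  have : Nontrivial W := Submodule.nontrivial_iff_ne_bot.mpr hW0
  have hAW : HypA (restr ρ W hW) d := hA.restr hW
  refine ⟨W, hW, hW0, ?_⟩
  by_cases hs : ∀ g, ∃ c : K, restr ρ W hW g = c • (1 : W →ₗ[K] W)
  · exact Or.inl (exists_character hs)
  · right
    simp only [not_forall, not_exists] at hs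
    obtain ⟨g₀, τ₀, α, hg₀, hτ₀, hα⟩ := hgood W hW hI hs
    have h2 : Module.finrank K W = 2 := finrank_eq_two hAW hI g₀ hτ₀ hα hg₀
    refine ⟨h2, ?_⟩
    let b : Module.Basis (Fin 2) K W := Module.finBasisOfFinrankEq K W h2
    let e : (W →ₗ[K] W) ≃ₐ[K] Matrix (Fin 2) (Fin 2) K := LinearMap.toMatrixAlgEquiv b
    let M : G →* Matrix (Fin 2) (Fin 2) K := (e : (W →ₗ[K] W) →* Matrix (Fin 2) (Fin 2) K).comp
      (restr ρ W hW)
    have hM : ∀ g, M g = e (restr ρ W hW g) := fun g => rfl
    have hM' : ∀ g, M g = LinearMap.toMatrix b b (restr ρ W hW g) := fun g => rfl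
    have hrel : ∀ g (t : K), QRel (restr ρ W hW g) t (d g : K) →
        M g * M g - t • M g + (d g : K) • (1 : Matrix (Fin 2) (Fin 2) K) = 0 := by
      intro g t h
      have := congrArg e h
      simpa [QRel, hM] using this
    have hnsM : ∀ c : K, M g₀ ≠ c • (1 : Matrix (Fin 2) (Fin 2) K) := by
      intro c hc
      apply hg₀ c
      apply e.injective
      rw [← hM, hc, map_smul, map_one]
    have hAM : ∀ g, ∃ τ : K, M g * M g - τ • M g + (d g : K) • (1 : Matrix (Fin 2) (Fin 2) K) = 0 :=
      fun g => by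
        obtain ⟨τ, hτ⟩ := hAW g
        exact ⟨τ, hrel g τ hτ⟩
    intro g
    have hdet : LinearMap.det (restr ρ W hW g) = (M g).det := by
      rw [hM', LinearMap.det_toMatrix]
    have htr : LinearMap.trace K W (restr ρ W hW g) = (M g).trace := by
      rw [hM', LinearMap.trace_eq_matrix_trace K b]
    rw [hdet, htr]
    exact ⟨(two_dim M d hAM g₀ hnsM g).1,
      fun t ht => (two_dim M d hAM g₀ hnsM g).2 t (hrel g t (ht.restr hW))⟩

/-- From a good subspace to a two-dimensional representation in matrix form. -/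
theorem matrix_of_goodSub [FiniteDimensional K V] {W : Submodule K V} {hW : Stable ρ W}
    (hW0 : W ≠ ⊥) (h : GoodSub ρ d W hW) :
    ∃ ρ' : G →* Matrix (Fin 2) (Fin 2) K,
      (∀ g, (ρ' g).det = d g) ∧
      (∀ g (t : K), QRel (ρ g) t (d g : K) → (ρ' g).trace = t) ∧
      (∀ g, ρ g = 1 → d g = 1 → ρ' g = 1) := by
  classical
  have : Nontrivial W := Submodule.nontrivial_iff_ne_bot.mpr hW0
  rcases h with ⟨ψ, hψ⟩ | ⟨h2, hprop⟩
  · -- the scalar case: `ψ ⊕ d ψ⁻¹`
    refine ⟨diagHom ((Units.coeHom K).comp ψ) ((Units.coeHom K).comp (d * ψ⁻¹)), ?_, ?_, ?_⟩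
    · intro g
      have hψ0 : (ψ g : K) ≠ 0 := (ψ g).ne_zero
      simp only [diagHom, MonoidHom.coe_mk, OneHom.coe_mk, Matrix.det_fin_two,
        Matrix.diagonal_apply_eq, MonoidHom.coe_comp, Function.comp_apply, Units.coeHom_apply,
        MonoidHom.mul_apply, MonoidHom.inv_apply, Units.val_mul, Units.val_inv_eq_inv_val,
        Matrix.cons_val_zero, Matrix.cons_val_one]
      simp
      field_simp
    · intro g t ht
      have h1 := ht.restr hW (W := W)
      rw [QRel, hψ g] at h1
      have h2 : ((ψ g : K) * (ψ g : K) - t * (ψ g : K) + (d g : K)) • (1 : W →ₗ[K] W)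
          = (0 : K) • (1 : W →ₗ[K] W) := by
        rw [zero_smul, ← h1, smul_mul_smul_comm, one_mul]
        module
      have h3 := smul_one_injective h2
      have hψ0 : (ψ g : K) ≠ 0 := (ψ g).ne_zero
      simp only [diagHom, MonoidHom.coe_mk, OneHom.coe_mk, Matrix.trace_fin_two,
        Matrix.diagonal_apply_eq, MonoidHom.coe_comp, Function.comp_apply, Units.coeHom_apply,
        MonoidHom.mul_apply, MonoidHom.inv_apply, Units.val_mul, Units.val_inv_eq_inv_val,
        Matrix.cons_val_zero, Matrix.cons_val_one]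
      field_simp
      linear_combination h3
    · intro g hg hd
      have h1 : restr ρ W hW g = 1 := by
        ext v
        simp [hg]
      have h2 : (ψ g : K) = 1 := by
        apply smul_one_injective (V := W)
        rw [← hψ g, h1, one_smul]
      have h3 : ψ g = 1 := Units.ext h2
      ext i j
      fin_cases i <;> fin_cases j <;> simp [diagHom, h3, hd]
  · let b : Module.Basis (Fin 2) K W := Module.finBasisOfFinrankEq K W h2
    let e : (W →ₗ[K] W) ≃ₐ[K] Matrix (Fin 2) (Fin 2) K := LinearMap.toMatrixAlgEquiv b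
    let M : G →* Matrix (Fin 2) (Fin 2) K := (e : (W →ₗ[K] W) →* Matrix (Fin 2) (Fin 2) K).comp
      (restr ρ W hW)
    have hM : ∀ g, M g = e (restr ρ W hW g) := fun g => rfl
    have hM' : ∀ g, M g = LinearMap.toMatrix b b (restr ρ W hW g) := fun g => rfl
    have hdet : ∀ g, LinearMap.det (restr ρ W hW g) = (M g).det := fun g => by
      rw [hM', LinearMap.det_toMatrix]
    have htr : ∀ g, LinearMap.trace K W (restr ρ W hW g) = (M g).trace := fun g => by
      rw [hM', LinearMap.trace_eq_matrix_trace K b]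
    refine ⟨M, fun g => ?_, fun g t ht => ?_, fun g hg _ => ?_⟩
    · rw [← hdet]; exact (hprop g).1
    · rw [← htr]; exact (hprop g).2 t ht
    · have h1 : restr ρ W hW g = 1 := by
        ext v
        simp [hg]
      rw [hM, h1, map_one]

/-- `hgood` holds when every monic quadratic polynomial has a root. -/
theorem hgood_of_roots (hA : HypA ρ d) (hroot : ∀ t e : K, ∃ α : K, α * α - t * α + e = 0)
    (W : Submodule K V) (hW : Stable ρ W) (_ : Irred (restr ρ W hW))
    (hs : ∃ g, ∀ c : K, restr ρ W hW g ≠ c • (1 : W →ₗ[K] W)) :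
    ∃ (g₀ : G) (τ₀ α : K), (∀ c : K, restr ρ W hW g₀ ≠ c • (1 : W →ₗ[K] W)) ∧
      QRel (restr ρ W hW g₀) τ₀ (d g₀ : K) ∧ α * α - τ₀ * α + (d g₀ : K) = 0 := by
  obtain ⟨g₀, hg₀⟩ := hs
  obtain ⟨τ₀, hτ₀⟩ := hA.restr hW g₀
  obtain ⟨α, hα⟩ := hroot τ₀ (d g₀ : K)
  exact ⟨g₀, τ₀, α, hg₀, hτ₀, hα⟩

/-- `hgood` holds when `2 ≠ 0` and there is a "complex conjugation" `c`: `ρ(c)² = 1`, `d(c) = -1`.
No hypothesis on the field. -/
theorem hgood_of_conj (hA : HypA ρ d) (h2 : (2 : K) ≠ 0) (c : G) (hc : ρ c * ρ c = 1)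
    (hdc : (d c : K) = -1)
    (W : Submodule K V) (hW : Stable ρ W) (_ : Irred (restr ρ W hW))
    (hs : ∃ g, ∀ a : K, restr ρ W hW g ≠ a • (1 : W →ₗ[K] W)) :
    ∃ (g₀ : G) (τ₀ α : K), (∀ a : K, restr ρ W hW g₀ ≠ a • (1 : W →ₗ[K] W)) ∧
      QRel (restr ρ W hW g₀) τ₀ (d g₀ : K) ∧ α * α - τ₀ * α + (d g₀ : K) = 0 := by
  have hcW : restr ρ W hW c * restr ρ W hW c = 1 := by
    ext v
    have := congrArg (fun f : V →ₗ[K] V => f (v : V)) hc
    simpa using this
  have hq : QRel (restr ρ W hW c) 0 (d c : K) := by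
    unfold QRel
    rw [hcW, hdc, zero_smul, sub_zero]
    module
  refine ⟨c, 0, 1, ?_, hq, by rw [hdc]; ring⟩
  intro ε hε
  obtain ⟨g₁, hg₁⟩ := hs
  -- `ε² = 1`, so `ε ≠ 0`
  have hε0 : ε ≠ 0 := by
    rintro rfl
    rw [hε, zero_smul, zero_mul] at hcW
    apply hg₁ 0
    rw [zero_smul]
    have : restr ρ W hW g₁ = restr ρ W hW g₁ * 1 := (mul_one _).symm
    rw [this, ← hcW, mul_zero]
  obtain ⟨c₀, th, hpol⟩ := polar_apply (hA.restr hW) c g₁ hq
  apply hg₁ ((2 * ε)⁻¹ * (c₀ + th * ε))
  ext v
  have h1 := hpol v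
  rw [hε] at h1
  simp only [LinearMap.smul_apply, Module.End.one_apply, map_smul, zero_smul, add_zero] at h1
  have h3 : (2 * ε) • (restr ρ W hW g₁ v) = (c₀ + th * ε) • v := by
    rw [two_mul, add_smul, h1]; module
  have h4 : ((restr ρ W hW g₁ v : W)) = ((2 * ε)⁻¹ * (c₀ + th * ε)) • v := by
    rw [mul_smul, ← h3, smul_smul, inv_mul_cancel₀ (mul_ne_zero h2 hε0), one_smul]
  rw [h4]
  simp

/-- **Extraction lemma (EXT-core), every monic quadratic has a root.** -/
theorem ext_core [FiniteDimensional K V] [Nontrivial V] (hA : HypA ρ d)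
    (hroot : ∀ t e : K, ∃ α : K, α * α - t * α + e = 0) :
    ∃ ρ' : G →* Matrix (Fin 2) (Fin 2) K,
      (∀ g, (ρ' g).det = d g) ∧
      (∀ g (t : K), QRel (ρ g) t (d g : K) → (ρ' g).trace = t) ∧
      (∀ g, ρ g = 1 → d g = 1 → ρ' g = 1) := by
  obtain ⟨W, hW, hW0, h⟩ := ext_sub_gen hA (hgood_of_roots hA hroot)
  exact matrix_of_goodSub hW0 h

/-- **Extraction lemma, variant (B)**: any field with `2 ≠ 0`, given a complex conjugation. -/
theorem ext_core_conj [FiniteDimensional K V] [Nontrivial V] (hA : HypA ρ d)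
    (h2 : (2 : K) ≠ 0) (c : G) (hc : ρ c * ρ c = 1) (hdc : (d c : K) = -1) :
    ∃ ρ' : G →* Matrix (Fin 2) (Fin 2) K,
      (∀ g, (ρ' g).det = d g) ∧
      (∀ g (t : K), QRel (ρ g) t (d g : K) → (ρ' g).trace = t) ∧
      (∀ g, ρ g = 1 → d g = 1 → ρ' g = 1) := by
  obtain ⟨W, hW, hW0, h⟩ := ext_sub_gen hA (hgood_of_conj hA h2 c hc hdc)
  exact matrix_of_goodSub hW0 h

/-- Variant (B) in subspace form (for the lattice step of S30). -/
theorem ext_sub_conj [FiniteDimensional K V] [Nontrivial V] (hA : HypA ρ d)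
    (h2 : (2 : K) ≠ 0) (c : G) (hc : ρ c * ρ c = 1) (hdc : (d c : K) = -1) :
    ∃ (W : Submodule K V) (hW : Stable ρ W), W ≠ ⊥ ∧ GoodSub ρ d W hW :=
  ext_sub_gen hA (hgood_of_conj hA h2 c hc hdc)

/-- Every monic quadratic over an algebraically closed field has a root. -/
theorem exists_root_quadratic [IsAlgClosed K] (t e : K) : ∃ α : K, α * α - t * α + e = 0 := by
  obtain ⟨α, hα⟩ := IsAlgClosed.exists_root (Polynomial.X ^ 2 - Polynomial.C t * Polynomial.X
    + Polynomial.C e : Polynomial K) (by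
      have : (Polynomial.X ^ 2 - Polynomial.C t * Polynomial.X + Polynomial.C e : Polynomial K).degree
          = 2 := by compute_degree!
      rw [this]; norm_num)
  refine ⟨α, ?_⟩
  simp only [Polynomial.IsRoot, Polynomial.eval_add, Polynomial.eval_sub, Polynomial.eval_pow,
    Polynomial.eval_X, Polynomial.eval_mul, Polynomial.eval_C] at hα
  linear_combination hα

/-- `ext_core` over an algebraically closed field (what S42 and S29 use, any characteristic). -/
theorem ext_core_of_isAlgClosed [IsAlgClosed K] [FiniteDimensional K V] [Nontrivial V]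
    (hA : HypA ρ d) :
    ∃ ρ' : G →* Matrix (Fin 2) (Fin 2) K,
      (∀ g, (ρ' g).det = d g) ∧
      (∀ g (t : K), QRel (ρ g) t (d g : K) → (ρ' g).trace = t) ∧
      (∀ g, ρ g = 1 → d g = 1 → ρ' g = 1) :=
  ext_core hA exists_root_quadratic

end Main

end LeadEXT
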