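/-
Item 80 (W3-G), final wiring, common part (lead).

`LeadASM.modrep`: from `EigenModStatement M` (Hecke-Galois module mod `p`), the mod `p` cyclotomic
character (`H27CYC.h27cyc_mod`), `ExtAModStatement` and the extraction lemma `LeadEXT.ext_core`:
a representation `G_ℚ → GL₂(K)` in matrix form, of finite level, unramified outside `M p`, with
`trace = ψ(a_ℓ)`, `det = ℓ` at every Frobenius lift at `ℓ ∤ M p`, over any field `K` of
characteristic `p` in which monic quadratic polynomials have roots.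
`LeadASM.exists_root_of_surjective`: such fields are the quotients of the algebraic integers.
-/
import Fermat.Agent.W3G.Defs
import Fermat.Agent.W3G.EXT_lead
import Fermat.Agent.W3G.CycMod_helper27

set_option autoImplicit false

namespace LeadASM

open H11W3G

/-- the algebraic integer `a_ℓ(g)` (or `0` if the coefficient is not integral) -/
noncomputable def aInt {M : ℕ} (g : CuspForm (CongruenceSubgroup.Gamma0 M) 2) (ℓ : ℕ) : Zbar := by
  classical
  exact if h : IsIntegral ℤ (ModularFormClass.qCoeff g ℓ) then ⟨ModularFormClass.qCoeff g ℓ, h⟩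
    else 0

theorem aInt_eq {M : ℕ} (g : CuspForm (CongruenceSubgroup.Gamma0 M) 2) (ℓ : ℕ) (a : Zbar)
    (ha : (a : ℂ) = ModularFormClass.qCoeff g ℓ) : a = aInt g ℓ := by
  classical
  have h : IsIntegral ℤ (ModularFormClass.qCoeff g ℓ) := by
    rw [← ha]; exact a.2
  unfold aInt
  rw [dif_pos h]
  exact Subtype.ext ha

/-- every monic quadratic polynomial over a quotient of `ℤ̄` has a root -/
theorem exists_root_of_surjective {K : Type} [Field K] (ψ : Zbar →+* K)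
    (hψ : Function.Surjective ψ) (t e : K) : ∃ α : K, α * α - t * α + e = 0 := by
  obtain ⟨t', rfl⟩ := hψ t
  obtain ⟨e', rfl⟩ := hψ e
  obtain ⟨z, hz⟩ := IsAlgClosed.exists_root
    (Polynomial.X ^ 2 - Polynomial.C (t' : ℂ) * Polynomial.X + Polynomial.C (e' : ℂ) :
      Polynomial ℂ) (by
      have : (Polynomial.X ^ 2 - Polynomial.C (t' : ℂ) * Polynomial.X + Polynomial.C (e' : ℂ) :
          Polynomial ℂ).degree = 2 := by compute_degree!
      rw [this]; norm_num)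
  simp only [Polynomial.IsRoot, Polynomial.eval_add, Polynomial.eval_sub, Polynomial.eval_pow,
    Polynomial.eval_X, Polynomial.eval_mul, Polynomial.eval_C] at hz
  have hzint : IsIntegral ℤ z := by
    have h1 : IsIntegral Zbar z := by
      refine ⟨Polynomial.X ^ 2 - Polynomial.C t' * Polynomial.X + Polynomial.C e', ?_, ?_⟩
      · have : (Polynomial.X ^ 2 - Polynomial.C t' * Polynomial.X + Polynomial.C e' :
            Polynomial Zbar).natDegree = 2 := by compute_degree!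
        rw [Polynomial.Monic, Polynomial.leadingCoeff, this]
        simp
      · simp only [Polynomial.eval₂_add, Polynomial.eval₂_sub, Polynomial.eval₂_pow,
          Polynomial.eval₂_X, Polynomial.eval₂_mul, Polynomial.eval₂_C]
        exact hz
    exact isIntegral_trans z h1
  refine ⟨ψ ⟨z, hzint⟩, ?_⟩
  have h2 : (⟨z, hzint⟩ : Zbar) * ⟨z, hzint⟩ - t' * ⟨z, hzint⟩ + e' = 0 := by
    apply Subtype.ext
    simp only [Subalgebra.coe_add, Subalgebra.coe_sub, Subalgebra.coe_mul, Subalgebra.coe_zero]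
    linear_combination hz
  have h3 := congrArg ψ h2
  rw [map_add, map_sub, map_mul, map_mul, map_zero] at h3
  exact h3

/-- **The mod `p` representation of an eigenform, in matrix form.** -/
theorem modrep (hA : ExtAModStatement) {M : ℕ} [NeZero M] (hE : EigenModStatement M)
    {p : ℕ} (hp : p.Prime) {g : CuspForm (CongruenceSubgroup.Gamma0 M) 2}
    (hg : g.IsNormalizedEigenform) {K : Type} [Field K] [CharP K p] (ψ : Zbar →+* K)
    (hroot : ∀ t e : K, ∃ α : K, α * α - t * α + e = 0) :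
    ∃ ρ' : GQ →* Matrix (Fin 2) (Fin 2) K,
      GaloisFactorsThroughFiniteLevel ρ' ∧
      (∀ q : ℕ, q.Prime → ¬ q ∣ M * p → ∀ A : ValuationSubring (AlgebraicClosure ℚ),
        A.LiesOverPrime q → ∀ σ ∈ A.inertiaSubgroupIn ℚ, ρ' σ = 1) ∧
      (∀ ℓ : ℕ, ℓ.Prime → ¬ ℓ ∣ M → ℓ ≠ p →
        ∀ A : ValuationSubring (AlgebraicClosure ℚ), A.LiesOverPrime ℓ →
          ∀ σ : GQ, A.IsFrobeniusAt σ ℓ →
            ∃ a : Zbar, (a : ℂ) = ModularFormClass.qCoeff g ℓ ∧
              (ρ' σ).trace = ψ a ∧ (ρ' σ).det = (ℓ : K)) := by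
  classical
  obtain ⟨V, _, _, _, _, ρ, hfin, hunr, hfrob⟩ := hE p hp g hg K ψ
  obtain ⟨d, hdfin, hdfrob, hdin, -⟩ := H27CYC.h27cyc_mod p hp.ne_zero K
  have hMp : M * p ≠ 0 := mul_ne_zero (NeZero.ne M) hp.ne_zero
  -- the relation at Frobenius lifts, with constant term `d σ`
  have hrel : ∀ ℓ : ℕ, ℓ.Prime → ℓ ∉ (M * p).primeFactors →
      ∀ A : ValuationSubring (AlgebraicClosure ℚ), A.LiesOverPrime ℓ →
        ∀ σ : GQ, A.IsFrobeniusAt σ ℓ →
          QuadRel (ρ σ) (ψ (aInt g ℓ)) ((d σ : Kˣ) : K) := by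
    intro ℓ hℓ hℓS A hA' σ hσ
    have hnd : ¬ ℓ ∣ M * p := fun h => hℓS (Nat.mem_primeFactors.mpr ⟨hℓ, h, hMp⟩)
    have hℓM : ¬ ℓ ∣ M := fun h => hnd (h.mul_right p)
    have hℓp : ℓ ≠ p := fun h => hnd (h ▸ dvd_mul_left ℓ M)
    obtain ⟨a, ha, hq⟩ := hfrob ℓ hℓ hℓM hℓp A hA' σ hσ
    rw [← aInt_eq g ℓ a ha, hdfrob ℓ hℓ hℓp A hA' σ hσ]
    exact hq
  have hAll : LeadEXT.HypA ρ d :=
    hA K V ρ d (M * p).primeFactors (fun ℓ => ψ (aInt g ℓ)) hfin hdfin hrel
  obtain ⟨ρ', hdet, htr, hker⟩ := LeadEXT.ext_core hAll hroot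
  refine ⟨ρ', ?_, ?_, ?_⟩
  · obtain ⟨L₁, hfd₁, hL₁⟩ := hfin
    obtain ⟨L₂, hfd₂, hL₂⟩ := hdfin
    haveI := hfd₁
    haveI := hfd₂
    refine ⟨L₁ ⊔ L₂, IntermediateField.finiteDimensional_sup L₁ L₂, fun σ hσ => ?_⟩
    exact hker σ (hL₁ σ fun x hx => hσ x ((le_sup_left : L₁ ≤ L₁ ⊔ L₂) hx))
      (hL₂ σ fun x hx => hσ x ((le_sup_right : L₂ ≤ L₁ ⊔ L₂) hx))
  · intro q hq hqMp A hA' σ hσ
    have hqp : q ≠ p := fun h => hqMp (h ▸ dvd_mul_left q M)
    exact hker σ (hunr q hq hqMp A hA' σ hσ) (hdin q hq hqp A hA' σ hσ)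
  · intro ℓ hℓ hℓM hℓp A hA' σ hσ
    obtain ⟨a, ha, hq⟩ := hfrob ℓ hℓ hℓM hℓp A hA' σ hσ
    have hdσ := hdfrob ℓ hℓ hℓp A hA' σ hσ
    refine ⟨a, ha, ?_, ?_⟩
    · refine htr σ (ψ a) ?_
      rw [hdσ]; exact hq
    · rw [hdet σ, hdσ]

end LeadASM
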