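/-
Item 80 (W3-G), final wiring of S29 (lead): the statement of `S29` from `ExtAModStatement` and
`EigenModStatement`.  No descent: the image of `φ : ℤ̄ → k` is a quotient field `K₀ = ℤ̄ / ker φ`
in which monic quadratics have roots; the representation over `K₀` is pushed to `k` in matrix form.
Level `N = 0` is vacuous.
-/
import Fermat.Agent.W3G.ASMCommon_lead

set_option autoImplicit false

namespace LeadASM

open H11W3G Polynomial

/-- the kernel of a ring homomorphism from `ℤ̄` to a field of characteristic `p` is maximal -/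
theorem ker_isMaximal {p : ℕ} (hp : p.Prime) {k : Type} [Field k] [CharP k p]
    (φ : Zbar →+* k) : (RingHom.ker φ).IsMaximal := by
  haveI : Fact p.Prime := ⟨hp⟩
  haveI : (RingHom.ker φ).IsPrime := RingHom.ker_isPrime φ
  haveI : Algebra.IsIntegral ℤ Zbar := inferInstance
  refine Ideal.isMaximal_of_isIntegral_of_isMaximal_comap (R := ℤ) (RingHom.ker φ) ?_
  have h : (RingHom.ker φ).comap (algebraMap ℤ Zbar) = Ideal.span {(p : ℤ)} := by
    ext x
    rw [Ideal.mem_comap, RingHom.mem_ker, Ideal.mem_span_singleton]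
    have : φ (algebraMap ℤ Zbar x) = (x : k) := by
      rw [eq_intCast (algebraMap ℤ Zbar) x, map_intCast]
    rw [this]
    exact CharP.intCast_eq_zero_iff k p x
  rw [h]
  exact Int.ideal_span_isMaximal_of_prime p

/-- a matrix representation as a residual Galois representation -/
noncomputable def matRep {k : Type} [Field k] (R : GQ →* Matrix (Fin 2) (Fin 2) k)
    (hR : GaloisFactorsThroughFiniteLevel R) : ResidualGaloisRep k where
  V := Fin 2 → k
  finrank_eq := by simp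
  ρ := ((Matrix.toLinAlgEquiv' : Matrix (Fin 2) (Fin 2) k ≃ₐ[k] Module.End k (Fin 2 → k)) :
    Matrix (Fin 2) (Fin 2) k →* Module.End k (Fin 2 → k)).comp R
  factorsThroughFiniteLevel := by
    obtain ⟨L, hL, h⟩ := hR
    refine ⟨L, hL, fun σ hσ => ?_⟩
    rw [MonoidHom.comp_apply, h σ hσ, map_one]

theorem charpoly_toLin' {k : Type} [Field k] (A : Matrix (Fin 2) (Fin 2) k) :
    LinearMap.charpoly (Matrix.toLin' A) = X ^ 2 - C A.trace * X + C A.det := by
  rw [← LinearMap.charpoly_toMatrix (Matrix.toLin' A) (Pi.basisFun k (Fin 2)),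
    LinearMap.toMatrix_eq_toMatrix', LinearMap.toMatrix'_toLin', Matrix.charpoly_fin_two]

theorem matRep_charpoly {k : Type} [Field k] (R : GQ →* Matrix (Fin 2) (Fin 2) k)
    (hR : GaloisFactorsThroughFiniteLevel R) (σ : GQ) :
    LinearMap.charpoly ((matRep R hR).ρ σ) = X ^ 2 - C (R σ).trace * X + C (R σ).det :=
  charpoly_toLin' (R σ)

theorem matRep_eq_one {k : Type} [Field k] (R : GQ →* Matrix (Fin 2) (Fin 2) k)
    (hR : GaloisFactorsThroughFiniteLevel R) (σ : GQ) (h : R σ = 1) :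
    (matRep R hR).ρ σ = 1 := by
  show (Matrix.toLinAlgEquiv' : Matrix (Fin 2) (Fin 2) k ≃ₐ[k] Module.End k (Fin 2 → k)) (R σ) = 1
  rw [h, map_one]

/-- the core of the wiring, over an abstract quotient field `K₀` of `ℤ̄` inside `k` -/
theorem s29_core (hA : ExtAModStatement) {N : ℕ} [NeZero N] (hE : EigenModStatement N)
    {g : CuspForm (CongruenceSubgroup.Gamma0 N) 2} (hg : g.IsNormalizedEigenform)
    {p : ℕ} (hp : p.Prime) {k : Type} [Field k] [CharP k p]
    (φ : integralClosure ℤ ℂ →+* k)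
    (K₀ : Type) [Field K₀] [CharP K₀ p] (ψ : Zbar →+* K₀) (hψ : Function.Surjective ψ)
    (ι : K₀ →+* k) (hι : ∀ a, ι (ψ a) = φ a) :
    ∃ ρ : ResidualGaloisRep k, ρ.IsAttachedTo g φ ∧
      ∀ ℓ : ℕ, ℓ.Prime → ¬ ℓ ∣ N * p → ρ.IsUnramifiedAt ℓ := by
  classical
  obtain ⟨ρ', hfin, hunr, hfrob⟩ := modrep hA hE hp hg ψ (exists_root_of_surjective ψ hψ)
  let R : GQ →* Matrix (Fin 2) (Fin 2) k :=
    (RingHom.toMonoidHom (RingHom.mapMatrix (m := Fin 2) ι)).comp ρ'
  have hRapp : ∀ σ, R σ = (ρ' σ).map ι := fun σ => rfl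
  have hR : GaloisFactorsThroughFiniteLevel R := by
    obtain ⟨L, hL, h⟩ := hfin
    refine ⟨L, hL, fun σ hσ => ?_⟩
    show (RingHom.toMonoidHom (RingHom.mapMatrix (m := Fin 2) ι)) (ρ' σ) = 1
    rw [h σ hσ, map_one]
  refine ⟨matRep R hR, ?_, ?_⟩
  · intro ℓ hℓ hℓN hℓk A hA' σ hσ
    have hℓp : ℓ ≠ p := by
      rintro rfl
      exact hℓk (CharP.cast_eq_zero k ℓ)
    obtain ⟨a, ha, htr, hdet⟩ := hfrob ℓ hℓ hℓN hℓp A hA' σ hσ
    refine ⟨a, ha, ?_⟩
    rw [matRep_charpoly, hRapp]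
    have h1 : ((ρ' σ).map ι).trace = φ a := by
      have : ((ρ' σ).map ι).trace = ι (ρ' σ).trace := by
        simp [Matrix.trace, map_sum]
      rw [this, htr, hι]
    have h2 : ((ρ' σ).map ι).det = (ℓ : k) := by
      have : ((ρ' σ).map ι).det = ι (ρ' σ).det := by
        rw [RingHom.map_det]; rfl
      rw [this, hdet, map_natCast]
    rw [h1, h2]
  · intro ℓ hℓ hℓNp A hA' σ hσ
    apply matRep_eq_one
    have := hunr ℓ hℓ hℓNp A hA' σ hσ
    show (RingHom.toMonoidHom (RingHom.mapMatrix (m := Fin 2) ι)) (ρ' σ) = 1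
    rw [this, map_one]

/-- **S29**, from `ExtAModStatement` and `EigenModStatement`. -/
theorem s29_of (hA : ExtAModStatement) (hE : ∀ (M : ℕ) [NeZero M], EigenModStatement M)
    {N : ℕ} {g : CuspForm (CongruenceSubgroup.Gamma0 N) 2} (hg : g.IsNormalizedEigenform)
    {p : ℕ} (hp : p.Prime) {k : Type} [Field k] [CharP k p]
    (φ : integralClosure ℤ ℂ →+* k) :
    ∃ ρ : ResidualGaloisRep k, ρ.IsAttachedTo g φ ∧
      ∀ ℓ : ℕ, ℓ.Prime → ¬ ℓ ∣ N * p → ρ.IsUnramifiedAt ℓ := by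
  classical
  by_cases hN : N = 0
  · subst hN
    refine ⟨matRep 1 ⟨⊥, inferInstance, fun _ _ => rfl⟩, ?_, ?_⟩
    · intro ℓ _ hℓ
      exact absurd (dvd_zero ℓ) hℓ
    · intro ℓ _ hℓ
      rw [zero_mul] at hℓ
      exact absurd (dvd_zero ℓ) hℓ
  · haveI : NeZero N := ⟨hN⟩
    have hImax : (RingHom.ker φ).IsMaximal := ker_isMaximal hp φ
    letI : Field (Zbar ⧸ RingHom.ker φ) := Ideal.Quotient.field (RingHom.ker φ)
    have hchar : CharP (Zbar ⧸ RingHom.ker φ) p :=
      RingHom.charP (RingHom.kerLift φ) (RingHom.kerLift_injective φ) p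
    exact @s29_core hA N _ (hE N) g hg p hp k _ _ φ (Zbar ⧸ RingHom.ker φ) _ hchar
      (Ideal.Quotient.mk (RingHom.ker φ)) Ideal.Quotient.mk_surjective (RingHom.kerLift φ)
      (fun a => RingHom.kerLift_mk φ a)

end LeadASM
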