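import Mathlib
import Fermat.Prelude.Def_FreyPackage_EigenformResidualAttachment
import Fermat.Prelude.Def_GaloisRep_Residual
import Fermat.Agent.TEll.Fin
import Fermat.Agent.TEll.DPCardH3

/-!
# Item 80 (W3G), slice FREY-FIN (helper27): the number field `F` of `S42`

* `h27fin_level` : for a finite extension `L / ℚ` inside `ℚ̄` there is a number field `F`,
  Galois over `ℚ`, with an embedding into `ℚ̄`, such that every `σ ∈ G_ℚ` restricting to the
  identity on `F` fixes `L` pointwise (in the exact shape of the frozen statement `S42`).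
* `h27fin_frey_level` : the action of `G_ℚ` on the `p`-torsion of the Frey curve factors through a
  finite extension.
* `h27fin_frey` : for a representation `ρ` of finite level, a number field `F` as in `S42` with
  `ker (G_ℚ → Gal(F/ℚ)) ≤ ker ρ_{E,p} ⊓ ker ρ`.
-/

set_option autoImplicit false
set_option linter.style.longLine false
set_option linter.unusedSectionVars false
set_option linter.style.haveILetI false

open WeierstrassCurve WeierstrassCurve.Affine.Point

noncomputable section

namespace H27FIN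

noncomputable local instance h27fin_instDecEq : DecidableEq (AlgebraicClosure ℚ) :=
  Classical.decEq _

/-- **LEVEL**: a finite level is contained in a finite Galois level, given as a number field. -/
theorem h27fin_level (L : IntermediateField ℚ (AlgebraicClosure ℚ))
    (hL : FiniteDimensional ℚ L) :
    ∃ (F : Type) (_ : Field F) (_ : NumberField F) (_ : IsGalois ℚ F)
      (_ : Algebra F (AlgebraicClosure ℚ)) (_ : IsScalarTower ℚ F (AlgebraicClosure ℚ)),
      ∀ σ ∈ (AlgEquiv.restrictNormalHom (F := ℚ) (K₁ := AlgebraicClosure ℚ) F).ker,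
        ∀ x ∈ L, σ x = x := by
  haveI := hL
  haveI : Algebra.IsAlgebraic ℚ (AlgebraicClosure ℚ) := AlgebraicClosure.isAlgebraic ℚ
  haveI : IsAlgClosure ℚ (AlgebraicClosure ℚ) := ⟨inferInstance, inferInstance⟩
  haveI : Normal ℚ (AlgebraicClosure ℚ) := IsAlgClosure.normal ℚ (AlgebraicClosure ℚ)
  set N : IntermediateField ℚ (AlgebraicClosure ℚ) :=
    IntermediateField.normalClosure ℚ L (AlgebraicClosure ℚ) with hN
  haveI hfd : FiniteDimensional ℚ N := normalClosure.is_finiteDimensional ℚ L _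
  haveI hnorm : Normal ℚ N := normalClosure.normal ℚ L _
  haveI hgal : IsGalois ℚ N := ⟨⟩
  haveI hnf : NumberField N := { to_charZero := inferInstance, to_finiteDimensional := hfd }
  refine ⟨N, inferInstance, hnf, hgal, inferInstance, inferInstance, ?_⟩
  intro σ hσ x hx
  rw [MonoidHom.mem_ker] at hσ
  have hxN : x ∈ N := IntermediateField.le_normalClosure L hx
  have h1 := AlgEquiv.restrictNormal_commutes σ N ⟨x, hxN⟩
  have h2 : σ.restrictNormal N = 1 := hσ
  rw [h2] at h1
  exact h1.symm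

/-- the action of `G_ℚ` on the `p`-torsion of the Frey curve factors through a finite level -/
theorem h27fin_frey_level (P : FreyPackage) :
    ∃ L : IntermediateField ℚ (AlgebraicClosure ℚ), FiniteDimensional ℚ L ∧
      ∀ σ : AlgebraicClosure ℚ ≃ₐ[ℚ] AlgebraicClosure ℚ, (∀ x ∈ L, σ x = x) →
        galoisRepModuleEnd (S := ℚ) (K := AlgebraicClosure ℚ) P.freyCurve P.p σ = 1 := by
  obtain ⟨L, hfd, hL⟩ :=
    Fermat.Agent.TEll.h26_exists_fixing P (Fermat.Agent.H3Lad.h3_tell_Card P).1
  refine ⟨L, hfd, fun σ hσ => ?_⟩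
  have hσ' : σ ∈ L.fixingSubgroup := by
    rw [IntermediateField.mem_fixingSubgroup_iff]
    intro x hx
    exact hσ x hx
  apply LinearMap.ext
  intro x
  rw [galoisRepModuleEnd_apply]
  exact hL σ hσ' x

/-- **FREY-FIN**: the number field `F` of `S42`. -/
theorem h27fin_frey (P : FreyPackage) {K : Type} [Field K] {V : Type} [AddCommGroup V]
    [Module K V] (ρ : Representation K (AlgebraicClosure ℚ ≃ₐ[ℚ] AlgebraicClosure ℚ) V)
    (hρ : GaloisFactorsThroughFiniteLevel ρ) :
    ∃ (F : Type) (_ : Field F) (_ : NumberField F) (_ : IsGalois ℚ F)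
      (_ : Algebra F (AlgebraicClosure ℚ)) (_ : IsScalarTower ℚ F (AlgebraicClosure ℚ)),
      (AlgEquiv.restrictNormalHom (F := ℚ) (K₁ := AlgebraicClosure ℚ) F).ker ≤
        (galoisRepModuleEnd (S := ℚ) (K := AlgebraicClosure ℚ) P.freyCurve P.p).ker ⊓
          ρ.ker := by
  obtain ⟨L₁, hfd₁, hL₁⟩ := h27fin_frey_level P
  obtain ⟨L₂, hfd₂, hL₂⟩ := hρ
  haveI := hfd₁
  haveI := hfd₂
  have hfd : FiniteDimensional ℚ ↥(L₁ ⊔ L₂) := IntermediateField.finiteDimensional_sup L₁ L₂
  obtain ⟨F, iF, iNF, iGal, iAlg, iTower, hF⟩ := h27fin_level (L₁ ⊔ L₂) hfd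
  refine ⟨F, iF, iNF, iGal, iAlg, iTower, ?_⟩
  intro σ hσ
  have h := hF σ hσ
  rw [Subgroup.mem_inf, MonoidHom.mem_ker, MonoidHom.mem_ker]
  exact ⟨hL₁ σ (fun x hx => h x ((le_sup_left : L₁ ≤ L₁ ⊔ L₂) hx)),
    hL₂ σ (fun x hx => h x ((le_sup_right : L₂ ≤ L₁ ⊔ L₂) hx))⟩

end H27FIN
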