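/-
Item 80 (W3-G), final wiring of S42 (lead): the statement of `S42` from `ExtAModStatement` and
`EigenModStatement`.  The coefficient field is `K = ℤ̄ / 𝔪`, the map `ψ` is the quotient map, the
representation is the matrix representation of `LeadASM.modrep` on `K²`, and the number field `F`
comes from `H27FIN.h27fin_frey`.
-/
import Fermat.Agent.W3G.ASMCommon_lead
import Fermat.Agent.W3G.FreyFin_helper27

set_option autoImplicit false

open WeierstrassCurve WeierstrassCurve.Affine.Point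

namespace LeadASM

open H11W3G

noncomputable local instance lead_asm_instDecEq : DecidableEq (AlgebraicClosure ℚ) :=
  Classical.decEq _

/-- a matrix representation as a representation on `K²` -/
noncomputable def matRepr {K : Type} [Field K] (R : GQ →* Matrix (Fin 2) (Fin 2) K) :
    Representation K GQ (Fin 2 → K) :=
  ((Matrix.toLinAlgEquiv' : Matrix (Fin 2) (Fin 2) K ≃ₐ[K] Module.End K (Fin 2 → K)) :
    Matrix (Fin 2) (Fin 2) K →* Module.End K (Fin 2 → K)).comp R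

theorem matRepr_apply {K : Type} [Field K] (R : GQ →* Matrix (Fin 2) (Fin 2) K) (σ : GQ) :
    matRepr R σ = Matrix.toLin' (R σ) := rfl

theorem matRepr_finiteLevel {K : Type} [Field K] (R : GQ →* Matrix (Fin 2) (Fin 2) K)
    (hR : GaloisFactorsThroughFiniteLevel R) : GaloisFactorsThroughFiniteLevel (matRepr R) := by
  obtain ⟨L, hL, h⟩ := hR
  refine ⟨L, hL, fun σ hσ => ?_⟩
  show (Matrix.toLinAlgEquiv' : Matrix (Fin 2) (Fin 2) K ≃ₐ[K] Module.End K (Fin 2 → K)) (R σ) = 1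
  rw [h σ hσ, map_one]

/-- the core of the wiring of `S42`, over an abstract quotient field `K` of `ℤ̄` -/
theorem s42_core (hA : ExtAModStatement) {M : ℕ} [NeZero M] (hE : EigenModStatement M)
    (P : FreyPackage) {g : CuspForm (CongruenceSubgroup.Gamma0 M) 2}
    (hg : g.IsNormalizedEigenform) (𝔪 : Ideal (integralClosure ℤ ℂ))
    (K : Type) [Field K] [CharP K P.p] (ψ : Zbar →+* K) (hψ : Function.Surjective ψ)
    (h𝔪 : 𝔪 ≤ RingHom.ker ψ) :
    ∃ (K : Type) (_ : Field K) (_ : Algebra (ZMod P.p) K)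
        (V : Type) (_ : AddCommGroup V) (_ : Module K V)
        (ρ : Representation K (AlgebraicClosure ℚ ≃ₐ[ℚ] AlgebraicClosure ℚ) V)
        (ψ : integralClosure ℤ ℂ →+* K)
        (F : Type) (_ : Field F) (_ : NumberField F) (_ : IsGalois ℚ F)
        (_ : Algebra F (AlgebraicClosure ℚ)) (_ : IsScalarTower ℚ F (AlgebraicClosure ℚ)),
        𝔪 ≤ RingHom.ker ψ ∧
        Module.finrank K V = 2 ∧
        (AlgEquiv.restrictNormalHom (F := ℚ) (K₁ := AlgebraicClosure ℚ) F).ker ≤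
          (galoisRepModuleEnd (S := ℚ) (K := AlgebraicClosure ℚ) P.freyCurve P.p).ker ⊓
            ρ.ker ∧
        (∀ ℓ : ℕ, ℓ.Prime → ¬ ℓ ∣ M → ℓ ≠ P.p →
          ∀ A : ValuationSubring (AlgebraicClosure ℚ), A.LiesOverPrime ℓ →
            ∀ τ : AlgebraicClosure ℚ ≃ₐ[ℚ] AlgebraicClosure ℚ, A.IsFrobeniusAt τ ℓ →
              ∃ a : integralClosure ℤ ℂ, (a : ℂ) = ModularFormClass.qCoeff g ℓ ∧
                LinearMap.trace K V (ρ τ) = ψ a) ∧
        (∀ ℓ : ℕ, ℓ.Prime → ¬ ℓ ∣ M → ℓ ≠ P.p →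
          ∀ A : ValuationSubring (AlgebraicClosure ℚ), A.LiesOverPrime ℓ →
            ∀ τ : AlgebraicClosure ℚ ≃ₐ[ℚ] AlgebraicClosure ℚ, A.IsFrobeniusAt τ ℓ →
              LinearMap.det (ρ τ) = (ℓ : K)) := by
  classical
  obtain ⟨ρ', hfin, -, hfrob⟩ := modrep hA hE P.pp hg ψ (exists_root_of_surjective ψ hψ)
  obtain ⟨F, iF, iNF, iGal, iAlg, iTower, hF⟩ :=
    H27FIN.h27fin_frey P (matRepr ρ') (matRepr_finiteLevel ρ' hfin)
  refine ⟨K, inferInstance, ZMod.algebra K P.p, Fin 2 → K, inferInstance, inferInstance,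
    matRepr ρ', ψ, F, iF, iNF, iGal, iAlg, iTower, h𝔪, ?_, hF, ?_, ?_⟩
  · simp
  · intro ℓ hℓ hℓM hℓp A hA' τ hτ
    obtain ⟨a, ha, htr, -⟩ := hfrob ℓ hℓ hℓM hℓp A hA' τ hτ
    refine ⟨a, ha, ?_⟩
    rw [matRepr_apply, Matrix.trace_toLin'_eq, htr]
  · intro ℓ hℓ hℓM hℓp A hA' τ hτ
    obtain ⟨a, -, -, hdet⟩ := hfrob ℓ hℓ hℓM hℓp A hA' τ hτ
    rw [matRepr_apply, LinearMap.det_toLin', hdet]

/-- **S42**, from `ExtAModStatement` and `EigenModStatement`. -/
theorem s42_of (hA : ExtAModStatement) (hE : ∀ (M : ℕ) [NeZero M], EigenModStatement M)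
    (P : FreyPackage) : ∀ M : ℕ, 0 < M → P.EigenformResidualAttachmentAt M := by
  intro M hM g hg 𝔪 h𝔪max hp𝔪
  haveI : NeZero M := ⟨hM.ne'⟩
  letI : Field (Zbar ⧸ 𝔪) := Ideal.Quotient.field 𝔪
  have hchar : CharP (Zbar ⧸ 𝔪) P.p := by
    rw [CharP.charP_iff_prime_eq_zero P.pp]
    have h : ((P.p : Zbar) : Zbar ⧸ 𝔪) = 0 := Ideal.Quotient.eq_zero_iff_mem.mpr hp𝔪
    rw [← h, map_natCast]
  exact @s42_core hA M _ (hE M) P g hg 𝔪 (Zbar ⧸ 𝔪) _ hchar (Ideal.Quotient.mk 𝔪)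
    Ideal.Quotient.mk_surjective (by rw [Ideal.mk_ker])

end LeadASM
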