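import Fermat.Agent.W3G.Defs
import Fermat.Agent.S16.H21ADefs

/-!
# WAVE 3, block G (item 80): the GEOMETRIC CORE — interface (helper11)

The assembly of `EigenModStatement` / `EigenAdicStatement` (helper11) uses ONLY the `Prop`s of this
file, plus `ESInertiaStatement`, `ESFrobeniusStatement`, `CommStatement`, `FinLevStatement`
(`W3G/Defs.lean`) and `H1EIGH.EighStatement` (helper1, DONE).  Nothing analytic occurs in the
statements.

## PRIMARY INTERFACE (version 2, 02:10Z): characters with values in `ℤ/n`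
* `Hpe N A`                homs `Γ₀(N) → A` trivial on parabolic (`trace² = 4`) and on finite-order
                           elements
* `IsKum N kum`, `KumStatement N`   the Kummer comparison maps `kum n : Hpe N (ZMod n) → J₀(N)(ℚ̄)`
                           (`kum n χ` = class of `D`, `n D = div f`, `f̃ = gⁿ`,
                           `g(γ z) = exp(2πi χ(γ)/n) g(z)`): injective, Hecke-equivariant
                                                          [KUM-surj: AN2 + AN3 + RIG/FC; HEQ]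
* `KumGalStatement N`      ... + compatible in `n` + surjective onto `J₀(N)[n]`   [+ AN1, KUM-inj]
* `LiftStatement N`        a character mod `p^j`, `j ≫ k`, lifts mod `p^k` to `Lpar N`
                           (pure algebra: `Γ₀(N)` finitely generated)
`S42`, `S29` need: `KumStatement` + `H1EIGH.EighStatement` (+ ES + COMM + FINLEV).
`S30` needs: `KumGalStatement` + `LiftStatement` + `HeckeLStatement` + `EigHAdicStatement`
 + abstract TATE (helper23).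

## LATTICE FORM (version 1; follows from version 2, used for the `p`-adic assembly)
* `Lpar N`                 the lattice `Hom_par(Γ₀(N), ℤ)` (prelude `parabolicHoms`)
* `IsHeckeL hℓN T`         `T : Lpar N →ₗ[ℤ] Lpar N` is the classical `T_ℓ` (transfer formula
                           `H21S16.heckeTFun`)
* `HeckeLStatement N`      `T_ℓ` exists on `Lpar N` (`ℓ ∤ N`)
* `EigHAdicStatement`      eigenvector of a character of the Hecke algebra in `𝒪' ⊗ Lpar N`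
* `IsLam N lam`, `LamStatement N`, `LamGalStatement N`  (helper11 derives these from `Kum*` + `Lift`)
* `EigHModStatement N`     (superseded by `H1EIGH.EighStatement`)
-/

set_option autoImplicit false

noncomputable section

open ModularCurve CongruenceSubgroup TensorProduct

namespace H11W3G

/-- the lattice `Hom_par(Γ₀(N), ℤ)` -/
abbrev Lpar (N : ℕ) : Submodule ℤ (Additive (Gamma0 N) →+ ℤ) :=
  ModularCurve.Period.parabolicHoms ℤ (Gamma0 N) ℤ

/-- `T` is the classical Hecke operator `T_ℓ` on `Hom_par(Γ₀(N), ℤ)`: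
`(T φ)(γ) = ∑_x φ(transT γ x)`. -/
def IsHeckeL {N ℓ : ℕ} [Fact ℓ.Prime] (hℓN : ¬ ℓ ∣ N) (T : Lpar N →ₗ[ℤ] Lpar N) : Prop :=
  ∀ (φ : Lpar N) (γ : Gamma0 N),
    (T φ : Additive (Gamma0 N) →+ ℤ) (Additive.ofMul γ) =
      H21S16.heckeTFun hℓN
        (fun γ' : Gamma0 N => (φ : Additive (Gamma0 N) →+ ℤ) (Additive.ofMul γ')) γ

/-- **EIGH-0**: `T_ℓ` (`ℓ ∤ N`) preserves `Hom_par(Γ₀(N), ℤ)`. -/
def HeckeLStatement (N : ℕ) : Prop :=
  ∀ (ℓ : ℕ) [Fact ℓ.Prime] (hℓN : ¬ ℓ ∣ N), ∃ T : Lpar N →ₗ[ℤ] Lpar N, IsHeckeL hℓN T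

/-- **EIGH mod p**: the eigensystem of a normalised eigenform occurs in `K ⊗ Hom_par(Γ₀(N), ℤ)`. -/
def EigHModStatement (N : ℕ) [NeZero N] : Prop :=
  ∀ (p : ℕ) (_ : p.Prime) (g : CuspForm (Gamma0 N) 2), g.IsNormalizedEigenform →
    ∀ (K : Type) [Field K] [CharP K p] (ψ : Zbar →+* K),
      ∃ v : K ⊗[ℤ] Lpar N, v ≠ 0 ∧
        ∀ (ℓ : ℕ) [Fact ℓ.Prime] (hℓN : ¬ ℓ ∣ N) (T : Lpar N →ₗ[ℤ] Lpar N),
          IsHeckeL hℓN T →
            ∃ a : Zbar, (a : ℂ) = ModularFormClass.qCoeff g ℓ ∧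
              T.baseChange K v = ψ a • v

/-- **EIGH p-adic**: a character of the Hecke algebra with values in a domain of
characteristic `0` occurs in `𝒪' ⊗ Hom_par(Γ₀(N), ℤ)`. -/
def EigHAdicStatement : Prop :=
  ∀ (N : ℕ) [NeZero N] (S : Finset ℕ)
    (𝒪' : Type) [CommRing 𝒪'] [IsDomain 𝒪'] [CharZero 𝒪']
    (χ : CuspForm.heckeAlgebra N 2 (↑S : Set ℕ) →+* 𝒪'),
    ∃ v : 𝒪' ⊗[ℤ] Lpar N, v ≠ 0 ∧
      ∀ (ℓ : ℕ) [Fact ℓ.Prime] (hℓ : ℓ.Prime) (hℓN : ¬ ℓ ∣ N) (hℓS : ℓ ∉ (↑S : Set ℕ))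
        (T : Lpar N →ₗ[ℤ] Lpar N), IsHeckeL hℓN T →
          T.baseChange 𝒪' v = χ (CuspForm.heckeAlgebra.T hℓ hℓN hℓS) • v

/-- `lam n : Hom_par(Γ₀(N), ℤ) → J₀(N)(ℚ̄)` is a system of comparison maps:
`lam n φ` = the class `x` of a divisor `D` with `n D = div f`, `f̃ = gⁿ`,
`g(γ z) = exp(2πi φ(γ)/n) g(z)`.
1. `n • lam n φ = 0`;  2. `lam n φ = 0 ⇒ φ ∈ n Lpar`;  3. `m • lam (n m) φ = lam n φ`;
4. `lam n (T_ℓ φ) = T_ℓ (lam n φ)` for `ℓ ∤ N`. -/
def IsLam (N : ℕ) [NeZero N] (lam : ℕ → (Lpar N →+ JZero N)) : Prop :=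
  (∀ (n : ℕ) (φ : Lpar N), n • lam n φ = 0) ∧
  (∀ n : ℕ, 0 < n → ∀ φ : Lpar N, lam n φ = 0 → ∃ φ' : Lpar N, φ = n • φ') ∧
  (∀ n m : ℕ, 0 < n → 0 < m → ∀ φ : Lpar N, m • lam (n * m) φ = lam n φ) ∧
  (∀ n : ℕ, 0 < n → ∀ (ℓ : ℕ) [Fact ℓ.Prime] (hℓ : ℓ.Prime) (hℓN : ¬ ℓ ∣ N)
    (T : Lpar N →ₗ[ℤ] Lpar N), IsHeckeL hℓN T →
      ∀ φ : Lpar N, lam n (T φ) = heckeOperatorBar N ⟨ℓ, hℓ⟩ (lam n φ))

/-- **CMP** (the geometric core, enough for `S42`, `S29`): comparison maps exist.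
[AN2 + AN3 + RIG + HEQ; no AN1] -/
def LamStatement (N : ℕ) [NeZero N] : Prop :=
  ∃ lam : ℕ → (Lpar N →+ JZero N), IsLam N lam

/-- **CMP-GAL** (for `S30`): comparison maps whose images `lam n (Lpar N) ⊆ J₀(N)[n]` are
`G_ℚ`-stable.  (The image of `lam n` is the set of `x ∈ J[n]` whose Kummer character lifts to
`Lpar N`; `σ • lam n φ = m • (σ • lam (n m) φ)` for all `m`, so its Kummer character lifts to every
level, hence — `Γ₀(N)` is finitely generated — to `Lpar N`.)  [+ AN1 + KUM-inj] -/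
def LamGalStatement (N : ℕ) [NeZero N] : Prop :=
  ∃ lam : ℕ → (Lpar N →+ JZero N), IsLam N lam ∧
    ∀ n : ℕ, 0 < n → ∀ (σ : GQ) (φ : Lpar N), ∃ φ' : Lpar N, σ • lam n φ = lam n φ'

/-- **FIN** (optional, NOT needed by the assembly): `J₀(N)(ℚ̄)[n]` is finite. -/
def TorsionFiniteStatement (N : ℕ) [NeZero N] : Prop :=
  ∀ n : ℕ, 0 < n → {x : JZero N | n • x = 0}.Finite


/-! ## Version 2: characters with values in `ℤ/n` -/

/-- homs `Γ₀(N) → A` trivial on parabolic elements (`trace² = 4`) and on elements of finite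
order -/
def Hpe (N : ℕ) (A : Type*) [AddCommGroup A] : AddSubgroup (Additive (Gamma0 N) →+ A) where
  carrier := {φ | ModularCurve.Period.IsParabolicHom (Gamma0 N) φ ∧
    ∀ γ : Gamma0 N, IsOfFinOrder γ → φ (Additive.ofMul γ) = 0}
  zero_mem' := ⟨fun _ _ => rfl, fun _ _ => rfl⟩
  add_mem' := by
    rintro φ ψ ⟨hφ, hφ'⟩ ⟨hψ, hψ'⟩
    refine ⟨fun γ hγ => ?_, fun γ hγ => ?_⟩
    · show φ (Additive.ofMul γ) + ψ (Additive.ofMul γ) = 0
      rw [hφ γ hγ, hψ γ hγ, add_zero]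
    · show φ (Additive.ofMul γ) + ψ (Additive.ofMul γ) = 0
      rw [hφ' γ hγ, hψ' γ hγ, add_zero]
  neg_mem' := by
    rintro φ ⟨hφ, hφ'⟩
    refine ⟨fun γ hγ => ?_, fun γ hγ => ?_⟩
    · show -φ (Additive.ofMul γ) = 0
      rw [hφ γ hγ, neg_zero]
    · show -φ (Additive.ofMul γ) = 0
      rw [hφ' γ hγ, neg_zero]

/-- `kum n : Hpe N (ZMod n) → J₀(N)(ℚ̄)` is a system of Kummer comparison maps:
injective and Hecke-equivariant (`ℓ ∤ N`; in particular `T_ℓ` preserves `Hpe N (ZMod n)`). -/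
def IsKum (N : ℕ) [NeZero N] (kum : ∀ n : ℕ, Hpe N (ZMod n) →+ JZero N) : Prop :=
  (∀ n : ℕ, 0 < n → Function.Injective (kum n)) ∧
  (∀ n : ℕ, 0 < n → ∀ (ℓ : ℕ) [Fact ℓ.Prime] (hℓ : ℓ.Prime) (hℓN : ¬ ℓ ∣ N)
    (χ : Hpe N (ZMod n)), ∃ χ' : Hpe N (ZMod n),
      (∀ γ : Gamma0 N, (χ' : Additive (Gamma0 N) →+ ZMod n) (Additive.ofMul γ) =
        H21S16.heckeTFun hℓN
          (fun γ' : Gamma0 N => (χ : Additive (Gamma0 N) →+ ZMod n) (Additive.ofMul γ')) γ) ∧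
      kum n χ' = heckeOperatorBar N ⟨ℓ, hℓ⟩ (kum n χ))

/-- **KUM** (the geometric core, enough for `S42`, `S29`). -/
def KumStatement (N : ℕ) [NeZero N] : Prop :=
  ∃ kum : ∀ n : ℕ, Hpe N (ZMod n) →+ JZero N, IsKum N kum

/-- **KUM-GAL** (for `S30`): moreover `kum` is compatible with reduction `ℤ/nm → ℤ/n` and
`kum n` is onto `J₀(N)[n]`. -/
def KumGalStatement (N : ℕ) [NeZero N] : Prop :=
  ∃ kum : ∀ n : ℕ, Hpe N (ZMod n) →+ JZero N, IsKum N kum ∧
    (∀ n m : ℕ, 0 < n → 0 < m → ∀ (χ : Hpe N (ZMod (n * m))) (χ' : Hpe N (ZMod n)),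
      (∀ γ : Gamma0 N, (χ' : Additive (Gamma0 N) →+ ZMod n) (Additive.ofMul γ) =
        ZMod.castHom (dvd_mul_right n m) (ZMod n)
          ((χ : Additive (Gamma0 N) →+ ZMod (n * m)) (Additive.ofMul γ))) →
      m • kum (n * m) χ = kum n χ') ∧
    (∀ n : ℕ, 0 < n → ∀ x : JZero N, n • x = 0 → ∃ χ : Hpe N (ZMod n), kum n χ = x)

/-- **LIFT** (pure algebra): for every `k` there is `j ≥ k` such that every character mod `p^j`
(trivial on parabolic and finite-order elements) agrees mod `p^k` with an element of `Lpar N`. -/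
def LiftStatement (N : ℕ) : Prop :=
  ∀ (p : ℕ), p.Prime → ∀ k : ℕ, ∃ (j : ℕ) (hkj : k ≤ j), ∀ χ : Hpe N (ZMod (p ^ j)),
    ∃ φ : Lpar N, ∀ γ : Gamma0 N,
      (((φ : Additive (Gamma0 N) →+ ℤ) (Additive.ofMul γ) : ℤ) : ZMod (p ^ k)) =
        ZMod.castHom (pow_dvd_pow p hkj) (ZMod (p ^ k))
          ((χ : Additive (Gamma0 N) →+ ZMod (p ^ j)) (Additive.ofMul γ))

end H11W3G

end
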