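import Mathlib

/-!
# W3G (item 80), slice EIGH, part 2 (helper1): reduction of a complex-valued homomorphism
modulo a prime of `ℤ̄` (pure algebra)

`Γ` a finitely generated group, `v : Γ → F` a nonzero homomorphism to the additive group of a
field, `R` a valuation subring of `F`: after division by a suitable value `ω = v γ₀` the
homomorphism takes values in `R` and the value `1` at `γ₀`
(`H1EIGH.exists_normalizer`).
-/

set_option autoImplicit false
set_option linter.style.longLine false
set_option linter.unusedSectionVars false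
set_option linter.unusedVariables false
set_option linter.style.haveILetI false

noncomputable section

namespace H1EIGH

section Normalize

variable {Γ : Type*} [Group Γ] {F : Type*} [Field F]

/-- a homomorphism vanishing on a generating set vanishes -/
theorem hom_eq_zero_of_generators {S : Set Γ} (hS : Subgroup.closure S = ⊤)
    (v : Additive Γ →+ F) (h : ∀ s ∈ S, v (Additive.ofMul s) = 0) : v = 0 := by
  refine AddMonoidHom.ext fun γ => ?_
  have hγ : Additive.toMul γ ∈ Subgroup.closure S := by rw [hS]; exact Subgroup.mem_top _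
  have key : ∀ x : Γ, x ∈ Subgroup.closure S → v (Additive.ofMul x) = 0 := by
    intro x hx
    induction hx using Subgroup.closure_induction with
    | mem x hx => exact h x hx
    | one => exact map_zero v
    | mul x y _ _ hx hy =>
        have : Additive.ofMul (x * y) = Additive.ofMul x + Additive.ofMul y := rfl
        rw [this, map_add, hx, hy, add_zero]
    | inv x _ hx =>
        have : Additive.ofMul x⁻¹ = -Additive.ofMul x := rfl
        rw [this, map_neg, hx, neg_zero]
  exact key _ hγ

/-- normalisation with respect to a valuation subring -/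
theorem exists_normalizer (hΓ : Group.FG Γ) (R : ValuationSubring F) (v : Additive Γ →+ F)
    (hv : v ≠ 0) :
    ∃ γ₀ : Γ, v (Additive.ofMul γ₀) ≠ 0 ∧
      ∀ γ : Γ, v (Additive.ofMul γ) / v (Additive.ofMul γ₀) ∈ R := by
  obtain ⟨S, hS, hfin⟩ := Group.fg_iff.mp hΓ
  have hex : ∃ s ∈ S, v (Additive.ofMul s) ≠ 0 := by
    by_contra hcon
    push Not at hcon
    exact hv (hom_eq_zero_of_generators hS v hcon)
  obtain ⟨s₁, hs₁, hs₁v⟩ := hex
  obtain ⟨s₀, hs₀, hmax⟩ := Set.exists_max_image S (fun s => R.valuation (v (Additive.ofMul s)))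
    hfin ⟨s₁, hs₁⟩
  have hω : v (Additive.ofMul s₀) ≠ 0 := by
    intro h0
    have h1 := hmax s₁ hs₁
    simp only [h0, map_zero, le_zero_iff] at h1
    exact hs₁v ((map_eq_zero _).mp h1)
  refine ⟨s₀, hω, ?_⟩
  have hpos : 0 < R.valuation (v (Additive.ofMul s₀)) := by
    rw [zero_lt_iff]
    exact (map_ne_zero _).mpr hω
  have key : ∀ x : Γ, x ∈ Subgroup.closure S →
      v (Additive.ofMul x) / v (Additive.ofMul s₀) ∈ R := by
    intro x hx
    induction hx using Subgroup.closure_induction with
    | mem x hx =>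
        rw [← R.valuation_le_one_iff, map_div₀, div_le_one₀ hpos]
        exact hmax x hx
    | one =>
        have : v (Additive.ofMul (1 : Γ)) = 0 := map_zero v
        rw [this, zero_div]
        exact zero_mem _
    | mul x y _ _ hx hy =>
        have : Additive.ofMul (x * y) = Additive.ofMul x + Additive.ofMul y := rfl
        rw [this, map_add, add_div]
        exact add_mem hx hy
    | inv x _ hx =>
        have : Additive.ofMul x⁻¹ = -Additive.ofMul x := rfl
        rw [this, map_neg, neg_div]
        exact neg_mem hx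
  intro γ
  exact key γ (by rw [hS]; exact Subgroup.mem_top _)

end Normalize

section Maximal

/-- the kernel of a homomorphism from an integral `ℤ`-algebra to a field of characteristic
`p > 0` is a maximal ideal -/
theorem ker_isMaximal_of_charP {Z : Type*} [CommRing Z] (hZ : ∀ x : Z, IsIntegral ℤ x)
    {K : Type*} [Field K] (p : ℕ) (hp : p.Prime) [CharP K p] (ψ : Z →+* K) :
    (RingHom.ker ψ).IsMaximal := by
  haveI : Fact p.Prime := ⟨hp⟩
  haveI hprime : (RingHom.ker ψ).IsPrime := RingHom.ker_isPrime ψ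
  set ι : Z ⧸ RingHom.ker ψ →+* K := RingHom.kerLift ψ with hι
  have hinj : Function.Injective ι := RingHom.kerLift_injective ψ
  haveI : CharP (Z ⧸ RingHom.ker ψ) p := (RingHom.charP_iff ι hinj p).mpr inferInstance
  letI : Algebra (ZMod p) (Z ⧸ RingHom.ker ψ) := ZMod.algebra _ p
  haveI : Algebra.IsIntegral (ZMod p) (Z ⧸ RingHom.ker ψ) := by
    refine ⟨fun xbar => ?_⟩
    obtain ⟨x, rfl⟩ := Ideal.Quotient.mk_surjective xbar
    obtain ⟨P, hP, hPx⟩ := hZ x
    refine ⟨P.map (Int.castRingHom (ZMod p)), hP.map _, ?_⟩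
    rw [Polynomial.eval₂_map]
    have hcomp : (algebraMap (ZMod p) (Z ⧸ RingHom.ker ψ)).comp (Int.castRingHom (ZMod p))
        = (Ideal.Quotient.mk (RingHom.ker ψ)).comp (algebraMap ℤ Z) := Subsingleton.elim _ _
    rw [hcomp, ← Polynomial.hom_eval₂, hPx, map_zero]
  have hfield : IsField (Z ⧸ RingHom.ker ψ) :=
    isField_of_isIntegral_of_isField' (R := ZMod p) (Field.toIsField (ZMod p))
  exact Ideal.Quotient.maximal_of_isField _ hfield

end Maximal

section Reduction

variable {Γ : Type*} [Group Γ] {F : Type*} [Field F]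

/-- **Reduction of a homomorphism** `v : Γ → F` modulo a maximal ideal of a subring `Z ⊆ F`:
a homomorphism `φ : Γ → K` taking the value `1`, vanishing where `v` does, and inheriting all
linear relations `∑ v (f i) = a * v γ` with `a ∈ Z`. -/
theorem exists_reduction (hΓ : Group.FG Γ) (Z : Subalgebra ℤ F) {K : Type*} [Field K]
    (ψ : Z →+* K) (hmax : (RingHom.ker ψ).IsMaximal) (v : Additive Γ →+ F) (hv : v ≠ 0) :
    ∃ φ : Additive Γ →+ K, (∃ γ₀, φ γ₀ = 1) ∧ (∀ γ, v γ = 0 → φ γ = 0) ∧
      ∀ (ι : Type) (s : Finset ι) (f : ι → Additive Γ) (a : Z) (γ : Additive Γ),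
        ∑ i ∈ s, v (f i) = (a : F) * v γ → ∑ i ∈ s, φ (f i) = ψ a * φ γ := by
  classical
  -- the valuation ring
  set e : ↥Z.toSubring →+* ↥Z := (Subring.subtype Z.toSubring).codRestrict Z (fun x => x.2) with he
  set I : Ideal ↥Z.toSubring := RingHom.ker (ψ.comp e) with hI
  have hIne : I ≠ ⊤ := by
    rw [hI, Ne, Ideal.eq_top_iff_one, RingHom.mem_ker, map_one]
    exact one_ne_zero
  obtain ⟨R, hZR, hIR⟩ := Ideal.image_subset_nonunits_valuationSubring I hIne
  have hZmem : ∀ a : Z, (a : F) ∈ R := fun a => hZR a.2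
  have hker : ∀ a : Z, ψ a = 0 → (a : F) ∈ R.nonunits := by
    intro a ha
    apply hIR
    refine ⟨⟨(a : F), a.2⟩, ?_, rfl⟩
    show (⟨(a : F), a.2⟩ : ↥Z.toSubring) ∈ RingHom.ker (ψ.comp e)
    rw [RingHom.mem_ker]
    exact ha
  -- normalisation
  obtain ⟨γ₀, hω, hmem⟩ := exists_normalizer hΓ R v hv
  set ω : F := v (Additive.ofMul γ₀) with hωdef
  let φR : Additive Γ →+ R :=
    { toFun := fun γ => ⟨v γ / ω, hmem (Additive.toMul γ)⟩
      map_zero' := by
        apply Subtype.ext
        show v 0 / ω = 0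
        rw [map_zero, zero_div]
      map_add' := fun x y => by
        apply Subtype.ext
        show v (x + y) / ω = v x / ω + v y / ω
        rw [map_add, add_div] }
  have hφR : ∀ γ, ((φR γ : R) : F) = v γ / ω := fun γ => rfl
  -- the residue fields
  haveI := hmax
  letI : Field (Z ⧸ RingHom.ker ψ) := Ideal.Quotient.field _
  let incl : Z →+* R := (Z.val.toRingHom).codRestrict R.toSubring hZmem
  have hincl : ∀ a : Z, ((incl a : R) : F) = (a : F) := fun a => rfl
  let ιR : Z ⧸ RingHom.ker ψ →+* IsLocalRing.ResidueField R :=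
    Ideal.Quotient.lift (RingHom.ker ψ) ((IsLocalRing.residue R).comp incl) (by
      intro a ha
      rw [RingHom.mem_ker] at ha
      rw [RingHom.comp_apply, IsLocalRing.residue_eq_zero_iff]
      exact ValuationSubring.coe_mem_nonunits_iff.mp (hker a ha))
  let ιK : Z ⧸ RingHom.ker ψ →+* K := RingHom.kerLift ψ
  letI : Algebra (Z ⧸ RingHom.ker ψ) (IsLocalRing.ResidueField R) := ιR.toAlgebra
  obtain ⟨lam, hlam⟩ := Module.Projective.exists_dual_eq_one (Z ⧸ RingHom.ker ψ)
    (one_ne_zero : (1 : IsLocalRing.ResidueField R) ≠ 0)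
  let φ : Additive Γ →+ K :=
    ιK.toAddMonoidHom.comp (lam.toAddMonoidHom.comp
      ((IsLocalRing.residue R).toAddMonoidHom.comp φR))
  have hφ : ∀ γ, φ γ = ιK (lam (IsLocalRing.residue R (φR γ))) := fun γ => rfl
  refine ⟨φ, ⟨Additive.ofMul γ₀, ?_⟩, ?_, ?_⟩
  · have h1 : φR (Additive.ofMul γ₀) = 1 := by
      apply Subtype.ext
      rw [hφR]
      exact div_self hω
    rw [hφ, h1, map_one, hlam, map_one]
  · intro γ hγ
    have h0 : φR γ = 0 := by
      apply Subtype.ext
      rw [hφR, hγ, zero_div]
      rfl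
    rw [hφ, h0, map_zero, map_zero, map_zero]
  · intro ι s f a γ hrel
    have h1 : ∑ i ∈ s, φR (f i) = incl a * φR γ := by
      apply Subtype.ext
      have hsum : ((∑ i ∈ s, φR (f i) : R) : F) = ∑ i ∈ s, v (f i) / ω := by
        have h0 := map_sum R.subtype (fun i => φR (f i)) s
        exact h0
      rw [hsum, ← Finset.sum_div, hrel]
      show (a : F) * v γ / ω = (incl a : F) * ((φR γ : R) : F)
      rw [hincl, hφR, mul_div_assoc]
    have h2 : ∑ i ∈ s, IsLocalRing.residue R (φR (f i))
        = (Ideal.Quotient.mk (RingHom.ker ψ) a) • IsLocalRing.residue R (φR γ) := by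
      rw [← map_sum, h1, map_mul, Algebra.smul_def]
      rfl
    have h3 : ∑ i ∈ s, lam (IsLocalRing.residue R (φR (f i)))
        = (Ideal.Quotient.mk (RingHom.ker ψ) a) * lam (IsLocalRing.residue R (φR γ)) := by
      rw [← map_sum, h2, map_smul, smul_eq_mul]
    simp only [hφ]
    rw [← map_sum, h3, map_mul]
    rfl

end Reduction

end H1EIGH
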