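import Mathlib
import Fermat.Agent.Lib.H20_LiftingLemma
import Fermat.Agent.S23

/-!
# W3G (item 80), slice EIGH, part 1 (helper1): a normalised eigenform is a Hecke eigenvector
with algebraic integer eigenvalues

* `H1EIGH.heckeTLin_eq_smul` : `T_ℓ g = a_ℓ(g) • g` for `ℓ ∤ N` (from the coefficient relations);
* `H1EIGH.isIntegral_qCoeff` : `a_ℓ(g)` is an algebraic integer.
-/

set_option autoImplicit false
set_option linter.style.longLine false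
set_option linter.unusedSectionVars false
set_option linter.unusedVariables false

noncomputable section

open ModularFormClass CongruenceSubgroup

namespace H1EIGH

variable {N : ℕ} [NeZero N]

theorem ne_zero_of_isNormalizedEigenform {g : CuspForm (Gamma0 N) 2}
    (hg : g.IsNormalizedEigenform) : g ≠ 0 := by
  rintro rfl
  have h1 := hg.qCoeff_one
  have h0 : qCoeff (⇑(0 : CuspForm (Gamma0 N) 2)) 1 = 0 := by
    have := Fermat.Agent.H20.qCoeff_smul (N := N) (k := 2) (0 : ℂ) (0 : CuspForm (Gamma0 N) 2) 1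
    simpa using this
  rw [h0] at h1
  exact zero_ne_one h1

/-- the coefficient identity `a(nℓ) + ℓ a(n/ℓ) = a(ℓ) a(n)` -/
theorem qCoeff_mul_prime {g : CuspForm (Gamma0 N) 2} (hg : g.IsNormalizedEigenform)
    {ℓ : ℕ} (hℓ : ℓ.Prime) (hℓN : ¬ ℓ ∣ N) (n : ℕ) :
    qCoeff ⇑g (n * ℓ) + (if ℓ ∣ n then (ℓ : ℂ) ^ ((2 : ℤ) - 1) * qCoeff ⇑g (n / ℓ) else 0)
      = qCoeff ⇑g ℓ * qCoeff ⇑g n := by
  rcases Nat.eq_zero_or_pos n with rfl | hn
  · simp [Fermat.Agent.H20.qCoeff_zero_eq_zero]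
  have hpow : (ℓ : ℂ) ^ ((2 : ℤ) - 1) = (ℓ : ℂ) := by norm_num
  rw [hpow]
  -- write `n = ℓ ^ r * m`
  obtain ⟨r, m, hm, rfl⟩ := Nat.exists_eq_pow_mul_and_not_dvd hn.ne' ℓ hℓ.ne_one
  have hcop : ∀ k : ℕ, (ℓ ^ k).Coprime m := fun k =>
    Nat.Coprime.pow_left k ((Nat.Prime.coprime_iff_not_dvd hℓ).mpr hm)
  rcases Nat.eq_zero_or_pos r with rfl | hr
  · -- `ℓ ∤ n`
    simp only [pow_zero, one_mul]
    rw [if_neg hm, add_zero, mul_comm m ℓ]
    have := hg.qCoeff_mul_of_coprime ℓ m (by simpa using hcop 1)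
    exact this
  · obtain ⟨s, rfl⟩ : ∃ s, r = s + 1 := ⟨r - 1, by omega⟩
    have hdvd : ℓ ∣ ℓ ^ (s + 1) * m := Dvd.dvd.mul_right (dvd_pow_self ℓ (by omega)) m
    rw [if_pos hdvd]
    have e1 : ℓ ^ (s + 1) * m * ℓ = ℓ ^ (s + 2) * m := by ring
    have e2 : ℓ ^ (s + 1) * m / ℓ = ℓ ^ s * m := by
      rw [pow_succ, mul_assoc, mul_comm ℓ m, ← mul_assoc]
      exact Nat.mul_div_cancel _ hℓ.pos
    rw [e1, e2, hg.qCoeff_mul_of_coprime _ _ (hcop (s + 2)),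
      hg.qCoeff_mul_of_coprime _ _ (hcop s), hg.qCoeff_mul_of_coprime _ _ (hcop (s + 1)),
      hg.qCoeff_prime_pow_of_not_dvd ℓ s hℓ hℓN]
    ring

/-- a normalised eigenform is an eigenvector of `T_ℓ`, `ℓ ∤ N`, with eigenvalue `a_ℓ` -/
theorem heckeTLin_eq_smul {g : CuspForm (Gamma0 N) 2} (hg : g.IsNormalizedEigenform)
    {ℓ : ℕ} (hℓ : ℓ.Prime) (hℓN : ¬ ℓ ∣ N) :
    CuspForm.heckeTLin 2 hℓ hℓN g = qCoeff ⇑g ℓ • g := by
  rw [← sub_eq_zero]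
  apply Fermat.Agent.H20.eq_zero_of_forall_qCoeff
  intro n
  have h1 : qCoeff ⇑(CuspForm.heckeTLin 2 hℓ hℓN g - qCoeff ⇑g ℓ • g) n
      = qCoeff ⇑(CuspForm.heckeTLin 2 hℓ hℓN g) n - qCoeff ⇑g ℓ * qCoeff ⇑g n := by
    have h2 : CuspForm.heckeTLin 2 hℓ hℓN g - qCoeff ⇑g ℓ • g
        = CuspForm.heckeTLin 2 hℓ hℓN g + (-(qCoeff ⇑g ℓ)) • g := by
      rw [neg_smul, sub_eq_add_neg]
    rw [h2, Fermat.Agent.H20.qCoeff_add, Fermat.Agent.H20.qCoeff_smul]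
    ring
  rw [h1, Fermat.Agent.H20.qCoeff_heckeTLin, qCoeff_mul_prime hg hℓ hℓN n, sub_self]

/-- the Hecke eigenvalues of a normalised eigenform are algebraic integers -/
theorem isIntegral_qCoeff {g : CuspForm (Gamma0 N) 2} (hg : g.IsNormalizedEigenform)
    {ℓ : ℕ} (hℓ : ℓ.Prime) (hℓN : ¬ ℓ ∣ N) : IsIntegral ℤ (qCoeff ⇑g ℓ) := by
  have hspan : Submodule.span ℂ (CuspForm.intLattice N 2 : Set (CuspForm (Gamma0 N) 2)) = ⊤ :=
    Fermat.Agent.S23.result N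
  have hfg := CuspForm.intLattice_fg N 2
  haveI hfd : FiniteDimensional ℂ (CuspForm (Gamma0 N) 2) := by
    obtain ⟨s, hs⟩ := hfg
    refine Module.finite_def.mpr ⟨s, ?_⟩
    rw [← hspan, ← hs, Submodule.span_span_of_tower]
  exact Fermat.Agent.H20.isIntegral_eigenvalue_of_lattice
    (CuspForm.heckeTLin 2 hℓ hℓN : Module.End ℂ (CuspForm (Gamma0 N) 2))
    (CuspForm.intLattice N 2) hfg hspan
    (fun x hx => CuspForm.mem_intLattice_of_mem_heckeAlgebra (by norm_num)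
      (CuspForm.heckeAlgebra.T (S := (∅ : Set ℕ)) hℓ hℓN (Set.notMem_empty ℓ)).2 hx)
    (ne_zero_of_isNormalizedEigenform hg) (heckeTLin_eq_smul hg hℓ hℓN)

end H1EIGH
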