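import Mathlib
import Fermat.Agent.W3G.EIGHEigen_helper1
import Fermat.Agent.W3G.EIGHCore_helper1
import Fermat.Agent.S16.A_H1_helper22
import Fermat.Agent.RR.E1
import Fermat.Agent.RR.E1Par
import Fermat.Agent.S22.Lattice

/-!
# W3G (item 80), slice EIGH (helper1): the mod `p` Hecke eigenvector in
`Hom_par(Γ₀(N), K)` of a normalised eigenform

`H1EIGH.eigh N : H1EIGH.EighStatement N`:  for a normalised eigenform `g` of level `N`, a field `K`
of characteristic `p` and `ψ : ℤ̄ → K` there is a homomorphism `φ : Γ₀(N) → (K, +)` which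

* takes the value `1` (in particular `φ ≠ 0`),
* vanishes on parabolic elements (`trace² = 4`) and on elements of finite order,
* satisfies `∑_x φ (transT γ x) = ψ(a_ℓ) φ(γ)` for all primes `ℓ ∤ N`
  (`transT` = the transfer of the Hecke correspondence `T_ℓ`, `S16/H21ADefs.lean`).

Proof: the period homomorphism `v = periodMap N g : Γ₀(N) → ℂ` is nonzero (Eichler–Shimura
injectivity), parabolic, and `T_ℓ v = a_ℓ v`; normalise it with respect to a valuation ring `R` of
`ℂ` dominating `ℤ̄` at `ker ψ`, reduce modulo `𝔪_R`, and push the values down to `ℤ̄ / ker ψ ⊆ K`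
by a linear functional.
-/

set_option autoImplicit false
set_option linter.style.longLine false
set_option linter.unusedSectionVars false
set_option linter.unusedVariables false
set_option linter.style.haveILetI false

noncomputable section

open ModularFormClass CongruenceSubgroup ModularCurve ModularCurve.Period

namespace H1EIGH

/-- **EIGH**: the Hecke eigenvector mod `p` in the parabolic cohomology of `Γ₀(N)`. -/
def EighStatement (N : ℕ) [NeZero N] : Prop :=
  ∀ (p : ℕ) (_ : p.Prime) (g : CuspForm (Gamma0 N) 2), g.IsNormalizedEigenform →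
    ∀ (K : Type) [Field K] [CharP K p] (ψ : integralClosure ℤ ℂ →+* K),
      ∃ φ : Additive (Gamma0 N) →+ K,
        (∃ γ₀, φ γ₀ = 1) ∧
        IsParabolicHom (Gamma0 N) φ ∧
        (∀ γ : Gamma0 N, IsOfFinOrder γ → φ (Additive.ofMul γ) = 0) ∧
        ∀ (ℓ : ℕ) [Fact ℓ.Prime] (hℓN : ¬ ℓ ∣ N) (a : integralClosure ℤ ℂ),
          (a : ℂ) = qCoeff ⇑g ℓ → ∀ γ : Gamma0 N,
            ∑ x : OnePoint (ZMod ℓ), φ (Additive.ofMul (H21S16.transT hℓN γ x))
              = ψ a * φ (Additive.ofMul γ)

variable {N : ℕ} [NeZero N]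

/-- the period homomorphism of a nonzero cusp form is nonzero -/
theorem periodMap_ne_zero {g : CuspForm (Gamma0 N) 2} (hg : g ≠ 0) : periodMap N g ≠ 0 := by
  intro h0
  obtain ⟨pml, hpml, hdef⟩ := periodHomPair_def N (H21E1.existsPeriodMapLinear N)
  have h1 : periodHomPair N (g, g) = 0 := by
    rw [hdef, LinearMap.coprod_apply]
    simp only [LinearMap.comp_apply, hpml, h0, map_zero, add_zero]
  have h2 : periodHomPair N (g, g) = periodHomPair N 0 := by rw [h1, map_zero]
  have h3 := H21E1.periodHomPair_injective N h2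
  exact hg (congrArg Prod.fst h3)

/-- the Hecke relation for the period homomorphism of an eigenform -/
theorem periodMap_hecke {g : CuspForm (Gamma0 N) 2} (hg : g.IsNormalizedEigenform)
    {ℓ : ℕ} [Fact ℓ.Prime] (hℓN : ¬ ℓ ∣ N) (γ : Gamma0 N) :
    ∑ x : OnePoint (ZMod ℓ), periodMap N g (Additive.ofMul (H21S16.transT hℓN γ x))
      = qCoeff ⇑g ℓ * periodMap N g (Additive.ofMul γ) := by
  have hℓ : ℓ.Prime := Fact.out
  rw [← H21S16.h22a_periodMap_heckeT hℓ hℓN g γ, heckeTLin_eq_smul hg hℓ hℓN,
    H21E1.periodMap_smul]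
  rfl

/-- **EIGH** -/
theorem eigh (N : ℕ) [NeZero N] : EighStatement N := by
  intro p hp g hg K _ _ ψ
  have hmax : (RingHom.ker ψ).IsMaximal :=
    ker_isMaximal_of_charP (fun x => Algebra.IsIntegral.isIntegral x) p hp ψ
  obtain ⟨φ, h1, h2, h3⟩ := exists_reduction (H22.groupFG_Gamma0 (N := N))
    (integralClosure ℤ ℂ) ψ hmax (periodMap N g)
    (periodMap_ne_zero (ne_zero_of_isNormalizedEigenform hg))
  refine ⟨φ, h1, ?_, ?_, ?_⟩
  · intro γ hγ
    exact h2 _ ((mem_parabolicHoms_iff (R := ℂ)).mp (H21E1.periodMap_mem_parabolicHoms g) γ hγ)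
  · intro γ hγ
    apply h2
    obtain ⟨n, hn, hγn⟩ := hγ.exists_pow_eq_one
    have h4 : (n : ℂ) * periodMap N g (Additive.ofMul γ) = 0 := by
      have h5 : periodMap N g (n • Additive.ofMul γ) = 0 := by
        have : n • Additive.ofMul γ = Additive.ofMul (γ ^ n) := rfl
        rw [this, hγn]
        exact map_zero _
      rw [map_nsmul, nsmul_eq_mul] at h5
      exact h5
    rcases mul_eq_zero.mp h4 with h | h
    · exact absurd h (by exact_mod_cast hn.ne')
    · exact h
  · intro ℓ _ hℓN a ha γ
    have hrel := periodMap_hecke hg hℓN γ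
    rw [← ha] at hrel
    have := h3 (OnePoint (ZMod ℓ)) Finset.univ
      (fun x => Additive.ofMul (H21S16.transT hℓN γ x)) a (Additive.ofMul γ) hrel
    exact this

end H1EIGH
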