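import Fermat.Agent.W3G.Defs

/-!
# W3-G, EigenMod assembly, generic lemmas (helper11; Mathlib only)

* `h11em_decompose` : a hom `φ : Γ → K` of a finitely generated group, `K ⊇ F`, is a finite
  combination `∑ e_j χ_j` of homs `χ_j : Γ → F` vanishing where `φ` vanishes.
* `h11em_orbit_finite_of_finLev` : open stabiliser ⇒ finite orbit.
* `h11em_conj_fix` : if `σ` fixes the normal closure of `E` then every conjugate `τ⁻¹ σ τ`
  fixes `E`.
-/

set_option autoImplicit false
set_option linter.style.haveILetI false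

noncomputable section

namespace H11W3G

/-- decomposition of a `K`-valued homomorphism into `F`-valued ones -/
theorem h11em_decompose {Γ : Type*} [Group Γ] (hfg : Group.FG Γ) {F : Type*} [Field F]
    {K : Type*} [Field K] [Algebra F K] (φ : Additive Γ →+ K) :
    ∃ (s : ℕ) (e : Fin s → K) (χ : Fin s → (Additive Γ →+ F)),
      (∀ γ, φ γ = ∑ j, e j * algebraMap F K (χ j γ)) ∧
      (∀ j γ, φ γ = 0 → χ j γ = 0) := by
  classical
  obtain ⟨S, hS⟩ := hfg
  set E : Submodule F K :=
    Submodule.span F ((fun γ : Γ => φ (Additive.ofMul γ)) '' (S : Set Γ)) with hE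
  haveI : FiniteDimensional F E :=
    FiniteDimensional.span_of_finite F (Set.Finite.image _ S.finite_toSet)
  have hmem : ∀ γ : Γ, φ (Additive.ofMul γ) ∈ E := by
    intro γ
    have hγ : γ ∈ Subgroup.closure (S : Set Γ) := by rw [hS]; trivial
    induction hγ using Subgroup.closure_induction with
    | mem x hx => exact Submodule.subset_span ⟨x, hx, rfl⟩
    | one =>
      have : φ (Additive.ofMul (1 : Γ)) = 0 := by rw [ofMul_one, map_zero]
      rw [this]; exact Submodule.zero_mem _
    | mul x y _ _ hx hy =>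
      rw [ofMul_mul, map_add]; exact Submodule.add_mem _ hx hy
    | inv x _ hx =>
      rw [ofMul_inv, map_neg]; exact Submodule.neg_mem _ hx
  -- the corestriction
  let φE : Additive Γ →+ E :=
    { toFun := fun γ => ⟨φ γ, hmem (Additive.toMul γ)⟩
      map_zero' := by ext; exact map_zero φ
      map_add' := fun a b => by ext; exact map_add φ a b }
  let b := Module.finBasis F E
  refine ⟨Module.finrank F E, fun j => ((b j : E) : K),
    fun j => (b.coord j).toAddMonoidHom.comp φE, ?_, ?_⟩
  · intro γ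
    have h1 := b.sum_repr (φE γ)
    have h2 : φ γ = ((φE γ : E) : K) := rfl
    rw [h2, ← h1, Submodule.coe_sum]
    refine Finset.sum_congr rfl fun j _ => ?_
    rw [Submodule.coe_smul, Algebra.smul_def, mul_comm]
    rfl
  · intro j γ h0
    have : φE γ = 0 := by ext; exact h0
    show b.coord j (φE γ) = 0
    rw [this, map_zero]

section galois

local notation "Qb" => AlgebraicClosure ℚ

/-- a point with an open stabiliser has a finite orbit -/
theorem h11em_orbit_finite_of_finLev {J : Type*} [AddCommGroup J] [DistribMulAction GQ J]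
    (x : J) (E : IntermediateField ℚ Qb) [FiniteDimensional ℚ E]
    (hx : ∀ σ : GQ, (∀ y ∈ E, σ y = y) → σ • x = x) :
    (Set.range fun σ : GQ => σ • x).Finite := by
  classical
  let r : GQ → (E →ₐ[ℚ] Qb) := fun σ => (σ : Qb →ₐ[ℚ] Qb).comp E.val
  have hr : ∀ σ τ : GQ, r σ = r τ → σ • x = τ • x := by
    intro σ τ h
    have h1 : ∀ y ∈ E, (τ⁻¹ * σ) y = y := by
      intro y hy
      have h2 : σ y = τ y := DFunLike.congr_fun h ⟨y, hy⟩
      rw [AlgEquiv.mul_apply, h2]
      exact τ.symm_apply_apply y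
    have h3 := hx _ h1
    rw [mul_smul] at h3
    calc σ • x = τ • (τ⁻¹ • σ • x) := by rw [smul_inv_smul]
      _ = τ • x := by rw [h3]
  haveI : Finite (E →ₐ[ℚ] Qb) := inferInstance
  let g : Set.range r → J := fun e => (Classical.choose e.2) • x
  refine Set.Finite.subset (Set.finite_range g) ?_
  rintro _ ⟨σ, rfl⟩
  refine ⟨⟨r σ, σ, rfl⟩, ?_⟩
  exact hr _ _ (Classical.choose_spec (⟨σ, rfl⟩ : ∃ τ, r τ = r σ))

/-- if `σ` fixes the normal closure of `E`, every conjugate `τ⁻¹ σ τ` fixes `E` -/
theorem h11em_conj_fix (E : IntermediateField ℚ Qb) (σ τ : GQ)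
    (hσ : ∀ y ∈ IntermediateField.normalClosure ℚ E Qb, σ y = y) :
    ∀ y ∈ E, (τ⁻¹ * σ * τ) y = y := by
  intro y hy
  have h1 : τ y ∈ IntermediateField.normalClosure ℚ E Qb := by
    have h2 : ((τ : Qb →ₐ[ℚ] Qb).comp E.val).fieldRange ≤
        IntermediateField.normalClosure ℚ E Qb :=
      le_iSup (fun f : E →ₐ[ℚ] Qb => f.fieldRange) _
    exact h2 ⟨⟨y, hy⟩, rfl⟩
  rw [AlgEquiv.mul_apply, AlgEquiv.mul_apply, hσ _ h1]
  exact τ.symm_apply_apply y

end galois

end H11W3G

end
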