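/-
helper13, item 80 (W3-G), slice COMM, abstract part.

A semilinear automorphism pair `(g, g')` of `F ⊆ F'` (function fields over `K`) which intertwines
the inclusion commutes with restriction of places, ramification indices, inertia degrees, and
therefore with pull-back and push-forward of divisors and with correspondences on `Pic0`.
-/
import Mathlib
import Fermat.Prelude.Def_AlgebraicCurve_Correspondence

set_option autoImplicit false
set_option linter.style.haveILetI false
set_option linter.unusedSectionVars false
set_option linter.unusedVariables false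

noncomputable section

open AlgebraicCurve

open scoped Pointwise

namespace H13W3G

section Tower

variable {K F F' : Type*} [Field K] [Field F] [Field F'] [Algebra K F] [Algebra K F']
  [Algebra F F'] [IsScalarTower K F F'] [Algebra.IsIntegral F F']

/-- The pair `(g, g')` intertwines `algebraMap F F'`. -/
def Intw (g : SemilinearAut K F) (g' : SemilinearAut K F') : Prop :=
  ∀ x : F, g' • (algebraMap F F' x) = algebraMap F F' (g • x)

omit [IsScalarTower K F F'] [Algebra.IsIntegral F F'] in
theorem Intw.inv {g : SemilinearAut K F} {g' : SemilinearAut K F'} (h : Intw g g') :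
    Intw g⁻¹ g'⁻¹ := fun x => by
  have hx := h (g⁻¹ • x)
  rw [smul_inv_smul] at hx
  rw [← hx, inv_smul_smul]

theorem restrict_smul {g : SemilinearAut K F} {g' : SemilinearAut K F'} (h : Intw g g')
    (w : Place K F') : (g' • w).restrict F = g • (w.restrict F) := by
  apply Place.ext
  ext x
  rw [Place.restrict_toValuationSubring, SemilinearAut.smul_toValuationSubring,
    SemilinearAut.smul_toValuationSubring, ValuationSubring.mem_comap,
    ValuationSubring.mem_pointwise_smul_iff_inv_smul_mem,
    ValuationSubring.mem_pointwise_smul_iff_inv_smul_mem, Place.restrict_toValuationSubring,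
    ValuationSubring.mem_comap, h.inv x]

omit [IsScalarTower K F F'] [Algebra.IsIntegral F F'] in
theorem ord_smul_algebraMap {g : SemilinearAut K F} {g' : SemilinearAut K F'} (h : Intw g g')
    (w : Place K F') (f : F) :
    (g' • w).ord (algebraMap F F' f) = w.ord (algebraMap F F' (g⁻¹ • f)) := by
  have h1 := SemilinearAut.ord_smul g' w (g'⁻¹ • algebraMap F F' f)
  rw [smul_inv_smul] at h1
  rw [h1, h.inv f]

omit [IsScalarTower K F F'] [Algebra.IsIntegral F F'] in
theorem ramificationIndex_smul {g : SemilinearAut K F} {g' : SemilinearAut K F'} (h : Intw g g')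
    (w : Place K F') :
    (g' • w).ramificationIndex F = w.ramificationIndex F := by
  unfold Place.ramificationIndex
  congr 1
  ext n
  simp only [Set.mem_ofPred_eq]
  constructor
  · rintro ⟨hn, f, hf, hfn⟩
    refine ⟨hn, g⁻¹ • f, ?_, ?_⟩
    · exact (smul_ne_zero_iff_ne _).mpr hf
    · rw [← ord_smul_algebraMap h w f, hfn]
  · rintro ⟨hn, f, hf, hfn⟩
    refine ⟨hn, g • f, ?_, ?_⟩
    · exact (smul_ne_zero_iff_ne _).mpr hf
    · rw [ord_smul_algebraMap h w (g • f), inv_smul_smul, hfn]

theorem mem_restrict_smul_iff {g : SemilinearAut K F} {g' : SemilinearAut K F'} (h : Intw g g')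
    (w : Place K F') (x : F) :
    x ∈ ((g' • w).restrict F).toValuationSubring ↔
      g⁻¹ • x ∈ (w.restrict F).toValuationSubring := by
  rw [restrict_smul h w, SemilinearAut.smul_toValuationSubring,
    ValuationSubring.mem_pointwise_smul_iff_inv_smul_mem]

/-- The ring isomorphism between the valuation rings of `w.restrict F` and
`(g' • w).restrict F`. -/
def restrictSMulEquiv {g : SemilinearAut K F} {g' : SemilinearAut K F'} (h : Intw g g')
    (w : Place K F') :
    (w.restrict F).toValuationSubring ≃+* ((g' • w).restrict F).toValuationSubring where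
  toFun x := ⟨g • (x : F), (mem_restrict_smul_iff h w _).mpr (by
    rw [inv_smul_smul]; exact x.2)⟩
  invFun y := ⟨g⁻¹ • (y : F), (mem_restrict_smul_iff h w _).mp y.2⟩
  left_inv x := Subtype.ext (inv_smul_smul g (x : F))
  right_inv y := Subtype.ext (smul_inv_smul g (y : F))
  map_mul' x y := Subtype.ext (smul_mul' g (x : F) (y : F))
  map_add' x y := Subtype.ext (smul_add g (x : F) (y : F))

theorem coe_restrictSMulEquiv {g : SemilinearAut K F} {g' : SemilinearAut K F'} (h : Intw g g')
    (w : Place K F') (x : (w.restrict F).toValuationSubring) :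
    ((restrictSMulEquiv h w x : ((g' • w).restrict F).toValuationSubring) : F) = g • (x : F) :=
  rfl

theorem inertiaDeg_smul {g : SemilinearAut K F} {g' : SemilinearAut K F'} (h : Intw g g')
    (w : Place K F') :
    (g' • w).inertiaDeg F = w.inertiaDeg F := by
  unfold Place.inertiaDeg
  symm
  refine Algebra.finrank_eq_of_equiv_equiv
    (IsLocalRing.ResidueField.mapEquiv (restrictSMulEquiv h w))
    (SemilinearAut.smulResidueRingEquiv g' w) ?_
  ext a
  obtain ⟨a, rfl⟩ := IsLocalRing.residue_surjective a
  simp only [RingHom.comp_apply, RingEquiv.toRingHom_eq_coe, RingEquiv.coe_toRingHom]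
  rw [Place.algebraMap_residueField_eq, Place.algebraMap_residueField_eq]
  rw [IsLocalRing.ResidueField.mapEquiv_apply, IsLocalRing.ResidueField.map_residue,
    Place.restrictResidueMap_residue, Place.restrictResidueMap_residue]
  show _ = IsLocalRing.ResidueField.mapEquiv _ (IsLocalRing.residue _ _)
  rw [IsLocalRing.ResidueField.mapEquiv_apply, IsLocalRing.ResidueField.map_residue]
  refine congrArg _ (Subtype.ext ?_)
  show algebraMap F F' (g • (a : F)) = g' • algebraMap F F' (a : F)
  exact (h a).symm

theorem pullback_smul [HasPrincipalDivisors K F'] {g : SemilinearAut K F}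
    {g' : SemilinearAut K F'} (h : Intw g g') (D : Divisor K F) :
    Divisor.pullback F' (g • D) = g' • Divisor.pullback F' D := by
  ext w
  rw [Divisor.pullback_apply, SemilinearAut.divisor_smul_apply,
    SemilinearAut.divisor_smul_apply, Divisor.pullback_apply, restrict_smul h.inv,
    ramificationIndex_smul h.inv]

theorem pushforward_smul {g : SemilinearAut K F}
    {g' : SemilinearAut K F'} (h : Intw g g') (D : Divisor K F') :
    Divisor.pushforward F (g' • D) = g • Divisor.pushforward F D := by
  induction D using Finsupp.induction_linear with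
  | zero => simp
  | add D E hD hE => rw [smul_add, map_add, map_add, smul_add, hD, hE]
  | single w n =>
    rw [SemilinearAut.smul_single, Divisor.pushforward_single, Divisor.pushforward_single,
      SemilinearAut.smul_single, restrict_smul h, inertiaDeg_smul h]

end Tower

section Along

variable {K F F' : Type*} [Field K] [Field F] [Field F'] [Algebra K F] [Algebra K F']

theorem pullbackAlong_smul [HasPrincipalDivisors K F'] (φ : F →ₐ[K] F')
    (hφ : φ.toRingHom.IsIntegral) {g : SemilinearAut K F} {g' : SemilinearAut K F'}
    (h : SemilinearAut.IntertwinesAlong (φ : F →+* F') g g') (D : Divisor K F) :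
    Divisor.pullbackAlong φ hφ (g • D) = g' • Divisor.pullbackAlong φ hφ D := by
  letI := algebraAlong φ
  haveI := isScalarTower_along φ
  haveI := isIntegral_along φ hφ
  exact pullback_smul (F := F) (F' := F') (g := g) (g' := g') h D

theorem pushforwardAlong_smul (φ : F →ₐ[K] F')
    (hφ : φ.toRingHom.IsIntegral) {g : SemilinearAut K F} {g' : SemilinearAut K F'}
    (h : SemilinearAut.IntertwinesAlong (φ : F →+* F') g g') (D : Divisor K F') :
    Divisor.pushforwardAlong φ hφ (g' • D) = g • Divisor.pushforwardAlong φ hφ D := by
  letI := algebraAlong φ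
  haveI := isScalarTower_along φ
  haveI := isIntegral_along φ hφ
  exact pushforward_smul (F := F) (F' := F') (g := g) (g' := g') h D

theorem divisor_correspondence_smul [HasPrincipalDivisors K F'] (φ ψ : F →ₐ[K] F')
    (hφ : φ.toRingHom.IsIntegral) (hψ : ψ.toRingHom.IsIntegral)
    {g : SemilinearAut K F} {g' : SemilinearAut K F'}
    (h : SemilinearAut.IntertwinesAlong (φ : F →+* F') g g')
    (h' : SemilinearAut.IntertwinesAlong (ψ : F →+* F') g g') (D : Divisor K F) :
    Divisor.correspondence φ ψ hφ hψ (g • D) = g • Divisor.correspondence φ ψ hφ hψ D := by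
  rw [Divisor.correspondence_apply, Divisor.correspondence_apply, pullbackAlong_smul φ hφ h,
    pushforwardAlong_smul ψ hψ h']

theorem pic0_correspondence_smul [HasPrincipalDivisors K F'] (φ ψ : F →ₐ[K] F')
    (hφ : φ.toRingHom.IsIntegral) (hψ : ψ.toRingHom.IsIntegral)
    (hFI : FundamentalIdentityAlong K φ hφ)
    (hfin : FiniteAlong K ψ) (hN : NormFormulaAlong K ψ hfin)
    {g : SemilinearAut K F} {g' : SemilinearAut K F'}
    (h : SemilinearAut.IntertwinesAlong (φ : F →+* F') g g')
    (h' : SemilinearAut.IntertwinesAlong (ψ : F →+* F') g g') (x : Pic0 K F) :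
    Pic0.correspondence φ ψ hφ hψ hFI hfin hN (g • x)
      = g • Pic0.correspondence φ ψ hφ hψ hFI hfin hN x := by
  obtain ⟨D, rfl⟩ := Pic0.mk_surjective x
  rw [SemilinearAut.pic0_smul_mk, Pic0.correspondence_mk, Pic0.correspondence_mk,
    SemilinearAut.pic0_smul_mk]
  refine congrArg Pic0.mk (Subtype.ext ?_)
  rw [Pic0.coe_degZeroCorrespondence, SemilinearAut.coe_degZeroSMulHom,
    SemilinearAut.coe_degZeroSMulHom, Pic0.coe_degZeroCorrespondence]
  exact divisor_correspondence_smul φ ψ hφ hψ h h' D

end Along

end H13W3G

end
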