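/-
helper13, item 80 (W3-G), slice FINLEV, abstract part.

* `H13W3G.exists_sep` : two distinct places of a function field are separated by a function;
* `H13W3G.finLevel_of_mem` : every element of `laurentBaseChange L F₀` (`L / ℚ` algebraic) is
  fixed by the coefficientwise action of an open subgroup of `Aut(L/ℚ)`;
* `H13W3G.place_finLev` : every place of `laurentBaseChange L F₀` has an open stabiliser;
* `H13W3G.divisor_finLev`, `H13W3G.pic0_finLev` : the same for divisors and classes.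
-/
import Mathlib
import Fermat.Prelude.Def_ModularCurve_ArithmeticGalois
import Fermat.Agent.S24.PlaceBasic

set_option autoImplicit false
set_option linter.style.haveILetI false
set_option linter.unusedSectionVars false
set_option linter.unusedVariables false

noncomputable section

open AlgebraicCurve ModularCurve IntermediateField

namespace H13W3G

section Sep

variable {K F : Type*} [Field K] [Field F] [Algebra K F]

theorem ord_neg' (v : Place K F) (f : F) : v.ord (-f) = v.ord f := by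
  rw [Place.ord, Place.ord, Valuation.map_neg]

/-- if `O_v ⊆ O_w` then `m_v ⊆ m_w` -/
theorem ord_pos_of_le {v w : Place K F}
    (hle : v.toValuationSubring ≤ w.toValuationSubring) {f : F} (hf : f ≠ 0)
    (hpos : 0 < v.ord f) : 0 < w.ord f := by
  have hmem : ∀ g : F, g ≠ 0 → 0 ≤ v.ord g → 0 ≤ w.ord g := fun g hg h =>
    (RH24.h20_mem_iff_ord_nonneg w hg).mp (hle ((RH24.h20_mem_iff_ord_nonneg v hg).mpr h))
  by_contra hcon
  have h0 : w.ord f = 0 := le_antisymm (not_lt.mp hcon) (hmem f hf hpos.le)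
  apply w.ne_top'
  refine SetLike.ext fun g => ⟨fun _ => ValuationSubring.mem_top g, fun _ => ?_⟩
  rcases eq_or_ne g 0 with rfl | hg
  · exact zero_mem _
  rw [RH24.h20_mem_iff_ord_nonneg w hg]
  set n : ℕ := (-(v.ord g)).toNat with hn
  have hfn : f ^ n ≠ 0 := pow_ne_zero _ hf
  have h1 : v.ord (g * f ^ n) = v.ord g + n * v.ord f := by
    rw [v.ord_mul hg hfn, ← zpow_natCast, v.ord_zpow]
  have h2 : w.ord (g * f ^ n) = w.ord g + n * w.ord f := by
    rw [w.ord_mul hg hfn, ← zpow_natCast, w.ord_zpow]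
  have h3 : 0 ≤ v.ord (g * f ^ n) := by
    rw [h1]
    have : (n : ℤ) ≤ n * v.ord f := by nlinarith [Int.natCast_nonneg n]
    have hn' : -(v.ord g) ≤ n := by rw [hn]; exact Int.self_le_toNat _
    omega
  have h4 := hmem _ (mul_ne_zero hg hfn) h3
  rw [h2, h0, mul_zero, add_zero] at h4
  exact h4

/-- there are no inclusions between distinct places -/
theorem eq_of_le {v w : Place K F}
    (hle : v.toValuationSubring ≤ w.toValuationSubring) : v = w := by
  apply Place.ext
  refine le_antisymm hle fun f hf => ?_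
  rcases eq_or_ne f 0 with rfl | hf0
  · exact zero_mem _
  rw [RH24.h20_mem_iff_ord_nonneg v hf0]
  by_contra hcon
  have h1 : 0 < v.ord f⁻¹ := by rw [v.ord_inv]; omega
  have h2 := ord_pos_of_le hle (inv_ne_zero hf0) h1
  rw [w.ord_inv] at h2
  have h3 := (RH24.h20_mem_iff_ord_nonneg w hf0).mp hf
  omega

theorem exists_ord_nonneg_neg {v w : Place K F} (hvw : v ≠ w) :
    ∃ a : F, a ≠ 0 ∧ 0 ≤ v.ord a ∧ w.ord a < 0 := by
  have h : ¬ v.toValuationSubring ≤ w.toValuationSubring := fun hle => hvw (eq_of_le hle)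
  rw [SetLike.not_le_iff_exists] at h
  obtain ⟨a, hav, haw⟩ := h
  have ha : a ≠ 0 := by
    rintro rfl
    exact haw (zero_mem _)
  refine ⟨a, ha, (RH24.h20_mem_iff_ord_nonneg v ha).mp hav, ?_⟩
  by_contra hcon
  exact haw ((RH24.h20_mem_iff_ord_nonneg w ha).mpr (not_lt.mp hcon))

/-- **Separation**: for distinct places `v ≠ w` there is `x` with `x ∈ m_v`, `x - 1 ∈ m_w`. -/
theorem exists_sep {v w : Place K F} (hvw : v ≠ w) :
    ∃ x : F, x ≠ 0 ∧ x - 1 ≠ 0 ∧ 0 < v.ord x ∧ 0 < w.ord (x - 1) := by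
  obtain ⟨a, ha, hav, haw⟩ := exists_ord_nonneg_neg hvw
  obtain ⟨b, hb, hbw, hbv⟩ := exists_ord_nonneg_neg (Ne.symm hvw)
  set c : F := a * b⁻¹ with hc
  have hc0 : c ≠ 0 := mul_ne_zero ha (inv_ne_zero hb)
  have hcv : 0 < v.ord c := by
    rw [hc, v.ord_mul ha (inv_ne_zero hb), v.ord_inv]; omega
  have hcw : w.ord c < 0 := by
    rw [hc, w.ord_mul ha (inv_ne_zero hb), w.ord_inv]; omega
  have h1v : v.ord (1 + c) = 0 := by
    rw [RH24.h20_ord_add_eq_of_lt v one_ne_zero hc0 (by rw [v.ord_one]; exact hcv), v.ord_one]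
  have h1w : w.ord (1 + c) = w.ord c := by
    rw [add_comm, RH24.h20_ord_add_eq_of_lt w hc0 one_ne_zero (by rw [w.ord_one]; exact hcw)]
  have h1c : 1 + c ≠ 0 := by
    intro h0
    rw [h0, w.ord_zero] at h1w
    omega
  have hx : c * (1 + c)⁻¹ - 1 = -(1 + c)⁻¹ := by
    field_simp
    ring
  refine ⟨c * (1 + c)⁻¹, mul_ne_zero hc0 (inv_ne_zero h1c), ?_, ?_, ?_⟩
  · rw [hx]
    exact neg_ne_zero.mpr (inv_ne_zero h1c)
  · rw [v.ord_mul hc0 (inv_ne_zero h1c), v.ord_inv, h1v]
    omega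
  · rw [hx, ord_neg', w.ord_inv, h1w]
    omega

end Sep

section Level

variable {L : Type*} [Field L] [Algebra ℚ L]

/-- `σ` fixes the intermediate field `E` pointwise. -/
def FixesField (E : IntermediateField ℚ L) (σ : L ≃ₐ[ℚ] L) : Prop :=
  ∀ y ∈ E, σ y = y

theorem FixesField.mono {E E' : IntermediateField ℚ L} (h : E ≤ E') {σ : L ≃ₐ[ℚ] L}
    (hσ : FixesField E' σ) : FixesField E σ := fun y hy => hσ y (h hy)

/-- A Laurent series is of finite level if it is fixed by an open subgroup. -/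
def SeriesFinLev (x : LaurentSeries L) : Prop :=
  ∃ E : IntermediateField ℚ L, FiniteDimensional ℚ E ∧
    ∀ σ : L ≃ₐ[ℚ] L, FixesField E σ → coeffMap (σ : L →+* L) x = x

theorem SeriesFinLev.binop {x y z : LaurentSeries L} (hx : SeriesFinLev x) (hy : SeriesFinLev y)
    (h : ∀ σ : L ≃ₐ[ℚ] L, coeffMap (σ : L →+* L) x = x → coeffMap (σ : L →+* L) y = y →
      coeffMap (σ : L →+* L) z = z) : SeriesFinLev z := by
  obtain ⟨E₁, hE₁, h₁⟩ := hx
  obtain ⟨E₂, hE₂, h₂⟩ := hy
  haveI := hE₁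
  haveI := hE₂
  exact ⟨E₁ ⊔ E₂, IntermediateField.finiteDimensional_sup E₁ E₂, fun σ hσ =>
    h σ (h₁ σ (hσ.mono le_sup_left)) (h₂ σ (hσ.mono le_sup_right))⟩

theorem SeriesFinLev.unop {x z : LaurentSeries L} (hx : SeriesFinLev x)
    (h : ∀ σ : L ≃ₐ[ℚ] L, coeffMap (σ : L →+* L) x = x → coeffMap (σ : L →+* L) z = z) :
    SeriesFinLev z := by
  obtain ⟨E₁, hE₁, h₁⟩ := hx
  exact ⟨E₁, hE₁, fun σ hσ => h σ (h₁ σ hσ)⟩

variable [Algebra.IsAlgebraic ℚ L] (F₀ : IntermediateField ℚ (LaurentSeries ℚ))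

theorem finLevel_of_mem {x : LaurentSeries L} (hx : x ∈ laurentBaseChange L F₀) :
    SeriesFinLev x := by
  rw [mem_laurentBaseChange_iff] at hx
  induction hx using Subfield.closure_induction with
  | mem y hy =>
      rcases hy with ⟨a, rfl⟩ | ⟨z, hz, rfl⟩
      · refine ⟨ℚ⟮a⟯, IntermediateField.adjoin.finiteDimensional
          (Algebra.IsIntegral.isIntegral a), fun σ hσ => ?_⟩
        rw [coeffMap_algebraMap]
        exact congrArg _ (hσ a (IntermediateField.mem_adjoin_simple_self ℚ a))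
      · exact ⟨⊥, inferInstance, fun σ _ => coeffMap_coeffEmb σ z⟩
  | one => exact ⟨⊥, inferInstance, fun σ _ => map_one _⟩
  | add x y _ _ hx hy =>
      exact hx.binop hy fun σ h1 h2 => by rw [map_add, h1, h2]
  | neg x _ hx => exact hx.unop fun σ h1 => by rw [map_neg, h1]
  | inv x _ hx => exact hx.unop fun σ h1 => by rw [map_inv₀, h1]
  | mul x y _ _ hx hy =>
      exact hx.binop hy fun σ h1 h2 => by rw [map_mul, h1, h2]

/-- Every element of the base-changed function field is fixed by an open subgroup. -/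
theorem elt_finLev (x : laurentBaseChange L F₀) :
    ∃ E : IntermediateField ℚ L, FiniteDimensional ℚ E ∧
      ∀ σ : L ≃ₐ[ℚ] L, FixesField E σ → arithmeticGalois F₀ σ • x = x := by
  obtain ⟨E, hE, h⟩ := finLevel_of_mem F₀ x.2
  refine ⟨E, hE, fun σ hσ => Subtype.ext ?_⟩
  rw [coe_arithmeticGalois_smul]
  exact h σ hσ

variable [HasPrincipalDivisors L (laurentBaseChange L F₀)]

/-- no `σ` of high enough level moves `P` to `Q ≠ P` -/
theorem place_finLev_aux (P Q : Place L (laurentBaseChange L F₀)) :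
    ∃ E : IntermediateField ℚ L, FiniteDimensional ℚ E ∧
      ∀ σ : L ≃ₐ[ℚ] L, FixesField E σ → arithmeticGalois F₀ σ • P = Q → Q = P := by
  by_cases hPQ : Q = P
  · exact ⟨⊥, inferInstance, fun _ _ _ => hPQ⟩
  obtain ⟨x, hx0, hx1, hxP, hxQ⟩ := exists_sep (v := P) (w := Q) (Ne.symm hPQ)
  obtain ⟨E, hE, hEx⟩ := elt_finLev F₀ x
  refine ⟨E, hE, fun σ hσ hσP => ?_⟩
  exfalso
  have h1 := SemilinearAut.ord_smul (arithmeticGalois F₀ σ) P x
  rw [hEx σ hσ, hσP] at h1
  -- `ord_Q x > 0` and `ord_Q (x - 1) > 0`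
  have h2 := RH24.h20_ord_add Q hx0 (neg_ne_zero.mpr hx1) (by
    rw [show x + -(x - 1) = 1 by ring]; exact one_ne_zero)
  rw [show x + -(x - 1) = 1 by ring, Q.ord_one, ord_neg'] at h2
  have := lt_min (h1 ▸ hxP) hxQ
  omega

/-- **Every place has an open stabiliser.** -/
theorem place_finLev (P : Place L (laurentBaseChange L F₀)) :
    ∃ E : IntermediateField ℚ L, FiniteDimensional ℚ E ∧
      ∀ σ : L ≃ₐ[ℚ] L, FixesField E σ → arithmeticGalois F₀ σ • P = P := by
  classical
  -- a function vanishing at `P`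
  obtain ⟨π, hπ⟩ := IsDiscreteValuationRing.exists_irreducible P.toValuationSubring
  have hπ0 : (π : laurentBaseChange L F₀) ≠ 0 := by
    simpa [ne_eq, ZeroMemClass.coe_eq_zero] using hπ.ne_zero
  have hπP : P.ord (π : laurentBaseChange L F₀) = 1 := P.ord_coe_irreducible hπ
  obtain ⟨D, hD, -⟩ := HasPrincipalDivisors.exists_divisor (K := L)
    (π : laurentBaseChange L F₀) hπ0
  obtain ⟨E₀, hE₀, hE₀π⟩ := elt_finLev F₀ (π : laurentBaseChange L F₀)
  choose E hE hEQ using place_finLev_aux F₀ P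
  haveI := hE₀
  haveI : ∀ Q, FiniteDimensional ℚ (E Q) := hE
  refine ⟨E₀ ⊔ ⨆ Q ∈ D.support, E Q, IntermediateField.finiteDimensional_sup _ _,
    fun σ hσ => ?_⟩
  set Q := arithmeticGalois F₀ σ • P with hQ
  have h1 := SemilinearAut.ord_smul (arithmeticGalois F₀ σ) P (π : laurentBaseChange L F₀)
  rw [hE₀π σ (hσ.mono le_sup_left), ← hQ, hπP] at h1
  have hQD : Q ∈ D.support := by
    rw [Finsupp.mem_support_iff, hD Q, h1]
    exact one_ne_zero
  have hle : E Q ≤ E₀ ⊔ ⨆ Q ∈ D.support, E Q :=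
    le_sup_of_le_right (le_iSup₂_of_le Q hQD le_rfl)
  exact hEQ Q σ (hσ.mono hle) hQ.symm

/-- Every divisor has an open stabiliser. -/
theorem divisor_finLev (D : Divisor L (laurentBaseChange L F₀)) :
    ∃ E : IntermediateField ℚ L, FiniteDimensional ℚ E ∧
      ∀ σ : L ≃ₐ[ℚ] L, FixesField E σ → arithmeticGalois F₀ σ • D = D := by
  induction D using Finsupp.induction_linear with
  | zero => exact ⟨⊥, inferInstance, fun σ _ => smul_zero _⟩
  | add D D' hD hD' =>
    obtain ⟨E₁, hE₁, h₁⟩ := hD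
    obtain ⟨E₂, hE₂, h₂⟩ := hD'
    haveI := hE₁
    haveI := hE₂
    exact ⟨E₁ ⊔ E₂, IntermediateField.finiteDimensional_sup E₁ E₂, fun σ hσ => by
      rw [smul_add, h₁ σ (hσ.mono le_sup_left), h₂ σ (hσ.mono le_sup_right)]⟩
  | single P n =>
    obtain ⟨E, hE, h⟩ := place_finLev F₀ P
    exact ⟨E, hE, fun σ hσ => by rw [SemilinearAut.smul_single, h σ hσ]⟩

/-- **FINLEV** (general form): every class in `Pic0` has an open stabiliser. -/
theorem pic0_finLev (x : Pic0 L (laurentBaseChange L F₀)) :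
    ∃ E : IntermediateField ℚ L, FiniteDimensional ℚ E ∧
      ∀ σ : L ≃ₐ[ℚ] L, (∀ y ∈ E, σ y = y) → σ • x = x := by
  obtain ⟨D, rfl⟩ := Pic0.mk_surjective x
  obtain ⟨E, hE, h⟩ := divisor_finLev F₀ (D : Divisor L (laurentBaseChange L F₀))
  refine ⟨E, hE, fun σ hσ => ?_⟩
  rw [galois_smul_pic0_def, SemilinearAut.pic0_smul_mk]
  exact congrArg Pic0.mk (Subtype.ext (h σ hσ))

end Level

end H13W3G

end
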