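/-
helper13, item 80 (W3-G), slices COMM and FINLEV in the exact shape of `W3G/Defs.lean`:

* `H13W3G.commStatement N : H11W3G.CommStatement N`
* `H13W3G.finLevStatement N : H11W3G.FinLevStatement N`

Both are unconditional.
-/
import Mathlib
import Fermat.Agent.W3G.Defs
import Fermat.Agent.W3G.Comm_helper13
import Fermat.Agent.W3G.FinLevAbs_helper13
import Fermat.Agent.FF.PrincipalDivisors
import Fermat.Agent.S24.BDegreeFinal

set_option autoImplicit false
set_option linter.style.haveILetI false
set_option linter.unusedSectionVars false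
set_option linter.unusedVariables false

noncomputable section

open AlgebraicCurve ModularCurve IntermediateField

namespace H13W3G

variable (N : ℕ) [NeZero N]

theorem isAlgebraic_bar : Algebra.IsAlgebraic ℚ (AlgebraicClosure ℚ) :=
  AlgebraicClosure.isAlgebraic ℚ

/-- `ℚ̄ · F_N` has principal divisors. -/
theorem hasPrincipalDivisors_bar :
    HasPrincipalDivisors (AlgebraicClosure ℚ) (modularFunctionFieldBar N) := by
  haveI : FiniteDimensional (AlgebraicClosure ℚ)⟮RH24.Jbar N⟯ (modularFunctionFieldBar N) :=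
    (RH24.B_degree N).1
  exact H27FF.h27ff_hasPrincipalDivisors (RH24.Jbar N) (RH24.B_transcendental N)

/-- **COMM** -/
theorem commStatement : H11W3G.CommStatement N := fun ℓ hℓ _ σ x =>
  smul_heckeOperatorBar N ⟨ℓ, hℓ⟩ σ x

/-- **FINLEV** -/
theorem finLevStatement : H11W3G.FinLevStatement N := fun x => by
  haveI := hasPrincipalDivisors_bar N
  haveI := isAlgebraic_bar
  exact pic0_finLev (L := AlgebraicClosure ℚ) (modularFunctionFieldFull N) x

/-- every place of `ℚ̄ · F_N` has an open stabiliser -/
theorem place_finLev_bar (P : Place (AlgebraicClosure ℚ) (modularFunctionFieldBar N)) :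
    ∃ E : IntermediateField ℚ (AlgebraicClosure ℚ), FiniteDimensional ℚ E ∧
      ∀ σ : AlgebraicClosure ℚ ≃ₐ[ℚ] AlgebraicClosure ℚ, (∀ y ∈ E, σ y = y) →
        arithmeticGalois (modularFunctionFieldFull N) σ • P = P := by
  haveI := hasPrincipalDivisors_bar N
  haveI := isAlgebraic_bar
  exact place_finLev (L := AlgebraicClosure ℚ) (modularFunctionFieldFull N) P

/-- every element of `ℚ̄ · F_N` is fixed by an open subgroup -/
theorem elt_finLev_bar (f : modularFunctionFieldBar N) :
    ∃ E : IntermediateField ℚ (AlgebraicClosure ℚ), FiniteDimensional ℚ E ∧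
      ∀ σ : AlgebraicClosure ℚ ≃ₐ[ℚ] AlgebraicClosure ℚ, (∀ y ∈ E, σ y = y) →
        arithmeticGalois (modularFunctionFieldFull N) σ • f = f := by
  haveI := isAlgebraic_bar
  exact elt_finLev (L := AlgebraicClosure ℚ) (modularFunctionFieldFull N) f

/-- finitely many points of `J₀(N)(ℚ̄)` have a common open stabiliser -/
theorem finLev_finset (s : Finset (JZero N)) :
    ∃ E : IntermediateField ℚ (AlgebraicClosure ℚ), FiniteDimensional ℚ E ∧
      ∀ σ : AlgebraicClosure ℚ ≃ₐ[ℚ] AlgebraicClosure ℚ, (∀ y ∈ E, σ y = y) →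
        ∀ x ∈ s, σ • x = x := by
  classical
  choose E hE hEx using finLevStatement N
  haveI : ∀ x, FiniteDimensional ℚ (E x) := hE
  refine ⟨⨆ x ∈ s, E x, inferInstance, fun σ hσ x hx => ?_⟩
  have hle : E x ≤ ⨆ x ∈ s, E x := le_iSup₂_of_le x hx le_rfl
  exact hEx x σ fun y hy => hσ y (hle hy)

end H13W3G

end
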