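import Fermat.Agent.W3G.EigenModAbs_helper11
import Fermat.Agent.W3G.EigenModGen_helper11
import Fermat.Agent.W3G.DefsGeom
import Fermat.Agent.W3G.EIGH_helper1
import Fermat.Agent.W3G.FinLev_helper13

/-!
# W3-G: `EigenModStatement N` from `KumStatement N` + ES (helper11)

`h11em_eigenMod : KumStatement N → ESInertiaStatement N → ESFrobeniusStatement N →
  EigenModStatement N`
(uses EIGH = `H1EIGH.eigh` (helper1), COMM + FINLEV (helper13), all unconditional).
-/

set_option autoImplicit false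
set_option linter.style.haveILetI false
set_option linter.unusedSectionVars false

noncomputable section

open ModularCurve CongruenceSubgroup AlgebraicCurve

namespace H11W3G

local notation "Qb" => AlgebraicClosure ℚ

variable (N : ℕ) [NeZero N]

/-- `J₀(N)[n]` -/
abbrev h11em_Tors (n : ℕ) : AddSubgroup (JZero N) :=
  Pic0.torsion Qb (modularFunctionFieldBar N) n

theorem h11em_mem_tors {n : ℕ} {x : JZero N} : x ∈ h11em_Tors N n ↔ n • x = 0 := by
  rw [Pic0.mem_torsion, natCast_zsmul]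

/-- `T_ℓ` on `J₀(N)[n]` -/
def h11em_TP (n : ℕ) (ℓ : Nat.Primes) : Module.End (ZMod n) (h11em_Tors N n) :=
  AddMonoidHom.toZModLinearMap n
    (AddMonoidHom.codRestrict
      (((heckeOperatorBar N ℓ).toAddMonoidHom).comp (h11em_Tors N n).subtype) (h11em_Tors N n)
      (fun x => H13W3G.heckeOperatorBar_mem_torsion N ℓ x.2))

theorem h11em_TP_coe (n : ℕ) (ℓ : Nat.Primes) (x : h11em_Tors N n) :
    ((h11em_TP N n ℓ x : h11em_Tors N n) : JZero N) = heckeOperatorBar N ℓ (x : JZero N) := rfl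

/-- the `ℤ/n`-module structure on the characters mod `n` -/
abbrev h11em_HpeModule (n : ℕ) : Module (ZMod n) (Hpe N (ZMod n)) :=
  AddCommGroup.zmodModule fun χ => by
    apply Subtype.ext
    apply AddMonoidHom.ext
    intro γ
    show (n • (χ : Additive (Gamma0 N) →+ ZMod n)) γ = 0
    rw [AddMonoidHom.smul_apply, nsmul_eq_mul, ZMod.natCast_self, zero_mul]

/-- evaluation of characters -/
def h11em_ev (n : ℕ) :
    letI := h11em_HpeModule N n
    Hpe N (ZMod n) →ₗ[ZMod n] (Gamma0 N → ZMod n) :=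
  letI := h11em_HpeModule N n
  AddMonoidHom.toZModLinearMap n
    { toFun := fun χ γ => (χ : Additive (Gamma0 N) →+ ZMod n) (Additive.ofMul γ)
      map_zero' := rfl
      map_add' := fun _ _ => rfl }

theorem h11em_ev_apply (n : ℕ) (χ : Hpe N (ZMod n)) (γ : Gamma0 N) :
    letI := h11em_HpeModule N n
    h11em_ev N n χ γ = (χ : Additive (Gamma0 N) →+ ZMod n) (Additive.ofMul γ) := rfl

theorem h11em_ev_injective (n : ℕ) :
    letI := h11em_HpeModule N n
    Function.Injective (h11em_ev N n) := by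
  letI := h11em_HpeModule N n
  intro χ χ' h
  apply Subtype.ext
  apply AddMonoidHom.ext
  intro γ
  exact congrFun h (Additive.toMul γ)

/-- the Kummer map into `J₀(N)[n]` -/
def h11em_kumP (n : ℕ) (kum : Hpe N (ZMod n) →+ JZero N) :
    letI := h11em_HpeModule N n
    Hpe N (ZMod n) →ₗ[ZMod n] h11em_Tors N n :=
  letI := h11em_HpeModule N n
  AddMonoidHom.toZModLinearMap n
    (AddMonoidHom.codRestrict kum (h11em_Tors N n) (fun χ => by
      rw [h11em_mem_tors, ← map_nsmul]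
      have : n • χ = 0 := by
        apply Subtype.ext
        apply AddMonoidHom.ext
        intro γ
        show (n • (χ : Additive (Gamma0 N) →+ ZMod n)) γ = 0
        rw [AddMonoidHom.smul_apply, nsmul_eq_mul, ZMod.natCast_self, zero_mul]
      rw [this, map_zero]))

theorem h11em_kumP_coe (n : ℕ) (kum : Hpe N (ZMod n) →+ JZero N) (χ : Hpe N (ZMod n)) :
    letI := h11em_HpeModule N n
    ((h11em_kumP N n kum χ : h11em_Tors N n) : JZero N) = kum χ := rfl


/-- **EIGEN mod p** from the Kummer comparison maps and Eichler–Shimura. -/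
theorem h11em_eigenMod (hKum : KumStatement N) (hI : ESInertiaStatement N)
    (hFr : ESFrobeniusStatement N) : EigenModStatement N := by
  classical
  intro p hp g hg K _ _ ψ
  haveI : Fact p.Prime := ⟨hp⟩
  letI : Algebra (ZMod p) K := ZMod.algebra K p
  letI := h11em_HpeModule N p
  obtain ⟨kum, hinj, hhecke⟩ := hKum
  obtain ⟨φ, ⟨γ₀, hγ₀⟩, hpar, hell, heig⟩ := H1EIGH.eigh N p hp g hg K ψ
  obtain ⟨s, e, χ₀, hdec, hvan⟩ :=
    h11em_decompose (H22.groupFG_Gamma0 (N := N)) (F := ZMod p) φ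
  -- the characters
  let χ : Fin s → Hpe N (ZMod p) := fun j =>
    ⟨χ₀ j, fun γ hγ => hvan j _ (hpar γ hγ), fun γ hγ => hvan j _ (hell γ hγ)⟩
  -- the index type of the Hecke operators
  let ι : Type := {ℓ : ℕ // ℓ.Prime ∧ ¬ ℓ ∣ N}
  letI hfact : ∀ i : ι, Fact i.1.Prime := fun i => ⟨i.2.1⟩
  let a : ι → Zbar := fun i =>
    ⟨ModularFormClass.qCoeff g i.1, H1EIGH.isIntegral_qCoeff hg i.2.1 i.2.2⟩
  have hinj' : Function.Injective (h11em_kumP N p (kum p)) := by
    intro χ₁ χ₂ h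
    exact hinj p hp.pos (congrArg Subtype.val h)
  have hne : ∃ γ : Gamma0 N, ∑ j, e j * algebraMap (ZMod p) K (h11em_ev N p (χ j) γ) ≠ 0 := by
    refine ⟨Additive.toMul γ₀, ?_⟩
    have h1 := hdec γ₀
    rw [hγ₀] at h1
    intro h0
    have h2 : (∑ j, e j * algebraMap (ZMod p) K (h11em_ev N p (χ j) (Additive.toMul γ₀)))
        = ∑ j, e j * algebraMap (ZMod p) K (χ₀ j γ₀) := rfl
    rw [h2, ← h1] at h0
    exact one_ne_zero h0
  have hfin : ∀ x : h11em_Tors N p,
      (Set.range fun σ : GQ => JZero.torsionGaloisRep N p σ x).Finite := by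
    intro x
    obtain ⟨E, hE, hEx⟩ := H13W3G.finLevStatement N (x : JZero N)
    haveI := hE
    have h1 := h11em_orbit_finite_of_finLev (x : JZero N) E hEx
    refine Set.Finite.subset (h1.preimage (Subtype.val_injective.injOn)) ?_
    rintro _ ⟨σ, rfl⟩
    exact ⟨σ, rfl⟩
  have hcomm : ∀ (i : ι) (σ : GQ),
      h11em_TP N p ⟨i.1, i.2.1⟩ * JZero.torsionGaloisRep N p σ
        = JZero.torsionGaloisRep N p σ * h11em_TP N p ⟨i.1, i.2.1⟩ := by
    intro i σ
    ext x
    exact H13W3G.heckeOperatorBar_smul N ⟨i.1, i.2.1⟩ σ (x : JZero N)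
  have hH : ∀ (i : ι) (χ₁ : Hpe N (ZMod p)), ∃ χ' : Hpe N (ZMod p),
      (∀ γ : Gamma0 N, h11em_ev N p χ' γ
        = ∑ k : OnePoint (ZMod i.1), h11em_ev N p χ₁ (H21S16.transT i.2.2 γ k)) ∧
      h11em_kumP N p (kum p) χ' = h11em_TP N p ⟨i.1, i.2.1⟩ (h11em_kumP N p (kum p) χ₁) := by
    intro i χ₁
    obtain ⟨χ', h1, h2⟩ := hhecke p hp.pos i.1 i.2.1 i.2.2 χ₁
    exact ⟨χ', fun γ => h1 γ, Subtype.ext h2⟩
  have heig' : ∀ (i : ι) (γ : Gamma0 N),
      ∑ k : OnePoint (ZMod i.1), (∑ j, e j * algebraMap (ZMod p) K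
          (h11em_ev N p (χ j) (H21S16.transT i.2.2 γ k)))
        = ψ (a i) * ∑ j, e j * algebraMap (ZMod p) K (h11em_ev N p (χ j) γ) := by
    intro i γ
    have h1 := heig i.1 i.2.2 (a i) rfl γ
    rw [hdec (Additive.ofMul γ)] at h1
    refine (Finset.sum_congr rfl fun k _ => ?_).trans h1
    exact (hdec _).symm
  obtain ⟨V, iV1, iV2, iV3, iV4, ρ, h_a, h_b⟩ :=
    h11em_abstract (F := ZMod p) (K := K) (JZero.torsionGaloisRep N p)
      (h11em_kumP N p (kum p)) hinj' (h11em_ev N p) (h11em_ev_injective N p) e χ hne hfin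
      (ι := ι) (fun i => h11em_TP N p ⟨i.1, i.2.1⟩) hcomm
      (fun i => OnePoint (ZMod i.1)) (fun i γ k => H21S16.transT i.2.2 γ k) hH
      (fun i => ψ (a i)) heig'
  -- a criterion for `ρ σ = 1`
  have htriv : ∀ σ : GQ, (∀ (τ : GQ) (j : Fin s), σ • τ • kum p (χ j) = τ • kum p (χ j)) →
      ρ σ = 1 := fun σ h => h_a σ fun τ j => Subtype.ext (h τ j)
  have htors : ∀ (τ : GQ) (j : Fin s), p • (τ • kum p (χ j)) = 0 := fun τ j =>
    (h11em_mem_tors N).mp (JZero.torsionGaloisRep N p τ (h11em_kumP N p (kum p) (χ j))).2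
  refine ⟨V, iV1, iV2, iV3, iV4, ρ, ?_, ?_, ?_⟩
  · -- finite level
    obtain ⟨E, hE, hEx⟩ := H13W3G.finLev_finset N (Finset.univ.image fun j => kum p (χ j))
    haveI := hE
    refine ⟨IntermediateField.normalClosure ℚ E Qb, inferInstance, fun σ hσ => ?_⟩
    refine htriv σ fun τ j => ?_
    have h1 := hEx (τ⁻¹ * σ * τ) (h11em_conj_fix E σ τ hσ) (kum p (χ j))
      (Finset.mem_image_of_mem _ (Finset.mem_univ j))
    rw [mul_smul, mul_smul] at h1
    calc σ • τ • kum p (χ j) = τ • (τ⁻¹ • σ • τ • kum p (χ j)) := by rw [smul_inv_smul]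
      _ = τ • kum p (χ j) := by rw [h1]
  · -- unramified outside `N p`
    intro q hq hqNp A hA σ hσ
    refine htriv σ fun τ j => ?_
    exact hI p q hq (fun h => hqNp (dvd_mul_of_dvd_left h p))
      (fun h => hqNp (dvd_mul_of_dvd_right h N)) A hA σ hσ _ (htors τ j)
  · -- Frobenius
    intro ℓ hℓ hℓN hℓp A hA σ hσ
    refine ⟨a ⟨ℓ, hℓ, hℓN⟩, rfl, ?_⟩
    have hℓp' : ¬ ℓ ∣ p := fun h => hℓp ((Nat.prime_dvd_prime_iff_eq hℓ hp).mp h)
    have h1 := h_b σ ⟨ℓ, hℓ, hℓN⟩ (ℓ : ZMod p) (fun x => by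
      apply Subtype.ext
      have h2 := hFr p ℓ hℓ hℓN hℓp' A hA σ hσ (x : JZero N) ((h11em_mem_tors N).mp x.2)
      have h3 : (((ℓ : ZMod p) • x : h11em_Tors N p) : JZero N) = ℓ • (x : JZero N) := by
        rw [Nat.cast_smul_eq_nsmul (ZMod p) ℓ x]
        rfl
      rw [AddSubgroup.coe_add, AddSubgroup.coe_sub, h3]
      exact h2)
    rwa [map_natCast] at h1

end H11W3G

end
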