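import Fermat.Agent.W3G.ExtA_helper11
import Fermat.Agent.W3G.CHEB_helper29

/-!
# W3-G, slice EXT-A (helper11): unconditional statements
-/

set_option autoImplicit false

namespace H11W3G

/-- **EXT-A mod p**, unconditional. -/
theorem h11xa_extAMod : ExtAModStatement := h11xa_mod H29CHEB.h29cheb_chebStatement

/-- **EXT-A p-adic**, unconditional. -/
theorem h11xa_extAAdic : ExtAAdicStatement := h11xa_adic H29CHEB.h29cheb_chebStatement

end H11W3G
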