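/-
helper13, item 80 (W3-G), slice EIGH-0, part 1: the transfer cocycle of `T_ℓ`.

* `H13E0.transT_mul`  : `transT (γ₁ γ₂) x = transT γ₁ x * transT γ₂ (γ₁ · x)`;
* `H13E0.sum_eq_zero_of_orbit_sums` : a sum over a finite set vanishes if the sums over the
  orbits of a permutation vanish;
* `H13E0.heckeTHom`   : `T_ℓ` on `Hom(Γ₀(N), A)` (any abelian group `A`),
  `(T_ℓ φ)(γ) = ∑_x φ (transT γ x)`;
* `H13E0.heckeTHom_parabolic`, `H13E0.heckeTHom_finOrder` : `T_ℓ φ` vanishes on parabolic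
  (`trace² = 4`), resp. finite-order, elements if `φ` does (by cycles of `γ` on `P¹(𝔽_ℓ)`:
  `transT (γ^r) x` is conjugate to `γ^r` if `γ^r x = x`).
-/
import Mathlib
import Fermat.Agent.S16.H21ADefs

set_option autoImplicit false
set_option linter.style.haveILetI false
set_option linter.unusedSectionVars false
set_option linter.unusedVariables false
set_option linter.style.longLine false

noncomputable section

open UpperHalfPlane ModularForm MatrixGroups CongruenceSubgroup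
open ModularCurve H21S16 Matrix.SpecialLinearGroup
open P2MW.S_ModularForm_heckeU_slash_eq_self_of_mem_Gamma0.ModularForm.HeckeSlashInvariance

namespace H13E0

section Orbit

/-- a sum over a finite set vanishes if the sums over the orbits of a permutation vanish -/
theorem sum_eq_zero_of_orbit_sums {X : Type*} [Fintype X] {A : Type*} [AddCommMonoid A]
    (p : Equiv.Perm X) (f : X → A)
    (h : ∀ x : X, ∀ r : ℕ, 0 < r → (p ^ r) x = x →
      ∑ i ∈ Finset.range r, f ((p ^ i) x) = 0) :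
    ∑ x, f x = 0 := by
  classical
  refine Finset.sum_cancels_of_partition_cancels (Equiv.Perm.SameCycle.setoid p) fun x _ => ?_
  set r := Function.minimalPeriod p x with hr
  have hper : x ∈ Function.periodicPts p := by
    refine Function.mk_mem_periodicPts (orderOf_pos p) ?_
    show (⇑p)^[orderOf p] x = x
    rw [Equiv.Perm.iterate_eq_pow, pow_orderOf_eq_one]
    rfl
  have hr0 : 0 < r := Function.minimalPeriod_pos_of_mem_periodicPts hper
  have hrx : (p ^ r) x = x := by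
    rw [← Equiv.Perm.iterate_eq_pow]
    exact Function.iterate_minimalPeriod
  have hset : (Finset.univ.filter fun a => (Equiv.Perm.SameCycle.setoid p).r a x)
      = (Finset.range r).image fun i => (p ^ i) x := by
    ext a
    simp only [Finset.mem_filter, Finset.mem_univ, true_and, Finset.mem_image, Finset.mem_range]
    constructor
    · intro ha
      have ha' : Equiv.Perm.SameCycle p x a := Equiv.Perm.SameCycle.symm ha
      obtain ⟨i, hi⟩ := ha'.exists_nat_pow_eq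
      refine ⟨i % r, Nat.mod_lt _ hr0, ?_⟩
      rw [← hi, ← Equiv.Perm.iterate_eq_pow, ← Equiv.Perm.iterate_eq_pow]
      exact Function.iterate_mod_minimalPeriod_eq
    · rintro ⟨i, -, rfl⟩
      exact Equiv.Perm.SameCycle.symm ⟨(i : ℤ), by rw [zpow_natCast]⟩
  rw [hset, Finset.sum_image]
  · exact h x r hr0 hrx
  · intro i hi j hj hij
    rw [Finset.mem_coe, Finset.mem_range] at hi hj
    have hij' : (p ^ i) x = (p ^ j) x := hij
    rw [← Equiv.Perm.iterate_eq_pow, ← Equiv.Perm.iterate_eq_pow] at hij'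
    exact (Function.iterate_eq_iterate_iff_of_lt_minimalPeriod hi hj).mp hij'

end Orbit

section Cocycle

variable {N : ℕ} {ℓ : ℕ} [Fact ℓ.Prime]

theorem redMatrix_mul (g₁ g₂ : SL(2, ℤ)) :
    redMatrix ℓ (g₁ * g₂) = redMatrix ℓ g₂ * redMatrix ℓ g₁ := by
  apply Units.ext
  ext i j
  fin_cases i <;> fin_cases j <;>
    simp [redMatrix, Matrix.mul_apply, Fin.sum_univ_two] <;> ring

theorem redMatrix_one : redMatrix ℓ (1 : SL(2, ℤ)) = 1 := by
  apply Units.ext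
  ext i j
  fin_cases i <;> fin_cases j <;> simp [redMatrix]

theorem redMatrix_pow (g : SL(2, ℤ)) (r : ℕ) : redMatrix ℓ (g ^ r) = redMatrix ℓ g ^ r := by
  induction r with
  | zero => rw [pow_zero, pow_zero, redMatrix_one]
  | succ r ih => rw [pow_succ', redMatrix_mul, ih, pow_succ]

/-- the permutation of `P¹(𝔽_ℓ)` attached to `γ` -/
def permOf (ℓ : ℕ) [Fact ℓ.Prime] (γ : SL(2, ℤ)) : Equiv.Perm (OnePoint (ZMod ℓ)) :=
  MulAction.toPerm (redMatrix ℓ γ)

theorem permOf_apply (γ : SL(2, ℤ)) (x : OnePoint (ZMod ℓ)) :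
    permOf ℓ γ x = redMatrix ℓ γ • x := rfl

theorem permOf_pow (γ : SL(2, ℤ)) (r : ℕ) : permOf ℓ γ ^ r = permOf ℓ (γ ^ r) := by
  unfold permOf
  rw [redMatrix_pow]
  exact (map_pow (MulAction.toPermHom (GL (Fin 2) (ZMod ℓ)) (OnePoint (ZMod ℓ)))
    (redMatrix ℓ γ) r).symm

/-- **the transfer cocycle** -/
theorem transT_mul (hℓN : ¬ ℓ ∣ N) (γ₁ γ₂ : Gamma0 N) (x : OnePoint (ZMod ℓ)) :
    transT hℓN (γ₁ * γ₂) x
      = transT hℓN γ₁ x * transT hℓN γ₂ (redMatrix ℓ (γ₁ : SL(2, ℤ)) • x) := by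
  apply Subtype.ext
  apply Matrix.SpecialLinearGroup.mapGL_injective (R := ℤ) (S := ℝ)
  have h12 := transT_spec hℓN (γ₁ * γ₂) x
  have h1 := transT_spec hℓN γ₁ x
  have h2 := transT_spec hℓN γ₂ (redMatrix ℓ (γ₁ : SL(2, ℤ)) • x)
  have e : redMatrix ℓ ((γ₁ * γ₂ : Gamma0 N) : SL(2, ℤ)) • x
      = redMatrix ℓ (γ₂ : SL(2, ℤ)) • redMatrix ℓ (γ₁ : SL(2, ℤ)) • x := by
    rw [Subgroup.coe_mul, redMatrix_mul, mul_smul]
  rw [e] at h12
  have h3 : heckeRep ℓ x * mapGL ℝ ((γ₁ * γ₂ : Gamma0 N) : SL(2, ℤ))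
      = mapGL ℝ ((transT hℓN γ₁ x : Gamma0 N) : SL(2, ℤ))
        * mapGL ℝ ((transT hℓN γ₂ (redMatrix ℓ (γ₁ : SL(2, ℤ)) • x) : Gamma0 N) : SL(2, ℤ))
        * heckeRep ℓ (redMatrix ℓ (γ₂ : SL(2, ℤ)) • redMatrix ℓ (γ₁ : SL(2, ℤ)) • x) := by
    rw [Subgroup.coe_mul, map_mul, ← mul_assoc, h1, mul_assoc, h2, mul_assoc]
  rw [h12] at h3
  have h4 := mul_right_cancel h3
  rw [h4, Subgroup.coe_mul, map_mul]

theorem transT_one (hℓN : ¬ ℓ ∣ N) (x : OnePoint (ZMod ℓ)) :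
    transT hℓN (1 : Gamma0 N) x = 1 := by
  have h := transT_mul hℓN (1 : Gamma0 N) 1 x
  rw [one_mul, Subgroup.coe_one, redMatrix_one, one_smul] at h
  exact (mul_eq_left.mp h.symm)

end Cocycle

section Trace

/-- Cayley–Hamilton for `2 × 2` matrices of determinant `1` -/
theorem sq_eq_of_det_one (A : Matrix (Fin 2) (Fin 2) ℤ) (hA : A.det = 1) :
    A * A = A.trace • A - 1 := by
  rw [Matrix.det_fin_two] at hA
  ext i j
  fin_cases i <;> fin_cases j <;>
    simp [Matrix.mul_apply, Fin.sum_univ_two, Matrix.trace_fin_two, Matrix.smul_apply,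
      -zsmul_eq_mul] <;> nlinarith [hA]

theorem trace_pow_rec (A : Matrix (Fin 2) (Fin 2) ℤ) (hA : A.det = 1) (r : ℕ) :
    (A ^ (r + 2)).trace = A.trace * (A ^ (r + 1)).trace - (A ^ r).trace := by
  have h : A ^ (r + 2) = A.trace • A ^ (r + 1) - A ^ r := by
    rw [pow_add, pow_two, sq_eq_of_det_one A hA, mul_sub, mul_one, Matrix.mul_smul, pow_succ]
  rw [h, Matrix.trace_sub, Matrix.trace_smul, smul_eq_mul]

theorem trace_pow_sq (A : Matrix (Fin 2) (Fin 2) ℤ) (hA : A.det = 1) (ht : A.trace ^ 2 = 4)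
    (r : ℕ) : (A ^ r).trace ^ 2 = 4 := by
  have key : ∀ r : ℕ, (A ^ (r + 1)).trace * 2 = A.trace * (A ^ r).trace ∧ (A ^ r).trace ^ 2 = 4 := by
    intro r
    induction r with
    | zero =>
      refine ⟨?_, ?_⟩
      · simp [Matrix.trace_fin_two]
      · simp [Matrix.trace_fin_two]
    | succ r ih =>
      obtain ⟨h1, h2⟩ := ih
      have h3 : (A ^ (r + 1)).trace ^ 2 = 4 := by
        have : 4 * (A ^ (r + 1)).trace ^ 2 = 16 := by
          have e : (2 * (A ^ (r + 1)).trace) ^ 2 = (A.trace * (A ^ r).trace) ^ 2 := by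
            rw [← h1]; ring
          rw [mul_pow, mul_pow, ht, h2] at e
          linarith
        linarith
      refine ⟨?_, h3⟩
      rw [trace_pow_rec A hA r]
      have e : A.trace * (2 * (A ^ (r + 1)).trace) = A.trace * (A.trace * (A ^ r).trace) := by
        rw [← h1]; ring
      have e2 : A.trace * (A.trace * (A ^ r).trace) = 4 * (A ^ r).trace := by
        rw [← mul_assoc, ← pow_two, ht]
      linarith
  exact (key r).2

end Trace

section Pow

variable {N : ℕ} {ℓ : ℕ} [Fact ℓ.Prime] {A : Type*} [AddCommGroup A]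

theorem transT_pow (hℓN : ¬ ℓ ∣ N) (φ : Additive (Gamma0 N) →+ A) (γ : Gamma0 N)
    (x : OnePoint (ZMod ℓ)) (r : ℕ) :
    φ (Additive.ofMul (transT hℓN (γ ^ r) x))
      = ∑ i ∈ Finset.range r,
          φ (Additive.ofMul (transT hℓN γ ((permOf ℓ (γ : SL(2, ℤ)) ^ i) x))) := by
  induction r with
  | zero =>
    rw [pow_zero, transT_one, Finset.sum_range_zero]
    exact map_zero φ
  | succ r ih =>
    rw [Finset.sum_range_succ, ← ih, pow_succ, transT_mul, ofMul_mul, map_add]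
    congr 3
    rw [permOf_pow, permOf_apply, Subgroup.coe_pow]

theorem transT_conj (hℓN : ¬ ℓ ∣ N) (γ : Gamma0 N) (x : OnePoint (ZMod ℓ))
    (hx : redMatrix ℓ (γ : SL(2, ℤ)) • x = x) :
    mapGL ℝ ((transT hℓN γ x : Gamma0 N) : SL(2, ℤ))
      = heckeRep ℓ x * mapGL ℝ (γ : SL(2, ℤ)) * (heckeRep ℓ x)⁻¹ := by
  have h := transT_spec hℓN γ x
  rw [hx] at h
  rw [h, mul_inv_cancel_right]

theorem trace_transT (hℓN : ¬ ℓ ∣ N) (γ : Gamma0 N) (x : OnePoint (ZMod ℓ))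
    (hx : redMatrix ℓ (γ : SL(2, ℤ)) • x = x) :
    (((transT hℓN γ x : Gamma0 N) : SL(2, ℤ)) : Matrix (Fin 2) (Fin 2) ℤ).trace
      = ((γ : SL(2, ℤ)) : Matrix (Fin 2) (Fin 2) ℤ).trace := by
  have h := transT_conj hℓN γ x hx
  have h2 := congrArg (fun g : GL (Fin 2) ℝ => (g : Matrix (Fin 2) (Fin 2) ℝ).trace) h
  simp only [Units.val_mul] at h2
  rw [Matrix.coe_units_inv, ← Matrix.coe_units_inv, Matrix.trace_units_conj] at h2
  rw [mapGL_coe_matrix, mapGL_coe_matrix] at h2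
  simp only [Matrix.trace_fin_two, Matrix.SpecialLinearGroup.map_apply_coe,
    RingHom.mapMatrix_apply, Matrix.map_apply, eq_intCast] at h2
  simp only [Matrix.trace_fin_two]
  exact_mod_cast h2

theorem isOfFinOrder_transT (hℓN : ¬ ℓ ∣ N) (γ : Gamma0 N) (x : OnePoint (ZMod ℓ))
    (hx : redMatrix ℓ (γ : SL(2, ℤ)) • x = x) (hγ : IsOfFinOrder γ) :
    IsOfFinOrder (transT hℓN γ x) := by
  obtain ⟨m, hm, hγm⟩ := isOfFinOrder_iff_pow_eq_one.mp hγ
  refine isOfFinOrder_iff_pow_eq_one.mpr ⟨m, hm, ?_⟩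
  apply Subtype.ext
  apply Matrix.SpecialLinearGroup.mapGL_injective (R := ℤ) (S := ℝ)
  rw [Subgroup.coe_pow, map_pow, transT_conj hℓN γ x hx, conj_pow, ← map_pow, ← Subgroup.coe_pow,
    hγm, Subgroup.coe_one, map_one, mul_one, mul_inv_cancel]

end Pow

section Hom

variable {N : ℕ} {ℓ : ℕ} [Fact ℓ.Prime] {A : Type*} [AddCommGroup A]

/-- `T_ℓ` on `Hom(Γ₀(N), A)`: `(T_ℓ φ)(γ) = ∑_x φ (transT γ x)` -/
def heckeTHom (hℓN : ¬ ℓ ∣ N) (φ : Additive (Gamma0 N) →+ A) : Additive (Gamma0 N) →+ A where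
  toFun γ := ∑ x : OnePoint (ZMod ℓ), φ (Additive.ofMul (transT hℓN (Additive.toMul γ) x))
  map_zero' := by
    refine Finset.sum_eq_zero fun x _ => ?_
    rw [toMul_zero, transT_one]
    exact map_zero φ
  map_add' γ₁ γ₂ := by
    rw [toMul_add]
    simp only [transT_mul, ofMul_mul, map_add]
    rw [Finset.sum_add_distrib]
    congr 1
    exact Equiv.sum_comp (permOf ℓ ((Additive.toMul γ₁ : Gamma0 N) : SL(2, ℤ)))
      (fun y => φ (Additive.ofMul (transT hℓN (Additive.toMul γ₂) y)))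

theorem heckeTHom_apply (hℓN : ¬ ℓ ∣ N) (φ : Additive (Gamma0 N) →+ A) (γ : Gamma0 N) :
    heckeTHom hℓN φ (Additive.ofMul γ)
      = H21S16.heckeTFun hℓN (fun γ' : Gamma0 N => φ (Additive.ofMul γ')) γ := rfl

theorem heckeTHom_add (hℓN : ¬ ℓ ∣ N) (φ ψ : Additive (Gamma0 N) →+ A) :
    heckeTHom hℓN (φ + ψ) = heckeTHom hℓN φ + heckeTHom hℓN ψ := by
  ext γ
  show ∑ x : OnePoint (ZMod ℓ), (φ + ψ) _ = (∑ x : OnePoint (ZMod ℓ), φ _) + ∑ x : OnePoint (ZMod ℓ), ψ _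
  simp only [AddMonoidHom.add_apply]
  rw [Finset.sum_add_distrib]

theorem heckeTHom_zero (hℓN : ¬ ℓ ∣ N) :
    heckeTHom hℓN (0 : Additive (Gamma0 N) →+ A) = 0 := by
  ext γ
  show ∑ x : OnePoint (ZMod ℓ), (0 : Additive (Gamma0 N) →+ A) _ = 0
  simp

/-- `T_ℓ` as an additive endomorphism of `Hom(Γ₀(N), A)` -/
def heckeTAdd (hℓN : ¬ ℓ ∣ N) : (Additive (Gamma0 N) →+ A) →+ (Additive (Gamma0 N) →+ A) where
  toFun := heckeTHom hℓN
  map_zero' := heckeTHom_zero hℓN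
  map_add' := heckeTHom_add hℓN

theorem heckeTAdd_apply (hℓN : ¬ ℓ ∣ N) (φ : Additive (Gamma0 N) →+ A) :
    heckeTAdd hℓN φ = heckeTHom hℓN φ := rfl

end Hom

section Preserve

variable {N : ℕ} {ℓ : ℕ} [Fact ℓ.Prime] {A : Type*} [AddCommGroup A]

/-- `T_ℓ` preserves the vanishing on parabolic elements -/
theorem heckeTHom_parabolic (hℓN : ¬ ℓ ∣ N) (φ : Additive (Gamma0 N) →+ A)
    (hφ : ModularCurve.Period.IsParabolicHom (Gamma0 N) φ) :
    ModularCurve.Period.IsParabolicHom (Gamma0 N) (heckeTHom hℓN φ) := by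
  intro γ hγ
  show ∑ x : OnePoint (ZMod ℓ), φ (Additive.ofMul (transT hℓN γ x)) = 0
  refine sum_eq_zero_of_orbit_sums (permOf ℓ (γ : SL(2, ℤ)))
    (fun x => φ (Additive.ofMul (transT hℓN γ x))) ?_
  intro x r hr hrx
  rw [← transT_pow hℓN φ γ x r]
  apply hφ
  have hx : redMatrix ℓ ((γ ^ r : Gamma0 N) : SL(2, ℤ)) • x = x := by
    rw [Subgroup.coe_pow, ← permOf_apply, ← permOf_pow]
    exact hrx
  rw [trace_transT hℓN (γ ^ r) x hx, Subgroup.coe_pow, Matrix.SpecialLinearGroup.coe_pow]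
  exact trace_pow_sq _ (γ : SL(2, ℤ)).2 hγ r

/-- `T_ℓ` preserves the vanishing on elements of finite order -/
theorem heckeTHom_finOrder (hℓN : ¬ ℓ ∣ N) (φ : Additive (Gamma0 N) →+ A)
    (hφ : ∀ γ : Gamma0 N, IsOfFinOrder γ → φ (Additive.ofMul γ) = 0)
    (γ : Gamma0 N) (hγ : IsOfFinOrder γ) :
    heckeTHom hℓN φ (Additive.ofMul γ) = 0 := by
  show ∑ x : OnePoint (ZMod ℓ), φ (Additive.ofMul (transT hℓN γ x)) = 0
  refine sum_eq_zero_of_orbit_sums (permOf ℓ (γ : SL(2, ℤ)))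
    (fun x => φ (Additive.ofMul (transT hℓN γ x))) ?_
  intro x r hr hrx
  rw [← transT_pow hℓN φ γ x r]
  apply hφ
  have hx : redMatrix ℓ ((γ ^ r : Gamma0 N) : SL(2, ℤ)) • x = x := by
    rw [Subgroup.coe_pow, ← permOf_apply, ← permOf_pow]
    exact hrx
  exact isOfFinOrder_transT hℓN (γ ^ r) x hx hγ.pow

end Preserve

end H13E0

end
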