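/-
helper13, item 80 (W3-G), slice EIGH-0: the Hecke operator `T_ℓ` (`ℓ ∤ N`) on
`Hom_par(Γ₀(N), ℤ)` and on `Hpe N A`.

* `H13E0.heckeL hℓN : Lpar N →ₗ[ℤ] Lpar N`, `H13E0.isHeckeL_heckeL : IsHeckeL hℓN (heckeL hℓN)`;
* `H13E0.heckeLStatement N : H11W3G.HeckeLStatement N`;
* `H13E0.heckeHpe hℓN : Hpe N A →+ Hpe N A` (any abelian group `A`), `H13E0.heckeHpe_apply`;
* `H13E0.hpe_hecke` : the `∃ χ' : Hpe N A, ∀ γ, χ' γ = heckeTFun hℓN χ γ` form.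
-/
import Fermat.Agent.W3G.EIGH0Abs_helper13
import Fermat.Agent.W3G.DefsGeom

set_option autoImplicit false
set_option linter.style.haveILetI false
set_option linter.unusedSectionVars false
set_option linter.unusedVariables false
set_option linter.style.longLine false

noncomputable section

open UpperHalfPlane ModularForm MatrixGroups CongruenceSubgroup
open ModularCurve H21S16 Matrix.SpecialLinearGroup

namespace H13E0

section Statement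

variable {N : ℕ} {ℓ : ℕ} [Fact ℓ.Prime]

/-- `T_ℓ` on the lattice `Hom_par(Γ₀(N), ℤ)` -/
def heckeL (hℓN : ¬ ℓ ∣ N) : H11W3G.Lpar N →ₗ[ℤ] H11W3G.Lpar N :=
  ((heckeTAdd (A := ℤ) hℓN).toIntLinearMap).restrict
    (fun φ hφ => heckeTHom_parabolic hℓN φ hφ)

theorem heckeL_coe (hℓN : ¬ ℓ ∣ N) (φ : H11W3G.Lpar N) :
    (heckeL hℓN φ : Additive (Gamma0 N) →+ ℤ)
      = heckeTHom hℓN (φ : Additive (Gamma0 N) →+ ℤ) := rfl

theorem isHeckeL_heckeL (hℓN : ¬ ℓ ∣ N) : H11W3G.IsHeckeL hℓN (heckeL hℓN) :=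
  fun _ _ => rfl

/-- **EIGH-0**: `T_ℓ` (`ℓ ∤ N`) preserves `Hom_par(Γ₀(N), ℤ)`. -/
theorem heckeLStatement (N : ℕ) : H11W3G.HeckeLStatement N :=
  fun _ _ hℓN => ⟨heckeL hℓN, isHeckeL_heckeL hℓN⟩

variable {A : Type*} [AddCommGroup A]

theorem heckeTHom_mem_Hpe (hℓN : ¬ ℓ ∣ N) (φ : Additive (Gamma0 N) →+ A)
    (hφ : φ ∈ H11W3G.Hpe N A) : heckeTHom hℓN φ ∈ H11W3G.Hpe N A :=
  ⟨heckeTHom_parabolic hℓN φ hφ.1, heckeTHom_finOrder hℓN φ hφ.2⟩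

/-- `T_ℓ` on `Hpe N A` -/
def heckeHpe (hℓN : ¬ ℓ ∣ N) : H11W3G.Hpe N A →+ H11W3G.Hpe N A where
  toFun χ := ⟨heckeTHom hℓN (χ : Additive (Gamma0 N) →+ A), heckeTHom_mem_Hpe hℓN _ χ.2⟩
  map_zero' := Subtype.ext (heckeTHom_zero hℓN)
  map_add' χ ψ := Subtype.ext (heckeTHom_add hℓN _ _)

theorem heckeHpe_apply (hℓN : ¬ ℓ ∣ N) (χ : H11W3G.Hpe N A) (γ : Gamma0 N) :
    (heckeHpe hℓN χ : Additive (Gamma0 N) →+ A) (Additive.ofMul γ)
      = H21S16.heckeTFun hℓN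
          (fun γ' : Gamma0 N => (χ : Additive (Gamma0 N) →+ A) (Additive.ofMul γ')) γ := rfl

/-- **HpeHecke** (any coefficient group): the transfer preserves `Hpe N A`. -/
theorem hpe_hecke (hℓN : ¬ ℓ ∣ N) (χ : H11W3G.Hpe N A) :
    ∃ χ' : H11W3G.Hpe N A,
      ∀ γ : Gamma0 N, (χ' : Additive (Gamma0 N) →+ A) (Additive.ofMul γ) =
        H21S16.heckeTFun hℓN
          (fun γ' : Gamma0 N => (χ : Additive (Gamma0 N) →+ A) (Additive.ofMul γ')) γ :=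
  ⟨heckeHpe hℓN χ, heckeHpe_apply hℓN χ⟩

end Statement

end H13E0

end
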