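/-
helper13, item 80 (W3-G), slice HEQ, part 2 (TRANSFER): the multiplier of the product of the
Hecke translates.

If `G ∈ Mer` satisfies `G ∘ γ = κ(γ) · G` for all `γ ∈ Γ₀(N)`, then
`G' := ∏_{x ∈ P¹(𝔽_ℓ)} G ∘ heckeRep ℓ x` satisfies `G' ∘ γ = (∏_x κ (transT γ x)) · G'`
(multiplicative version of `H21S16.h22a_period_general`), and if `G^n = phi N f` then
`G'^n = phi N (Norm_α (β f))` (from `H13HEQ.norm_an`).
-/
import Mathlib
import Fermat.Agent.W3G.HEQNorm_helper13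

set_option autoImplicit false
set_option linter.style.haveILetI false
set_option linter.unusedSectionVars false
set_option linter.unusedVariables false
set_option linter.style.longLine false

noncomputable section

open UpperHalfPlane ModularForm MatrixGroups CongruenceSubgroup AlgebraicCurve IntermediateField
open ModularCurve RH24 H24D H21S16
open P2MW.S_ModularForm_heckeU_slash_eq_self_of_mem_Gamma0.ModularForm.HeckeSlashInvariance

namespace H13HEQ

section GLAct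

theorem precompGL_mul (g₁ g₂ : GL (Fin 2) ℝ) (h₁ : 0 < g₁.det.val) (h₂ : 0 < g₂.det.val)
    (h₁₂ : 0 < (g₁ * g₂).det.val) :
    precompGL (g₁ * g₂) h₁₂ = (precompGL g₂ h₂).comp (precompGL g₁ h₁) := by
  ext f z
  simp [mul_smul]

theorem precompMerGL_mul (g₁ g₂ : GL (Fin 2) ℝ) (h₁ : 0 < g₁.det.val) (h₂ : 0 < g₂.det.val)
    (h₁₂ : 0 < (g₁ * g₂).det.val) :
    precompMerGL (g₁ * g₂) h₁₂ = (precompMerGL g₂ h₂).comp (precompMerGL g₁ h₁) := by
  apply IsLocalization.ringHom_ext (nonZeroDivisors H24D.Hol)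
  ext f
  simp [precompGL_mul g₁ g₂ h₁ h₂ h₁₂]

theorem precompMerGL_congr {g₁ g₂ : GL (Fin 2) ℝ} (h : g₁ = g₂) (h₁ : 0 < g₁.det.val)
    (h₂ : 0 < g₂.det.val) : precompMerGL g₁ h₁ = precompMerGL g₂ h₂ := by
  subst h
  rfl

end GLAct

section Transfer

variable {N : ℕ} [NeZero N] {ℓ : ℕ} [Fact ℓ.Prime]

/-- the product of the `ℓ + 1` Hecke translates -/
def heckeProd (ℓ : ℕ) [NeZero ℓ] (G : Mer) : Mer := ∏ x : OnePoint (ZMod ℓ), preRep ℓ x G

theorem heckeProd_pow (ℓ : ℕ) [NeZero ℓ] (G : Mer) (n : ℕ) :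
    heckeProd ℓ G ^ n = heckeProd ℓ (G ^ n) := by
  unfold heckeProd
  rw [← Finset.prod_pow]
  exact Finset.prod_congr rfl fun x _ => (map_pow _ _ _).symm

theorem heckeProd_mul (ℓ : ℕ) [NeZero ℓ] (G H : Mer) :
    heckeProd ℓ (G * H) = heckeProd ℓ G * heckeProd ℓ H := by
  unfold heckeProd
  rw [← Finset.prod_mul_distrib]
  exact Finset.prod_congr rfl fun x _ => map_mul _ _ _

theorem heckeProd_one (ℓ : ℕ) [NeZero ℓ] : heckeProd ℓ (1 : Mer) = 1 := by
  unfold heckeProd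
  exact Finset.prod_eq_one fun x _ => map_one _

theorem heckeProd_constMer (ℓ : ℕ) [NeZero ℓ] (c : ℂ) :
    heckeProd ℓ (constMer c) = constMer (c ^ (ℓ + 1)) := by
  unfold heckeProd
  have h1 : ∀ x : OnePoint (ZMod ℓ), preRep ℓ x (constMer c) = constMer c := fun x =>
    precompMerGL_constMer (heckeRep ℓ x) (det_heckeRep_pos ℓ x) c
  rw [Finset.prod_congr rfl fun x _ => h1 x, Finset.prod_const, map_pow]
  congr 1
  show Fintype.card (Option (ZMod ℓ)) = _
  rw [Fintype.card_option, ZMod.card]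

/-- one translate: `(G ∘ M_x) ∘ γ = (G ∘ γ_x) ∘ M_{x'}` -/
theorem precompMer_preRep (hℓN : ¬ ℓ ∣ N) (γ : Gamma0 N) (x : OnePoint (ZMod ℓ)) (G : Mer) :
    haveI : NeZero ℓ := ⟨(Fact.out : ℓ.Prime).ne_zero⟩
    precompMer (γ : SL(2, ℤ)) (preRep ℓ x G)
      = preRep ℓ (redMatrix ℓ (γ : SL(2, ℤ)) • x)
          (precompMer ((transT hℓN γ x : Gamma0 N) : SL(2, ℤ)) G) := by
  haveI : NeZero ℓ := ⟨(Fact.out : ℓ.Prime).ne_zero⟩
  have hspec := transT_spec hℓN γ x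
  have hpos1 : 0 < (heckeRep ℓ x * Matrix.SpecialLinearGroup.mapGL ℝ (γ : SL(2, ℤ))).det.val := by
    rw [map_mul]
    exact mul_pos (det_heckeRep_pos ℓ x) (det_mapGL_pos _)
  have hpos2 : 0 < (Matrix.SpecialLinearGroup.mapGL ℝ ((transT hℓN γ x : Gamma0 N) : SL(2, ℤ))
      * heckeRep ℓ (redMatrix ℓ (γ : SL(2, ℤ)) • x)).det.val := by
    rw [map_mul]
    exact mul_pos (det_mapGL_pos _) (det_heckeRep_pos ℓ _)
  have e1 : precompMer (γ : SL(2, ℤ)) (preRep ℓ x G)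
      = precompMerGL _ hpos1 G := by
    rw [precompMerGL_mul _ _ (det_heckeRep_pos ℓ x) (det_mapGL_pos _) hpos1]
    rfl
  have e2 : preRep ℓ (redMatrix ℓ (γ : SL(2, ℤ)) • x)
      (precompMer ((transT hℓN γ x : Gamma0 N) : SL(2, ℤ)) G) = precompMerGL _ hpos2 G := by
    rw [precompMerGL_mul _ _ (det_mapGL_pos _) (det_heckeRep_pos ℓ _) hpos2]
    rfl
  rw [e1, e2, precompMerGL_congr hspec hpos1 hpos2]

/-- **TRANSFER**: the multiplier of the product of the Hecke translates. -/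
theorem heckeProd_multiplier (hℓN : ¬ ℓ ∣ N) (G : Mer) (κ : Gamma0 N → ℂ)
    (hκ : ∀ γ : Gamma0 N, precompMer (γ : SL(2, ℤ)) G = constMer (κ γ) * G) (γ : Gamma0 N) :
    haveI : NeZero ℓ := ⟨(Fact.out : ℓ.Prime).ne_zero⟩
    precompMer (γ : SL(2, ℤ)) (heckeProd ℓ G)
      = constMer (∏ x : OnePoint (ZMod ℓ), κ (transT hℓN γ x)) * heckeProd ℓ G := by
  haveI : NeZero ℓ := ⟨(Fact.out : ℓ.Prime).ne_zero⟩
  unfold heckeProd
  rw [map_prod, map_prod]
  have h1 : ∀ x : OnePoint (ZMod ℓ), precompMer (γ : SL(2, ℤ)) (preRep ℓ x G)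
      = constMer (κ (transT hℓN γ x)) * preRep ℓ (redMatrix ℓ (γ : SL(2, ℤ)) • x) G := by
    intro x
    rw [precompMer_preRep hℓN γ x G, hκ, map_mul]
    congr 1
    exact precompMerGL_constMer _ _ _
  rw [Finset.prod_congr rfl fun x _ => h1 x, Finset.prod_mul_distrib]
  congr 1
  exact Equiv.prod_comp (MulAction.toPerm (redMatrix ℓ (γ : SL(2, ℤ))))
    (fun x => preRep ℓ x G)

/-- the `n`-th power of the product of the Hecke translates of an `n`-th root of `phi N f` is the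
realisation of `Norm_α (β f)` -/
theorem heckeProd_pow_eq (hℓN : ¬ ℓ ∣ N) (G : Mer) (n : ℕ) (f : modularFunctionFieldBar N)
    (hG : G ^ n = phi N f) :
    haveI : NeZero ℓ := ⟨(Fact.out : ℓ.Prime).ne_zero⟩
    heckeProd ℓ G ^ n = phi N (H8S37.h8r_normBeta N ℓ f) := by
  haveI : NeZero ℓ := ⟨(Fact.out : ℓ.Prime).ne_zero⟩
  rw [heckeProd_pow, hG, norm_an N ℓ Fact.out hℓN f]
  rfl

end Transfer

end H13HEQ

end
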