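/-
helper13, item 80 (W3-G), slice HEQ, part 3 (CORE): the Kummer datum of `T_ℓ x`.

A *Kummer datum* of `x ∈ J₀(N)(ℚ̄)` for `n` is `(D, f, G, κ)` with `x = [D]`, `n D = div f`,
`G ∈ Mer`, `G^n = phi N f`, `G ∘ γ = κ(γ) G` (`γ ∈ Γ₀(N)`).  Then
`([T_ℓ D], Norm_α (β f), ∏_x G ∘ heckeRep ℓ x, γ ↦ ∏_x κ (transT γ x))` is a Kummer datum of
`T_ℓ x` (`ℓ` prime, `ℓ ∤ N`).  This is the statement `κ_n (T_ℓ x) = T_ℓ (κ_n x)` for every
definition of `κ_n` through Kummer data.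
-/
import Mathlib
import Fermat.Agent.W3G.HEQTransfer_helper13
import Fermat.Agent.S37.CongAsm_helper8
import Fermat.Agent.FF.R0Final

set_option autoImplicit false
set_option linter.style.haveILetI false
set_option linter.unusedSectionVars false
set_option linter.unusedVariables false
set_option linter.style.longLine false

noncomputable section

open UpperHalfPlane ModularForm MatrixGroups CongruenceSubgroup AlgebraicCurve IntermediateField
open ModularCurve RH24 H24D H21S16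
open P2MW.S_ModularForm_heckeU_slash_eq_self_of_mem_Gamma0.ModularForm.HeckeSlashInvariance

namespace H13HEQ

variable {N : ℕ} [NeZero N]

/-- A Kummer datum of `x ∈ J₀(N)(ℚ̄)` for the exponent `n`. -/
structure KummerDatum (N : ℕ) [NeZero N] (n : ℕ) (x : JZero N) where
  /-- a divisor of degree `0` representing `x` -/
  D : Divisor.degZero (K := AlgebraicClosure ℚ) (F := modularFunctionFieldBar N)
  /-- a function with divisor `n D` -/
  f : modularFunctionFieldBar N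
  /-- an `n`-th root of the realisation of `f` -/
  G : Mer
  /-- the multiplier of `G` -/
  κ : Gamma0 N → ℂ
  mk_D : Pic0.mk D = x
  f_ne : f ≠ 0
  ord_f : ∀ P : Place (AlgebraicClosure ℚ) (modularFunctionFieldBar N),
    P.ord f = n * (D : Divisor (AlgebraicClosure ℚ) (modularFunctionFieldBar N)) P
  G_pow : G ^ n = phi N f
  G_smul : ∀ γ : Gamma0 N, precompMer (γ : SL(2, ℤ)) G = constMer (κ γ) * G

/-- the multiplicative Hecke operator `T_ℓ` on functions `Γ₀(N) → ℂ` -/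
def heckeTMul {ℓ : ℕ} [Fact ℓ.Prime] (hℓN : ¬ ℓ ∣ N) (κ : Gamma0 N → ℂ) : Gamma0 N → ℂ :=
  fun γ => ∏ x : OnePoint (ZMod ℓ), κ (transT hℓN γ x)

set_option synthInstance.maxHeartbeats 400000 in
set_option maxHeartbeats 1600000 in
theorem normBeta_ne_zero {ℓ : ℕ} [NeZero ℓ] (hℓ : ℓ.Prime) (hℓN : ¬ ℓ ∣ N)
    {f : modularFunctionFieldBar N} (hf : f ≠ 0) : H8S37.h8r_normBeta N ℓ f ≠ 0 := by
  letI iA : Algebra (modularFunctionFieldBar N) (modularFunctionFieldBar (N * ℓ)) :=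
    algebraAlong (heckeAlphaBar Kbar N ℓ)
  haveI hfd : FiniteDimensional (modularFunctionFieldBar N) (modularFunctionFieldBar (N * ℓ)) :=
    H13R3.finiteDimensional_along_alpha N ℓ hℓ hℓN
  have hβf : heckeBetaBar Kbar N ℓ f ≠ 0 := fun h => hf ((map_eq_zero _).mp h)
  exact Algebra.norm_ne_zero_iff.mpr hβf

/-- **HEQ, core**: the Hecke transform of a Kummer datum. -/
def KummerDatum.hecke {n : ℕ} {x : JZero N} (k : KummerDatum N n x) (ℓ : ℕ) [Fact ℓ.Prime]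
    (hℓN : ¬ ℓ ∣ N) :
    KummerDatum N n (heckeOperatorBar N ⟨ℓ, Fact.out⟩ x) := by
  haveI : NeZero ℓ := ⟨(Fact.out : ℓ.Prime).ne_zero⟩
  have hR0 : HeckeInputsAlong (AlgebraicClosure ℚ) N ℓ := H27FF.h27ff_heckeInputsAlong N ℓ
  let hα := hR0.fst
  let hβ := hR0.snd.fst
  haveI hP := hR0.snd.snd.fst
  let hfin := hR0.snd.snd.snd.fst
  let hFI := hR0.snd.snd.snd.snd.1
  let hNF := hR0.snd.snd.snd.snd.2
  exact
  { D := Pic0.degZeroCorrespondence (heckeBetaBar (AlgebraicClosure ℚ) N ℓ)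
      (heckeAlphaBar (AlgebraicClosure ℚ) N ℓ) hβ hα hFI k.D
    f := H8S37.h8r_normBeta N ℓ k.f
    G := heckeProd ℓ k.G
    κ := heckeTMul hℓN k.κ
    mk_D := by
      have e := heckeOperatorAlong_eq hα hβ hFI hfin hNF
      have h1 : heckeOperatorBar N ⟨ℓ, Fact.out⟩ (Pic0.mk k.D)
          = Pic0.mk (Pic0.degZeroCorrespondence (heckeBetaBar (AlgebraicClosure ℚ) N ℓ)
              (heckeAlphaBar (AlgebraicClosure ℚ) N ℓ) hβ hα hFI k.D) := by
        show (heckeOperatorAlong (AlgebraicClosure ℚ) N ℓ) (Pic0.mk k.D) = _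
        rw [e]
        rfl
      rw [← h1, k.mk_D]
    f_ne := normBeta_ne_zero Fact.out hℓN k.f_ne
    ord_f := fun P => by
      have hD : ∀ v : Place (AlgebraicClosure ℚ) (modularFunctionFieldBar N),
          (n • (k.D : Divisor (AlgebraicClosure ℚ) (modularFunctionFieldBar N))) v
            = v.ord k.f := fun v => by
        rw [Finsupp.smul_apply, nsmul_eq_mul, k.ord_f v]
      have h1 := H8S37.h8a_hecke_div hα hβ hfin hNF k.f k.f_ne _ hD P
      rw [← h1, map_nsmul, Finsupp.smul_apply, nsmul_eq_mul]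
      rfl
    G_pow := heckeProd_pow_eq hℓN k.G n k.f k.G_pow
    G_smul := fun γ => heckeProd_multiplier hℓN k.G k.κ k.G_smul γ }

@[simp] theorem KummerDatum.hecke_κ {n : ℕ} {x : JZero N} (k : KummerDatum N n x) (ℓ : ℕ)
    [Fact ℓ.Prime] (hℓN : ¬ ℓ ∣ N) : (k.hecke ℓ hℓN).κ = heckeTMul hℓN k.κ := rfl

@[simp] theorem KummerDatum.hecke_G {n : ℕ} {x : JZero N} (k : KummerDatum N n x) (ℓ : ℕ)
    [Fact ℓ.Prime] (hℓN : ¬ ℓ ∣ N) :
    (k.hecke ℓ hℓN).G = (haveI : NeZero ℓ := ⟨(Fact.out : ℓ.Prime).ne_zero⟩; heckeProd ℓ k.G) :=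
  rfl

@[simp] theorem KummerDatum.hecke_f {n : ℕ} {x : JZero N} (k : KummerDatum N n x) (ℓ : ℕ)
    [Fact ℓ.Prime] (hℓN : ¬ ℓ ∣ N) :
    (k.hecke ℓ hℓN).f
      = (haveI : NeZero ℓ := ⟨(Fact.out : ℓ.Prime).ne_zero⟩; H8S37.h8r_normBeta N ℓ k.f) :=
  rfl

/-- **HEQ** (existential form): if `x` has a Kummer datum with multiplier `κ`, then `T_ℓ x` has a
Kummer datum with multiplier `γ ↦ ∏_x κ (transT γ x)`. -/
theorem heq_exists {n : ℕ} {x : JZero N} (ℓ : ℕ) [Fact ℓ.Prime] (hℓN : ¬ ℓ ∣ N)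
    (k : KummerDatum N n x) :
    ∃ k' : KummerDatum N n (heckeOperatorBar N ⟨ℓ, Fact.out⟩ x),
      ∀ γ : Gamma0 N, k'.κ γ = ∏ x : OnePoint (ZMod ℓ), k.κ (transT hℓN γ x) :=
  ⟨k.hecke ℓ hℓN, fun _ => rfl⟩

end H13HEQ

end
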