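import Fermat.Agent.RR.DictMain1
import Fermat.Agent.S24.A5Local
import Fermat.Prelude.Def_ModularCurve_ArithmeticGalois
import Fermat.Agent.W3G.AN3Defs_helper2

/-!
# Item 80 (W3G), slice KUM (helper8): Kummer uniformisation — INTERFACE (definitions only)

Abstract setting: a function field `F / K` with an analytic realisation `φ : F →+* Mer`
(`Mer = Frac Hol`, the field of quotients of holomorphic functions on `ℍ`, `H24D`), invariant
under a subgroup `Γ ⊆ SL(2, ℤ)`.

`IsKummerChar Γ φ n x χ`: the class `x ∈ Pic⁰(F)` has a representative `D` with `n D = div f`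
and there is `G ∈ Mer` with `Gⁿ = φ f` and `G ∘ γ = χ(γ) · G` for all `γ ∈ Γ`.
`χ` is then uniquely determined by `x` (`KUMAbs_helper8.lean`), multiplicative in `γ`, with values
in the `n`-th roots of unity, and additive in `x`: this is the Kummer map `κ_n`.

Concrete instances: `K = ℚ̄`, `F = modularFunctionFieldBar N`, `φ = H24D.phi N`, `Γ = Γ₀(N)`
(`IsKummerCharQ`).
-/

set_option autoImplicit false

noncomputable section

open UpperHalfPlane WithZero AlgebraicCurve CongruenceSubgroup ModularCurve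
open scoped MatrixGroups

namespace H8KUM

open H24D

variable {K F : Type*} [Field K] [Field F] [Algebra K F]

/-- The hypotheses on an analytic realisation `φ : F →+* Mer` of a function field `F / K`:
constants go to constants, `φ F` is `Γ`-invariant, and a function without zeros and poles is
constant. -/
structure IsRealisation (K : Type*) {F : Type*} [Field K] [Field F] [Algebra K F]
    (Γ : Subgroup SL(2, ℤ)) (φ : F →+* Mer) : Prop where
  const : ∀ c : K, ∃ c' : ℂ, φ (algebraMap K F c) = constMer c'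
  inv : ∀ γ ∈ Γ, ∀ h : F, precompMer γ (φ h) = φ h
  unit : ∀ u : F, u ≠ 0 → (∀ v : Place K F, v.ord u = 0) → ∃ c : K, u = algebraMap K F c

/-- **AN1 in `Mer`-form**: an element of `Mer` all of whose orders are divisible by `n` is an
`n`-th power in `Mer`. -/
def RootStatement (n : ℕ) : Prop :=
  ∀ W : Mer, W ≠ 0 → (∀ z₀ : ℍ, ∃ m : ℤ, merVal z₀ W = WithZero.exp ((n : ℤ) * m)) →
    ∃ G : Mer, G ^ n = W

/-- `χ` is a Kummer character of the divisor class `x` (see the header). -/
def IsKummerChar (Γ : Subgroup SL(2, ℤ)) (φ : F →+* Mer) (n : ℕ) (x : Pic0 K F)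
    (χ : Γ → ℂ) : Prop :=
  ∃ (D : Divisor.degZero (K := K) (F := F)) (f : F) (G : Mer), Pic0.mk D = x ∧ f ≠ 0 ∧
    (∀ v : Place K F, (n : ℤ) * (D : Divisor K F) v = v.ord f) ∧ G ^ n = φ f ∧
    ∀ γ : Γ, precompMer (γ : SL(2, ℤ)) G = constMer (χ γ) * G

/-- **INJ-core** (from AN3 form A + descent): a `Γ`-invariant `n`-th root in `Mer` of an element
of `φ F` lies in `φ F`. -/
def InvRootStatement (Γ : Subgroup SL(2, ℤ)) (φ : F →+* Mer) (n : ℕ) : Prop :=
  ∀ (G : Mer) (f : F), f ≠ 0 → G ^ n = φ f →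
    (∀ γ ∈ Γ, precompMer γ G = G) → ∃ h : F, G = φ h

/-- a character of `Γ` is trivial on the elements of trace `± 2` and on the elements of finite
order -/
def IsParEll {Γ : Subgroup SL(2, ℤ)} (χ : Γ → ℂ) : Prop :=
  ∀ γ : Γ, (((γ : SL(2, ℤ)) : Matrix (Fin 2) (Fin 2) ℤ).trace ^ 2 = 4 ∨ IsOfFinOrder γ) → χ γ = 1

/-! ## the concrete instance over `ℚ̄` -/

/-- `χ` is the Kummer character of `x ∈ J₀(N)(ℚ̄)` (for the exponent `n`). -/
def IsKummerCharQ (N : ℕ) [NeZero N] (n : ℕ) (x : JZero N) (χ : Gamma0 N → ℂ) : Prop :=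
  IsKummerChar (K := AlgebraicClosure ℚ) (Gamma0 N) (phi N) n x χ

/-- **KUM, existence**: every `n`-torsion class has a Kummer character. -/
def KumExistsStatement (N : ℕ) [NeZero N] (n : ℕ) : Prop :=
  ∀ x : JZero N, (n : ℤ) • x = 0 → ∃ χ : Gamma0 N → ℂ, IsKummerCharQ N n x χ

/-- **KUM, injectivity**: a class with trivial Kummer character is zero. -/
def KumInjStatement (N : ℕ) [NeZero N] (n : ℕ) : Prop :=
  ∀ x : JZero N, IsKummerCharQ N n x (fun _ => 1) → x = 0

/-- **KUM, surjectivity**: every character of `Γ₀(N)` with values in the `n`-th roots of unity,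
trivial on parabolic and on elliptic elements, is the Kummer character of an `n`-torsion class. -/
def KumSurjStatement (N : ℕ) [NeZero N] (n : ℕ) : Prop :=
  ∀ χ : Gamma0 N →* ℂˣ, (∀ γ, χ γ ^ n = 1) → IsParEll (fun γ => ((χ γ : ℂˣ) : ℂ)) →
    ∃ x : JZero N, (n : ℤ) • x = 0 ∧ IsKummerCharQ N n x (fun γ => ((χ γ : ℂˣ) : ℂ))

/-- **RIG + ORD** (the input of KUM-surj from the slices RIG + FC): a Kummer generator `G ∈ Mer`
(`Gⁿ ∈ ℂ(j_d : d ∣ N)`, multiplier `χ` trivial on parabolic and elliptic elements) can be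
corrected by an element `H ∈ ℂ(j_d : d ∣ N)` such that `(G H)ⁿ` is the realisation of a function
`f` over `ℚ̄` whose divisor is `n D`.
[ORD: the divisor of `Gⁿ` on `X₀(N)_ℂ` is divisible by `n` (all places are analytic; elliptic points
and cusps by `IsParEll`).  RIG: `n`-torsion classes over `ℂ` are defined over `ℚ̄`.] -/
def RigOrdStatement (N : ℕ) [NeZero N] (n : ℕ) : Prop :=
  ∀ (G : Mer) (χ : Gamma0 N → ℂ), G ≠ 0 → G ^ n ∈ H2AN3.KN N → IsParEll χ →
    (∀ γ : Gamma0 N, precompMer (γ : SL(2, ℤ)) G = constMer (χ γ) * G) →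
    ∃ (H : Mer) (f : modularFunctionFieldBar N)
      (D : Divisor.degZero (K := AlgebraicClosure ℚ) (F := modularFunctionFieldBar N)),
      H ∈ H2AN3.KN N ∧ H ≠ 0 ∧ f ≠ 0 ∧ (G * H) ^ n = phi N f ∧
      ∀ v : Place (AlgebraicClosure ℚ) (modularFunctionFieldBar N),
        (n : ℤ) * (D : Divisor (AlgebraicClosure ℚ) (modularFunctionFieldBar N)) v = v.ord f

end H8KUM

end
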