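/-
helper13, item 80 (W3-G), slice HEQ: the Kummer character is Hecke-equivariant, in the relational
form of helper8's KUM interface (`W3G/KUMDefs_helper8.lean`):

  `IsKummerCharQ N n x χ → IsKummerCharQ N n (T_ℓ x) (γ ↦ ∏_{x ∈ P¹(𝔽_ℓ)} χ (transT γ x))`

for every prime `ℓ ∤ N`.  Unconditional.
-/
import Mathlib
import Fermat.Agent.W3G.HEQCore_helper13
import Fermat.Agent.W3G.KUMDefs_helper8

set_option autoImplicit false
set_option linter.style.haveILetI false
set_option linter.unusedSectionVars false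
set_option linter.unusedVariables false
set_option linter.style.longLine false

noncomputable section

open UpperHalfPlane ModularForm MatrixGroups CongruenceSubgroup AlgebraicCurve IntermediateField
open ModularCurve RH24 H24D H21S16
open P2MW.S_ModularForm_heckeU_slash_eq_self_of_mem_Gamma0.ModularForm.HeckeSlashInvariance

namespace H13HEQ

variable {N : ℕ} [NeZero N]

/-- a Kummer datum gives a Kummer character -/
theorem KummerDatum.isKummerCharQ {n : ℕ} {x : JZero N} (k : KummerDatum N n x) :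
    H8KUM.IsKummerCharQ N n x k.κ :=
  ⟨k.D, k.f, k.G, k.mk_D, k.f_ne, fun v => (k.ord_f v).symm, k.G_pow, k.G_smul⟩

/-- a Kummer character comes from a Kummer datum -/
theorem exists_kummerDatum {n : ℕ} {x : JZero N} {χ : Gamma0 N → ℂ}
    (h : H8KUM.IsKummerCharQ N n x χ) : ∃ k : KummerDatum N n x, k.κ = χ := by
  obtain ⟨D, f, G, hD, hf, hord, hG, hχ⟩ := h
  exact ⟨⟨D, f, G, χ, hD, hf, fun v => (hord v).symm, hG, hχ⟩, rfl⟩

/-- **HEQ**: the Kummer character of `T_ℓ x` is the transfer `T_ℓ χ` of the Kummer character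
`χ` of `x` (multiplicatively: `(T_ℓ χ)(γ) = ∏_{x ∈ P¹(𝔽_ℓ)} χ (transT γ x)`). -/
theorem heq (n : ℕ) (ℓ : ℕ) [Fact ℓ.Prime] (hℓN : ¬ ℓ ∣ N) (x : JZero N) (χ : Gamma0 N → ℂ)
    (h : H8KUM.IsKummerCharQ N n x χ) :
    H8KUM.IsKummerCharQ N n (heckeOperatorBar N ⟨ℓ, Fact.out⟩ x)
      (fun γ => ∏ y : OnePoint (ZMod ℓ), χ (transT hℓN γ y)) := by
  obtain ⟨k, rfl⟩ := exists_kummerDatum h
  exact (k.hecke ℓ hℓN).isKummerCharQ

/-- **HEQ** with an explicit primality hypothesis. -/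
theorem heq' (n : ℕ) (ℓ : ℕ) (hℓ : ℓ.Prime) (hℓN : ¬ ℓ ∣ N) (x : JZero N) (χ : Gamma0 N → ℂ)
    (h : H8KUM.IsKummerCharQ N n x χ) :
    H8KUM.IsKummerCharQ N n (heckeOperatorBar N ⟨ℓ, hℓ⟩ x)
      (haveI : Fact ℓ.Prime := ⟨hℓ⟩
       fun γ => ∏ y : OnePoint (ZMod ℓ), χ (transT hℓN γ y)) := by
  haveI : Fact ℓ.Prime := ⟨hℓ⟩
  exact heq n ℓ hℓN x χ h

/-- **HEQ** for characters written exponentially: if `χ γ = exp (2πi φ(γ) / n)` with
`φ : Γ₀(N) → ℤ` (or any function to `ℂ` through `e`), then the transfer of `χ` is the exponential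
of the additive transfer `H21S16.heckeTFun` of `φ`. -/
theorem heq_exp (n : ℕ) (ℓ : ℕ) [Fact ℓ.Prime] (hℓN : ¬ ℓ ∣ N) (x : JZero N)
    {A : Type*} [AddCommMonoid A] (e : Multiplicative A →* ℂ) (φ : Gamma0 N → A)
    (h : H8KUM.IsKummerCharQ N n x (fun γ => e (Multiplicative.ofAdd (φ γ)))) :
    H8KUM.IsKummerCharQ N n (heckeOperatorBar N ⟨ℓ, Fact.out⟩ x)
      (fun γ => e (Multiplicative.ofAdd (heckeTFun hℓN φ γ))) := by
  have h1 := heq n ℓ hℓN x _ h
  have h2 : (fun γ => ∏ y : OnePoint (ZMod ℓ), e (Multiplicative.ofAdd (φ (transT hℓN γ y))))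
      = fun γ => e (Multiplicative.ofAdd (heckeTFun hℓN φ γ)) := by
    funext γ
    unfold heckeTFun
    rw [ofAdd_sum, map_prod]
  rw [← h2]
  exact h1

end H13HEQ

end
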