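import Fermat.Agent.W3G.KUMAbs_helper8
import Fermat.Agent.W3G.DefsGeom
import Fermat.Agent.W3G.HEQ_helper13

/-!
# Item 80 (W3G), slice KUM, part K-KUM (helper8): assembly of `H11W3G.KumStatement N`

`kum n χ` := THE class `x` with Kummer character `γ ↦ exp(2πi χ(γ)/n)`.
Inputs (as hypotheses): `IsRealisation` (K-UNIT), `InvRootStatement` (AN3-A + K-DESC),
`KumSurjStatement` (K-SURJ ⇐ RIGORD), `HpeHeckeStatement` (transfer preserves `Hpe`),
and HEQ (helper13, landed).
-/

set_option autoImplicit false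

noncomputable section

open UpperHalfPlane WithZero AlgebraicCurve CongruenceSubgroup ModularCurve
open scoped MatrixGroups

namespace H8KUM

open H24D H11W3G

/-- **HpeHecke**: the transfer (Hecke operator `T_ℓ`, `ℓ ∤ N`) preserves `Hpe N (ZMod n)`. -/
def HpeHeckeStatement (N : ℕ) : Prop :=
  ∀ (n : ℕ), 0 < n → ∀ (ℓ : ℕ) [Fact ℓ.Prime] (hℓN : ¬ ℓ ∣ N) (χ : Hpe N (ZMod n)),
    ∃ χ' : Hpe N (ZMod n),
      ∀ γ : Gamma0 N, (χ' : Additive (Gamma0 N) →+ ZMod n) (Additive.ofMul γ) =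
        H21S16.heckeTFun hℓN
          (fun γ' : Gamma0 N => (χ : Additive (Gamma0 N) →+ ZMod n) (Additive.ofMul γ')) γ

/-- the exponential `ℤ/n → ℂ`, `k ↦ exp(2πi k/n)` (trivial for `n = 0`) -/
def expZ (n : ℕ) : Multiplicative (ZMod n) →* ℂ :=
  if h : n = 0 then 1 else
    haveI : NeZero n := ⟨h⟩
    (ZMod.stdAddChar (N := n)).toMonoidHom

theorem h8k_expZ_injective {n : ℕ} (hn : 0 < n) : Function.Injective (expZ n) := by
  haveI : NeZero n := ⟨hn.ne'⟩
  unfold expZ
  rw [dif_neg hn.ne']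
  intro a b hab
  exact ZMod.injective_stdAddChar (N := n) hab

theorem h8k_expZ_ne_zero (n : ℕ) (a : Multiplicative (ZMod n)) : expZ n a ≠ 0 := by
  intro h
  have h1 : expZ n (a * a⁻¹) = 1 := by rw [mul_inv_cancel, map_one]
  rw [map_mul, h, zero_mul] at h1
  exact zero_ne_one h1

theorem h8k_expZ_pow {n : ℕ} (a : Multiplicative (ZMod n)) : expZ n a ^ n = 1 := by
  rw [← map_pow]
  have : a ^ n = 1 := by
    show Multiplicative.ofAdd (n • Multiplicative.toAdd a) = 1
    have h0 : n • Multiplicative.toAdd a = 0 := by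
      rw [nsmul_eq_mul]
      simp
    rw [h0]; rfl
  rw [this, map_one]

/-- the complex character of an element of `Hpe N (ZMod n)` -/
def chi (N n : ℕ) (χ : Hpe N (ZMod n)) (γ : Gamma0 N) : ℂ :=
  expZ n (Multiplicative.ofAdd ((χ : Additive (Gamma0 N) →+ ZMod n) (Additive.ofMul γ)))

theorem h8k_chi_ne_zero (N n : ℕ) (χ : Hpe N (ZMod n)) (γ : Gamma0 N) : chi N n χ γ ≠ 0 :=
  h8k_expZ_ne_zero n _

theorem h8k_chi_zero (N n : ℕ) : chi N n (0 : Hpe N (ZMod n)) = fun _ => 1 := by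
  funext γ
  unfold chi
  simp

theorem h8k_chi_add (N n : ℕ) (χ ψ : Hpe N (ZMod n)) :
    chi N n (χ + ψ) = fun γ => chi N n χ γ * chi N n ψ γ := by
  funext γ
  unfold chi
  rw [← map_mul]
  rfl

/-- the character as a homomorphism to `ℂˣ` -/
def chiHom (N n : ℕ) (χ : Hpe N (ZMod n)) : Gamma0 N →* ℂˣ :=
  MonoidHom.toHomUnits
    { toFun := chi N n χ
      map_one' := by
        unfold chi
        have : (χ : Additive (Gamma0 N) →+ ZMod n) (Additive.ofMul (1 : Gamma0 N)) = 0 :=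
          map_zero _
        rw [this]
        simp
      map_mul' := fun γ δ => by
        unfold chi
        rw [← map_mul]
        have : (χ : Additive (Gamma0 N) →+ ZMod n) (Additive.ofMul (γ * δ))
            = (χ : Additive (Gamma0 N) →+ ZMod n) (Additive.ofMul γ)
              + (χ : Additive (Gamma0 N) →+ ZMod n) (Additive.ofMul δ) :=
          map_add (χ : Additive (Gamma0 N) →+ ZMod n) (Additive.ofMul γ) (Additive.ofMul δ)
        rw [this]
        rfl }

theorem h8k_chiHom_apply (N n : ℕ) (χ : Hpe N (ZMod n)) (γ : Gamma0 N) :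
    ((chiHom N n χ γ : ℂˣ) : ℂ) = chi N n χ γ := rfl

theorem h8k_chi_parEll (N n : ℕ) (χ : Hpe N (ZMod n)) : IsParEll (chi N n χ) := by
  intro γ hγ
  have h0 : (χ : Additive (Gamma0 N) →+ ZMod n) (Additive.ofMul γ) = 0 := by
    rcases hγ with h | h
    · exact χ.2.1 γ h
    · exact χ.2.2 γ h
  unfold chi
  rw [h0]
  simp

variable {N : ℕ} [NeZero N]

/-- existence of the class with character `chi χ` -/
theorem h8k_exists_class (hSurj : ∀ n, 0 < n → KumSurjStatement N n) {n : ℕ} (hn : 0 < n)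
    (χ : Hpe N (ZMod n)) : ∃ x : JZero N, IsKummerCharQ N n x (chi N n χ) := by
  obtain ⟨x, -, hx⟩ := hSurj n hn (chiHom N n χ)
    (fun γ => by
      apply Units.ext
      rw [Units.val_pow_eq_pow_val, h8k_chiHom_apply]
      exact h8k_expZ_pow _)
    (h8k_chi_parEll N n χ)
  exact ⟨x, hx⟩

/-- the Kummer comparison map as a function -/
def kumFun (hSurj : ∀ n, 0 < n → KumSurjStatement N n) (n : ℕ) (χ : Hpe N (ZMod n)) : JZero N :=
  if hn : 0 < n then Classical.choose (h8k_exists_class hSurj hn χ) else 0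

theorem h8k_kumFun_spec (hSurj : ∀ n, 0 < n → KumSurjStatement N n) {n : ℕ} (hn : 0 < n)
    (χ : Hpe N (ZMod n)) : IsKummerCharQ N n (kumFun hSurj n χ) (chi N n χ) := by
  unfold kumFun
  rw [dif_pos hn]
  exact Classical.choose_spec (h8k_exists_class hSurj hn χ)

/-- **K-KUM**: the Kummer comparison maps exist. -/
theorem h8k_kumStatement
    (hU : IsRealisation (AlgebraicClosure ℚ) (Gamma0 N) (phi N))
    (hInv : ∀ n, 0 < n → InvRootStatement (Gamma0 N) (phi N) n)
    (hSurj : ∀ n, 0 < n → KumSurjStatement N n)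
    (hHpe : HpeHeckeStatement N) : KumStatement N := by
  have hadd : ∀ (n : ℕ) (χ ψ : Hpe N (ZMod n)),
      kumFun hSurj n (χ + ψ) = kumFun hSurj n χ + kumFun hSurj n ψ := by
    intro n χ ψ
    by_cases hn : 0 < n
    · have h1 := h8k_kumFun_spec hSurj hn (χ + ψ)
      have h2 := h8k_char_add (h8k_kumFun_spec hSurj hn χ) (h8k_kumFun_spec hSurj hn ψ)
      rw [← h8k_chi_add] at h2
      exact h8k_class_unique (hInv n hn) hn.ne' (h8k_chi_ne_zero N n _) h1 h2
    · unfold kumFun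
      rw [dif_neg hn, dif_neg hn, dif_neg hn, add_zero]
  refine ⟨fun n => AddMonoidHom.mk' (kumFun hSurj n) (hadd n), ?_, ?_⟩
  · intro n hn χ ψ h
    have h1 : kumFun hSurj n (χ - ψ) = 0 := by
      have h2 := hadd n (χ - ψ) ψ
      rw [sub_add_cancel] at h2
      have h3 : kumFun hSurj n χ = kumFun hSurj n ψ := h
      rw [h3] at h2
      exact (add_eq_right.mp h2.symm)
    have h4 := h8k_kumFun_spec hSurj hn (χ - ψ)
    rw [h1] at h4
    have h5 := h8k_char_unique hU hn.ne' h4 (h8k_char_zero (K := AlgebraicClosure ℚ))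
    have h6 : χ - ψ = 0 := by
      apply Subtype.ext
      apply AddMonoidHom.ext
      intro a
      have h7 := congrFun h5 (Additive.toMul a)
      unfold chi at h7
      have h8 : expZ n (Multiplicative.ofAdd
          ((χ - ψ : Hpe N (ZMod n)) : Additive (Gamma0 N) →+ ZMod n) a) = expZ n 1 := by
        rw [map_one]; exact h7
      have h9 := h8k_expZ_injective hn h8
      exact h9
    exact sub_eq_zero.mp h6
  · intro n hn ℓ _ hℓ hℓN χ
    obtain ⟨χ', hχ'⟩ := hHpe n hn ℓ hℓN χ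
    refine ⟨χ', hχ', ?_⟩
    have h1 := h8k_kumFun_spec hSurj hn χ'
    have h2 := H13HEQ.heq' n ℓ hℓ hℓN _ _ (h8k_kumFun_spec hSurj hn χ)
    have h3 : (haveI : Fact ℓ.Prime := ⟨hℓ⟩
        fun γ => ∏ y : OnePoint (ZMod ℓ), chi N n χ (H21S16.transT hℓN γ y))
        = chi N n χ' := by
      funext γ
      unfold chi
      rw [hχ' γ]
      unfold H21S16.heckeTFun
      rw [ofAdd_sum, map_prod]
    rw [h3] at h2
    exact h8k_class_unique (hInv n hn) hn.ne' (h8k_chi_ne_zero N n _) h1 h2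

end H8KUM

end
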