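/-
helper13, item 80 (W3-G): `H8KUM.HpeHeckeStatement N` (input `hHpe` of helper8's K-KUM assembly
`H8KUM.h8k_kumStatement`): the transfer `T_ℓ` preserves `Hpe N (ZMod n)`.
-/
import Fermat.Agent.W3G.EIGH0_helper13
import Fermat.Agent.W3G.KUMKum_helper8

set_option autoImplicit false

namespace H13E0

/-- **HpeHecke**: the transfer (`T_ℓ`, `ℓ ∤ N`) preserves `Hpe N (ZMod n)`. -/
theorem hpeHeckeStatement (N : ℕ) : H8KUM.HpeHeckeStatement N :=
  fun _ _ _ _ hℓN χ => hpe_hecke hℓN χ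

end H13E0
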