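import Mathlib
import Fermat.Prelude.Def_ModularCurve_LaurentCoeff

/-!
# W3G (item 80), slice K-DESC, part LD2 (helper1): `n`-th roots descend

`H1KD.exists_coeffMap_eq_of_pow`: for `ψ : k →+* K`, `k` algebraically closed, `K` of
characteristic `0`, `n > 0`: if `g ∈ K((q))` and `gⁿ` has coefficients in `k`, then `g` has
coefficients in `k`.

Proof: with `D = q d/dq` (coefficientwise `m ↦ m · a_m`) one has `D(F) · g = n · F · D(g)` for
`F = gⁿ`; this is a linear recursion for the coefficients of `g` with coefficients in `k`, and the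
leading coefficient of `g` is an `n`-th root of the leading coefficient of `F`.
-/

set_option autoImplicit false
set_option linter.style.longLine false
set_option linter.unusedSectionVars false
set_option linter.unusedVariables false

noncomputable section

open ModularCurve

namespace H1KD

section WD

variable {K : Type*} [Field K]

/-- `q d/dq`, coefficientwise -/
def wD (x : LaurentSeries K) : LaurentSeries K :=
  HahnSeries.mk (fun m : ℤ => (m : K) * x.coeff m) (x.isPWO_support.mono (by
    intro m hm
    rw [Function.mem_support] at hm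
    exact right_ne_zero_of_mul hm))

theorem wD_coeff (x : LaurentSeries K) (m : ℤ) : (wD x).coeff m = (m : K) * x.coeff m := rfl

theorem wD_support_subset (x : LaurentSeries K) : (wD x).support ⊆ x.support := by
  intro m hm
  rw [HahnSeries.mem_support, wD_coeff] at hm
  exact right_ne_zero_of_mul hm

theorem wD_mul (x y : LaurentSeries K) : wD (x * y) = wD x * y + x * wD y := by
  ext m
  rw [wD_coeff, HahnSeries.coeff_add, HahnSeries.coeff_mul,
    HahnSeries.coeff_mul_left' x.isPWO_support (wD_support_subset x),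
    HahnSeries.coeff_mul_right' y.isPWO_support (wD_support_subset y), Finset.mul_sum,
    ← Finset.sum_add_distrib]
  apply Finset.sum_congr rfl
  intro ij hij
  have h3 : ij.1 + ij.2 = m := (Finset.mem_antidiagonal.1 hij).2.2
  rw [wD_coeff, wD_coeff, ← h3]
  push_cast
  ring

theorem wD_one : wD (1 : LaurentSeries K) = 0 := by
  have h := wD_mul (1 : LaurentSeries K) 1
  rw [mul_one, one_mul, mul_one] at h
  exact left_eq_add.1 h

theorem wD_pow_mul (x : LaurentSeries K) (n : ℕ) :
    wD (x ^ n) * x = n • (x ^ n * wD x) := by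
  induction n with
  | zero => rw [pow_zero, wD_one, zero_mul, zero_smul]
  | succ n ih =>
      rw [pow_succ, wD_mul, add_mul, mul_right_comm, ih, succ_nsmul, smul_mul_assoc,
        mul_right_comm (x ^ n) (wD x) x]

/-- the recursion: `∑_{i + j = m} (i - n j) F_i g_j = 0` for `F = gⁿ` -/
theorem sum_eq_zero_of_pow (g F : LaurentSeries K) (n : ℕ) (h : g ^ n = F) (m : ℤ) :
    ∑ ij ∈ Finset.antidiagonal F.isPWO_support g.isPWO_support m,
      ((ij.1 : K) - n * ij.2) * (F.coeff ij.1 * g.coeff ij.2) = 0 := by
  have h1 : wD F * g = n • (F * wD g) := by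
    rw [← h]
    exact wD_pow_mul g n
  have h2 : (wD F * g).coeff m = (n • (F * wD g)).coeff m := by rw [h1]
  rw [HahnSeries.coeff_mul_left' F.isPWO_support (wD_support_subset F), HahnSeries.coeff_nsmul,
    Pi.smul_apply, HahnSeries.coeff_mul_right' g.isPWO_support (wD_support_subset g),
    nsmul_eq_mul, Finset.mul_sum, ← sub_eq_zero, ← Finset.sum_sub_distrib] at h2
  rw [← h2]
  apply Finset.sum_congr rfl
  intro ij _
  rw [wD_coeff, wD_coeff]
  ring

theorem leadingCoeff_pow' (x : LaurentSeries K) (n : ℕ) :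
    (x ^ n).leadingCoeff = x.leadingCoeff ^ n := by
  induction n with
  | zero => rw [pow_zero, pow_zero, HahnSeries.leadingCoeff_one]
  | succ n ih => rw [pow_succ, HahnSeries.leadingCoeff_mul, ih, pow_succ]

end WD

section Root

variable {K : Type*} [Field K] [CharZero K]

/-- the coefficients of `g` lie in a subfield `S` which contains the coefficients of `gⁿ` and is
closed under `n`-th roots -/
theorem coeff_mem_of_pow (S : Subfield K) {n : ℕ} (hn : 0 < n)
    (hS : ∀ c : K, c ^ n ∈ S → c ∈ S) (g F : LaurentSeries K) (h : g ^ n = F)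
    (hF : ∀ i, F.coeff i ∈ S) (j : ℤ) : g.coeff j ∈ S := by
  rcases eq_or_ne g 0 with rfl | hg
  · rw [HahnSeries.coeff_zero]
    exact zero_mem S
  have hF0 : F ≠ 0 := by
    rw [← h]
    exact pow_ne_zero n hg
  set m₀ : ℤ := g.order with hm₀
  set M : ℤ := F.order with hM
  have hMm : M = n * m₀ := by
    rw [hM, ← h, HahnSeries.order_pow, nsmul_eq_mul]
  have hgm : g.coeff m₀ ≠ 0 := by
    rw [hm₀, Ne, HahnSeries.coeff_order_eq_zero]
    exact hg
  have hFM : F.coeff M ≠ 0 := by
    rw [hM, Ne, HahnSeries.coeff_order_eq_zero]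
    exact hF0
  have hlead : g.coeff m₀ ^ n = F.coeff M := by
    rw [hm₀, hM, ← HahnSeries.leadingCoeff_eq, ← HahnSeries.leadingCoeff_eq, ← leadingCoeff_pow', h]
  -- strong induction
  have key : ∀ t : ℕ, g.coeff (m₀ + t) ∈ S := by
    intro t
    induction t using Nat.strong_induction_on with
    | _ t ih =>
      rcases Nat.eq_zero_or_pos t with rfl | ht
      · rw [Nat.cast_zero, add_zero]
        apply hS
        rw [hlead]
        exact hF M
      by_cases hgt : g.coeff (m₀ + t) = 0
      · rw [hgt]
        exact zero_mem S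
      have hsum := sum_eq_zero_of_pow g F n h (M + (m₀ + t))
      have hmem : ((M, m₀ + (t : ℤ)) : ℤ × ℤ) ∈
          Finset.antidiagonal F.isPWO_support g.isPWO_support (M + (m₀ + t)) := by
        rw [Finset.mem_antidiagonal]
        exact ⟨hFM, hgt, rfl⟩
      rw [← Finset.add_sum_erase _ _ hmem] at hsum
      have hrest : ∑ ij ∈ (Finset.antidiagonal F.isPWO_support g.isPWO_support
          (M + (m₀ + t))).erase (M, m₀ + (t : ℤ)),
          ((ij.1 : K) - n * ij.2) * (F.coeff ij.1 * g.coeff ij.2) ∈ S := by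
        apply Subfield.sum_mem
        intro ij hij
        rw [Finset.mem_erase, Finset.mem_antidiagonal] at hij
        obtain ⟨hne, h1, h2, h3⟩ := hij
        have hi1 : M ≤ ij.1 := HahnSeries.order_le_of_coeff_ne_zero h1
        have hi2 : m₀ ≤ ij.2 := HahnSeries.order_le_of_coeff_ne_zero h2
        have hi3 : ij.2 < m₀ + t := by
          by_contra hcon
          push Not at hcon
          have e2 : ij.2 = m₀ + t := by omega
          have e1 : ij.1 = M := by omega
          exact hne (Prod.ext e1 e2)
        obtain ⟨s, hs⟩ : ∃ s : ℕ, ij.2 = m₀ + s := ⟨(ij.2 - m₀).toNat, by omega⟩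
        have hst : s < t := by omega
        have hgs : g.coeff ij.2 ∈ S := by
          rw [hs]
          exact ih s hst
        refine mul_mem (sub_mem (intCast_mem S _) (mul_mem (natCast_mem S _) (intCast_mem S _)))
          (mul_mem (hF _) hgs)
      have hterm : ((M : K) - n * ((m₀ + (t : ℤ) : ℤ) : K)) * (F.coeff M * g.coeff (m₀ + t)) ∈ S := by
        have := neg_mem hrest
        rwa [← eq_neg_of_add_eq_zero_left hsum] at this
      have hscal : ((M : K) - n * ((m₀ + (t : ℤ) : ℤ) : K)) = -((n : K) * (t : K)) := by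
        rw [hMm]
        push_cast
        ring
      have hscal0 : ((M : K) - n * ((m₀ + (t : ℤ) : ℤ) : K)) * F.coeff M ≠ 0 := by
        rw [hscal]
        refine mul_ne_zero (neg_ne_zero.2 (mul_ne_zero ?_ ?_)) hFM
        · exact Nat.cast_ne_zero.2 hn.ne'
        · exact Nat.cast_ne_zero.2 ht.ne'
      have hscalS : ((M : K) - n * ((m₀ + (t : ℤ) : ℤ) : K)) * F.coeff M ∈ S :=
        mul_mem (sub_mem (intCast_mem S _) (mul_mem (natCast_mem S _) (intCast_mem S _))) (hF _)
      have e : g.coeff (m₀ + t) = (((M : K) - n * ((m₀ + (t : ℤ) : ℤ) : K)) * F.coeff M)⁻¹ *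
          (((M : K) - n * ((m₀ + (t : ℤ) : ℤ) : K)) * (F.coeff M * g.coeff (m₀ + t))) := by
        rw [← mul_assoc ((M : K) - n * ((m₀ + (t : ℤ) : ℤ) : K)) (F.coeff M),
          inv_mul_cancel_left₀ hscal0]
      rw [e]
      exact mul_mem (inv_mem hscalS) hterm
  rcases lt_or_ge j m₀ with hlt | hge
  · rw [HahnSeries.coeff_eq_zero_of_lt_order hlt]
    exact zero_mem S
  · obtain ⟨t, ht⟩ : ∃ t : ℕ, j = m₀ + t := ⟨(j - m₀).toNat, by omega⟩
    rw [ht]
    exact key t

end Root

section Desc

variable {k K : Type*} [Field k] [Field K]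

/-- a Laurent series with coefficients in the image of `ψ` is in the image of `coeffMap ψ` -/
theorem exists_coeffMap_eq (ψ : k →+* K) (g : LaurentSeries K)
    (hg : ∀ j, g.coeff j ∈ ψ.fieldRange) : ∃ y : LaurentSeries k, coeffMap ψ y = g := by
  have hc : ∀ j, ∃ a : k, ψ a = g.coeff j := fun j => RingHom.mem_fieldRange.1 (hg j)
  choose c hc using hc
  refine ⟨HahnSeries.mk c (g.isPWO_support.mono ?_), ?_⟩
  · intro j hj
    rw [Function.mem_support] at hj
    rw [HahnSeries.mem_support, ← hc j]
    exact fun h0 => hj (ψ.injective (by rw [h0, map_zero]))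
  · ext j
    rw [coeffMap_coeff]
    exact hc j

/-- **LD2**: if `gⁿ` has coefficients in the algebraically closed field `k`, so has `g`. -/
theorem exists_coeffMap_eq_of_pow [IsAlgClosed k] [CharZero K] (ψ : k →+* K) {n : ℕ} (hn : 0 < n)
    (g : LaurentSeries K) (f : LaurentSeries k) (h : g ^ n = coeffMap ψ f) :
    ∃ y : LaurentSeries k, coeffMap ψ y = g := by
  apply exists_coeffMap_eq
  apply coeff_mem_of_pow ψ.fieldRange hn _ g _ h
  · intro i
    rw [coeffMap_coeff]
    exact RingHom.mem_fieldRange.2 ⟨_, rfl⟩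
  · intro c hc
    obtain ⟨a, ha⟩ := RingHom.mem_fieldRange.1 hc
    have hp0 : (Polynomial.X ^ n - Polynomial.C a : Polynomial k) ≠ 0 :=
      (Polynomial.monic_X_pow_sub_C a hn.ne').ne_zero
    have hmap0 : (Polynomial.X ^ n - Polynomial.C a : Polynomial k).map ψ ≠ 0 :=
      (Polynomial.map_ne_zero_iff ψ.injective).2 hp0
    have hroot : c ∈ ((Polynomial.X ^ n - Polynomial.C a : Polynomial k).map ψ).roots := by
      rw [Polynomial.mem_roots hmap0]
      simp [ha]
    rw [(IsAlgClosed.splits _).roots_map] at hroot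
    obtain ⟨r, -, hr⟩ := Multiset.mem_map.1 hroot
    exact RingHom.mem_fieldRange.2 ⟨r, hr⟩

end Desc

end H1KD
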