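import Mathlib
import Fermat.Prelude.Def_ModularCurve_LaurentCoeff
import Fermat.Agent.S18.C6f_helper1

/-!
# W3G (item 80), slice RIG-LD (helper1): linear disjointness of constants and the function field

For fields `k ⊆ K` (`ψ : k →+* K`) and `F₀ ⊆ ℚ((q))`:

`H1RIG.mem_lbc_of_coeffMap_mem` : if `y ∈ k((q))` and its image in `K((q))` lies in `K · F₀`, then
`y ∈ k · F₀`.

Proof: every element of `K · F₀` is a quotient `A / B` of elements of the `K`-span `M` of the image
of `k · F₀`; a `k`-linear functional `Λ : K → k` applied coefficientwise maps `M` to `k · F₀` and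
commutes with multiplication by the image of `y`.
-/

set_option autoImplicit false
set_option linter.style.longLine false
set_option linter.unusedSectionVars false
set_option linter.unusedVariables false
set_option linter.style.haveILetI false

noncomputable section

open ModularCurve

namespace H1RIG

section Coeffwise

variable {k K : Type*} [Field k] [Field K] [Algebra k K]

/-- a `k`-linear functional applied coefficientwise -/
def coeffLin (Λ : K →ₗ[k] k) : LaurentSeries K →+ LaurentSeries k where
  toFun x := x.map Λ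
  map_zero' := by
    ext m
    simp
  map_add' x y := by
    ext m
    simp

@[simp]
theorem coeffLin_coeff (Λ : K →ₗ[k] k) (x : LaurentSeries K) (m : ℤ) :
    (coeffLin Λ x).coeff m = Λ (x.coeff m) := rfl

/-- coefficients of a product with a constant -/
theorem coeff_algebraMap_mul {R : Type*} [Field R] (a : R) (x : LaurentSeries R) (m : ℤ) :
    (algebraMap R (LaurentSeries R) a * x).coeff m = a * x.coeff m := by
  rw [algebraMap_laurentSeries_eq_single]
  have h := HahnSeries.coeff_single_mul_add (r := a) (x := x) (a := m) (b := (0 : ℤ))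
  rwa [add_zero] at h

theorem coeffLin_const_mul_coeffMap (Λ : K →ₗ[k] k) (a : K) (f : LaurentSeries k) :
    coeffLin Λ (algebraMap K (LaurentSeries K) a * coeffMap (algebraMap k K) f)
      = algebraMap k (LaurentSeries k) (Λ a) * f := by
  ext m
  rw [coeffLin_coeff, coeff_algebraMap_mul, coeff_algebraMap_mul, coeffMap_coeff,
    mul_comm a, ← Algebra.smul_def, map_smul, smul_eq_mul, mul_comm]

end Coeffwise

section LD

variable {k K : Type*} [Field k] [Field K] [Algebra ℚ k] [Algebra ℚ K] [Algebra k K]
variable (F₀ : IntermediateField ℚ (LaurentSeries ℚ))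

/-- the generators `a · f`, `a ∈ K`, `f ∈ k · F₀` -/
def genSet : Set (LaurentSeries K) :=
  {x | ∃ (a : K) (f : LaurentSeries k), f ∈ laurentBaseChange k F₀ ∧
    x = algebraMap K (LaurentSeries K) a * coeffMap (algebraMap k K) f}

/-- the `K`-span of the image of `k · F₀` in `K((q))` -/
def spanImage : AddSubgroup (LaurentSeries K) :=
  AddSubgroup.closure (genSet (k := k) (K := K) F₀)

variable {F₀}

theorem const_mul_mem_spanImage (a : K) {f : LaurentSeries k} (hf : f ∈ laurentBaseChange k F₀) :
    algebraMap K (LaurentSeries K) a * coeffMap (algebraMap k K) f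
      ∈ spanImage (k := k) (K := K) F₀ :=
  AddSubgroup.subset_closure ⟨a, f, hf, rfl⟩

theorem coeffMap_mem_spanImage {f : LaurentSeries k} (hf : f ∈ laurentBaseChange k F₀) :
    coeffMap (algebraMap k K) f ∈ spanImage (k := k) (K := K) F₀ := by
  have h := const_mul_mem_spanImage (K := K) 1 hf
  rwa [map_one, one_mul] at h

theorem one_mem_spanImage : (1 : LaurentSeries K) ∈ spanImage (k := k) (K := K) F₀ := by
  have h := coeffMap_mem_spanImage (k := k) (K := K) (F₀ := F₀) (one_mem (laurentBaseChange k F₀))
  rwa [map_one] at h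

theorem const_mem_spanImage (a : K) :
    algebraMap K (LaurentSeries K) a ∈ spanImage (k := k) (K := K) F₀ := by
  have h := const_mul_mem_spanImage (k := k) (K := K) (F₀ := F₀) a
    (one_mem (laurentBaseChange k F₀))
  rwa [map_one, mul_one] at h

theorem mul_mem_spanImage {x y : LaurentSeries K} (hx : x ∈ spanImage (k := k) (K := K) F₀)
    (hy : y ∈ spanImage (k := k) (K := K) F₀) : x * y ∈ spanImage (k := k) (K := K) F₀ := by
  induction hx using AddSubgroup.closure_induction with
  | mem x hx =>
      induction hy using AddSubgroup.closure_induction with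
      | mem y hy =>
          obtain ⟨a, f, hf, rfl⟩ := hx
          obtain ⟨b, g, hg, rfl⟩ := hy
          refine AddSubgroup.subset_closure ⟨a * b, f * g, mul_mem hf hg, ?_⟩
          rw [map_mul, map_mul]
          ring
      | zero =>
          rw [mul_zero]
          exact zero_mem _
      | add y z _ _ hy hz =>
          rw [mul_add]
          exact add_mem hy hz
      | neg y _ hy =>
          rw [mul_neg]
          exact neg_mem hy
  | zero =>
      rw [zero_mul]
      exact zero_mem _
  | add x z _ _ hx hz =>
      rw [add_mul]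
      exact add_mem hx hz
  | neg x _ hx =>
      rw [neg_mul]
      exact neg_mem hx

/-- every element of `K · F₀` is a quotient of elements of the span -/
theorem exists_frac_of_mem_lbc {x : LaurentSeries K} (hx : x ∈ laurentBaseChange K F₀) :
    ∃ A ∈ spanImage (k := k) (K := K) F₀, ∃ B ∈ spanImage (k := k) (K := K) F₀,
      B ≠ 0 ∧ x * B = A := by
  rw [mem_laurentBaseChange_iff] at hx
  induction hx using Subfield.closure_induction with
  | mem y hy =>
      rcases hy with ⟨a, rfl⟩ | ⟨z, hz, rfl⟩
      · exact ⟨_, const_mem_spanImage a, 1, one_mem_spanImage, one_ne_zero, mul_one _⟩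
      · refine ⟨coeffEmb K z, ?_, 1, one_mem_spanImage, one_ne_zero, mul_one _⟩
        rw [← H1S18.coeffMap_coeffEmb_hom (algebraMap k K) z]
        exact coeffMap_mem_spanImage (coeffEmb_mem_laurentBaseChange k hz)
  | one => exact ⟨1, one_mem_spanImage, 1, one_mem_spanImage, one_ne_zero, mul_one _⟩
  | add x y _ _ hx hy =>
      obtain ⟨A, hA, B, hB, hB0, hAB⟩ := hx
      obtain ⟨A', hA', B', hB', hB0', hAB'⟩ := hy
      refine ⟨A * B' + A' * B, add_mem (mul_mem_spanImage hA hB')
        (mul_mem_spanImage hA' hB), B * B', mul_mem_spanImage hB hB', mul_ne_zero hB0 hB0', ?_⟩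
      rw [← hAB, ← hAB']
      ring
  | neg x _ hx =>
      obtain ⟨A, hA, B, hB, hB0, hAB⟩ := hx
      exact ⟨-A, neg_mem hA, B, hB, hB0, by rw [← hAB, neg_mul]⟩
  | inv x _ hx =>
      obtain ⟨A, hA, B, hB, hB0, hAB⟩ := hx
      rcases eq_or_ne x 0 with rfl | hx0
      · exact ⟨0, zero_mem _, 1, one_mem_spanImage, one_ne_zero, by simp⟩
      · have hA0 : A ≠ 0 := by
          rw [← hAB]
          exact mul_ne_zero hx0 hB0
        refine ⟨B, hB, A, hA, hA0, ?_⟩
        rw [← hAB, ← mul_assoc, inv_mul_cancel₀ hx0, one_mul]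
  | mul x y _ _ hx hy =>
      obtain ⟨A, hA, B, hB, hB0, hAB⟩ := hx
      obtain ⟨A', hA', B', hB', hB0', hAB'⟩ := hy
      refine ⟨A * A', mul_mem_spanImage hA hA', B * B', mul_mem_spanImage hB hB',
        mul_ne_zero hB0 hB0', ?_⟩
      rw [← hAB, ← hAB']
      ring

/-- a coefficientwise functional maps the span into `k · F₀` -/
theorem coeffLin_mem_of_mem_spanImage (Λ : K →ₗ[k] k) {A : LaurentSeries K}
    (hA : A ∈ spanImage (k := k) (K := K) F₀) : coeffLin Λ A ∈ laurentBaseChange k F₀ := by
  induction hA using AddSubgroup.closure_induction with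
  | mem x hx =>
      obtain ⟨a, f, hf, rfl⟩ := hx
      rw [coeffLin_const_mul_coeffMap]
      exact mul_mem ((laurentBaseChange k F₀).algebraMap_mem _) hf
  | zero =>
      rw [map_zero]
      exact zero_mem _
  | add x y _ _ hx hy =>
      rw [map_add]
      exact add_mem hx hy
  | neg x _ hx =>
      rw [map_neg]
      exact neg_mem hx

/-- a coefficientwise functional commutes with multiplication by the image of `y` on the span -/
theorem coeffLin_mul_of_mem_spanImage (Λ : K →ₗ[k] k) (y : LaurentSeries k) {B : LaurentSeries K}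
    (hB : B ∈ spanImage (k := k) (K := K) F₀) :
    coeffLin Λ (coeffMap (algebraMap k K) y * B) = y * coeffLin Λ B := by
  induction hB using AddSubgroup.closure_induction with
  | mem x hx =>
      obtain ⟨a, f, hf, rfl⟩ := hx
      rw [coeffLin_const_mul_coeffMap, mul_left_comm, ← map_mul, coeffLin_const_mul_coeffMap,
        mul_left_comm]
  | zero =>
      rw [mul_zero, map_zero, mul_zero]
  | add x z _ _ hx hz =>
      rw [mul_add, map_add, map_add, mul_add, hx, hz]
  | neg x _ hx =>
      rw [mul_neg, map_neg, map_neg, mul_neg, hx]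

/-- **Linear disjointness**: a Laurent series over `k` whose image lies in `K · F₀` lies in
`k · F₀`. -/
theorem mem_lbc_of_coeffMap_mem {y : LaurentSeries k}
    (hy : coeffMap (algebraMap k K) y ∈ laurentBaseChange K F₀) :
    y ∈ laurentBaseChange k F₀ := by
  obtain ⟨A, hA, B, hB, hB0, hAB⟩ := exists_frac_of_mem_lbc (k := k) hy
  -- a nonzero coefficient of `B`
  obtain ⟨m₀, hm₀⟩ : ∃ m : ℤ, B.coeff m ≠ 0 := by
    by_contra hcon
    push Not at hcon
    exact hB0 (HahnSeries.ext (funext hcon))
  obtain ⟨Λ, hΛ⟩ := Module.Projective.exists_dual_eq_one k hm₀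
  have h1 : y * coeffLin Λ B = coeffLin Λ A := by
    rw [← coeffLin_mul_of_mem_spanImage Λ y hB, hAB]
  have hB' : coeffLin Λ B ∈ laurentBaseChange k F₀ := coeffLin_mem_of_mem_spanImage Λ hB
  have hA' : coeffLin Λ A ∈ laurentBaseChange k F₀ := coeffLin_mem_of_mem_spanImage Λ hA
  have hB'0 : coeffLin Λ B ≠ 0 := by
    intro h0
    have := congrArg (fun s => HahnSeries.coeff s m₀) h0
    simp only [coeffLin_coeff, HahnSeries.coeff_zero] at this
    rw [show Λ (B.coeff m₀) = 1 from hΛ] at this
    exact one_ne_zero this
  have h2 : y = coeffLin Λ A * (coeffLin Λ B)⁻¹ := by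
    rw [← h1, mul_assoc, mul_inv_cancel₀ hB'0, mul_one]
  rw [h2]
  exact mul_mem hA' (inv_mem hB')

end LD

end H1RIG
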