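import Fermat.Agent.W3G.KUMDefs_helper8
import Fermat.Agent.W3G.RIGLD_helper1
import Fermat.Agent.W3G.KUMDescRoot_helper1
import Fermat.Agent.S24.BA12

/-!
# W3G (item 80), slice K-DESC (helper1)

`H1KD.invRoot`: from AN3 form A (`H2AN3.AlgStatement N`), for `n > 0`:
a `Γ₀(N)`-invariant `n`-th root `G ∈ Mer` of `phi N f` (`f ∈ ℚ̄ · F_N`) is `phi N h` for some
`h ∈ ℚ̄ · F_N`  (= `H8KUM.InvRootStatement (Gamma0 N) (phi N) n`).

Proof. `G ∈ ℂ(j_d)` by AN3-A, so `G = P(j_d) / R(j_d)` with `P, R ∈ ℂ[X_d]`.  By the `q`-expansion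
principle (`H24D.eval₂_constMer_eq_zero_iff`) polynomial identities between the `j_d` in `Mer` and
between the formal `j(q^d)` in `ℂ((q))` are the same, so `g := P(j(q^d)) / R(j(q^d)) ∈ ℂ((q))` is an
`n`-th root of the `q`-expansion of `f`.  Hence `g` has coefficients in `ℚ̄` (LD2,
`H1KD.exists_coeffMap_eq_of_pow`), so `g` is the image of some `h ∈ ℚ̄ · F_N` (linear disjointness,
`H1RIG.mem_lbc_of_coeffMap_mem`), and `G = phi N h` by the `q`-expansion principle again.
-/

set_option autoImplicit false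
set_option linter.style.longLine false
set_option linter.unusedSectionVars false
set_option linter.unusedVariables false
set_option linter.style.haveILetI false

noncomputable section

open UpperHalfPlane ModularCurve CongruenceSubgroup
open scoped MatrixGroups

namespace H1KD

open H24D
open RH24 (Kbar iota Dv Jgen formalEval JC Dv_ne_zero h22b_ev)

variable (N : ℕ) [NeZero N]

/-- evaluation of polynomials at the `j_d ∈ Mer` -/
def thetaC : MvPolynomial (Dv N) ℂ →+* Mer :=
  MvPolynomial.eval₂Hom constMer (fun d : Dv N => jdMer d)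

theorem thetaC_apply (P : MvPolynomial (Dv N) ℂ) :
    thetaC N P = MvPolynomial.eval₂ constMer (fun d : Dv N => jdMer d) P := rfl

/-- the `q`-expansion principle -/
theorem formalEval_eq_zero_iff (P : MvPolynomial (Dv N) ℂ) :
    formalEval N P = 0 ↔ thetaC N P = 0 :=
  eval₂_constMer_eq_zero_iff N P

theorem formalEval_eq_iff (P Q : MvPolynomial (Dv N) ℂ) :
    formalEval N P = formalEval N Q ↔ thetaC N P = thetaC N Q := by
  rw [← sub_eq_zero, ← map_sub, formalEval_eq_zero_iff, map_sub, sub_eq_zero]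

theorem thetaC_mem_KN (P : MvPolynomial (Dv N) ℂ) : thetaC N P ∈ H2AN3.KN N := by
  induction P using MvPolynomial.induction_on with
  | C c =>
      rw [thetaC_apply, MvPolynomial.eval₂_C]
      exact Subfield.subset_closure (Or.inl ⟨c, rfl⟩)
  | add p q hp hq =>
      rw [map_add]
      exact add_mem hp hq
  | mul_X p d hp =>
      rw [map_mul]
      refine mul_mem hp ?_
      rw [thetaC_apply, MvPolynomial.eval₂_X]
      exact Subfield.subset_closure (Or.inr ⟨d, rfl⟩)

/-- every element of `ℂ(j_d)` is a quotient of polynomials in the `j_d` -/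
theorem exists_frac_of_mem_KN {G : Mer} (hG : G ∈ H2AN3.KN N) :
    ∃ P R : MvPolynomial (Dv N) ℂ, thetaC N R ≠ 0 ∧ G * thetaC N R = thetaC N P := by
  induction hG using Subfield.closure_induction with
  | mem y hy =>
      rcases hy with ⟨c, rfl⟩ | ⟨d, rfl⟩
      · refine ⟨MvPolynomial.C c, 1, by rw [map_one]; exact one_ne_zero, ?_⟩
        rw [map_one, mul_one, thetaC_apply, MvPolynomial.eval₂_C]
      · refine ⟨MvPolynomial.X d, 1, by rw [map_one]; exact one_ne_zero, ?_⟩
        rw [map_one, mul_one, thetaC_apply, MvPolynomial.eval₂_X]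
  | one => exact ⟨1, 1, by rw [map_one]; exact one_ne_zero, by rw [map_one, mul_one]⟩
  | add x y _ _ hx hy =>
      obtain ⟨P, R, hR, hPR⟩ := hx
      obtain ⟨P', R', hR', hPR'⟩ := hy
      refine ⟨P * R' + P' * R, R * R', by rw [map_mul]; exact mul_ne_zero hR hR', ?_⟩
      rw [map_add, map_mul, map_mul, map_mul, ← hPR, ← hPR']
      ring
  | neg x _ hx =>
      obtain ⟨P, R, hR, hPR⟩ := hx
      exact ⟨-P, R, hR, by rw [map_neg, ← hPR, neg_mul]⟩
  | inv x _ hx =>
      obtain ⟨P, R, hR, hPR⟩ := hx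
      rcases eq_or_ne x 0 with rfl | hx0
      · exact ⟨0, 1, by rw [map_one]; exact one_ne_zero, by simp⟩
      · have hP0 : thetaC N P ≠ 0 := by
          rw [← hPR]
          exact mul_ne_zero hx0 hR
        refine ⟨R, P, hP0, ?_⟩
        rw [← hPR, ← mul_assoc, inv_mul_cancel₀ hx0, one_mul]
  | mul x y _ _ hx hy =>
      obtain ⟨P, R, hR, hPR⟩ := hx
      obtain ⟨P', R', hR', hPR'⟩ := hy
      refine ⟨P * P', R * R', by rw [map_mul]; exact mul_ne_zero hR hR', ?_⟩
      rw [map_mul, map_mul, ← hPR, ← hPR']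
      ring

/-- `phi` on polynomials in the generators -/
theorem phi_ev (A : MvPolynomial (Dv N) Kbar) :
    phi N (h22b_ev N A) = thetaC N (MvPolynomial.map iota A) := by
  have hcomp : (phi N).comp (h22b_ev N) = (thetaC N).comp (MvPolynomial.map iota) := by
    apply MvPolynomial.ringHom_ext
    · intro c
      rw [RingHom.comp_apply, RingHom.comp_apply, RH24.h22b_ev_C, MvPolynomial.map_C, phi_const,
        thetaC_apply, MvPolynomial.eval₂_C]
    · intro d
      rw [RingHom.comp_apply, RingHom.comp_apply, RH24.h22b_ev_X, MvPolynomial.map_X, phi_Jgen,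
        thetaC_apply, MvPolynomial.eval₂_X]
  exact RingHom.congr_fun hcomp A

/-- the `q`-expansion of an element of the function field -/
def qx (f : modularFunctionFieldBar N) : LaurentSeries ℂ :=
  coeffMap iota (f : LaurentSeries Kbar)

theorem qx_ev (A : MvPolynomial (Dv N) Kbar) :
    qx N (h22b_ev N A) = formalEval N (MvPolynomial.map iota A) :=
  RH24.h22b_coeffMap_ev A

theorem qx_div (f g : modularFunctionFieldBar N) : qx N (f / g) = qx N f / qx N g := by
  unfold qx
  rw [← map_div₀]
  rfl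

/-- **transfer**: linear relations with polynomial coefficients are the same in `Mer` and in
`ℂ((q))` -/
theorem transfer (f : modularFunctionFieldBar N) (P R : MvPolynomial (Dv N) ℂ) :
    phi N f * thetaC N R = thetaC N P ↔ qx N f * formalEval N R = formalEval N P := by
  obtain ⟨A, B, hB, hf⟩ := RH24.h22b_exists_rep N f
  have hB1 : thetaC N (MvPolynomial.map iota B) ≠ 0 := by
    rw [← phi_ev]
    exact (map_ne_zero (phi N)).2 hB
  have hB2 : formalEval N (MvPolynomial.map iota B) ≠ 0 := by
    rw [Ne, formalEval_eq_zero_iff]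
    exact hB1
  have e1 : phi N f = thetaC N (MvPolynomial.map iota A) / thetaC N (MvPolynomial.map iota B) := by
    rw [hf, map_div₀, phi_ev, phi_ev]
  have e2 : qx N f = formalEval N (MvPolynomial.map iota A) /
      formalEval N (MvPolynomial.map iota B) := by
    rw [hf, qx_div, qx_ev, qx_ev]
  rw [e1, e2, div_mul_eq_mul_div, div_mul_eq_mul_div, div_eq_iff hB1, div_eq_iff hB2,
    ← map_mul, ← map_mul, ← map_mul, ← map_mul, formalEval_eq_iff]

theorem JC_mem (d : Dv N) : JC d ∈ laurentBaseChange ℂ (modularFunctionFieldFull N) := by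
  haveI : NeZero d.1 := ⟨Dv_ne_zero d⟩
  have h : JC d = coeffEmb ℂ (qExpand ℚ d.1 jq) := by
    rw [← RH24.h22b_coeffMap_Jgen d]
    exact H1S18.coeffMap_coeffEmb_hom iota _
  rw [h]
  exact coeffEmb_mem_laurentBaseChange ℂ (jqd_mem_full N d.2)

theorem formalEval_mem (P : MvPolynomial (Dv N) ℂ) :
    formalEval N P ∈ laurentBaseChange ℂ (modularFunctionFieldFull N) := by
  induction P using MvPolynomial.induction_on with
  | C c =>
      rw [formalEval, MvPolynomial.aeval_C]
      exact (laurentBaseChange ℂ (modularFunctionFieldFull N)).algebraMap_mem c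
  | add p q hp hq =>
      rw [map_add]
      exact add_mem hp hq
  | mul_X p d hp =>
      rw [map_mul]
      refine mul_mem hp ?_
      rw [formalEval, MvPolynomial.aeval_X]
      exact JC_mem N d

/-- **K-DESC**: `InvRootStatement` for `Γ₀(N)` and `phi N` from AN3 form A. -/
theorem invRoot {n : ℕ} (hn : 0 < n) (hA : H2AN3.AlgStatement N) :
    H8KUM.InvRootStatement (Gamma0 N) (phi N) n := by
  intro G f hf hG hinv
  -- `phi N f ∈ ℂ(j_d)`
  have hphi : ∀ f' : modularFunctionFieldBar N, phi N f' ∈ H2AN3.KN N := by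
    intro f'
    obtain ⟨A, B, hB, hf'⟩ := RH24.h22b_exists_rep N f'
    rw [hf', map_div₀, phi_ev, phi_ev]
    exact div_mem (thetaC_mem_KN N _) (thetaC_mem_KN N _)
  -- `G ∈ ℂ(j_d)` by AN3-A
  have hGK : G ∈ H2AN3.KN N := by
    apply hA G hinv
    refine ⟨Polynomial.X ^ n - Polynomial.C (⟨phi N f, hphi f⟩ : H2AN3.KN N),
      (Polynomial.monic_X_pow_sub_C _ hn.ne').ne_zero, ?_⟩
    rw [map_sub, map_pow, Polynomial.aeval_X, Polynomial.aeval_C, hG]
    exact sub_self _
  obtain ⟨P, R, hR, hPR⟩ := exists_frac_of_mem_KN N hGK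
  have hR' : formalEval N R ≠ 0 := by
    rw [Ne, formalEval_eq_zero_iff]
    exact hR
  -- the formal `n`-th root
  set g : LaurentSeries ℂ := formalEval N P / formalEval N R with hg
  have hgn : g ^ n = coeffMap iota (f : LaurentSeries Kbar) := by
    have h1 : phi N f * thetaC N (R ^ n) = thetaC N (P ^ n) := by
      rw [map_pow, map_pow, ← hG, ← mul_pow, hPR]
    have h2 := (transfer N f (P ^ n) (R ^ n)).1 h1
    rw [map_pow, map_pow] at h2
    rw [hg, div_pow, div_eq_iff (pow_ne_zero n hR')]
    exact h2.symm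
  obtain ⟨y, hy⟩ := exists_coeffMap_eq_of_pow iota hn g (f : LaurentSeries Kbar) hgn
  have hgmem : g ∈ laurentBaseChange ℂ (modularFunctionFieldFull N) :=
    div_mem (formalEval_mem N P) (formalEval_mem N R)
  have hymem : y ∈ modularFunctionFieldBar N := by
    letI : Algebra Kbar ℂ := iota.toAlgebra
    have : coeffMap (algebraMap Kbar ℂ) y ∈ laurentBaseChange ℂ (modularFunctionFieldFull N) := by
      show coeffMap iota y ∈ _
      rw [hy]
      exact hgmem
    exact H1RIG.mem_lbc_of_coeffMap_mem this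
  refine ⟨⟨y, hymem⟩, ?_⟩
  have h3 : qx N ⟨y, hymem⟩ * formalEval N R = formalEval N P := by
    show coeffMap iota y * formalEval N R = formalEval N P
    rw [hy, hg, div_mul_cancel₀ _ hR']
  have h4 := (transfer N ⟨y, hymem⟩ P R).2 h3
  have h5 : G * thetaC N R = phi N ⟨y, hymem⟩ * thetaC N R := by rw [hPR, h4]
  exact mul_right_cancel₀ hR h5

end H1KD
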