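import Mathlib

/-!
# Item 80 (W3-G), slice AN2 (helper4): Eisenstein series with a character of `Γ₀(N)` — coefficients

`χ : Γ₀(N) →* ℂˣ` a character which is trivial on the elements of trace `±2`
(in particular on `±T^b`).  For `v : Fin 2 → ℤ` we put `coef χ v = χ(γ)⁻¹` if `v` is the bottom row
of some `γ ∈ Γ₀(N)` and `0` otherwise.  This is well defined and
`coef χ (v ᵥ* γ₀) = coef χ v * χ(γ₀)⁻¹` for `γ₀ ∈ Γ₀(N)`.
-/

set_option autoImplicit false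

noncomputable section

namespace H4AN2

open Matrix CongruenceSubgroup

open scoped MatrixGroups

variable {N : ℕ}

/-- the character is trivial on the elements of trace `±2` -/
def IsParabolicChar (χ : ↥(Gamma0 N) →* ℂˣ) : Prop :=
  ∀ γ : ↥(Gamma0 N), ((γ : SL(2, ℤ)) : Matrix (Fin 2) (Fin 2) ℤ).trace ^ 2 = 4 → χ γ = 1

/-- the bottom row of a matrix in `SL(2, ℤ)` -/
def botRow (γ : SL(2, ℤ)) : Fin 2 → ℤ := γ.1 1

theorem botRow_mul (γ δ : SL(2, ℤ)) : botRow (γ * δ) = botRow γ ᵥ* δ.1 := by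
  ext j
  simp only [botRow, Matrix.SpecialLinearGroup.coe_mul, Matrix.mul_apply, Matrix.vecMul,
    dotProduct]

theorem botRow_one : botRow (1 : SL(2, ℤ)) = ![0, 1] := by
  ext j
  fin_cases j <;> simp [botRow]

/-- two elements of `SL(2, ℤ)` with the same bottom row differ by an element of trace 2 -/
theorem trace_mul_inv_of_botRow_eq {γ δ : SL(2, ℤ)} (h : botRow γ = botRow δ) :
    ((δ * γ⁻¹ : SL(2, ℤ)) : Matrix (Fin 2) (Fin 2) ℤ).trace = 2 := by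
  have h0 : γ.1 1 0 = δ.1 1 0 := congrFun h 0
  have h1 : γ.1 1 1 = δ.1 1 1 := congrFun h 1
  have hγ := Matrix.det_fin_two γ.1
  have hδ := Matrix.det_fin_two δ.1
  rw [γ.2] at hγ
  rw [δ.2] at hδ
  rw [Matrix.SpecialLinearGroup.coe_mul, Matrix.SpecialLinearGroup.coe_inv,
    Matrix.adjugate_fin_two, Matrix.trace_fin_two]
  simp only [Matrix.mul_apply, Fin.sum_univ_two, Matrix.of_apply, Matrix.cons_val_zero,
    Matrix.cons_val_one, Matrix.cons_val', Matrix.cons_val_fin_one]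
  rw [← h0, ← h1] at hδ ⊢
  linear_combination -hδ - hγ

variable (χ : ↥(Gamma0 N) →* ℂˣ)

theorem char_eq_of_botRow_eq (hχ : IsParabolicChar χ) {γ δ : ↥(Gamma0 N)}
    (h : botRow (γ : SL(2, ℤ)) = botRow (δ : SL(2, ℤ))) : χ γ = χ δ := by
  have h1 : χ (δ * γ⁻¹) = 1 := by
    apply hχ
    have := trace_mul_inv_of_botRow_eq h
    rw [show ((δ * γ⁻¹ : ↥(Gamma0 N)) : SL(2, ℤ)) = (δ : SL(2, ℤ)) * (γ : SL(2, ℤ))⁻¹ from rfl,
      this]
    norm_num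
  rw [map_mul, map_inv, mul_inv_eq_one] at h1
  exact h1.symm

open Classical in
/-- the coefficient `χ(γ)⁻¹` attached to the bottom row of `γ ∈ Γ₀(N)` -/
def coef (v : Fin 2 → ℤ) : ℂ :=
  if h : ∃ γ : ↥(Gamma0 N), botRow (γ : SL(2, ℤ)) = v then (((χ h.choose)⁻¹ : ℂˣ) : ℂ) else 0

theorem coef_botRow (hχ : IsParabolicChar χ) (γ : ↥(Gamma0 N)) :
    coef χ (botRow (γ : SL(2, ℤ))) = (((χ γ)⁻¹ : ℂˣ) : ℂ) := by
  have h : ∃ δ : ↥(Gamma0 N), botRow (δ : SL(2, ℤ)) = botRow (γ : SL(2, ℤ)) := ⟨γ, rfl⟩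
  rw [coef, dif_pos h, char_eq_of_botRow_eq χ hχ h.choose_spec]

theorem coef_of_not_exists {v : Fin 2 → ℤ}
    (h : ¬ ∃ γ : ↥(Gamma0 N), botRow (γ : SL(2, ℤ)) = v) : coef χ v = 0 := by
  rw [coef, dif_neg h]

theorem vecMul_inv_cancel (v : Fin 2 → ℤ) (γ : SL(2, ℤ)) : (v ᵥ* γ.1) ᵥ* (γ⁻¹).1 = v := by
  rw [Matrix.vecMul_vecMul, ← Matrix.SpecialLinearGroup.coe_mul, mul_inv_cancel,
    Matrix.SpecialLinearGroup.coe_one, Matrix.vecMul_one]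

/-- the transformation law of the coefficients -/
theorem coef_vecMul (hχ : IsParabolicChar χ) (v : Fin 2 → ℤ) (γ₀ : ↥(Gamma0 N)) :
    coef χ (v ᵥ* (γ₀ : SL(2, ℤ)).1) = coef χ v * (((χ γ₀)⁻¹ : ℂˣ) : ℂ) := by
  by_cases h : ∃ γ : ↥(Gamma0 N), botRow (γ : SL(2, ℤ)) = v
  · obtain ⟨γ, rfl⟩ := h
    rw [← botRow_mul, show (γ : SL(2, ℤ)) * (γ₀ : SL(2, ℤ)) = ((γ * γ₀ : ↥(Gamma0 N)) : SL(2, ℤ))
      from rfl, coef_botRow χ hχ, coef_botRow χ hχ, map_mul, _root_.mul_inv_rev, Units.val_mul, mul_comm]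
  · have h' : ¬ ∃ γ : ↥(Gamma0 N), botRow (γ : SL(2, ℤ)) = v ᵥ* (γ₀ : SL(2, ℤ)).1 := by
      rintro ⟨γ, hγ⟩
      apply h
      refine ⟨γ * γ₀⁻¹, ?_⟩
      rw [show ((γ * γ₀⁻¹ : ↥(Gamma0 N)) : SL(2, ℤ)) = (γ : SL(2, ℤ)) * (γ₀ : SL(2, ℤ))⁻¹ from rfl,
        botRow_mul, hγ, vecMul_inv_cancel]
    rw [coef_of_not_exists χ h, coef_of_not_exists χ h', zero_mul]

theorem norm_coef_le (hn : ∀ γ, ‖((χ γ : ℂˣ) : ℂ)‖ = 1) (v : Fin 2 → ℤ) : ‖coef χ v‖ ≤ 1 := by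
  by_cases h : ∃ γ : ↥(Gamma0 N), botRow (γ : SL(2, ℤ)) = v
  · rw [coef, dif_pos h, Units.val_inv_eq_inv_val, norm_inv, hn, inv_one]
  · rw [coef_of_not_exists χ h, norm_zero]
    exact zero_le_one

/-- the rows `(0, d)` occurring as bottom rows are `(0, ±1)` -/
theorem botRow_zero_left {γ : SL(2, ℤ)} (h : botRow γ 0 = 0) : botRow γ 1 = 1 ∨ botRow γ 1 = -1 := by
  have hγ := Matrix.det_fin_two γ.1
  rw [γ.2] at hγ
  have h0 : γ.1 1 0 = 0 := h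
  rw [h0, mul_zero, sub_zero] at hγ
  have : IsUnit (γ.1 1 1) := IsUnit.of_mul_eq_one _ (by rw [mul_comm]; exact hγ.symm)
  exact Int.isUnit_iff.mp this

theorem coef_zero_one (hχ : IsParabolicChar χ) : coef χ ![0, 1] = 1 := by
  have := coef_botRow χ hχ 1
  rw [show ((1 : ↥(Gamma0 N)) : SL(2, ℤ)) = 1 from rfl, botRow_one, map_one] at this
  simpa using this

theorem neg_one_mem_Gamma0 : (-1 : SL(2, ℤ)) ∈ Gamma0 N := by
  rw [Gamma0_mem]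
  simp

theorem coef_zero_neg_one (hχ : IsParabolicChar χ) : coef χ ![0, -1] = 1 := by
  have h := coef_botRow χ hχ ⟨-1, neg_one_mem_Gamma0⟩
  have e : botRow (-1 : SL(2, ℤ)) = ![0, -1] := by
    ext j
    fin_cases j <;> simp [botRow]
  have h1 : χ ⟨-1, neg_one_mem_Gamma0⟩ = 1 := by
    apply hχ
    simp
  rw [show ((⟨-1, neg_one_mem_Gamma0⟩ : ↥(Gamma0 N)) : SL(2, ℤ)) = -1 from rfl, e, h1] at h
  simpa using h

end H4AN2

end
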