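import Mathlib
import Fermat.Agent.W3G.AN2Coef_helper4

/-!
# Item 80 (W3-G), slice AN2 (helper4): Eisenstein series with a character of `Γ₀(N)` — the series

`eis χ k z = ∑_v coef χ v (v₀ z + v₁)^(-k)`: summability, the transformation law
`eis (γ z) = χ(γ) (cz+d)^k eis z` for `γ ∈ Γ₀(N)`, the slash action of `SL(2, ℤ)`,
boundedness at all cusps.
-/

set_option autoImplicit false

noncomputable section

namespace H4AN2

open Matrix CongruenceSubgroup UpperHalfPlane ModularForm EisensteinSeries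

open scoped MatrixGroups

variable {N : ℕ} (χ : ↥(Gamma0 N) →* ℂˣ)

/-- the Eisenstein series of weight `k` with character `χ` (sum over all bottom rows; the usual
normalisation is `eis / 2`) -/
def eis (k : ℤ) (z : ℍ) : ℂ := ∑' v : Fin 2 → ℤ, coef χ v * eisSummand k v z

/-- right multiplication by `γ ∈ SL(2, ℤ)` on `ℤ²` -/
def vecMulEquiv (γ : SL(2, ℤ)) : (Fin 2 → ℤ) ≃ (Fin 2 → ℤ) where
  toFun v := v ᵥ* γ.1
  invFun v := v ᵥ* (γ⁻¹).1
  left_inv v := vecMul_inv_cancel v γ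
  right_inv v := by
    have := vecMul_inv_cancel v γ⁻¹
    rwa [inv_inv] at this

@[simp]
theorem vecMulEquiv_apply (γ : SL(2, ℤ)) (v : Fin 2 → ℤ) : vecMulEquiv γ v = v ᵥ* γ.1 := rfl

theorem norm_term_le (hn : ∀ γ, ‖((χ γ : ℂˣ) : ℂ)‖ = 1) (k : ℤ) (v : Fin 2 → ℤ) (z : ℍ) :
    ‖coef χ v * eisSummand k v z‖ ≤ ‖eisSummand k v z‖ := by
  rw [norm_mul]
  exact mul_le_of_le_one_left (norm_nonneg _) (norm_coef_le χ hn v)

theorem summable_term (hn : ∀ γ, ‖((χ γ : ℂˣ) : ℂ)‖ = 1) {k : ℤ} (hk : 3 ≤ k) (z : ℍ) :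
    Summable fun v : Fin 2 → ℤ => coef χ v * eisSummand k v z :=
  Summable.of_norm_bounded (summable_norm_eisSummand hk z) (fun v => norm_term_le χ hn k v z)

/-- the total sum of the norms of the summands -/
def normSum (k : ℤ) (z : ℍ) : ℝ := ∑' v : Fin 2 → ℤ, ‖eisSummand k v z‖

theorem norm_eisSummand_vecMul (k : ℤ) (A : SL(2, ℤ)) (v : Fin 2 → ℤ) (z : ℍ) :
    ‖eisSummand k (v ᵥ* A.1) z‖ = ‖denom A z‖ ^ (-k) * ‖eisSummand k v (A • z)‖ := by
  rw [eisSummand_SL2_apply, norm_mul, norm_zpow, ← mul_assoc, ← zpow_add₀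
    (norm_ne_zero_iff.mpr (denom_ne_zero A z))]
  simp

theorem summable_norm_vecMul {k : ℤ} (hk : 3 ≤ k) (A : SL(2, ℤ)) (z : ℍ) :
    Summable fun v : Fin 2 → ℤ => ‖eisSummand k (v ᵥ* A.1) z‖ :=
  (vecMulEquiv A).summable_iff.mpr (summable_norm_eisSummand hk z)

theorem tsum_norm_vecMul (k : ℤ) (A : SL(2, ℤ)) (z : ℍ) :
    ∑' v : Fin 2 → ℤ, ‖eisSummand k (v ᵥ* A.1) z‖ = normSum k z :=
  (vecMulEquiv A).tsum_eq (fun v => ‖eisSummand k v z‖)

/-- the transformation law under `Γ₀(N)` -/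
theorem eis_smul (hχ : IsParabolicChar χ) (k : ℤ) (γ : ↥(Gamma0 N)) (z : ℍ) :
    eis χ k ((γ : SL(2, ℤ)) • z) = ((χ γ : ℂˣ) : ℂ) * denom (γ : SL(2, ℤ)) z ^ k * eis χ k z := by
  have e : ∀ v : Fin 2 → ℤ, coef χ v * eisSummand k v ((γ : SL(2, ℤ)) • z)
      = (((χ γ : ℂˣ) : ℂ) * denom (γ : SL(2, ℤ)) z ^ k)
        * (coef χ (v ᵥ* (γ : SL(2, ℤ)).1) * eisSummand k (v ᵥ* (γ : SL(2, ℤ)).1) z) := by
    intro v
    rw [eisSummand_SL2_apply, coef_vecMul χ hχ, Units.val_inv_eq_inv_val]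
    have hne : ((χ γ : ℂˣ) : ℂ) ≠ 0 := Units.ne_zero _
    field_simp
  rw [eis, tsum_congr e, tsum_mul_left]
  congr 1
  exact (vecMulEquiv (γ : SL(2, ℤ))).tsum_eq (fun v => coef χ v * eisSummand k v z)

/-- the slash action of `SL(2, ℤ)` -/
theorem eis_slash (k : ℤ) (A : SL(2, ℤ)) (z : ℍ) :
    (eis χ k ∣[k] A) z = ∑' v : Fin 2 → ℤ, coef χ v * eisSummand k (v ᵥ* A.1) z := by
  rw [SL_slash_apply, eis, ← tsum_mul_right]
  refine tsum_congr fun v => ?_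
  rw [eisSummand_SL2_apply, mul_assoc, mul_comm (denom A z ^ k), mul_assoc, ← zpow_add₀
    (denom_ne_zero A z)]
  simp

theorem norm_eis_slash_le (hn : ∀ γ, ‖((χ γ : ℂˣ) : ℂ)‖ = 1) {k : ℤ} (hk : 3 ≤ k)
    (A : SL(2, ℤ)) (z : ℍ) : ‖(eis χ k ∣[k] A) z‖ ≤ normSum k z := by
  rw [eis_slash, ← tsum_norm_vecMul k A z]
  have hs := summable_norm_vecMul hk A z
  have hle : ∀ v : Fin 2 → ℤ, ‖coef χ v * eisSummand k (v ᵥ* A.1) z‖
      ≤ ‖eisSummand k (v ᵥ* A.1) z‖ := by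
    intro v
    rw [norm_mul]
    exact mul_le_of_le_one_left (norm_nonneg _) (norm_coef_le χ hn v)
  have hs' : Summable fun v : Fin 2 → ℤ => ‖coef χ v * eisSummand k (v ᵥ* A.1) z‖ :=
    Summable.of_nonneg_of_le (fun _ => norm_nonneg _) hle hs
  exact (norm_tsum_le_tsum_norm hs').trans (hs'.tsum_le_tsum hle hs)

/-- `normSum` is invariant under `z ↦ z + n` -/
theorem normSum_T_zpow (k : ℤ) (n : ℤ) (z : ℍ) :
    normSum k (ModularGroup.T ^ n • z) = normSum k z := by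
  rw [← tsum_norm_vecMul k (ModularGroup.T ^ n) z, normSum]
  refine tsum_congr fun v => ?_
  rw [norm_eisSummand_vecMul]
  have hd : denom ((ModularGroup.T ^ n : SL(2, ℤ))) z = 1 := by
    rw [ModularGroup.denom_apply, ModularGroup.coe_T_zpow]
    simp
  rw [hd]
  simp

/-- `normSum` is bounded on `Im z ≥ 2` -/
theorem normSum_le {k : ℤ} (hk : 3 ≤ k) (z : ℍ) (hz : 2 ≤ z.im) :
    normSum k z ≤ ∑' x : Fin 2 → ℤ, r ⟨⟨1, 2⟩, Nat.ofNat_pos⟩ ^ (-k) * ‖x‖ ^ (-k) := by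
  obtain ⟨n, hn⟩ := ModularGroup_T_zpow_mem_verticalStrip z (N := 1) one_pos
  have hn' : ModularGroup.T ^ n • z ∈ verticalStrip 1 2 := by
    have h1 := verticalStrip_anti_right ((1 : ℕ) : ℝ) hz hn
    simpa using h1
  rw [← normSum_T_zpow k n z, normSum]
  have hk' : (2 : ℝ) < k := by norm_cast
  apply (summable_norm_eisSummand hk _).tsum_le_tsum _
  · exact_mod_cast (summable_one_div_norm_rpow hk').mul_left <| r ⟨⟨1, 2⟩, Nat.ofNat_pos⟩ ^ (-k)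
  · intro x
    simp_rw [eisSummand, norm_zpow]
    exact_mod_cast
      summand_bound_of_mem_verticalStrip (lt_trans two_pos hk').le x two_pos hn'

/-- the Eisenstein series with character is bounded at every cusp -/
theorem isBoundedAtImInfty_eis_slash (hn : ∀ γ, ‖((χ γ : ℂˣ) : ℂ)‖ = 1) {k : ℤ} (hk : 3 ≤ k)
    (A : SL(2, ℤ)) : IsBoundedAtImInfty (eis χ k ∣[k] A) := by
  rw [UpperHalfPlane.isBoundedAtImInfty_iff]
  exact ⟨_, 2, fun z hz => (norm_eis_slash_le χ hn hk A z).trans (normSum_le hk z hz)⟩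

end H4AN2

end
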