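import Mathlib
import Fermat.Agent.W3G.AN2Series_helper4

/-!
# Item 80 (W3-G), slice AN2 (helper4): Eisenstein series with a character of `Γ₀(N)` —
holomorphy and the value at `i∞`
-/

set_option autoImplicit false

noncomputable section

namespace H4AN2

open Matrix CongruenceSubgroup UpperHalfPlane ModularForm EisensteinSeries Filter Function Complex
  Manifold Topology

open scoped MatrixGroups

variable {N : ℕ} (χ : ↥(Gamma0 N) →* ℂˣ)

theorem eis_tendstoLocallyUniformly (hn : ∀ γ, ‖((χ γ : ℂˣ) : ℂ)‖ = 1) {k : ℤ} (hk : 3 ≤ k) :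
    TendstoLocallyUniformly
      (fun (s : Finset (Fin 2 → ℤ)) ↦ (∑ x ∈ s, coef χ x * eisSummand k x ·))
      (eis χ k ·) Filter.atTop := by
  have hk' : (2 : ℝ) < k := by norm_cast
  have p_sum : Summable fun x : Fin 2 → ℤ ↦ ‖x‖ ^ (-k) :=
    mod_cast (summable_one_div_norm_rpow hk')
  simp only [tendstoLocallyUniformly_iff_forall_isCompact, eis]
  intro K hK
  obtain ⟨A, B, hB, HABK⟩ := subset_verticalStrip_of_isCompact hK
  refine (tendstoUniformlyOn_tsum (hu := p_sum.mul_left <| r ⟨⟨A, B⟩, hB⟩ ^ (-k : ℝ))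
    (fun p z hz ↦ ?_)).mono HABK
  refine (norm_term_le χ hn k p z).trans ?_
  simpa only [eisSummand, one_div, ← _root_.zpow_neg, norm_zpow, ← Real.rpow_intCast,
    Int.cast_neg] using summand_bound_of_mem_verticalStrip (by positivity) p hB hz

theorem eis_tendstoLocallyUniformlyOn (hn : ∀ γ, ‖((χ γ : ℂˣ) : ℂ)‖ = 1) {k : ℤ} (hk : 3 ≤ k) :
    TendstoLocallyUniformlyOn (fun (s : Finset (Fin 2 → ℤ)) ↦
      ↑ₕ(fun (z : ℍ) ↦ ∑ x ∈ s, coef χ x * eisSummand k x z)) (↑ₕ(eis χ k))
          Filter.atTop {z : ℂ | 0 < z.im} := by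
  rw [← upperHalfPlaneSet, ← range_coe, ← Set.image_univ]
  apply TendstoLocallyUniformlyOn.comp (s := ⊤) _ _ _ (OpenPartialHomeomorph.continuousOn_symm _)
  · simp only [Set.top_eq_univ, tendstoLocallyUniformlyOn_univ]
    apply eis_tendstoLocallyUniformly χ hn hk
  · simp only [IsOpenEmbedding.toOpenPartialHomeomorph_target, Set.top_eq_univ,
      Set.mapsTo_range_iff, Set.mem_univ, forall_const]

/-- the Eisenstein series with character is holomorphic -/
theorem eis_mdifferentiable (hn : ∀ γ, ‖((χ γ : ℂˣ) : ℂ)‖ = 1) {k : ℤ} (hk : 3 ≤ k) :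
    MDiff (eis χ k) := by
  intro τ
  suffices DifferentiableAt ℂ (↑ₕ(eis χ k)) τ.1 by
    convert!
      MDifferentiableAt.comp τ (DifferentiableAt.mdifferentiableAt this) τ.mdifferentiable_coe
    exact funext fun z ↦ (comp_ofComplex (eis χ k) z).symm
  refine DifferentiableOn.differentiableAt ?_ (isOpen_upperHalfPlaneSet.mem_nhds τ.2)
  refine (eis_tendstoLocallyUniformlyOn χ hn hk).differentiableOn
    (Eventually.of_forall fun s ↦ ?_) isOpen_upperHalfPlaneSet
  have e : (↑ₕ(fun (z : ℍ) ↦ ∑ x ∈ s, coef χ x * eisSummand k x z))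
      = fun w : ℂ => ∑ x ∈ s, coef χ x * (↑ₕ(eisSummand k x)) w := by
    ext w
    simp
  rw [e]
  exact DifferentiableOn.fun_sum fun x _ ↦
    (differentiableOn_const _).mul (eisSummand_extension_differentiableOn k x)

end H4AN2

end
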