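import Mathlib
import Fermat.Agent.W3G.AN2Hol_helper4

/-!
# Item 80 (W3-G), slice AN2 (helper4): Eisenstein series with a character of `Γ₀(N)` —
the limit at `i∞`

For even `k ≥ 4`: `eis χ k z → 2` as `Im z → ∞` (Tannery's theorem on the strip `|Re z| ≤ 1`
plus periodicity).
-/

set_option autoImplicit false

noncomputable section

namespace H4AN2

open Matrix CongruenceSubgroup UpperHalfPlane ModularForm EisensteinSeries Filter Function Complex
  Topology

open scoped MatrixGroups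

variable {N : ℕ} (χ : ↥(Gamma0 N) →* ℂˣ)

theorem tendsto_eisSummand_atImInfty {k : ℤ} (hk : 1 ≤ k) (v : Fin 2 → ℤ) (hv : v 0 ≠ 0) :
    Tendsto (fun z : ℍ => eisSummand k v z) atImInfty (𝓝 0) := by
  rw [tendsto_zero_iff_norm_tendsto_zero]
  have h1 : Tendsto (fun z : ℍ => (z.im)⁻¹) atImInfty (𝓝 0) :=
    tendsto_inv_atTop_zero.comp tendsto_comap
  have h2 : ∀ᶠ z : ℍ in atImInfty, 1 ≤ z.im := by
    rw [Filter.Eventually, atImInfty_mem]
    exact ⟨1, fun z hz => hz⟩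
  refine squeeze_zero' (Eventually.of_forall fun _ => norm_nonneg _) ?_ h1
  filter_upwards [h2] with z hz
  have hw : z.im ≤ ‖(v 0 : ℂ) * z + v 1‖ := by
    have him : ((v 0 : ℂ) * z + v 1).im = v 0 * z.im := by simp
    have habs : |((v 0 : ℂ) * z + v 1).im| ≤ ‖(v 0 : ℂ) * z + v 1‖ := Complex.abs_im_le_norm _
    rw [him, abs_mul, abs_of_pos z.im_pos] at habs
    have hv1 : (1 : ℝ) ≤ |(v 0 : ℝ)| := by
      have : (1 : ℤ) ≤ |v 0| := Int.one_le_abs hv
      exact_mod_cast this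
    calc z.im = 1 * z.im := (one_mul _).symm
      _ ≤ |(v 0 : ℝ)| * z.im := by gcongr
      _ ≤ _ := habs
  rw [eisSummand, norm_zpow, _root_.zpow_neg]
  have h1w : 1 ≤ ‖(v 0 : ℂ) * z + v 1‖ := hz.trans hw
  have h3 : ‖(v 0 : ℂ) * z + v 1‖ ≤ ‖(v 0 : ℂ) * z + v 1‖ ^ k := by
    have := zpow_le_zpow_right₀ h1w hk
    rwa [zpow_one] at this
  exact inv_anti₀ z.im_pos (hw.trans h3)

/-- the limit of the `v`-th term at `i∞` -/
def limTerm (k : ℤ) (v : Fin 2 → ℤ) : ℂ := if v 0 = 0 then coef χ v * (v 1 : ℂ) ^ (-k) else 0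

theorem tendsto_eis_strip (hn : ∀ γ, ‖((χ γ : ℂˣ) : ℂ)‖ = 1) {k : ℤ} (hk : 3 ≤ k) :
    Tendsto (eis χ k) (atImInfty ⊓ 𝓟 {z : ℍ | |z.re| ≤ 1}) (𝓝 (∑' v, limTerm χ k v)) := by
  have hk' : (2 : ℝ) < k := by norm_cast
  refine tendsto_tsum_of_dominated_convergence
    (bound := fun v : Fin 2 → ℤ => r ⟨⟨1, 2⟩, Nat.ofNat_pos⟩ ^ (-k) * ‖v‖ ^ (-k)) ?_ ?_ ?_
  · exact_mod_cast (summable_one_div_norm_rpow hk').mul_left <| r ⟨⟨1, 2⟩, Nat.ofNat_pos⟩ ^ (-k)
  · intro v
    by_cases hv : v 0 = 0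
    · have e : (fun z : ℍ => coef χ v * eisSummand k v z) = fun _ => limTerm χ k v := by
        ext z
        simp [limTerm, hv, eisSummand]
      rw [e]
      exact tendsto_const_nhds
    · have hk1 : (1 : ℤ) ≤ k := by omega
      have h := (tendsto_eisSummand_atImInfty hk1 v hv).const_mul (coef χ v)
      rw [mul_zero] at h
      simp only [limTerm, hv, if_false]
      exact h.mono_left inf_le_left
  · rw [eventually_inf_principal, Filter.Eventually, atImInfty_mem]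
    refine ⟨2, fun z hz hre v => ?_⟩
    have hmem : z ∈ verticalStrip 1 2 := ⟨hre, hz⟩
    refine (norm_term_le χ hn k v z).trans ?_
    simp_rw [eisSummand, norm_zpow]
    exact_mod_cast summand_bound_of_mem_verticalStrip (lt_trans two_pos hk').le v two_pos hmem

theorem tsum_limTerm (hχ : IsParabolicChar χ) {k : ℤ} (hk : Even k) :
    ∑' v, limTerm χ k v = 2 := by
  have hne : (![0, 1] : Fin 2 → ℤ) ≠ ![0, -1] := by
    intro h
    have := congrFun h 1
    simp at this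
  rw [tsum_eq_sum (s := {![0, 1], ![0, -1]})]
  · rw [Finset.sum_pair hne]
    have h1 : limTerm χ k ![0, 1] = 1 := by
      simp [limTerm, coef_zero_one χ hχ]
    have h2 : limTerm χ k ![0, -1] = 1 := by
      simp [limTerm, coef_zero_neg_one χ hχ, hk.neg_one_zpow]
    rw [h1, h2]
    norm_num
  · intro v hv
    simp only [Finset.mem_insert, Finset.mem_singleton, not_or] at hv
    by_cases hv0 : v 0 = 0
    · simp only [limTerm, hv0, if_true]
      rw [coef_of_not_exists, zero_mul]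
      rintro ⟨γ, hγ⟩
      have h0 : botRow (γ : SL(2, ℤ)) 0 = 0 := by rw [hγ]; exact hv0
      rcases botRow_zero_left h0 with h1 | h1
      · apply hv.1
        ext j
        fin_cases j
        · simpa using hv0
        · rw [← hγ]; simpa using h1
      · apply hv.2
        ext j
        fin_cases j
        · simpa using hv0
        · rw [← hγ]; simpa using h1
    · simp [limTerm, hv0]

theorem T_zpow_mem_Gamma0 (n : ℤ) : ModularGroup.T ^ n ∈ Gamma0 N := by
  rw [Gamma0_mem, ModularGroup.coe_T_zpow]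
  simp

theorem eis_T_zpow (hχ : IsParabolicChar χ) (k n : ℤ) (z : ℍ) :
    eis χ k (ModularGroup.T ^ n • z) = eis χ k z := by
  have h := eis_smul χ hχ k ⟨ModularGroup.T ^ n, T_zpow_mem_Gamma0 n⟩ z
  have hχ1 : χ ⟨ModularGroup.T ^ n, T_zpow_mem_Gamma0 n⟩ = 1 := by
    apply hχ
    rw [show ((⟨ModularGroup.T ^ n, T_zpow_mem_Gamma0 n⟩ : ↥(Gamma0 N)) : SL(2, ℤ))
      = ModularGroup.T ^ n from rfl, ModularGroup.coe_T_zpow, Matrix.trace_fin_two]
    simp
  have hd : denom ((ModularGroup.T ^ n : SL(2, ℤ))) z = 1 := by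
    rw [ModularGroup.denom_apply, ModularGroup.coe_T_zpow]
    simp
  rw [show ((⟨ModularGroup.T ^ n, T_zpow_mem_Gamma0 n⟩ : ↥(Gamma0 N)) : SL(2, ℤ))
      = ModularGroup.T ^ n from rfl, hχ1, hd] at h
  simpa using h

/-- the Eisenstein series with character tends to `2` at `i∞` -/
theorem tendsto_eis_atImInfty (hn : ∀ γ, ‖((χ γ : ℂˣ) : ℂ)‖ = 1) (hχ : IsParabolicChar χ)
    {k : ℤ} (hk : 3 ≤ k) (hk2 : Even k) : Tendsto (eis χ k) atImInfty (𝓝 2) := by
  have h := tendsto_eis_strip χ hn hk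
  rw [tsum_limTerm χ hχ hk2] at h
  rw [tendsto_def] at h ⊢
  intro s hs
  have h1 := h s hs
  rw [mem_inf_principal, atImInfty_mem] at h1
  obtain ⟨A, hA⟩ := h1
  rw [atImInfty_mem]
  refine ⟨A, fun z hz => ?_⟩
  obtain ⟨n, hn'⟩ := ModularGroup_T_zpow_mem_verticalStrip z (N := 1) one_pos
  have hn2 : ModularGroup.T ^ n • z ∈ verticalStrip 1 z.im := by simpa using hn'
  have h2 := hA (ModularGroup.T ^ n • z) (hz.trans hn2.2) hn2.1
  simp only [Set.mem_preimage] at h2 ⊢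
  rwa [eis_T_zpow χ hχ] at h2

end H4AN2

end
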