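import Mathlib
import Fermat.Agent.W3G.AN2Lim_helper4

/-!
# Item 80 (W3-G), slice AN2 (helper4): Eisenstein series of weight 4 with a character of `Γ₀(N)`

* `H4AN2.an2_exists`: for a unitary character `χ` of `Γ₀(N)` which is trivial on the elements of
  trace `±2` there is a holomorphic `E : ℍ → ℂ` with `E(γ z) = χ(γ) (cz+d)⁴ E(z)` for
  `γ ∈ Γ₀(N)`, `E → 1` at `i∞`, and `E ∣[4] δ` bounded at `i∞` for every `δ ∈ SL(2, ℤ)`.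
* `H4AN2.eisPowMF`: if `χⁿ = 1` then `Eⁿ` is a modular form of weight `4 n` on `Γ₀(N)`.
-/

set_option autoImplicit false

noncomputable section

namespace H4AN2

open Matrix CongruenceSubgroup UpperHalfPlane ModularForm EisensteinSeries Filter Function Complex
  Topology Manifold

open scoped MatrixGroups

variable {N : ℕ} (χ : ↥(Gamma0 N) →* ℂˣ)

/-- the normalised Eisenstein series of weight 4 with character `χ` -/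
def eis4 : ℍ → ℂ := (1 / 2 : ℂ) • eis χ 4

theorem eis4_apply (z : ℍ) : eis4 χ z = 1 / 2 * eis χ 4 z := rfl

theorem eis4_mdifferentiable (hn : ∀ γ, ‖((χ γ : ℂˣ) : ℂ)‖ = 1) : MDiff (eis4 χ) :=
  (eis_mdifferentiable χ hn (by norm_num)).const_smul (1 / 2 : ℂ)

theorem eis4_smul (hχ : IsParabolicChar χ) (γ : ↥(Gamma0 N)) (z : ℍ) :
    eis4 χ ((γ : SL(2, ℤ)) • z)
      = ((χ γ : ℂˣ) : ℂ) * denom (γ : SL(2, ℤ)) z ^ 4 * eis4 χ z := by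
  rw [eis4_apply, eis4_apply, eis_smul χ hχ]
  have : denom (γ : SL(2, ℤ)) z ^ (4 : ℤ) = denom (γ : SL(2, ℤ)) z ^ 4 := by norm_cast
  rw [this]
  ring

theorem tendsto_eis4 (hn : ∀ γ, ‖((χ γ : ℂˣ) : ℂ)‖ = 1) (hχ : IsParabolicChar χ) :
    Tendsto (eis4 χ) atImInfty (𝓝 1) := by
  have h := (tendsto_eis_atImInfty χ hn hχ (k := 4) (by norm_num) (by decide)).const_mul
    (1 / 2 : ℂ)
  have e : (1 / 2 : ℂ) * 2 = 1 := by norm_num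
  rw [e] at h
  exact h

theorem eis4_slash (δ : SL(2, ℤ)) : eis4 χ ∣[(4 : ℤ)] δ = (1 / 2 : ℂ) • (eis χ 4 ∣[(4 : ℤ)] δ) := by
  rw [eis4, SL_smul_slash]

theorem isBoundedAtImInfty_eis4_slash (hn : ∀ γ, ‖((χ γ : ℂˣ) : ℂ)‖ = 1) (δ : SL(2, ℤ)) :
    IsBoundedAtImInfty (eis4 χ ∣[(4 : ℤ)] δ) := by
  have h := isBoundedAtImInfty_eis_slash χ hn (k := 4) (by norm_num) δ
  rw [UpperHalfPlane.isBoundedAtImInfty_iff] at h ⊢
  obtain ⟨M, A, hM⟩ := h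
  refine ⟨M, A, fun z hz => ?_⟩
  rw [eis4_slash, Pi.smul_apply, smul_eq_mul, norm_mul]
  have h1 := hM z hz
  have h2 : ‖(1 / 2 : ℂ)‖ ≤ 1 := by
    rw [norm_div, norm_one]
    norm_num
  calc ‖(1 / 2 : ℂ)‖ * ‖(eis χ 4 ∣[(4 : ℤ)] δ) z‖ ≤ 1 * ‖(eis χ 4 ∣[(4 : ℤ)] δ) z‖ := by gcongr
    _ = ‖(eis χ 4 ∣[(4 : ℤ)] δ) z‖ := one_mul _
    _ ≤ M := h1

/-- **AN2**: the Eisenstein series of weight 4 with character `χ`. -/
theorem an2_exists (N : ℕ) [NeZero N] (χ : ↥(Gamma0 N) →* ℂˣ)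
    (hfin : ∀ γ, ‖((χ γ : ℂˣ) : ℂ)‖ = 1)
    (hpar : ∀ γ : ↥(Gamma0 N),
      ((γ : SL(2, ℤ)) : Matrix (Fin 2) (Fin 2) ℤ).trace ^ 2 = 4 → χ γ = 1) :
    ∃ E : ℍ → ℂ, MDiff E ∧
      (∀ (γ : ↥(Gamma0 N)) (z : ℍ),
        E ((γ : SL(2, ℤ)) • z) = ((χ γ : ℂˣ) : ℂ) * denom (γ : SL(2, ℤ)) z ^ 4 * E z) ∧
      Tendsto E atImInfty (𝓝 1) ∧
      ∀ δ : SL(2, ℤ), IsBoundedAtImInfty (E ∣[(4 : ℤ)] δ) :=
  ⟨eis4 χ, eis4_mdifferentiable χ hfin, eis4_smul χ hpar, tendsto_eis4 χ hfin hpar,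
    isBoundedAtImInfty_eis4_slash χ hfin⟩

/-- a character of finite order is unitary -/
theorem norm_eq_one_of_pow_eq_one {n : ℕ} (hn : 0 < n) (h : ∀ γ, χ γ ^ n = 1) (γ : ↥(Gamma0 N)) :
    ‖((χ γ : ℂˣ) : ℂ)‖ = 1 := by
  have h1 : ((χ γ : ℂˣ) : ℂ) ^ n = 1 := by
    have := congrArg (fun u : ℂˣ => (u : ℂ)) (h γ)
    simpa using this
  exact Complex.norm_eq_one_of_pow_eq_one h1 hn.ne'

end H4AN2

end
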