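import Mathlib
import Fermat.Agent.W3G.AN2_helper4

/-!
# Item 80 (W3-G), slice AN2 (helper4): the power `E_χⁿ` as a modular form on `Γ₀(N)`

If `χⁿ = 1` then `E_χⁿ` is a modular form of weight `4 n` on `Γ₀(N)` (trivial character) which
tends to `1` at `i∞`; `g_χ = E_χ / E_1` satisfies `g_χ(γ z) = χ(γ) g_χ(z)`.
-/

set_option autoImplicit false

noncomputable section

namespace H4AN2

open Matrix CongruenceSubgroup UpperHalfPlane ModularForm EisensteinSeries Filter Function Complex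
  Topology Manifold

open scoped MatrixGroups

variable {N : ℕ} (χ : ↥(Gamma0 N) →* ℂˣ)

/-- slash of a power -/
theorem pow_slash (f : ℍ → ℂ) (k : ℤ) (n : ℕ) (A : SL(2, ℤ)) :
    (f ^ n) ∣[(n : ℤ) * k] A = (f ∣[k] A) ^ n := by
  ext z
  rw [SL_slash_apply, Pi.pow_apply, Pi.pow_apply, SL_slash_apply, mul_pow,
    ← zpow_natCast (denom A z ^ (-k)) n, ← _root_.zpow_mul]
  congr 2
  ring

theorem eis4_slash_Gamma0 (hχ : IsParabolicChar χ) (γ : ↥(Gamma0 N)) :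
    eis4 χ ∣[(4 : ℤ)] (γ : SL(2, ℤ)) = ((χ γ : ℂˣ) : ℂ) • eis4 χ := by
  ext z
  rw [SL_slash_apply, eis4_smul χ hχ, Pi.smul_apply, smul_eq_mul]
  have hd : denom (γ : SL(2, ℤ)) z ≠ 0 := denom_ne_zero _ z
  have e : denom (γ : SL(2, ℤ)) z ^ 4 * denom (γ : SL(2, ℤ)) z ^ (-(4 : ℤ)) = 1 := by
    rw [_root_.zpow_neg]
    have : denom (γ : SL(2, ℤ)) z ^ (4 : ℤ) = denom (γ : SL(2, ℤ)) z ^ 4 := by norm_cast
    rw [this]
    exact mul_inv_cancel₀ (pow_ne_zero 4 hd)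
  linear_combination (((χ γ : ℂˣ) : ℂ) * eis4 χ z) * e

theorem isBoundedAtImInfty_pow {f : ℍ → ℂ} (h : IsBoundedAtImInfty f) (n : ℕ) :
    IsBoundedAtImInfty (f ^ n) := by
  rw [UpperHalfPlane.isBoundedAtImInfty_iff] at h ⊢
  obtain ⟨M, A, hM⟩ := h
  refine ⟨M ^ n, A, fun z hz => ?_⟩
  rw [Pi.pow_apply, norm_pow]
  exact pow_le_pow_left₀ (norm_nonneg _) (hM z hz) n

/-- `E_χⁿ` as a modular form of weight `4 n` on `Γ₀(N)`, for `χⁿ = 1` -/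
def eisPowMF [NeZero N] (n : ℕ) (hn : 0 < n) (hχn : ∀ γ, χ γ ^ n = 1)
    (hχ : IsParabolicChar χ) : ModularForm (Gamma0 N) ((n : ℤ) * 4) where
  toFun := eis4 χ ^ n
  slash_action_eq' A hA := by
    obtain ⟨A, (hA : A ∈ Gamma0 N), rfl⟩ := hA
    have h1 := eis4_slash_Gamma0 χ hχ ⟨A, hA⟩
    have h2 : (((χ ⟨A, hA⟩ : ℂˣ) : ℂ)) ^ n = 1 := by
      have := congrArg (fun u : ℂˣ => (u : ℂ)) (hχn ⟨A, hA⟩)
      simpa using this
    change (eis4 χ ^ n) ∣[(n : ℤ) * 4] A = eis4 χ ^ n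
    rw [pow_slash, h1, smul_pow, h2, one_smul]
  holo' := (eis4_mdifferentiable χ (norm_eq_one_of_pow_eq_one χ hn hχn)).pow n
  bdd_at_cusps' {c} hc := by
    rw [Subgroup.IsArithmetic.isCusp_iff_isCusp_SL2Z] at hc
    rw [OnePoint.isBoundedAt_iff_forall_SL2Z hc]
    intro γ _
    rw [pow_slash]
    exact isBoundedAtImInfty_pow
      (isBoundedAtImInfty_eis4_slash χ (norm_eq_one_of_pow_eq_one χ hn hχn) γ) n

theorem eisPowMF_apply [NeZero N] (n : ℕ) (hn : 0 < n) (hχn : ∀ γ, χ γ ^ n = 1)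
    (hχ : IsParabolicChar χ) (z : ℍ) : eisPowMF χ n hn hχn hχ z = eis4 χ z ^ n := rfl

theorem tendsto_eisPowMF [NeZero N] (n : ℕ) (hn : 0 < n) (hχn : ∀ γ, χ γ ^ n = 1)
    (hχ : IsParabolicChar χ) :
    Tendsto (fun z => eisPowMF χ n hn hχn hχ z) atImInfty (𝓝 1) := by
  have h := (tendsto_eis4 χ (norm_eq_one_of_pow_eq_one χ hn hχn) hχ).pow n
  rw [one_pow] at h
  exact h

end H4AN2

end
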