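import Mathlib
import Fermat.Agent.W3G.AN2MF_helper4
import Fermat.Agent.W3G.AN3Defs_helper2

/-!
# Item 80 (W3-G), slice AN2 (helper4): the functions `g_χ = E_χ / E_1` in `Mer`

For a character `χ` of `Γ₀(N)` with `χⁿ = 1`, trivial on the elements of trace `±2`:
`gχ χ ∈ Mer` is nonzero, `precompMer γ (gχ χ) = χ(γ) · gχ χ` for `γ ∈ Γ₀(N)`, and
(given form B of AN3) `(gχ χ)ⁿ ∈ ℂ(j(d z) : d ∣ N)`.
This is the input of the surjectivity of the Kummer map `κ_n` (KUM).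
-/

set_option autoImplicit false

noncomputable section

namespace H4AN2

open Matrix CongruenceSubgroup UpperHalfPlane ModularForm Filter Topology Manifold H24D

open scoped MatrixGroups

variable {N : ℕ} (χ : ↥(Gamma0 N) →* ℂˣ)

theorem eis4_ne_zero (hn : ∀ γ, ‖((χ γ : ℂˣ) : ℂ)‖ = 1) (hχ : IsParabolicChar χ) :
    eis4 χ ≠ 0 := by
  intro h
  have h1 := tendsto_eis4 χ hn hχ
  rw [h] at h1
  have h2 : Tendsto (0 : ℍ → ℂ) atImInfty (𝓝 0) := tendsto_const_nhds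
  exact zero_ne_one (tendsto_nhds_unique h2 h1)

/-- `E_χ` as an element of `Hol` -/
def eisHol (hn : ∀ γ, ‖((χ γ : ℂˣ) : ℂ)‖ = 1) : Hol := ⟨eis4 χ, eis4_mdifferentiable χ hn⟩

theorem eisHol_ne_zero (hn : ∀ γ, ‖((χ γ : ℂˣ) : ℂ)‖ = 1) (hχ : IsParabolicChar χ) :
    eisHol χ hn ≠ 0 := fun h => eis4_ne_zero χ hn hχ (congrArg Subtype.val h)

/-- the automorphy factor `z ↦ c z + d` as an element of `Hol` -/
def denomHol (γ : SL(2, ℤ)) : Hol :=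
  ⟨fun z => denom γ z, by
    have : (fun z : ℍ => denom γ z) = fun z : ℍ => ((γ 1 0 : ℤ) : ℂ) * (z : ℂ) + ((γ 1 1 : ℤ) : ℂ) := by
      funext z
      rw [ModularGroup.denom_apply]
    rw [this]
    exact (mdifferentiable_const.mul mdifferentiable_coe).add mdifferentiable_const⟩

theorem denomHol_ne_zero (γ : SL(2, ℤ)) : denomHol γ ≠ 0 := by
  intro h
  have := congrArg (fun f : Hol => (f : ℍ → ℂ) UpperHalfPlane.I) h
  exact denom_ne_zero γ UpperHalfPlane.I this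

theorem precomp_eisHol (hn : ∀ γ, ‖((χ γ : ℂˣ) : ℂ)‖ = 1) (hχ : IsParabolicChar χ)
    (γ : ↥(Gamma0 N)) :
    precomp (γ : SL(2, ℤ)) (eisHol χ hn)
      = constHol ((χ γ : ℂˣ) : ℂ) * denomHol (γ : SL(2, ℤ)) ^ 4 * eisHol χ hn := by
  apply Subtype.ext
  funext z
  rw [precomp_apply]
  exact eis4_smul χ hχ γ z

theorem one_isParabolicChar : IsParabolicChar (1 : ↥(Gamma0 N) →* ℂˣ) := fun _ _ => rfl

theorem one_norm (γ : ↥(Gamma0 N)) : ‖(((1 : ↥(Gamma0 N) →* ℂˣ) γ : ℂˣ) : ℂ)‖ = 1 := by simp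

/-- the function `g_χ = E_χ / E_1` -/
def gχ (hn : ∀ γ, ‖((χ γ : ℂˣ) : ℂ)‖ = 1) : Mer :=
  algebraMap Hol Mer (eisHol χ hn) / algebraMap Hol Mer (eisHol (1 : ↥(Gamma0 N) →* ℂˣ) one_norm)

theorem algebraMap_ne_zero {f : Hol} (hf : f ≠ 0) : algebraMap Hol Mer f ≠ 0 := by
  intro h
  exact hf ((IsFractionRing.injective Hol Mer) (by rw [h, map_zero]))

theorem gχ_ne_zero (hn : ∀ γ, ‖((χ γ : ℂˣ) : ℂ)‖ = 1) (hχ : IsParabolicChar χ) :
    gχ χ hn ≠ 0 :=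
  div_ne_zero (algebraMap_ne_zero (eisHol_ne_zero χ hn hχ))
    (algebraMap_ne_zero (eisHol_ne_zero 1 one_norm one_isParabolicChar))

/-- the automorphy of `g_χ` -/
theorem precompMer_gχ (hn : ∀ γ, ‖((χ γ : ℂˣ) : ℂ)‖ = 1) (hχ : IsParabolicChar χ)
    (γ : ↥(Gamma0 N)) :
    precompMer (γ : SL(2, ℤ)) (gχ χ hn) = constMer ((χ γ : ℂˣ) : ℂ) * gχ χ hn := by
  have hd : algebraMap Hol Mer (denomHol (γ : SL(2, ℤ))) ≠ 0 :=
    algebraMap_ne_zero (denomHol_ne_zero _)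
  have h1 : algebraMap Hol Mer (eisHol (1 : ↥(Gamma0 N) →* ℂˣ) one_norm) ≠ 0 :=
    algebraMap_ne_zero (eisHol_ne_zero 1 one_norm one_isParabolicChar)
  rw [gχ, map_div₀, precompMer_algebraMap, precompMer_algebraMap, precomp_eisHol χ hn hχ,
    precomp_eisHol 1 one_norm one_isParabolicChar, constMer_apply]
  simp only [map_mul, map_pow, MonoidHom.one_apply, Units.val_one, map_one, one_mul]
  field_simp

/-- **KUM input**: `g_χⁿ ∈ ℂ(j(d z) : d ∣ N)` -/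
theorem gχ_pow_mem [NeZero N] (hB : H2AN3.FormStatement N) (n : ℕ) (hn : 0 < n)
    (hχn : ∀ γ, χ γ ^ n = 1) (hχ : IsParabolicChar χ) :
    gχ χ (norm_eq_one_of_pow_eq_one χ hn hχn) ^ n ∈ H2AN3.KN N := by
  set hu := norm_eq_one_of_pow_eq_one χ hn hχn
  have h1n : ∀ γ : ↥(Gamma0 N), (1 : ↥(Gamma0 N) →* ℂˣ) γ ^ n = 1 := fun γ => by simp
  set F₁ := eisPowMF χ n hn hχn hχ
  set F₂ := eisPowMF (1 : ↥(Gamma0 N) →* ℂˣ) n hn h1n one_isParabolicChar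
  have hF₂ : F₂ ≠ 0 := by
    intro h
    have h2 : eis4 (1 : ↥(Gamma0 N) →* ℂˣ) ^ n = 0 := by
      funext z
      have := congrArg (fun F : ModularForm (Gamma0 N) ((n : ℤ) * 4) => F z) h
      simpa [F₂, eisPowMF_apply] using this
    exact eis4_ne_zero 1 one_norm one_isParabolicChar (pow_eq_zero_iff hn.ne' |>.mp h2)
  obtain ⟨g, hg, hgF⟩ := hB _ F₁ F₂ hF₂
  have e1 : H2AN3.ofFun F₁ F₁.holo' = algebraMap Hol Mer (eisHol χ hu) ^ n := by
    rw [← map_pow]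
    rfl
  have e2 : H2AN3.ofFun F₂ F₂.holo'
      = algebraMap Hol Mer (eisHol (1 : ↥(Gamma0 N) →* ℂˣ) one_norm) ^ n := by
    rw [← map_pow]
    rfl
  have h1 : algebraMap Hol Mer (eisHol (1 : ↥(Gamma0 N) →* ℂˣ) one_norm) ≠ 0 :=
    algebraMap_ne_zero (eisHol_ne_zero 1 one_norm one_isParabolicChar)
  rw [e1, e2] at hgF
  have : gχ χ hu ^ n = g := by
    rw [gχ, div_pow, div_eq_iff (pow_ne_zero n h1)]
    exact hgF.symm
  rw [this]
  exact hg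

end H4AN2

end
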