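import Mathlib
import Fermat.Agent.W3G.AN3_helper10
import Fermat.Agent.W3G.AN3Defs_helper2
import Fermat.Agent.W3G.AN2Mer_helper4

/-!
# Item 80 (W3-G), slice AN3, form B (helper4): bridge

helper10's `H10AN3.h10an3` (the quotient of two modular forms of the same weight on `Γ₀(N)` is
a rational function of the `j(d z)`, `d ∣ N`) gives helper2's interface statement
`H2AN3.FormStatement N` unconditionally; hence `(g_χ)ⁿ ∈ ℂ(j(d z) : d ∣ N)` unconditionally.
-/

set_option autoImplicit false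

noncomputable section

namespace H4AN3

open Matrix CongruenceSubgroup UpperHalfPlane ModularForm Filter Topology Manifold H24D

open scoped MatrixGroups

variable (N : ℕ) [NeZero N]

theorem constMer_mem (c : ℂ) : constMer c ∈ H2AN3.KN N :=
  Subfield.subset_closure (Or.inl ⟨c, rfl⟩)

theorem jdMer_mem (d : RH24.Dv N) : jdMer d ∈ H2AN3.KN N :=
  Subfield.subset_closure (Or.inr ⟨d, rfl⟩)

theorem polyMer_mem (P : MvPolynomial (RH24.Dv N) ℂ) :
    algebraMap Hol Mer (polyHol N P) ∈ H2AN3.KN N := by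
  rw [← eval₂_constMer]
  induction P using MvPolynomial.induction_on with
  | C a =>
    rw [MvPolynomial.eval₂_C]
    exact constMer_mem N a
  | add p q hp hq =>
    rw [MvPolynomial.eval₂_add]
    exact add_mem hp hq
  | mul_X p d hp =>
    rw [MvPolynomial.eval₂_mul, MvPolynomial.eval₂_X]
    exact mul_mem hp (jdMer_mem N d)

/-- **AN3, form B** (unconditional): a quotient of two modular forms of the same weight on
`Γ₀(N)` lies in `ℂ(j(d z) : d ∣ N)`. -/
theorem formStatement : H2AN3.FormStatement N := by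
  intro k F₁ F₂ hF₂
  have hb : (⇑F₂ : ℍ → ℂ) ≠ 0 := by
    intro h0
    apply hF₂
    ext z
    exact congrFun h0 z
  obtain ⟨P, Q, ⟨z₀, hz₀⟩, h⟩ := H10AN3.h10an3 N F₁ F₂ hb
  have hQ0 : polyHol N Q ≠ 0 := by
    intro h0
    apply hz₀
    rw [← polyHol_apply, h0]
    rfl
  have hQ0' : algebraMap Hol Mer (polyHol N Q) ≠ 0 := by
    rw [Ne, map_eq_zero_iff _ (IsFractionRing.injective Hol Mer)]
    exact hQ0
  refine ⟨algebraMap Hol Mer (polyHol N P) / algebraMap Hol Mer (polyHol N Q),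
    div_mem (polyMer_mem N P) (polyMer_mem N Q), ?_⟩
  rw [div_mul_eq_mul_div, div_eq_iff hQ0']
  unfold H2AN3.ofFun
  rw [← map_mul, ← map_mul]
  congr 1
  apply Subtype.ext
  funext z
  have := h z
  show (polyHol N P : ℍ → ℂ) z * F₂ z = F₁ z * (polyHol N Q : ℍ → ℂ) z
  rw [polyHol_apply, polyHol_apply, this]
  ring

end H4AN3

namespace H4AN2

open Matrix CongruenceSubgroup UpperHalfPlane ModularForm Filter Topology Manifold H24D

open scoped MatrixGroups

variable {N : ℕ} (χ : ↥(Gamma0 N) →* ℂˣ)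

/-- **KUM input** (unconditional): `g_χⁿ ∈ ℂ(j(d z) : d ∣ N)` -/
theorem gχ_pow_mem' [NeZero N] (n : ℕ) (hn : 0 < n)
    (hχn : ∀ γ, χ γ ^ n = 1) (hχ : IsParabolicChar χ) :
    gχ χ (norm_eq_one_of_pow_eq_one χ hn hχn) ^ n ∈ H2AN3.KN N :=
  gχ_pow_mem χ (H4AN3.formStatement N) n hn hχn hχ

end H4AN2

end
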