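import Mathlib
import Fermat.Agent.W3G.KUMDefs_helper8
import Fermat.Agent.W3G.AN3Form_helper4

/-!
# Item 80 (W3-G), slice KUM, sub-slice K-SURJ (helper4)

`H4KUM.kumSurj_of_rigOrd : RigOrdStatement N n → KumSurjStatement N n` (`0 < n`):
for a character `χ` of `Γ₀(N)` with values in the `n`-th roots of unity, trivial on parabolic and
elliptic elements, the function `g_χ = E_χ / E_1 ∈ Mer` (`H4AN2.gχ`) has multiplier `χ` and
`g_χⁿ ∈ ℂ(j(d z) : d ∣ N)` (AN3 form B); `RigOrdStatement` corrects it to a Kummer generator of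
an `n`-torsion class over `ℚ̄`.
-/

set_option autoImplicit false

noncomputable section

namespace H4KUM

open Matrix CongruenceSubgroup UpperHalfPlane ModularForm Filter Topology Manifold H24D
  AlgebraicCurve ModularCurve H8KUM

open scoped MatrixGroups

variable (N : ℕ) [NeZero N]

/-- constants are invariant -/
theorem precompMer_constMer (γ : SL(2, ℤ)) (c : ℂ) : precompMer γ (constMer c) = constMer c := by
  have h0 : precomp γ (constHol c) = constHol c := by
    apply Subtype.ext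
    funext z
    rfl
  rw [constMer_apply, precompMer_algebraMap, h0]

/-- the `j(d z)`, `d ∣ N`, are `Γ₀(N)`-invariant -/
theorem precompMer_jdMer (γ : SL(2, ℤ)) (hγ : γ ∈ Gamma0 N) (d : RH24.Dv N) :
    precompMer γ (jdMer d) = jdMer d := by
  have h0 : precomp γ (jdHol d) = jdHol d := by
    apply Subtype.ext
    funext z
    show RH24.jd d.1 (γ • z) = RH24.jd d.1 z
    exact RH24.jd_smul_of_mem_Gamma0 N d γ hγ z
  unfold jdMer
  rw [precompMer_algebraMap, h0]

/-- the field `ℂ(j(d z) : d ∣ N)` consists of `Γ₀(N)`-invariant functions -/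
theorem precompMer_of_mem_KN (γ : SL(2, ℤ)) (hγ : γ ∈ Gamma0 N) {h : Mer}
    (hh : h ∈ H2AN3.KN N) : precompMer γ h = h := by
  have hle : H2AN3.KN N ≤ (precompMer γ).eqLocusField (RingHom.id Mer) := by
    unfold H2AN3.KN
    rw [Subfield.closure_le]
    rintro x (⟨c, rfl⟩ | ⟨d, rfl⟩)
    · exact precompMer_constMer γ c
    · exact precompMer_jdMer N γ hγ d
  exact hle hh

/-- a divisor class `[D]` with `n D = div f` is `n`-torsion -/
theorem nsmul_mk_eq_zero {K F : Type*} [Field K] [Field F] [Algebra K F] (n : ℕ)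
    (D : Divisor.degZero (K := K) (F := F)) (f : F) (hf : f ≠ 0)
    (hD : ∀ v : Place K F, (n : ℤ) * (D : Divisor K F) v = v.ord f) :
    (n : ℤ) • Pic0.mk D = 0 := by
  have h1 : (n : ℤ) • Pic0.mk D = Pic0.mk ((n : ℤ) • D) := rfl
  rw [h1]
  refine (QuotientAddGroup.eq_zero_iff _).mpr ?_
  rw [AddSubgroup.mem_addSubgroupOf]
  refine ⟨f, hf, fun v => ?_⟩
  rw [← hD v]
  simp

/-- **K-SURJ**: surjectivity of the Kummer map from `RigOrdStatement`. -/
theorem kumSurj_of_rigOrd (n : ℕ) (hn : 0 < n) (hR : RigOrdStatement N n) :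
    KumSurjStatement N n := by
  intro χ hχn hχ
  have hu := H4AN2.norm_eq_one_of_pow_eq_one χ hn hχn
  have hpar : H4AN2.IsParabolicChar χ := by
    intro γ hγ
    have := hχ γ (Or.inl hγ)
    exact Units.ext this
  obtain ⟨H, f, D, hH, hH0, hf, hGH, hD⟩ :=
    hR (H4AN2.gχ χ hu) (fun γ => ((χ γ : ℂˣ) : ℂ)) (H4AN2.gχ_ne_zero χ hu hpar)
      (H4AN2.gχ_pow_mem' χ n hn hχn hpar) hχ (fun γ => H4AN2.precompMer_gχ χ hu hpar γ)
  refine ⟨Pic0.mk D, nsmul_mk_eq_zero n D f hf hD, D, f, H4AN2.gχ χ hu * H, rfl, hf, hD, hGH,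
    fun γ => ?_⟩
  rw [map_mul, H4AN2.precompMer_gχ χ hu hpar γ, precompMer_of_mem_KN N _ γ.2 hH, mul_assoc]

end H4KUM

end
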