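import Fermat.Agent.W3G.KUMDefs_helper8
import Fermat.Agent.RRD.Principal
import Fermat.Agent.S24.BDegreeFinal

/-!
# Item 80 (W3G), KUM sub-slice K-UNIT (helper16)

`H16KU.h16_isRealisation N : H8KUM.IsRealisation (AlgebraicClosure ℚ) (Gamma0 N) (H24D.phi N)`:
the analytic realisation `phi N` of `ℚ̄ · F_N` sends constants to constants, is
`Γ₀(N)`-invariant, and a function without zeros and poles is constant.
-/

set_option autoImplicit false

noncomputable section

open UpperHalfPlane AlgebraicCurve CongruenceSubgroup ModularCurve IntermediateField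
open scoped MatrixGroups

namespace H16KU

/-- a function in `ℚ̄ · F_N` without poles is constant -/
theorem h16_const_of_ord_nonneg (N : ℕ) [NeZero N] (u : modularFunctionFieldBar N)
    (hu : ∀ v : Place (AlgebraicClosure ℚ) (modularFunctionFieldBar N), 0 ≤ v.ord u) :
    ∃ c : AlgebraicClosure ℚ, u = algebraMap (AlgebraicClosure ℚ) (modularFunctionFieldBar N) c := by
  have hfd : FiniteDimensional RH24.Kbar⟮RH24.Jbar N⟯ (modularFunctionFieldBar N) :=
    (RH24.B_degree N).1
  have hcz : CharZero ↥RH24.Kbar⟮RH24.Jbar N⟯ :=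
    charZero_of_injective_algebraMap (algebraMap RH24.Kbar ↥RH24.Kbar⟮RH24.Jbar N⟯).injective
  have halg : Algebra.IsAlgebraic ↥RH24.Kbar⟮RH24.Jbar N⟯ (modularFunctionFieldBar N) :=
    Algebra.IsAlgebraic.of_finite _ _
  have hsep : Algebra.IsSeparable ↥RH24.Kbar⟮RH24.Jbar N⟯ (modularFunctionFieldBar N) :=
    Algebra.IsAlgebraic.isSeparable_of_perfectField
  exact RRD.exists_const_of_ord_eq_zero (RH24.Jbar N) (RH24.B_transcendental N) u hu

/-- **K-UNIT** -/
theorem h16_isRealisation (N : ℕ) [NeZero N] :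
    H8KUM.IsRealisation (AlgebraicClosure ℚ) (Gamma0 N) (H24D.phi N) where
  const c := ⟨RH24.iota c, H24D.phi_const N c⟩
  inv γ hγ h := H24D.precompMer_phi N γ hγ h
  unit u _ hord := h16_const_of_ord_nonneg N u (fun v => (hord v).ge)

end H16KU

end
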