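/-
Item 80 (W3-G), wiring (lead): `S42` and `S29` from `RigOrdStatement` alone.
All other inputs are landed: EXT-A (helper11), EigenMod assembly (helper11), ES (helper10),
K-KUM assembly (helper8), K-SURJ (helper4), K-DESC (helper1), AN3-A (helper2), K-UNIT (helper16),
HpeHecke (helper13).
-/
import Fermat.Agent.W3G.ASM29_lead
import Fermat.Agent.W3G.ASM42_lead
import Fermat.Agent.W3G.ExtAFinal_helper11
import Fermat.Agent.W3G.EigenMod_helper11
import Fermat.Agent.W3G.ESFinal_helper10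
import Fermat.Agent.W3G.KUMKum_helper8
import Fermat.Agent.W3G.KUMSurj_helper4
import Fermat.Agent.W3G.KUMDesc_helper1
import Fermat.Agent.W3G.KUMUnit_helper16
import Fermat.Agent.W3G.HpeHecke_helper13
import Fermat.Agent.W3G.AN3Alg2_helper2

set_option autoImplicit false

namespace LeadASM

open H11W3G

/-- `KumStatement` from `RigOrdStatement`. -/
theorem kum_of_rigOrd (M : ℕ) [NeZero M]
    (hR : ∀ n : ℕ, 0 < n → H8KUM.RigOrdStatement M n) : KumStatement M :=
  H8KUM.h8k_kumStatement (H16KU.h16_isRealisation M)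
    (fun _ hn => H1KD.invRoot M hn (H2AN3.algStatement M))
    (fun n hn => H4KUM.kumSurj_of_rigOrd M n hn (hR n hn))
    (H13E0.hpeHeckeStatement M)

/-- `EigenModStatement` from `RigOrdStatement`. -/
theorem eigenMod_of_rigOrd (M : ℕ) [NeZero M]
    (hR : ∀ n : ℕ, 0 < n → H8KUM.RigOrdStatement M n) : EigenModStatement M :=
  h11em_eigenMod M (kum_of_rigOrd M hR) (H10ES.h10es_inertiaStatement_final M)
    (H10ES.h10es_frobeniusStatement_final M)

/-- **S42** from `RigOrdStatement`. -/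
theorem s42_of_rigOrd
    (hR : ∀ (M : ℕ) [NeZero M] (n : ℕ), 0 < n → H8KUM.RigOrdStatement M n) (P : FreyPackage) :
    ∀ M : ℕ, 0 < M → P.EigenformResidualAttachmentAt M :=
  s42_of h11xa_extAMod (fun M _ => eigenMod_of_rigOrd M (hR M)) P

/-- **S29** from `RigOrdStatement`. -/
theorem s29_of_rigOrd
    (hR : ∀ (M : ℕ) [NeZero M] (n : ℕ), 0 < n → H8KUM.RigOrdStatement M n)
    {N : ℕ} {g : CuspForm (CongruenceSubgroup.Gamma0 N) 2} (hg : g.IsNormalizedEigenform)
    {p : ℕ} (hp : p.Prime) {k : Type} [Field k] [CharP k p]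
    (φ : integralClosure ℤ ℂ →+* k) :
    ∃ ρ : ResidualGaloisRep k, ρ.IsAttachedTo g φ ∧
      ∀ ℓ : ℕ, ℓ.Prime → ¬ ℓ ∣ N * p → ρ.IsUnramifiedAt ℓ :=
  s29_of h11xa_extAMod (fun M _ => eigenMod_of_rigOrd M (hR M)) hg hp φ

end LeadASM
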