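/-
Item 80 (W3-G): `RigOrdStatement` is unconditional (DESCENT helper10, ORD-CUSP helper16,
ORD-ELL helper6, assembly helper27), hence so are `EigenModStatement`, `S42` and `S29`.
-/
import Fermat.Agent.W3G.Wire_lead
import Fermat.Agent.W3G.RIGAsm_helper27
import Fermat.Agent.W3G.RIGDescentFinal_helper10
import Fermat.Agent.W3G.RIGOrdCuspAsm_helper16
import Fermat.Agent.W3G.OrdEll_helper6

set_option autoImplicit false

namespace LeadASM

open H11W3G

/-- **RIGORD**, unconditional. -/
theorem rigOrd_final (M : ℕ) [NeZero M] (n : ℕ) : H8KUM.RigOrdStatement M n :=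
  H27RIG.rigOrd_of' M n (fun hn => H10RIG.descent M n hn) (fun _ => H16OC.h16_ordCusp M n)
    (fun _ => H6ORD.h6oe_ordEll M n)

/-- **KUM**, unconditional. -/
theorem kum_final (M : ℕ) [NeZero M] : KumStatement M :=
  kum_of_rigOrd M (fun n _ => rigOrd_final M n)

/-- **EigenMod**, unconditional. -/
theorem eigenMod_final (M : ℕ) [NeZero M] : EigenModStatement M :=
  eigenMod_of_rigOrd M (fun n _ => rigOrd_final M n)

end LeadASM
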