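import Mathlib

/-!
# Item 80 (W3-G), slice EIGH-adic, part 1 (helper29): the elimination lemma

`R` a commutative ring, `χ : R → O` a character with values in a domain, `P` an `R`-module,
`u : ι → P` a family such that finitely many `u i` (`i ∈ s`) span all of them and such that only
`d ∈ ker χ` can kill all `u i`.  Then there is a nonzero function `φ : ι → O` which satisfies
every `R`-linear relation among the `u i`, specialised along `χ`
(`H29EA.h29ea_nakGen`).

This is the statement "`ker χ` is an associated prime of the module spanned by the `u i`, up to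
torsion", proved by elimination of the generators one at a time (no localisation, no fraction
field).
-/

set_option autoImplicit false
set_option linter.style.longLine false
set_option linter.unusedSectionVars false
set_option linter.unusedVariables false

noncomputable section

namespace H29EA

section NAK

variable {R : Type*} [CommRing R] {O : Type*} [CommRing O] [IsDomain O] (χ : R →+* O)
variable {P : Type*} [AddCommGroup P] [Module R P] {ι : Type*}

/-- **Elimination lemma**: a nonzero solution `c` of all `χ`-specialised relations among the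
`u i`, `i ∈ s`. -/
theorem h29ea_nak [DecidableEq ι] (u : ι → P) (s : Finset ι)
    (H : ∀ d : R, (∀ i ∈ s, d • u i = 0) → χ d = 0) :
    ∃ c : ι → O, (∃ i ∈ s, c i ≠ 0) ∧
      ∀ r : ι → R, ∑ i ∈ s, r i • u i = 0 → ∑ i ∈ s, χ (r i) * c i = 0 := by
  induction s using Finset.induction_on with
  | empty =>
    exfalso
    have h1 : χ 1 = 0 := H 1 (by simp)
    rw [map_one] at h1
    exact one_ne_zero h1
  | insert i₀ s' hi₀ ih =>
    by_cases hcase : ∀ r : ι → R, ∑ i ∈ insert i₀ s', r i • u i = 0 → χ (r i₀) = 0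
    · refine ⟨fun i => if i = i₀ then 1 else 0, ⟨i₀, Finset.mem_insert_self _ _, by simp⟩, ?_⟩
      intro r hr
      rw [Finset.sum_insert hi₀]
      beta_reduce
      have h0 : ∑ i ∈ s', χ (r i) * (if i = i₀ then (1 : O) else 0) = 0 := by
        apply Finset.sum_eq_zero
        intro i hi
        have hne : i ≠ i₀ := fun h => hi₀ (h ▸ hi)
        rw [if_neg hne, mul_zero]
      rw [h0, add_zero, if_pos rfl, mul_one]
      exact hcase r hr
    · push Not at hcase
      obtain ⟨r0, hr0, ht⟩ := hcase
      rw [Finset.sum_insert hi₀] at hr0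
      have e2 : ∑ i ∈ s', r0 i • u i = -(r0 i₀ • u i₀) := eq_neg_of_add_eq_zero_right hr0
      have H' : ∀ d : R, (∀ i ∈ s', d • u i = 0) → χ d = 0 := by
        intro d hd
        have h1 : χ (d * r0 i₀) = 0 := by
          apply H
          intro i hi
          rcases Finset.mem_insert.mp hi with rfl | hi
          · have h2 : r0 i • u i = -∑ j ∈ s', r0 j • u j := by
              rw [e2, neg_neg]
            rw [mul_smul, h2, smul_neg, Finset.smul_sum, neg_eq_zero]
            apply Finset.sum_eq_zero
            intro j hj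
            rw [smul_comm, hd j hj, smul_zero]
          · rw [mul_comm, mul_smul, hd i hi, smul_zero]
        rw [map_mul] at h1
        rcases mul_eq_zero.mp h1 with h | h
        · exact h
        · exact absurd h ht
      obtain ⟨c'', ⟨i₁, hi₁, hc₁⟩, hrel⟩ := ih H'
      refine ⟨fun i => if i = i₀ then -∑ j ∈ s', χ (r0 j) * c'' j else χ (r0 i₀) * c'' i,
        ⟨i₁, Finset.mem_insert_of_mem hi₁, ?_⟩, ?_⟩
      · have hne : i₁ ≠ i₀ := fun h => hi₀ (h ▸ hi₁)
        simp only [if_neg hne]
        exact mul_ne_zero ht hc₁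
      · intro r hr
        rw [Finset.sum_insert hi₀] at hr ⊢
        beta_reduce
        have e1 : ∑ i ∈ s', r i • u i = -(r i₀ • u i₀) := eq_neg_of_add_eq_zero_right hr
        have hrel0 : ∑ i ∈ s', (r0 i₀ * r i - r i₀ * r0 i) • u i = 0 := by
          simp only [sub_smul, mul_smul, Finset.sum_sub_distrib, ← Finset.smul_sum]
          rw [e1, e2, smul_neg, smul_neg, smul_comm (r0 i₀) (r i₀), sub_self]
        have h3 := hrel _ hrel0
        simp only [map_sub, map_mul, sub_mul, Finset.sum_sub_distrib] at h3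
        have h4 : ∑ i ∈ s', χ (r i) * (if i = i₀ then -∑ j ∈ s', χ (r0 j) * c'' j
            else χ (r0 i₀) * c'' i) = ∑ i ∈ s', χ (r i) * (χ (r0 i₀) * c'' i) := by
          apply Finset.sum_congr rfl
          intro i hi
          have hne : i ≠ i₀ := fun h => hi₀ (h ▸ hi)
          rw [if_neg hne]
        rw [h4, if_pos rfl]
        have h5 : ∑ i ∈ s', χ (r0 i₀) * χ (r i) * c'' i = ∑ i ∈ s', χ (r i) * (χ (r0 i₀) * c'' i) :=
          Finset.sum_congr rfl fun i _ => by ring
        have h6 : ∑ i ∈ s', χ (r i₀) * χ (r0 i) * c'' i = χ (r i₀) * ∑ j ∈ s', χ (r0 j) * c'' j := by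
          rw [Finset.mul_sum]
          exact Finset.sum_congr rfl fun i _ => by ring
        rw [h5, h6] at h3
        linear_combination h3

/-- **Elimination lemma, global form**: a nonzero function `φ : ι → O` satisfying all
`χ`-specialised relations `∑ u (g k) = a • u i₀`. -/
theorem h29ea_nakGen (u : ι → P) (s : Finset ι)
    (hspan : ∀ i, ∃ n : ι → R, u i = ∑ j ∈ s, n j • u j)
    (H : ∀ d : R, (∀ i ∈ s, d • u i = 0) → χ d = 0) :
    ∃ φ : ι → O, (∃ i, φ i ≠ 0) ∧
      ∀ (κ : Type) (t : Finset κ) (g : κ → ι) (a : R) (i₀ : ι),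
        ∑ k ∈ t, u (g k) = a • u i₀ → ∑ k ∈ t, φ (g k) = χ a * φ i₀ := by
  classical
  obtain ⟨c, ⟨i₁, hi₁, hc₁⟩, hrel⟩ := h29ea_nak χ u s H
  choose n hn using hspan
  set φ : ι → O := fun i => ∑ j ∈ s, χ (n i j) * c j with hφ
  have key : ∀ (κ : Type) (t : Finset κ) (g : κ → ι) (a : R) (i₀ : ι),
      ∑ k ∈ t, u (g k) = a • u i₀ → ∑ k ∈ t, φ (g k) = χ a * φ i₀ := by
    intro κ t g a i₀ h
    have h1 : ∑ j ∈ s, (∑ k ∈ t, n (g k) j - a * n i₀ j) • u j = 0 := by
      simp only [sub_smul, Finset.sum_sub_distrib, Finset.sum_smul, mul_smul]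
      rw [Finset.sum_comm, ← Finset.smul_sum, ← hn i₀, ← h, sub_eq_zero]
      exact Finset.sum_congr rfl fun k _ => (hn (g k)).symm
    have h2 := hrel _ h1
    simp only [map_sub, map_sum, map_mul, sub_mul, Finset.sum_sub_distrib, Finset.sum_mul] at h2
    rw [sub_eq_zero, Finset.sum_comm] at h2
    simp only [hφ, Finset.mul_sum]
    rw [h2]
    exact Finset.sum_congr rfl fun j _ => by ring
  refine ⟨φ, ⟨i₁, ?_⟩, key⟩
  -- `φ i₁ = c i₁`
  have h1 : ∑ j ∈ s, ((if j = i₁ then (1 : R) else 0) - n i₁ j) • u j = 0 := by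
    simp only [sub_smul, Finset.sum_sub_distrib, ite_smul, one_smul, zero_smul]
    rw [Finset.sum_ite_eq' s i₁, if_pos hi₁, ← hn i₁, sub_self]
  have h2 := hrel _ h1
  simp only [map_sub, sub_mul, Finset.sum_sub_distrib] at h2
  have h3 : ∑ j ∈ s, χ (if j = i₁ then (1 : R) else 0) * c j = c i₁ := by
    have : ∀ j ∈ s, χ (if j = i₁ then (1 : R) else 0) * c j = if j = i₁ then c j else 0 := by
      intro j _
      split_ifs <;> simp
    rw [Finset.sum_congr rfl this, Finset.sum_ite_eq' s i₁, if_pos hi₁]
  rw [h3, sub_eq_zero] at h2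
  show φ i₁ ≠ 0
  rw [hφ]
  simp only
  rw [← h2]
  exact hc₁

end NAK

end H29EA
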