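import Mathlib

/-!
# Item 80 (W3-G), slice EIGH-adic, part 2 (helper29): homomorphisms `Γ → O` and `O ⊗ Hom(Γ, ℤ)`

`Γ` a finitely generated group, `L ⊆ Hom(Γ, ℤ)` a submodule, `O` a torsion-free commutative ring.

* `H29EA.h29ea_ev O L γ : O ⊗[ℤ] L →ₗ[O] O`, the evaluation at `γ`;
* `H29EA.h29ea_ev_baseChange` : evaluation of `T.baseChange O v` for an operator `T` on `L` given by
  a transfer formula;
* `H29EA.h29ea_ev_injective` : an element of `O ⊗ L` with vanishing evaluations at a finite set of
  generators vanishes (flatness of `O` over `ℤ`);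
* `H29EA.h29ea_exists_tensor` : every homomorphism `φ : Γ → O` vanishing on a set `Par`, where `L`
  contains all homomorphisms `Γ → ℤ` vanishing on `Par`, is the evaluation of an element of
  `O ⊗ L`.
-/

set_option autoImplicit false
set_option linter.style.longLine false
set_option linter.unusedSectionVars false
set_option linter.unusedVariables false
set_option linter.style.haveILetI false

noncomputable section

open TensorProduct

namespace H29EA

section EV

variable {Γ : Type*} [Group Γ] (O : Type*) [CommRing O] (L : Submodule ℤ (Additive Γ →+ ℤ))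

/-- evaluation at `γ` on `L ⊆ Hom(Γ, ℤ)` -/
def h29ea_evL (γ : Γ) : L →ₗ[ℤ] ℤ where
  toFun lam := (lam : Additive Γ →+ ℤ) (Additive.ofMul γ)
  map_add' _ _ := rfl
  map_smul' _ _ := rfl

@[simp] theorem h29ea_evL_apply (γ : Γ) (lam : L) :
    h29ea_evL L γ lam = (lam : Additive Γ →+ ℤ) (Additive.ofMul γ) := rfl

/-- evaluation at `γ` on `O ⊗ L` -/
def h29ea_ev (γ : Γ) : O ⊗[ℤ] L →ₗ[O] O :=
  (TensorProduct.AlgebraTensorModule.rid ℤ O O).toLinearMap ∘ₗ (h29ea_evL L γ).baseChange O

theorem h29ea_ev_tmul (γ : Γ) (o : O) (lam : L) :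
    h29ea_ev O L γ (o ⊗ₜ[ℤ] lam) = ((lam : Additive Γ →+ ℤ) (Additive.ofMul γ)) • o := by
  simp only [h29ea_ev, LinearMap.comp_apply, LinearMap.baseChange_tmul, LinearEquiv.coe_coe,
    TensorProduct.AlgebraTensorModule.rid_tmul, h29ea_evL_apply]

/-- evaluation of a transfer operator -/
theorem h29ea_ev_baseChange (T : L →ₗ[ℤ] L) {X : Type*} [Fintype X] (γ : Γ) (δ : X → Γ)
    (hT : ∀ lam : L, (T lam : Additive Γ →+ ℤ) (Additive.ofMul γ) =
      ∑ x : X, (lam : Additive Γ →+ ℤ) (Additive.ofMul (δ x)))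
    (v : O ⊗[ℤ] L) :
    h29ea_ev O L γ (T.baseChange O v) = ∑ x : X, h29ea_ev O L (δ x) v := by
  induction v using TensorProduct.induction_on with
  | zero => simp
  | tmul o lam =>
    rw [LinearMap.baseChange_tmul, h29ea_ev_tmul, hT, Finset.sum_smul]
    exact Finset.sum_congr rfl fun x _ => (h29ea_ev_tmul O L (δ x) o lam).symm
  | add a b ha hb =>
    rw [map_add, map_add, ha, hb, ← Finset.sum_add_distrib]
    exact Finset.sum_congr rfl fun x _ => (map_add _ _ _).symm

/-- a homomorphism `Γ → ℤ` vanishing on a generating set vanishes -/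
theorem h29ea_hom_eq_zero {S : Set Γ} (hS : Subgroup.closure S = ⊤) {A : Type*} [AddGroup A]
    (v : Additive Γ →+ A) (h : ∀ s ∈ S, v (Additive.ofMul s) = 0) : v = 0 := by
  refine AddMonoidHom.ext fun γ => ?_
  have hγ : Additive.toMul γ ∈ Subgroup.closure S := by rw [hS]; exact Subgroup.mem_top _
  have key : ∀ x : Γ, x ∈ Subgroup.closure S → v (Additive.ofMul x) = 0 := by
    intro x hx
    induction hx using Subgroup.closure_induction with
    | mem x hx => exact h x hx
    | one => exact map_zero v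
    | mul x y _ _ hx hy =>
        have : Additive.ofMul (x * y) = Additive.ofMul x + Additive.ofMul y := rfl
        rw [this, map_add, hx, hy, add_zero]
    | inv x _ hx =>
        have : Additive.ofMul x⁻¹ = -Additive.ofMul x := rfl
        rw [this, map_neg, hx, neg_zero]
  exact key _ hγ

/-- **injectivity of the evaluations** -/
theorem h29ea_ev_injective [Module.Flat ℤ O] (s : Finset Γ)
    (hs : Subgroup.closure (↑s : Set Γ) = ⊤) (v : O ⊗[ℤ] L)
    (h : ∀ γ ∈ s, h29ea_ev O L γ v = 0) : v = 0 := by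
  classical
  -- the evaluation at the generators
  let evS : L →ₗ[ℤ] ((↥s) → ℤ) :=
    { toFun := fun lam i => (lam : Additive Γ →+ ℤ) (Additive.ofMul (i : Γ))
      map_add' := fun _ _ => rfl
      map_smul' := fun _ _ => rfl }
  have hinj : Function.Injective evS := by
    rw [injective_iff_map_eq_zero]
    intro lam hlam
    apply Subtype.ext
    apply h29ea_hom_eq_zero hs
    intro γ hγ
    exact congrFun hlam ⟨γ, hγ⟩
  have hinj2 : Function.Injective (LinearMap.lTensor O evS) :=
    Module.Flat.lTensor_preserves_injective_linearMap evS hinj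
  let Ψ : O ⊗[ℤ] L →ₗ[ℤ] ((↥s) → O) :=
    ((TensorProduct.piScalarRight ℤ O O (↥s)).toLinearMap.restrictScalars ℤ) ∘ₗ
      (LinearMap.lTensor O evS)
  have hΨinj : Function.Injective Ψ := by
    intro a b hab
    apply hinj2
    exact (TensorProduct.piScalarRight ℤ O O (↥s)).injective hab
  have hΨ : ∀ (w : O ⊗[ℤ] L) (i : ↥s), Ψ w i = h29ea_ev O L (i : Γ) w := by
    intro w i
    induction w using TensorProduct.induction_on with
    | zero => simp
    | tmul o lam =>
      rw [h29ea_ev_tmul]
      show (TensorProduct.piScalarRight ℤ O O (↥s)) (LinearMap.lTensor O evS (o ⊗ₜ[ℤ] lam)) i = _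
      rw [LinearMap.lTensor_tmul, TensorProduct.piScalarRight_apply,
        TensorProduct.piScalarRightHom_tmul]
      rfl
    | add a b ha hb =>
      rw [map_add, map_add, Pi.add_apply, ha, hb]
  apply hΨinj
  rw [map_zero]
  funext i
  rw [hΨ, h (i : Γ) i.2]
  rfl

end EV

section Span

variable {Γ : Type*} [Group Γ] (O : Type*) [CommRing O] [IsDomain O] [CharZero O]
  (L : Submodule ℤ (Additive Γ →+ ℤ))

/-- **every torsion-free valued homomorphism comes from `O ⊗ L`** -/
theorem h29ea_exists_tensor (s : Finset Γ) (hs : Subgroup.closure (↑s : Set Γ) = ⊤)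
    (Par : Set Γ)
    (hL : ∀ lam : Additive Γ →+ ℤ, (∀ γ ∈ Par, lam (Additive.ofMul γ) = 0) → lam ∈ L)
    (φ : Additive Γ →+ O) (hφ : ∀ γ ∈ Par, φ (Additive.ofMul γ) = 0) :
    ∃ v : O ⊗[ℤ] L, ∀ γ : Γ, h29ea_ev O L γ v = φ (Additive.ofMul γ) := by
  classical
  -- the lattice of values
  set W : Submodule ℤ O := Submodule.span ℤ ((fun γ : Γ => φ (Additive.ofMul γ)) '' (↑s : Set Γ))
    with hW
  have hWfg : W.FG := Submodule.fg_span ((Finset.finite_toSet s).image _)
  haveI : Module.Finite ℤ W := Module.Finite.iff_fg.mpr hWfg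
  have hmem : ∀ γ : Additive Γ, φ γ ∈ W := by
    intro γ
    have hγ : Additive.toMul γ ∈ Subgroup.closure (↑s : Set Γ) := by
      rw [hs]; exact Subgroup.mem_top _
    have key : ∀ x : Γ, x ∈ Subgroup.closure (↑s : Set Γ) → φ (Additive.ofMul x) ∈ W := by
      intro x hx
      induction hx using Subgroup.closure_induction with
      | mem x hx => exact Submodule.subset_span ⟨x, hx, rfl⟩
      | one =>
          have : φ (Additive.ofMul (1 : Γ)) = 0 := map_zero φ
          rw [this]; exact zero_mem _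
      | mul x y _ _ hx hy =>
          have : Additive.ofMul (x * y) = Additive.ofMul x + Additive.ofMul y := rfl
          rw [this, map_add]; exact add_mem hx hy
      | inv x _ hx =>
          have : Additive.ofMul x⁻¹ = -Additive.ofMul x := rfl
          rw [this, map_neg]; exact neg_mem hx
    exact key _ hγ
  haveI : Module.Free ℤ W := Module.free_of_finite_type_torsion_free'
  let b := Module.Free.chooseBasis ℤ W
  let φW : Additive Γ →+ W := φ.codRestrict W hmem
  have hφW : ∀ γ, ((φW γ : W) : O) = φ γ := fun γ => rfl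
  let lam : Module.Free.ChooseBasisIndex ℤ W → (Additive Γ →+ ℤ) := fun l =>
    ((b.coord l).toAddMonoidHom).comp φW
  have hlam : ∀ l γ, lam l γ = b.repr (φW γ) l := fun l γ => rfl
  have hlamL : ∀ l, lam l ∈ L := by
    intro l
    apply hL
    intro γ hγ
    have h0 : φW (Additive.ofMul γ) = 0 := Subtype.ext (hφ γ hγ)
    rw [hlam, h0, map_zero]
    rfl
  refine ⟨∑ l, ((b l : W) : O) ⊗ₜ[ℤ] (⟨lam l, hlamL l⟩ : L), fun γ => ?_⟩
  rw [map_sum]
  simp only [h29ea_ev_tmul]
  rw [← hφW (Additive.ofMul γ)]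
  conv_rhs => rw [← b.sum_repr (φW (Additive.ofMul γ))]
  rw [Submodule.coe_sum]
  exact Finset.sum_congr rfl fun l _ => rfl

end Span

end H29EA
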