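import Mathlib
import Fermat.Agent.W3G.DefsGeom
import Fermat.Agent.W3G.EIGHAdicNak_helper29
import Fermat.Agent.W3G.EIGHAdicTensor_helper29
import Fermat.Agent.W3G.EIGH_helper1

/-!
# Item 80 (W3-G), slice EIGH-adic (helper29): `H11W3G.EigHAdicStatement`

For a character `χ` of the Hecke algebra `𝕋 = heckeAlgebra N 2 S` with values in a domain `𝒪'` of
characteristic `0` there is a nonzero `v ∈ 𝒪' ⊗ Hom_par(Γ₀(N), ℤ)` with `T_ℓ v = χ(T_ℓ) v` for all
`ℓ ∤ N`, `ℓ ∉ S`.

Proof.  `𝕋` acts on the dual `P` of `S₂(Γ₀(N))`; the period functionals `per γ ∈ P` (`γ ∈ Γ₀(N)`)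
are additive in `γ`, vanish for parabolic `γ`, satisfy `T_ℓ • per γ = ∑_x per (transT γ x)`
(helper22) and separate the points of `S₂(Γ₀(N))` (Eichler–Shimura injectivity, helper21), so only
`d = 0` kills them all.  The elimination lemma (`h29ea_nakGen`) gives a nonzero `φ : Γ₀(N) → 𝒪'`
satisfying all these relations specialised along `χ`; it is the evaluation of an element of
`𝒪' ⊗ Hom_par(Γ₀(N), ℤ)` (`h29ea_exists_tensor`), which is the eigenvector
(`h29ea_ev_injective`, `h29ea_ev_baseChange`).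
-/

set_option autoImplicit false
set_option linter.style.longLine false
set_option linter.unusedSectionVars false
set_option linter.unusedVariables false
set_option linter.style.haveILetI false

noncomputable section

open ModularFormClass CongruenceSubgroup ModularCurve ModularCurve.Period TensorProduct

namespace H29EA

variable (N : ℕ) [NeZero N] (S : Finset ℕ)

/-- the action of the Hecke algebra on the dual of the space of cusp forms -/
def h29ea_dualHom : CuspForm.heckeAlgebra N 2 (↑S : Set ℕ) →+*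
    Module.End ℂ (Module.Dual ℂ (CuspForm (Gamma0 N) 2)) where
  toFun d := (d : Module.End ℂ (CuspForm (Gamma0 N) 2)).dualMap
  map_one' := by
    show ((1 : Module.End ℂ (CuspForm (Gamma0 N) 2))).dualMap = 1
    exact LinearMap.dualMap_id
  map_mul' a b := by
    have h1 : ((a * b : CuspForm.heckeAlgebra N 2 (↑S : Set ℕ)) :
        Module.End ℂ (CuspForm (Gamma0 N) 2))
        = (b : Module.End ℂ (CuspForm (Gamma0 N) 2)) ∘ₗ
          (a : Module.End ℂ (CuspForm (Gamma0 N) 2)) := by
      rw [mul_comm a b]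
      rfl
    rw [h1, ← LinearMap.dualMap_comp_dualMap]
    rfl
  map_zero' := by
    refine LinearMap.ext fun lam => LinearMap.ext fun f => ?_
    show lam ((0 : Module.End ℂ (CuspForm (Gamma0 N) 2)) f) = 0
    rw [LinearMap.zero_apply, map_zero]
  map_add' a b := by
    refine LinearMap.ext fun lam => LinearMap.ext fun f => ?_
    show lam (((a : Module.End ℂ (CuspForm (Gamma0 N) 2)) +
      (b : Module.End ℂ (CuspForm (Gamma0 N) 2))) f) = lam _ + lam _
    rw [LinearMap.add_apply, map_add]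

theorem h29ea_dualHom_apply (d : CuspForm.heckeAlgebra N 2 (↑S : Set ℕ))
    (lam : Module.Dual ℂ (CuspForm (Gamma0 N) 2)) (f : CuspForm (Gamma0 N) 2) :
    h29ea_dualHom N S d lam f = lam ((d : Module.End ℂ (CuspForm (Gamma0 N) 2)) f) := rfl

/-- the period functionals -/
def h29ea_per (γ : Gamma0 N) : Module.Dual ℂ (CuspForm (Gamma0 N) 2) where
  toFun f := periodMap N f (Additive.ofMul γ)
  map_add' f g := by rw [H21E1.periodMap_add]; rfl
  map_smul' c f := by rw [H21E1.periodMap_smul]; rfl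

theorem h29ea_per_apply (γ : Gamma0 N) (f : CuspForm (Gamma0 N) 2) :
    h29ea_per N γ f = periodMap N f (Additive.ofMul γ) := rfl

theorem h29ea_per_one : h29ea_per N 1 = 0 := by
  refine LinearMap.ext fun f => ?_
  rw [h29ea_per_apply]
  exact map_zero (periodMap N f)

theorem h29ea_per_mul (γ γ' : Gamma0 N) :
    h29ea_per N (γ * γ') = h29ea_per N γ + h29ea_per N γ' := by
  refine LinearMap.ext fun f => ?_
  rw [LinearMap.add_apply, h29ea_per_apply, h29ea_per_apply, h29ea_per_apply]
  exact map_add (periodMap N f) (Additive.ofMul γ) (Additive.ofMul γ')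

theorem h29ea_per_inv (γ : Gamma0 N) : h29ea_per N γ⁻¹ = -h29ea_per N γ := by
  refine LinearMap.ext fun f => ?_
  rw [LinearMap.neg_apply, h29ea_per_apply, h29ea_per_apply]
  exact map_neg (periodMap N f) (Additive.ofMul γ)

theorem h29ea_per_parabolic (γ : Gamma0 N)
    (hγ : ((γ : Matrix.SpecialLinearGroup (Fin 2) ℤ) : Matrix (Fin 2) (Fin 2) ℤ).trace ^ 2 = 4) :
    h29ea_per N γ = 0 := by
  refine LinearMap.ext fun f => ?_
  rw [h29ea_per_apply]
  exact (mem_parabolicHoms_iff (R := ℂ)).mp (H21E1.periodMap_mem_parabolicHoms f) γ hγ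

/-- the Hecke relation for the period functionals -/
theorem h29ea_per_hecke {ℓ : ℕ} [Fact ℓ.Prime] (hℓ : ℓ.Prime) (hℓN : ¬ ℓ ∣ N)
    (hℓS : ℓ ∉ (↑S : Set ℕ)) (γ : Gamma0 N) :
    ∑ x : OnePoint (ZMod ℓ), h29ea_per N (H21S16.transT hℓN γ x) =
      h29ea_dualHom N S (CuspForm.heckeAlgebra.T hℓ hℓN hℓS) (h29ea_per N γ) := by
  refine LinearMap.ext fun f => ?_
  rw [h29ea_dualHom_apply, LinearMap.sum_apply, h29ea_per_apply, CuspForm.heckeAlgebra.coe_T,
    H21S16.h22a_periodMap_heckeT hℓ hℓN f γ]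
  rfl

/-- the period functionals separate the cusp forms -/
theorem h29ea_eq_zero_of_per {s : Set (Gamma0 N)} (hs : Subgroup.closure s = ⊤)
    (f : CuspForm (Gamma0 N) 2) (h : ∀ γ ∈ s, h29ea_per N γ f = 0) : f = 0 := by
  by_contra hf
  exact H1EIGH.periodMap_ne_zero hf (h29ea_hom_eq_zero hs (periodMap N f) h)

/-- **EIGH p-adic** -/
theorem h29ea_eigHAdic : H11W3G.EigHAdicStatement := by
  intro N _ S 𝒪' _ _ _ χ
  classical
  obtain ⟨s, hs⟩ := Group.fg_def.mp (H22.groupFG_Gamma0 (N := N))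
  letI : Module (CuspForm.heckeAlgebra N 2 (↑S : Set ℕ))
      (Module.Dual ℂ (CuspForm (Gamma0 N) 2)) := Module.compHom _ (h29ea_dualHom N S)
  have hsmul : ∀ (d : CuspForm.heckeAlgebra N 2 (↑S : Set ℕ))
      (lam : Module.Dual ℂ (CuspForm (Gamma0 N) 2)), d • lam = h29ea_dualHom N S d lam :=
    fun _ _ => rfl
  -- the generators span
  have hspan : ∀ γ : Gamma0 N, ∃ n : Gamma0 N → CuspForm.heckeAlgebra N 2 (↑S : Set ℕ),
      h29ea_per N γ = ∑ j ∈ s, n j • h29ea_per N j := by
    intro γ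
    have hγ : γ ∈ Subgroup.closure (↑s : Set (Gamma0 N)) := by rw [hs]; exact Subgroup.mem_top _
    induction hγ using Subgroup.closure_induction with
    | mem x hx =>
        refine ⟨fun j => if j = x then 1 else 0, ?_⟩
        simp only [ite_smul, one_smul, zero_smul]
        rw [Finset.sum_ite_eq' s x, if_pos (Finset.mem_coe.mp hx)]
    | one => exact ⟨0, by simp [h29ea_per_one]⟩
    | mul x y _ _ hx hy =>
        obtain ⟨nx, hnx⟩ := hx
        obtain ⟨ny, hny⟩ := hy
        refine ⟨nx + ny, ?_⟩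
        simp only [Pi.add_apply, add_smul, Finset.sum_add_distrib]
        rw [h29ea_per_mul, hnx, hny]
    | inv x _ hx =>
        obtain ⟨nx, hnx⟩ := hx
        refine ⟨-nx, ?_⟩
        simp only [Pi.neg_apply, neg_smul, Finset.sum_neg_distrib]
        rw [h29ea_per_inv, hnx]
  -- only `0` kills all period functionals
  have H : ∀ d : CuspForm.heckeAlgebra N 2 (↑S : Set ℕ),
      (∀ i ∈ s, d • h29ea_per N i = 0) → χ d = 0 := by
    intro d hd
    have hd0 : d = 0 := by
      apply Subtype.ext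
      refine LinearMap.ext fun f => ?_
      show (d : Module.End ℂ (CuspForm (Gamma0 N) 2)) f = 0
      apply h29ea_eq_zero_of_per N hs
      intro γ hγ
      have h1 := hd γ (Finset.mem_coe.mp hγ)
      rw [hsmul] at h1
      have h2 := congrArg (fun lam : Module.Dual ℂ (CuspForm (Gamma0 N) 2) => lam f) h1
      exact h2
    rw [hd0, map_zero]
  obtain ⟨φ₀, ⟨γ₁, hγ₁⟩, hrel⟩ := h29ea_nakGen χ (h29ea_per N) s hspan H
  -- `φ₀` vanishes where `per` does
  have hzero : ∀ γ : Gamma0 N, h29ea_per N γ = 0 → φ₀ γ = 0 := by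
    intro γ hγ
    have h1 := hrel Bool ∅ (fun _ => γ) 1 γ (by rw [Finset.sum_empty, hγ, smul_zero])
    rw [Finset.sum_empty, map_one, one_mul] at h1
    exact h1.symm
  -- `φ₀` is a homomorphism
  let φ : Additive (Gamma0 N) →+ 𝒪' :=
    { toFun := fun γ => φ₀ (Additive.toMul γ)
      map_zero' := hzero 1 (h29ea_per_one N)
      map_add' := fun γ γ' => by
        have h1 := hrel Bool Finset.univ
          (fun b => if b = true then Additive.toMul γ else Additive.toMul γ') 1
          (Additive.toMul γ * Additive.toMul γ') (by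
            rw [Fintype.sum_bool, one_smul, h29ea_per_mul]
            simp)
        rw [Fintype.sum_bool, map_one, one_mul] at h1
        simp only [if_true, Bool.false_eq_true, if_false] at h1
        exact h1.symm }
  have hφ : ∀ γ : Gamma0 N, φ (Additive.ofMul γ) = φ₀ γ := fun γ => rfl
  -- the tensor
  obtain ⟨v, hv⟩ := h29ea_exists_tensor 𝒪' (H11W3G.Lpar N) s hs
    {γ : Gamma0 N | ((γ : Matrix.SpecialLinearGroup (Fin 2) ℤ) :
      Matrix (Fin 2) (Fin 2) ℤ).trace ^ 2 = 4}
    (fun lam hlam => (mem_parabolicHoms_iff (R := ℤ)).mpr fun γ hγ => hlam γ hγ)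
    φ (fun γ hγ => hzero γ (h29ea_per_parabolic N γ hγ))
  refine ⟨v, ?_, ?_⟩
  · intro hv0
    apply hγ₁
    rw [← hφ, ← hv γ₁, hv0, map_zero]
  · intro ℓ _ hℓ hℓN hℓS T hT
    rw [← sub_eq_zero]
    apply h29ea_ev_injective 𝒪' (H11W3G.Lpar N) s hs
    intro γ _
    rw [map_sub, map_smul, smul_eq_mul, hv γ,
      h29ea_ev_baseChange 𝒪' (H11W3G.Lpar N) T γ (H21S16.transT hℓN γ) (fun lam => hT lam γ) v]
    simp only [hv, hφ]
    rw [sub_eq_zero]
    have h1 := hrel (OnePoint (ZMod ℓ)) Finset.univ (H21S16.transT hℓN γ)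
      (CuspForm.heckeAlgebra.T hℓ hℓN hℓS) γ
      (by rw [hsmul]; exact h29ea_per_hecke N S hℓ hℓN hℓS γ)
    exact h1

end H29EA
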