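import Fermat.Agent.W3G.ESStatement_helper10
import Fermat.Agent.S18.KummerTameFinal_helper7

/-!
# Item 80 (W3-G), slice ES (helper10): the UNCONDITIONAL interface statements

`H7S18.h7s18_kummerTame` (item 75, landed) removes the last hypothesis of the slice:

* `h10es_kummerAll_final N      : KummerAll N`;
* `h10es_inertiaStatement_final N   : H11W3G.ESInertiaStatement N`;
* `h10es_frobeniusStatement_final N : H11W3G.ESFrobeniusStatement N`.
-/

set_option autoImplicit false
set_option synthInstance.maxHeartbeats 400000
set_option maxHeartbeats 1000000

noncomputable section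

namespace H10ES

open ModularCurve AlgebraicCurve H7S18

/-- `KummerAll N`, unconditional. -/
theorem h10es_kummerAll_final (N : ℕ) [NeZero N] : KummerAll N :=
  h10es_kummerAll_of_tame h7s18_kummerTame N

/-- **ES (inertia)**, interface form, unconditional. -/
theorem h10es_inertiaStatement_final (N : ℕ) [NeZero N] : H11W3G.ESInertiaStatement N :=
  h10es_inertiaStatement_of_tame h7s18_kummerTame N

/-- **ES (Frobenius)**, interface form, unconditional. -/
theorem h10es_frobeniusStatement_final (N : ℕ) [NeZero N] : H11W3G.ESFrobeniusStatement N :=
  h10es_frobeniusStatement_of_tame h7s18_kummerTame N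

end H10ES
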