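import Mathlib
import Fermat.Agent.W3G.Defs
import Fermat.Agent.W3G.CycBase_helper27

/-!
# Item 80 (W3G), slice CYC-adic (helper27)

`h27cyc_adic p hp : H11W3G.CycAdicStatement p` for `p` prime: the `p`-adic cyclotomic character
with values in any complete discrete valuation ring `𝒪` with `p ∈ 𝔪`.

* `h27cyc_padicHom` : the ring homomorphism `ℤ_[p] →+* 𝒪` for an `𝔪`-adically complete local
  ring `𝒪` with `p ∈ 𝔪`.
(For `p` not prime the statement is false in general.)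
-/

set_option autoImplicit false
set_option linter.style.longLine false
set_option linter.unusedSectionVars false
set_option linter.style.haveILetI false

noncomputable section

namespace H27CYC

section PadicHom

variable (p : ℕ) [Fact p.Prime] (𝒪 : Type*) [CommRing 𝒪] (I : Ideal 𝒪)

theorem h27cyc_ringChar_dvd (hp : (p : 𝒪) ∈ I) (n : ℕ) : ringChar (𝒪 ⧸ I ^ n) ∣ p ^ n := by
  apply ringChar.dvd
  have h1 : ((p ^ n : ℕ) : 𝒪 ⧸ I ^ n) = Ideal.Quotient.mk (I ^ n) ((p : 𝒪) ^ n) := by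
    push_cast
    rfl
  rw [h1, Ideal.Quotient.eq_zero_iff_mem]
  exact Ideal.pow_mem_pow hp n

/-- the level `n` map `ℤ_[p] → 𝒪 ⧸ I ^ n` -/
def h27cyc_levelHom (hp : (p : 𝒪) ∈ I) (n : ℕ) : ℤ_[p] →+* 𝒪 ⧸ I ^ n :=
  (ZMod.castHom (h27cyc_ringChar_dvd p 𝒪 I hp n) (𝒪 ⧸ I ^ n)).comp (PadicInt.toZModPow n)

theorem h27cyc_levelHom_compat (hp : (p : 𝒪) ∈ I) {m n : ℕ} (hle : m ≤ n) :
    (Ideal.Quotient.factorPow I hle).comp (h27cyc_levelHom p 𝒪 I hp n) =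
      h27cyc_levelHom p 𝒪 I hp m := by
  rw [h27cyc_levelHom, h27cyc_levelHom, ← PadicInt.zmod_cast_comp_toZModPow m n hle,
    ← RingHom.comp_assoc, ← RingHom.comp_assoc]
  congr 1
  exact Subsingleton.elim _ _

/-- **the ring homomorphism `ℤ_[p] → 𝒪`** for an `I`-adically complete ring with `p ∈ I`. -/
def h27cyc_padicHom [IsAdicComplete I 𝒪] (hp : (p : 𝒪) ∈ I) : ℤ_[p] →+* 𝒪 :=
  ((AdicCompletion.ofAlgEquiv I).symm : AdicCompletion I 𝒪 →+* 𝒪).comp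
    (AdicCompletion.liftRingHom I (h27cyc_levelHom p 𝒪 I hp)
      (fun hle => h27cyc_levelHom_compat p 𝒪 I hp hle))

end PadicHom

section Char

variable (p : ℕ) [Fact p.Prime]

/-- the `p`-adic cyclotomic character on `G_ℚ` -/
def h27cycAdicChar : GQ →* ℤ_[p]ˣ :=
  MonoidHom.mk'
    (fun σ => cyclotomicCharacter Qb p (σ : Qb ≃+* Qb))
    (fun a b => by rw [← map_mul]; congr 1)

theorem h27cycAdicChar_toZModPow (n : ℕ) (σ : GQ) :
    PadicInt.toZModPow n ((h27cycAdicChar p σ : ℤ_[p]ˣ) : ℤ_[p]) =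
      ((h27cycChar (HasEnoughRootsOfUnity.natCard_rootsOfUnity Qb (p ^ n)) σ :
        (ZMod (p ^ n))ˣ) : ZMod (p ^ n)) :=
  cyclotomicCharacter.toZModPow p (σ : Qb ≃+* Qb)

theorem h27cycAdic_frobenius {ℓ : ℕ} (hℓ : ℓ.Prime) (hℓp : ℓ ≠ p)
    (A : ValuationSubring Qb) (hA : A.LiesOverPrime ℓ) (σ : GQ) (hσ : A.IsFrobeniusAt σ ℓ) :
    ((h27cycAdicChar p σ : ℤ_[p]ˣ) : ℤ_[p]) = (ℓ : ℤ_[p]) := by
  rw [← PadicInt.ext_of_toZModPow]
  intro n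
  have hℓn : ¬ ℓ ∣ p ^ n := fun h =>
    hℓp ((Nat.prime_dvd_prime_iff_eq hℓ (Fact.out : p.Prime)).mp (hℓ.dvd_of_dvd_pow h))
  rw [h27cycAdicChar_toZModPow, h27cyc_frobenius _ hℓ hℓn A hA σ hσ, map_natCast]

theorem h27cycAdic_inertia {q : ℕ} (hq : q.Prime) (hqp : q ≠ p)
    (A : ValuationSubring Qb) (hA : A.LiesOverPrime q) (σ : GQ)
    (hσ : σ ∈ A.inertiaSubgroupIn ℚ) : h27cycAdicChar p σ = 1 := by
  apply Units.ext
  rw [Units.val_one, ← PadicInt.ext_of_toZModPow]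
  intro n
  have hqn : ¬ q ∣ p ^ n := fun h =>
    hqp ((Nat.prime_dvd_prime_iff_eq hq (Fact.out : p.Prime)).mp (hq.dvd_of_dvd_pow h))
  rw [h27cycAdicChar_toZModPow, h27cyc_inertia _ hq hqn A hA σ hσ, Units.val_one, map_one]

theorem h27cycAdic_conj :
    ((h27cycAdicChar p complexConjugation : ℤ_[p]ˣ) : ℤ_[p]) = -1 := by
  rw [← PadicInt.ext_of_toZModPow]
  intro n
  rw [h27cycAdicChar_toZModPow, h27cyc_conj, map_neg, map_one]

theorem h27cycAdic_level (n : ℕ) : ∃ L₀ : IntermediateField ℚ Qb, FiniteDimensional ℚ L₀ ∧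
    ∀ σ : GQ, (∀ x ∈ L₀, σ x = x) →
      ((h27cycAdicChar p σ : ℤ_[p]ˣ) : ℤ_[p]) - 1 ∈ Ideal.span {(p : ℤ_[p]) ^ n} := by
  obtain ⟨L₀, hfd, hL₀⟩ :=
    h27cyc_level (HasEnoughRootsOfUnity.natCard_rootsOfUnity Qb (p ^ n))
  refine ⟨L₀, hfd, fun σ hσ => ?_⟩
  rw [← PadicInt.ker_toZModPow, RingHom.mem_ker, map_sub, map_one, h27cycAdicChar_toZModPow,
    hL₀ σ hσ, Units.val_one, sub_self]

end Char

/-- **CYC-adic** -/
theorem h27cyc_adic (p : ℕ) (hp : p.Prime) : H11W3G.CycAdicStatement p := by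
  intro 𝒪 _ _ _ _ hpm
  haveI : Fact p.Prime := ⟨hp⟩
  set ι : ℤ_[p] →+* 𝒪 := h27cyc_padicHom p 𝒪 (IsLocalRing.maximalIdeal 𝒪) hpm with hι
  set d : H11W3G.GQ →* 𝒪ˣ := (Units.map ι.toMonoidHom).comp (h27cycAdicChar p) with hd
  have hdval : ∀ σ : H11W3G.GQ,
      ((d σ : 𝒪ˣ) : 𝒪) = ι ((h27cycAdicChar p σ : ℤ_[p]ˣ) : ℤ_[p]) := fun σ => rfl
  refine ⟨d, ?_, ?_, ?_, ?_⟩
  · intro n
    obtain ⟨L₀, hfd, hL₀⟩ := h27cycAdic_level p n
    refine ⟨L₀, hfd, fun σ hσ => ?_⟩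
    obtain ⟨y, hy⟩ := Ideal.mem_span_singleton'.mp (hL₀ σ hσ)
    have h1 : ((d σ : 𝒪ˣ) : 𝒪) - 1 = ι y * (p : 𝒪) ^ n := by
      rw [hdval, ← map_one ι, ← map_sub, ← hy, map_mul, map_pow, map_natCast]
    rw [h1]
    exact Ideal.mul_mem_left _ _ (Ideal.pow_mem_pow hpm n)
  · intro ℓ hℓ hℓp A hA σ hσ
    rw [hdval, h27cycAdic_frobenius p hℓ hℓp A hA σ hσ, map_natCast]
  · intro q hq hqp A hA σ hσ
    rw [hd, MonoidHom.comp_apply, h27cycAdic_inertia p hq hqp A hA σ hσ, map_one]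
  · rw [hdval, h27cycAdic_conj, map_neg, map_one]

end H27CYC
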