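import Mathlib
import Fermat.Agent.W3G.CycAdic_helper27

/-!
# Item 80 (W3G), slice TATE, abstract part (helper23)

The `p`-adic limit of a compatible system of representations modulo `p ^ k` and its
eigenlattices, in matrix form (no `J`, no modular forms).

* `h23tSystem p G ι`: monoid homomorphisms `R k : G →* Matrix ι ι (ZMod (p ^ k))`, compatible
  with the reductions `ℤ/p^(k+1) → ℤ/p^k`  (the action of `G` on `J[p^k] ≅ (ℤ/p^k)^ι`);
* `h23t_exists_padic`: the limit `ρ : G →* Matrix ι ι ℤ_[p]`, `ρ g ≡ R k g mod p^k`;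
* `h23t_eigenlattice`: for integer matrices `T t` commuting with the system and an eigenvector
  `v ≠ 0` over `𝒪` (a DVR with `p ∈ 𝔪`, `p ≠ 0`, with a ring homomorphism `ℤ_[p] → 𝒪`) with
  eigenvalues `c t`: the eigenlattice `M = {v | T t v = c t v}` is a nonzero finite free
  `𝒪`-module with an action `ρ` of `G` such that
  - `R n g = 1 → ρ g ≡ 1 mod 𝔪 ^ n` (adic continuity),
  - `(∀ k, R k g = 1) → ρ g = 1` (unramifiedness),
  - `(∀ k, R k g ^ 2 - T t * R k g + ℓ = 0) → ρ g ^ 2 - c t • ρ g + ℓ = 0` (Eichler–Shimura);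
* `h23t_eigenlattice_complete`: the same for a complete DVR (the homomorphism `ℤ_[p] → 𝒪` is
  helper27's `h27cyc_padicHom`);
* `h23t_clear_denominators`: an eigenvector over the fraction field gives one over `𝒪`.
-/

set_option autoImplicit false
set_option linter.style.longLine false
set_option linter.unusedSectionVars false
set_option linter.style.haveILetI false

open Matrix

noncomputable section

namespace H23T

variable (p : ℕ) [Fact p.Prime]

/-- the transition map `ℤ/p^(k+1) → ℤ/p^k` -/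
abbrev h23tRed (k : ℕ) : ZMod (p ^ (k + 1)) →+* ZMod (p ^ k) :=
  ZMod.castHom (pow_dvd_pow p (Nat.le_succ k)) (ZMod (p ^ k))

/-- **Limit of a compatible sequence** of residues modulo `p ^ k`. -/
theorem h23t_exists_lim (a : ∀ k : ℕ, ZMod (p ^ k))
    (ha : ∀ k, h23tRed p k (a (k + 1)) = a k) :
    ∃ x : ℤ_[p], ∀ k, PadicInt.toZModPow k x = a k := by
  have hpos : ∀ k, NeZero (p ^ k) := fun k => ⟨pow_ne_zero k (Fact.out : p.Prime).ne_zero⟩
  set f : ℕ → ℤ := fun k => ((a k).val : ℤ) with hf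
  have hfa : ∀ k, ((f k : ℤ) : ZMod (p ^ k)) = a k := by
    intro k
    haveI := hpos k
    simp only [hf]
    rw [Int.cast_natCast, ZMod.natCast_val, ZMod.cast_id', id]
  have hi : ∀ i, (p : ℤ) ^ i ∣ f (i + 1) - f i := by
    intro i
    have h1 : ((f (i + 1) - f i : ℤ) : ZMod (p ^ i)) = 0 := by
      rw [Int.cast_sub, hfa i, sub_eq_zero, ← ha i]
      have h2 : (f (i + 1) : ZMod (p ^ i)) =
          h23tRed p i ((f (i + 1) : ℤ) : ZMod (p ^ (i + 1))) := by
        rw [map_intCast]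
      rw [h2, hfa (i + 1)]
    have h3 := (ZMod.intCast_zmod_eq_zero_iff_dvd _ _).1 h1
    exact_mod_cast h3
  refine ⟨PadicInt.ofIntSeq _ (PadicInt.isCauSeq_padicNorm_of_pow_dvd_sub f p hi), fun k => ?_⟩
  rw [PadicInt.toZModPow_ofIntSeq_of_pow_dvd_sub f p hi k, hfa k]

variable {G : Type*} [Group G] {ι : Type*} [Fintype ι] [DecidableEq ι]

/-- A compatible system of matrix representations modulo `p ^ k`. -/
structure h23tSystem (p : ℕ) (G : Type*) [Group G] (ι : Type*) [Fintype ι] [DecidableEq ι] where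
  /-- the level `k` representation -/
  R : ∀ k : ℕ, G →* Matrix ι ι (ZMod (p ^ k))
  /-- compatibility -/
  compat : ∀ (k : ℕ) (g : G),
    (R (k + 1) g).map (ZMod.castHom (pow_dvd_pow p (Nat.le_succ k)) (ZMod (p ^ k))) = R k g

variable {p}

/-- matrices over `ℤ_[p]` are determined by their reductions -/
theorem h23t_matrix_ext {A B : Matrix ι ι ℤ_[p]}
    (h : ∀ k, A.map (PadicInt.toZModPow k) = B.map (PadicInt.toZModPow k)) : A = B := by
  ext i j
  rw [← PadicInt.ext_of_toZModPow]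
  intro k
  have := congrFun (congrFun (h k) i) j
  simpa using this

/-- **the `p`-adic limit of a compatible system** -/
theorem h23t_exists_padic (Sy : h23tSystem p G ι) :
    ∃ ρ : G →* Matrix ι ι ℤ_[p], ∀ k g, (ρ g).map (PadicInt.toZModPow k) = Sy.R k g := by
  have hex : ∀ (g : G) (i j : ι), ∃ x : ℤ_[p], ∀ k, PadicInt.toZModPow k x = Sy.R k g i j := by
    intro g i j
    refine h23t_exists_lim p (fun k => Sy.R k g i j) (fun k => ?_)
    have := congrFun (congrFun (Sy.compat k g) i) j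
    simpa using this
  choose ρ hρ using hex
  have hmap : ∀ k g, (Matrix.of (ρ g)).map (PadicInt.toZModPow k) = Sy.R k g := by
    intro k g
    ext i j
    simp [hρ g i j k]
  refine ⟨⟨⟨fun g => Matrix.of (ρ g), ?_⟩, ?_⟩, hmap⟩
  · apply h23t_matrix_ext
    intro k
    rw [hmap, map_one, Matrix.map_one _ (map_zero _) (map_one _)]
  · intro g h
    apply h23t_matrix_ext
    intro k
    rw [hmap, map_mul, Matrix.map_mul, hmap, hmap]

section Eigen

variable {p : ℕ} [Fact p.Prime]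
variable {G : Type} [Group G] {ι : Type} [Fintype ι] [DecidableEq ι]
variable {𝒪 : Type} [CommRing 𝒪]

/-- the common eigenspace of a family of matrices -/
def h23tEigen {τ : Type} (T : τ → Matrix ι ι 𝒪) (c : τ → 𝒪) : Submodule 𝒪 (ι → 𝒪) where
  carrier := {v | ∀ t, (T t).mulVec v = c t • v}
  add_mem' := by
    intro a b ha hb t
    rw [Matrix.mulVec_add, ha t, hb t, smul_add]
  zero_mem' := by
    intro t
    rw [Matrix.mulVec_zero, smul_zero]
  smul_mem' := by
    intro r v hv t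
    rw [Matrix.mulVec_smul, hv t, smul_comm]

theorem h23t_mem_eigen {τ : Type} {T : τ → Matrix ι ι 𝒪} {c : τ → 𝒪} {v : ι → 𝒪} :
    v ∈ h23tEigen T c ↔ ∀ t, (T t).mulVec v = c t • v := Iff.rfl

/-- the eigenspace is stable under matrices commuting with the family -/
theorem h23t_eigen_stable {τ : Type} {T : τ → Matrix ι ι 𝒪} {c : τ → 𝒪} {A : Matrix ι ι 𝒪}
    (hA : ∀ t, A * T t = T t * A) {v : ι → 𝒪} (hv : v ∈ h23tEigen T c) :
    A.mulVec v ∈ h23tEigen T c := by
  intro t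
  rw [Matrix.mulVec_mulVec, ← hA t, ← Matrix.mulVec_mulVec, hv t, Matrix.mulVec_smul]

/-- the eigenspace is saturated -/
theorem h23t_eigen_saturated [IsDomain 𝒪] {τ : Type} {T : τ → Matrix ι ι 𝒪} {c : τ → 𝒪}
    {a : 𝒪} (ha : a ≠ 0) {w : ι → 𝒪} (hw : a • w ∈ h23tEigen T c) : w ∈ h23tEigen T c := by
  intro t
  have h1 := hw t
  rw [Matrix.mulVec_smul, smul_comm] at h1
  funext i
  have h2 := congrFun h1 i
  simp only [Pi.smul_apply, smul_eq_mul] at h2 ⊢
  exact mul_left_cancel₀ ha h2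

/-- integer matrices: reduction of the `p`-adic version -/
theorem h23t_intMat_toZModPow (A : Matrix ι ι ℤ) (k : ℕ) :
    (A.map (Int.cast : ℤ → ℤ_[p])).map (PadicInt.toZModPow k) =
      A.map (Int.cast : ℤ → ZMod (p ^ k)) := by
  ext i j
  simp

theorem h23t_intMat_map (φ : ℤ_[p] →+* 𝒪) (A : Matrix ι ι ℤ) :
    (A.map (Int.cast : ℤ → ℤ_[p])).map φ = A.map (Int.cast : ℤ → 𝒪) := by
  ext i j
  simp

/-- a matrix over `ℤ_[p]` that is trivial modulo `p ^ n` -/
theorem h23t_exists_of_map_eq_one {A : Matrix ι ι ℤ_[p]} {n : ℕ}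
    (h : A.map (PadicInt.toZModPow n) = 1) :
    ∃ Y : Matrix ι ι ℤ_[p], A = 1 + (p : ℤ_[p]) ^ n • Y := by
  have h1 : ∀ i j, ∃ y : ℤ_[p], A i j - (1 : Matrix ι ι ℤ_[p]) i j = (p : ℤ_[p]) ^ n * y := by
    intro i j
    have h2 : PadicInt.toZModPow n (A i j - (1 : Matrix ι ι ℤ_[p]) i j) = 0 := by
      have h3 := congrFun (congrFun h i) j
      rw [Matrix.map_apply] at h3
      rw [map_sub, h3]
      by_cases hij : i = j
      · subst hij; simp
      · simp [Matrix.one_apply_ne hij]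
    have h4 : A i j - (1 : Matrix ι ι ℤ_[p]) i j ∈ RingHom.ker (PadicInt.toZModPow (p := p) n) := h2
    rw [PadicInt.ker_toZModPow, Ideal.mem_span_singleton] at h4
    exact h4
  choose Y hY using h1
  refine ⟨Matrix.of Y, ?_⟩
  ext i j
  rw [Matrix.add_apply, Matrix.smul_apply, Matrix.of_apply, smul_eq_mul, ← hY i j]
  ring

/-- **The abstract Tate eigenlattice.** -/
theorem h23t_eigenlattice (p : ℕ) [Fact p.Prime] (G : Type) [Group G]
    (ι : Type) [Fintype ι] [DecidableEq ι]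
    (𝒪 : Type) [CommRing 𝒪] [IsDomain 𝒪] [IsDiscreteValuationRing 𝒪]
    (φ : ℤ_[p] →+* 𝒪) (hp : (p : 𝒪) ∈ IsLocalRing.maximalIdeal 𝒪) (hp0 : (p : 𝒪) ≠ 0)
    (Sy : h23tSystem p G ι) (τ : Type) (T : τ → Matrix ι ι ℤ) (c : τ → 𝒪)
    (hcomm : ∀ k g t, Sy.R k g * (T t).map (Int.cast : ℤ → ZMod (p ^ k)) =
      (T t).map (Int.cast : ℤ → ZMod (p ^ k)) * Sy.R k g)
    (heig : ∃ v : ι → 𝒪, v ≠ 0 ∧ ∀ t, ((T t).map (Int.cast : ℤ → 𝒪)).mulVec v = c t • v) :
    ∃ (M : Type) (_ : AddCommGroup M) (_ : Module 𝒪 M) (_ : Module.Free 𝒪 M)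
      (_ : Module.Finite 𝒪 M) (_ : Nontrivial M) (ρ : G →* Module.End 𝒪 M),
      (∀ (g : G) (n : ℕ), Sy.R n g = 1 →
        ∀ v : M, ρ g v - v ∈ (IsLocalRing.maximalIdeal 𝒪 ^ n) • (⊤ : Submodule 𝒪 M)) ∧
      (∀ g : G, (∀ k, Sy.R k g = 1) → ρ g = 1) ∧
      (∀ (g : G) (t : τ) (ℓ : ℤ),
        (∀ k, Sy.R k g * Sy.R k g - (T t).map (Int.cast : ℤ → ZMod (p ^ k)) * Sy.R k g +
          (ℓ : ZMod (p ^ k)) • (1 : Matrix ι ι (ZMod (p ^ k))) = 0) →
        ρ g * ρ g - c t • ρ g + (ℓ : 𝒪) • (1 : Module.End 𝒪 M) = 0) := by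
  obtain ⟨ρp, hρp⟩ := h23t_exists_padic Sy
  -- the integral Hecke matrices over `ℤ_[p]` and over `𝒪`
  set Tp : τ → Matrix ι ι ℤ_[p] := fun t => (T t).map (Int.cast : ℤ → ℤ_[p]) with hTp
  set TO : τ → Matrix ι ι 𝒪 := fun t => (T t).map (Int.cast : ℤ → 𝒪) with hTO
  have hTpO : ∀ t, (Tp t).map φ = TO t := fun t => h23t_intMat_map φ (T t)
  -- the representation over `𝒪`
  set ρO : G →* Matrix ι ι 𝒪 := (φ.mapMatrix : Matrix ι ι ℤ_[p] →+* Matrix ι ι 𝒪).toMonoidHom.comp ρp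
    with hρO
  have hρO_apply : ∀ g, ρO g = (ρp g).map φ := fun g => rfl
  -- commutation
  have hcommp : ∀ g t, ρp g * Tp t = Tp t * ρp g := by
    intro g t
    apply h23t_matrix_ext
    intro k
    rw [Matrix.map_mul, Matrix.map_mul, hρp, h23t_intMat_toZModPow, hcomm]
  have hcommO : ∀ g t, ρO g * TO t = TO t * ρO g := by
    intro g t
    rw [hρO_apply, ← hTpO, ← Matrix.map_mul, ← Matrix.map_mul, hcommp]
  -- the eigenlattice
  set M : Submodule 𝒪 (ι → 𝒪) := h23tEigen TO c with hM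
  have hstab : ∀ g, ∀ v ∈ M, (Matrix.mulVecLin (ρO g)) v ∈ M := by
    intro g v hv
    rw [Matrix.mulVecLin_apply]
    exact h23t_eigen_stable (fun t => hcommO g t) hv
  set ρ : G →* Module.End 𝒪 M :=
    { toFun := fun g => (Matrix.mulVecLin (ρO g)).restrict (hstab g)
      map_one' := by
        ext v i
        simp
      map_mul' := by
        intro g h
        ext v i
        simp [Matrix.mulVec_mulVec] } with hρ
  have hρ_apply : ∀ g (v : M), ((ρ g v : M) : ι → 𝒪) = (ρO g).mulVec (v : ι → 𝒪) := by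
    intro g v
    rfl
  obtain ⟨v₀, hv₀, hv₀e⟩ := heig
  have hnt : Nontrivial M := by
    refine ⟨⟨⟨v₀, hv₀e⟩, 0, ?_⟩⟩
    intro h
    exact hv₀ (congrArg Subtype.val h)
  refine ⟨M, inferInstance, inferInstance, inferInstance, inferInstance, hnt, ρ, ?_, ?_, ?_⟩
  · -- adic continuity
    intro g n hg v
    have h1 : (ρp g).map (PadicInt.toZModPow n) = 1 := by rw [hρp, hg]
    obtain ⟨Y, hY⟩ := h23t_exists_of_map_eq_one h1
    set w : ι → 𝒪 := (Y.map φ).mulVec (v : ι → 𝒪) with hw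
    have h2 : (ρO g).mulVec (v : ι → 𝒪) - (v : ι → 𝒪) = ((p : 𝒪) ^ n) • w := by
      rw [hρO_apply, hY]
      have h3 : (1 + (p : ℤ_[p]) ^ n • Y).map φ = 1 + ((p : 𝒪) ^ n) • Y.map φ := by
        ext i j
        by_cases hij : i = j
        · subst hij; simp
        · simp [Matrix.one_apply_ne hij]
      rw [h3, Matrix.add_mulVec, Matrix.one_mulVec, Matrix.smul_mulVec, add_sub_cancel_left]
    have hpn : ((p : 𝒪) ^ n) ≠ 0 := pow_ne_zero n hp0
    have hwM : w ∈ M := by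
      apply h23t_eigen_saturated hpn
      rw [← h2]
      exact M.sub_mem (hstab g v v.2) v.2
    have h4 : ρ g v - v = ((p : 𝒪) ^ n) • (⟨w, hwM⟩ : M) := by
      apply Subtype.ext
      rw [Submodule.coe_sub, hρ_apply, h2]
      rfl
    rw [h4]
    exact Submodule.smul_mem_smul (Ideal.pow_mem_pow hp n) Submodule.mem_top
  · -- triviality
    intro g hg
    have h1 : ρp g = 1 := by
      apply h23t_matrix_ext
      intro k
      rw [hρp, hg, Matrix.map_one _ (map_zero _) (map_one _)]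
    ext v i
    rw [hρ_apply, hρO_apply, h1]
    simp
  · -- quadratic relations
    intro g t ℓ hrel
    have h1 : ρp g * ρp g - Tp t * ρp g + ℓ • (1 : Matrix ι ι ℤ_[p]) = 0 := by
      apply h23t_matrix_ext
      intro k
      have hk := hrel k
      rw [Int.cast_smul_eq_zsmul] at hk
      simp only [← RingHom.mapMatrix_apply, map_add, map_sub, map_mul, map_zsmul, map_one,
        map_zero]
      simp only [RingHom.mapMatrix_apply, hρp]
      have hT : (Tp t).map (PadicInt.toZModPow k) = (T t).map (Int.cast : ℤ → ZMod (p ^ k)) :=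
        h23t_intMat_toZModPow (T t) k
      rw [hT]
      exact hk
    have h5 : ρO g * ρO g - TO t * ρO g + ℓ • (1 : Matrix ι ι 𝒪) = 0 := by
      have h6 := congrArg (φ.mapMatrix : Matrix ι ι ℤ_[p] →+* Matrix ι ι 𝒪) h1
      simp only [map_add, map_sub, map_mul, map_zsmul, map_one, map_zero] at h6
      simp only [RingHom.mapMatrix_apply, hTpO] at h6
      rw [hρO_apply]
      exact h6
    ext v i
    have h8 := congrFun (congrArg (fun A : Matrix ι ι 𝒪 => A.mulVec (v : ι → 𝒪)) h5) i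
    simp only [Matrix.add_mulVec, Matrix.sub_mulVec, Matrix.zero_mulVec, Matrix.smul_mulVec,
      Matrix.one_mulVec, ← Matrix.mulVec_mulVec] at h8
    have h9 : (TO t).mulVec ((ρO g).mulVec (v : ι → 𝒪)) = c t • (ρO g).mulVec (v : ι → 𝒪) :=
      (hstab g v v.2) t
    rw [h9] at h8
    rw [Int.cast_smul_eq_zsmul]
    simpa [hρ_apply] using h8

/-- **The abstract Tate eigenlattice over a complete DVR.** -/
theorem h23t_eigenlattice_complete (p : ℕ) [Fact p.Prime] (G : Type) [Group G]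
    (ι : Type) [Fintype ι] [DecidableEq ι]
    (𝒪 : Type) [CommRing 𝒪] [IsDomain 𝒪] [IsDiscreteValuationRing 𝒪]
    [IsAdicComplete (IsLocalRing.maximalIdeal 𝒪) 𝒪]
    (hp : (p : 𝒪) ∈ IsLocalRing.maximalIdeal 𝒪) (hp0 : (p : 𝒪) ≠ 0)
    (Sy : h23tSystem p G ι) (τ : Type) (T : τ → Matrix ι ι ℤ) (c : τ → 𝒪)
    (hcomm : ∀ k g t, Sy.R k g * (T t).map (Int.cast : ℤ → ZMod (p ^ k)) =
      (T t).map (Int.cast : ℤ → ZMod (p ^ k)) * Sy.R k g)
    (heig : ∃ v : ι → 𝒪, v ≠ 0 ∧ ∀ t, ((T t).map (Int.cast : ℤ → 𝒪)).mulVec v = c t • v) :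
    ∃ (M : Type) (_ : AddCommGroup M) (_ : Module 𝒪 M) (_ : Module.Free 𝒪 M)
      (_ : Module.Finite 𝒪 M) (_ : Nontrivial M) (ρ : G →* Module.End 𝒪 M),
      (∀ (g : G) (n : ℕ), Sy.R n g = 1 →
        ∀ v : M, ρ g v - v ∈ (IsLocalRing.maximalIdeal 𝒪 ^ n) • (⊤ : Submodule 𝒪 M)) ∧
      (∀ g : G, (∀ k, Sy.R k g = 1) → ρ g = 1) ∧
      (∀ (g : G) (t : τ) (ℓ : ℤ),
        (∀ k, Sy.R k g * Sy.R k g - (T t).map (Int.cast : ℤ → ZMod (p ^ k)) * Sy.R k g +
          (ℓ : ZMod (p ^ k)) • (1 : Matrix ι ι (ZMod (p ^ k))) = 0) →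
        ρ g * ρ g - c t • ρ g + (ℓ : 𝒪) • (1 : Module.End 𝒪 M) = 0) :=
  h23t_eigenlattice p G ι 𝒪 (H27CYC.h27cyc_padicHom p 𝒪 (IsLocalRing.maximalIdeal 𝒪) hp)
    hp hp0 Sy τ T c hcomm heig

/-- **Clearing denominators**: an eigenvector over the fraction field gives an eigenvector over
the ring. -/
theorem h23t_clear_denominators {𝒪 K : Type} [CommRing 𝒪] [IsDomain 𝒪] [Field K] [Algebra 𝒪 K]
    [IsFractionRing 𝒪 K] {ι : Type} [Fintype ι] [DecidableEq ι] {τ : Type}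
    (T : τ → Matrix ι ι ℤ) (c : τ → 𝒪)
    (h : ∃ v : ι → K, v ≠ 0 ∧
      ∀ t, ((T t).map (Int.cast : ℤ → K)).mulVec v = algebraMap 𝒪 K (c t) • v) :
    ∃ v : ι → 𝒪, v ≠ 0 ∧ ∀ t, ((T t).map (Int.cast : ℤ → 𝒪)).mulVec v = c t • v := by
  obtain ⟨v, hv, hve⟩ := h
  obtain ⟨b, hb⟩ := IsLocalization.exist_integer_multiples_of_finite (nonZeroDivisors 𝒪) v
  choose w hw using hb
  have hb0 : algebraMap 𝒪 K (b : 𝒪) ≠ 0 := by
    have := nonZeroDivisors.coe_ne_zero b
    simp [this]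
  have hinj : Function.Injective (algebraMap 𝒪 K) := IsFractionRing.injective 𝒪 K
  have hwv : ∀ i, algebraMap 𝒪 K (w i) = algebraMap 𝒪 K (b : 𝒪) * v i := by
    intro i
    rw [hw i, Algebra.smul_def]
  refine ⟨w, ?_, fun t => ?_⟩
  · intro h0
    apply hv
    funext i
    have h1 := hwv i
    rw [h0, Pi.zero_apply, map_zero] at h1
    exact ((mul_eq_zero.1 h1.symm).resolve_left hb0)
  · funext i
    apply hinj
    have h1 := congrFun (hve t) i
    simp only [Matrix.mulVec, dotProduct, Matrix.map_apply, Pi.smul_apply, smul_eq_mul,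
      map_sum, map_mul, map_intCast] at h1 ⊢
    simp only [hwv]
    calc ∑ j, ((T t i j : ℤ) : K) * (algebraMap 𝒪 K (b : 𝒪) * v j)
        = algebraMap 𝒪 K (b : 𝒪) * ∑ j, ((T t i j : ℤ) : K) * v j := by
          rw [Finset.mul_sum]
          exact Finset.sum_congr rfl fun j _ => by ring
      _ = algebraMap 𝒪 K (c t) * (algebraMap 𝒪 K (b : 𝒪) * v i) := by rw [h1]; ring

end Eigen

end H23T

end
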