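import Mathlib
import Fermat.Agent.W3G.Tate_helper23

/-!
# Item 80 (W3G), EigenAdic assembly, abstract half (helper23)

`h23eaDatum G J ι`: comparison maps `emb n : ℤ^ι → J[n]` (injective modulo `n`, compatible under
`m • emb (n m) = emb n`, with `G`-stable images): the abstract form of helper11's `IsLam` +
`LamGalStatement` after the choice of a basis of `Hom_par(Γ₀(N), ℤ)`.

* `h23ea_exists_system`: the compatible system of matrix representations of `G` modulo `p ^ k`
  (`H23T.h23tSystem`) attached to a datum;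
* `h23ea_main`: for Hecke matrices `Tmat t` with `emb n (Tmat t a) = TJ t (emb n a)`, `TJ t`
  commuting with `G`, and an eigenvector over `𝒪`: the eigenlattice with its `G`-action and the
  three transfer principles (continuity, triviality, quadratic relations), phrased on `J`.
-/

set_option autoImplicit false
set_option linter.style.longLine false
set_option linter.unusedSectionVars false
set_option linter.unnecessarySimpa false

open Matrix

noncomputable section

namespace H23EA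

variable {G : Type} [Group G] {J : Type*} [AddCommGroup J] [DistribMulAction G J]
variable {ι : Type} [Fintype ι] [DecidableEq ι]

/-- The abstract comparison datum: maps `emb n : ℤ^ι → J[n]`, injective modulo `n`, compatible,
with `G`-stable images. -/
structure h23eaDatum (G : Type) [Group G] (J : Type*) [AddCommGroup J] [DistribMulAction G J]
    (ι : Type) [Fintype ι] [DecidableEq ι] where
  /-- the comparison maps -/
  emb : ℕ → ((ι → ℤ) →+ J)
  tors : ∀ (n : ℕ) (a : ι → ℤ), n • emb n a = 0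
  inj : ∀ n : ℕ, 0 < n → ∀ a : ι → ℤ, emb n a = 0 → ∃ a' : ι → ℤ, a = n • a'
  compat : ∀ n m : ℕ, 0 < n → 0 < m → ∀ a : ι → ℤ, m • emb (n * m) a = emb n a
  stable : ∀ n : ℕ, 0 < n → ∀ (σ : G) (a : ι → ℤ), ∃ a' : ι → ℤ, σ • emb n a = emb n a'

variable (D : h23eaDatum G J ι)

/-- `A` represents the action of `σ` on the image of `emb n`. -/
def h23eaRel (n : ℕ) (σ : G) (A : Matrix ι ι ℤ) : Prop :=
  ∀ a : ι → ℤ, σ • D.emb n a = D.emb n (A.mulVec a)

/-- an integer matrix that kills the image of `emb n` vanishes modulo `n` -/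
theorem h23ea_map_eq_zero {n : ℕ} (hn : 0 < n) {B : Matrix ι ι ℤ}
    (h : ∀ a : ι → ℤ, D.emb n (B.mulVec a) = 0) :
    B.map (Int.cast : ℤ → ZMod n) = 0 := by
  ext i j
  obtain ⟨a', ha'⟩ := D.inj n hn _ (h (Pi.single j 1))
  have h1 : B i j = n * a' i := by
    have := congrFun ha' i
    simpa using this
  rw [Matrix.map_apply, Matrix.zero_apply, h1]
  push_cast
  simp

/-- an integer matrix that vanishes modulo `n` kills the image of `emb n` -/
theorem h23ea_emb_eq_zero {n : ℕ} {B : Matrix ι ι ℤ}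
    (h : B.map (Int.cast : ℤ → ZMod n) = 0) (a : ι → ℤ) : D.emb n (B.mulVec a) = 0 := by
  have h1 : ∀ i j, ∃ c : ℤ, B i j = n * c := by
    intro i j
    have h2 := congrFun (congrFun h i) j
    rw [Matrix.map_apply, Matrix.zero_apply] at h2
    exact (ZMod.intCast_zmod_eq_zero_iff_dvd _ _).1 h2
  choose C hC using h1
  have h3 : B.mulVec a = n • (Matrix.of C).mulVec a := by
    funext i
    simp only [Matrix.mulVec, dotProduct, Pi.smul_apply, Matrix.of_apply, hC, nsmul_eq_mul,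
      Finset.mul_sum]
    exact Finset.sum_congr rfl fun j _ => by ring
  rw [h3, map_nsmul, D.tors]

theorem h23ea_exists_rel {n : ℕ} (hn : 0 < n) (σ : G) : ∃ A : Matrix ι ι ℤ, h23eaRel D n σ A := by
  have h1 : ∀ j : ι, ∃ c : ι → ℤ, σ • D.emb n (Pi.single j 1) = D.emb n c :=
    fun j => D.stable n hn σ _
  choose c hc using h1
  refine ⟨Matrix.of fun i j => c j i, fun a => ?_⟩
  have ha : a = ∑ j, a j • (Pi.single j (1 : ℤ) : ι → ℤ) := by
    funext i
    simp [Finset.sum_apply, Pi.single_apply]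
  have h2 : (Matrix.of fun i j => c j i).mulVec a = ∑ j, a j • c j := by
    funext i
    simp only [Matrix.mulVec, dotProduct, Matrix.of_apply, Finset.sum_apply, Pi.smul_apply,
      smul_eq_mul]
    exact Finset.sum_congr rfl fun j _ => by ring
  rw [h2]
  conv_lhs => rw [ha]
  rw [map_sum, map_sum, Finset.smul_sum]
  refine Finset.sum_congr rfl fun j _ => ?_
  rw [map_zsmul, map_zsmul, smul_comm, hc j]

theorem h23ea_rel_unique {n : ℕ} (hn : 0 < n) {σ : G} {A A' : Matrix ι ι ℤ}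
    (h : h23eaRel D n σ A) (h' : h23eaRel D n σ A') :
    A.map (Int.cast : ℤ → ZMod n) = A'.map (Int.cast : ℤ → ZMod n) := by
  have h1 : (A - A').map (Int.cast : ℤ → ZMod n) = 0 := by
    apply h23ea_map_eq_zero D hn
    intro a
    rw [Matrix.sub_mulVec, map_sub, ← h a, ← h' a, sub_self]
  have h2 : (A - A').map (Int.cast : ℤ → ZMod n) =
      A.map (Int.cast : ℤ → ZMod n) - A'.map (Int.cast : ℤ → ZMod n) := by
    ext i j
    simp
  rw [h2, sub_eq_zero] at h1
  exact h1

theorem h23ea_rel_one (n : ℕ) : h23eaRel D n (1 : G) 1 := by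
  intro a
  rw [one_smul, Matrix.one_mulVec]

theorem h23ea_rel_mul {n : ℕ} {σ τ : G} {A B : Matrix ι ι ℤ}
    (hA : h23eaRel D n σ A) (hB : h23eaRel D n τ B) : h23eaRel D n (σ * τ) (A * B) := by
  intro a
  rw [mul_smul, hB a, hA, Matrix.mulVec_mulVec]

theorem h23ea_rel_down {n m : ℕ} (hn : 0 < n) (hm : 0 < m) {σ : G} {A : Matrix ι ι ℤ}
    (hA : h23eaRel D (n * m) σ A) : h23eaRel D n σ A := by
  intro a
  rw [← D.compat n m hn hm, ← D.compat n m hn hm, smul_comm, hA a]

theorem h23ea_intMat_map_mul (n : ℕ) (A B : Matrix ι ι ℤ) :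
    (A * B).map (Int.cast : ℤ → ZMod n) =
      A.map (Int.cast : ℤ → ZMod n) * B.map (Int.cast : ℤ → ZMod n) := by
  have := map_mul (Int.castRingHom (ZMod n)).mapMatrix A B
  simpa [RingHom.mapMatrix_apply] using this

theorem h23ea_intMat_map_one (n : ℕ) :
    (1 : Matrix ι ι ℤ).map (Int.cast : ℤ → ZMod n) = 1 := by
  have := map_one ((Int.castRingHom (ZMod n)).mapMatrix (m := ι))
  simpa [RingHom.mapMatrix_apply] using this

/-- **The compatible system attached to a comparison datum.** -/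
theorem h23ea_exists_system (p : ℕ) [Fact p.Prime] :
    ∃ Sy : H23T.h23tSystem p G ι, ∀ (k : ℕ) (σ : G) (A : Matrix ι ι ℤ),
      h23eaRel D (p ^ k) σ A → Sy.R k σ = A.map (Int.cast : ℤ → ZMod (p ^ k)) := by
  have hpos : ∀ k, 0 < p ^ k := fun k => pow_pos (Fact.out : p.Prime).pos k
  have hex : ∀ (k : ℕ) (σ : G), ∃ A : Matrix ι ι ℤ, h23eaRel D (p ^ k) σ A :=
    fun k σ => h23ea_exists_rel D (hpos k) σ
  choose A hA using hex
  have huniq : ∀ (k : ℕ) (σ : G) (B : Matrix ι ι ℤ), h23eaRel D (p ^ k) σ B →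
      (A k σ).map (Int.cast : ℤ → ZMod (p ^ k)) = B.map (Int.cast : ℤ → ZMod (p ^ k)) :=
    fun k σ B hB => h23ea_rel_unique D (hpos k) (hA k σ) hB
  refine ⟨{ R := fun k =>
              { toFun := fun σ => (A k σ).map (Int.cast : ℤ → ZMod (p ^ k))
                map_one' := by
                  rw [huniq k 1 1 (h23ea_rel_one D _), h23ea_intMat_map_one]
                map_mul' := by
                  intro σ τ
                  rw [huniq k (σ * τ) _ (h23ea_rel_mul D (hA k σ) (hA k τ)),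
                    h23ea_intMat_map_mul] }
            compat := ?_ }, ?_⟩
  · intro k σ
    have h1 : h23eaRel D (p ^ k) σ (A (k + 1) σ) := by
      apply h23ea_rel_down D (hpos k) (Fact.out : p.Prime).pos
      rw [← pow_succ]
      exact hA (k + 1) σ
    show ((A (k + 1) σ).map (Int.cast : ℤ → ZMod (p ^ (k + 1)))).map _ = (A k σ).map _
    rw [huniq k σ _ h1]
    ext i j
    simp
  · intro k σ B hB
    exact huniq k σ B hB

/-- **The abstract EigenAdic assembly.** -/
theorem h23ea_main (p : ℕ) [Fact p.Prime]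
    (𝒪 : Type) [CommRing 𝒪] [IsDomain 𝒪] [IsDiscreteValuationRing 𝒪]
    [IsAdicComplete (IsLocalRing.maximalIdeal 𝒪) 𝒪]
    (hp : (p : 𝒪) ∈ IsLocalRing.maximalIdeal 𝒪) (hp0 : (p : 𝒪) ≠ 0)
    (τ : Type) (Tmat : τ → Matrix ι ι ℤ) (TJ : τ → (J →+ J)) (c : τ → 𝒪)
    (hT : ∀ n : ℕ, 0 < n → ∀ (t : τ) (a : ι → ℤ),
      D.emb n ((Tmat t).mulVec a) = TJ t (D.emb n a))
    (hcommJ : ∀ (t : τ) (σ : G) (x : J), σ • TJ t x = TJ t (σ • x))
    (heig : ∃ v : ι → 𝒪, v ≠ 0 ∧
      ∀ t, ((Tmat t).map (Int.cast : ℤ → 𝒪)).mulVec v = c t • v) :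
    ∃ (M : Type) (_ : AddCommGroup M) (_ : Module 𝒪 M) (_ : Module.Free 𝒪 M)
      (_ : Module.Finite 𝒪 M) (_ : Nontrivial M) (ρ : G →* Module.End 𝒪 M),
      (∀ (σ : G) (n : ℕ), (∀ a, σ • D.emb (p ^ n) a = D.emb (p ^ n) a) →
        ∀ v : M, ρ σ v - v ∈ (IsLocalRing.maximalIdeal 𝒪 ^ n) • (⊤ : Submodule 𝒪 M)) ∧
      (∀ σ : G, (∀ k a, σ • D.emb (p ^ k) a = D.emb (p ^ k) a) → ρ σ = 1) ∧
      (∀ (σ : G) (t : τ) (ℓ : ℤ),
        (∀ k a, σ • σ • D.emb (p ^ k) a - TJ t (σ • D.emb (p ^ k) a) + ℓ • D.emb (p ^ k) a = 0) →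
        ρ σ * ρ σ - c t • ρ σ + (ℓ : 𝒪) • (1 : Module.End 𝒪 M) = 0) := by
  have hpos : ∀ k, 0 < p ^ k := fun k => pow_pos (Fact.out : p.Prime).pos k
  obtain ⟨Sy, hSy⟩ := h23ea_exists_system D p
  have hone : ∀ (k : ℕ) (σ : G), (∀ a, σ • D.emb (p ^ k) a = D.emb (p ^ k) a) → Sy.R k σ = 1 := by
    intro k σ h
    have h1 : h23eaRel D (p ^ k) σ 1 := fun a => by rw [h a, Matrix.one_mulVec]
    rw [hSy k σ 1 h1, h23ea_intMat_map_one]
  have hcomm : ∀ k g t, Sy.R k g * (Tmat t).map (Int.cast : ℤ → ZMod (p ^ k)) =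
      (Tmat t).map (Int.cast : ℤ → ZMod (p ^ k)) * Sy.R k g := by
    intro k g t
    obtain ⟨A, hA⟩ := h23ea_exists_rel D (hpos k) g
    rw [hSy k g A hA, ← h23ea_intMat_map_mul, ← h23ea_intMat_map_mul, ← sub_eq_zero]
    have h1 : (A * Tmat t - Tmat t * A).map (Int.cast : ℤ → ZMod (p ^ k)) = 0 := by
      apply h23ea_map_eq_zero D (hpos k)
      intro a
      rw [Matrix.sub_mulVec, map_sub, ← Matrix.mulVec_mulVec, ← Matrix.mulVec_mulVec, ← hA,
        hT _ (hpos k), hT _ (hpos k), ← hA, hcommJ, sub_self]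
    rw [← h1]
    ext i j
    simp
  obtain ⟨M, i1, i2, i3, i4, i5, ρ, h1, h2, h3⟩ :=
    H23T.h23t_eigenlattice_complete p G ι 𝒪 hp hp0 Sy τ Tmat c hcomm heig
  refine ⟨M, i1, i2, i3, i4, i5, ρ, ?_, ?_, ?_⟩
  · intro σ n h v
    exact h1 σ n (hone n σ h) v
  · intro σ h
    exact h2 σ fun k => hone k σ (h k)
  · intro σ t ℓ h
    apply h3 σ t ℓ
    intro k
    obtain ⟨A, hA⟩ := h23ea_exists_rel D (hpos k) σ
    rw [hSy k σ A hA]
    have h4 : (A * A - Tmat t * A + ℓ • (1 : Matrix ι ι ℤ)).map (Int.cast : ℤ → ZMod (p ^ k))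
        = 0 := by
      apply h23ea_map_eq_zero D (hpos k)
      intro a
      have h5 := h k a
      rw [hA a, hA] at h5
      rw [Matrix.add_mulVec, Matrix.sub_mulVec, map_add, map_sub, ← Matrix.mulVec_mulVec,
        ← Matrix.mulVec_mulVec, Matrix.smul_mulVec, Matrix.one_mulVec, map_zsmul,
        hT _ (hpos k)]
      exact h5
    have h6 : (Int.castRingHom (ZMod (p ^ k))).mapMatrix
        (A * A - Tmat t * A + ℓ • (1 : Matrix ι ι ℤ)) = 0 := h4
    simp only [map_add, map_sub, map_mul, map_zsmul, map_one] at h6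
    rw [Int.cast_smul_eq_zsmul]
    exact h6

end H23EA

end
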