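import Mathlib
import Fermat.Agent.W3G.DefsGeom
import Fermat.Agent.W3G.EigenAdicAbs_helper23

/-!
# Item 80 (W3G), EigenAdic assembly, concrete half (helper23)

* `h23ea_groupFG_Gamma0`, `h23ea_finite_Lpar`, `h23ea_free_Lpar`: `Γ₀(N)` is finitely generated,
  so `Hom_par(Γ₀(N), ℤ)` is a finite free `ℤ`-module;
* `h23eaDatumOfLam`: the abstract comparison datum of `LamGalStatement N` and a basis of `Lpar N`;
* `h23ea_eigenAdic_at` / `h23ea_eigenAdic`:
  `HeckeLStatement + LamGalStatement + ESInertiaStatement + ESFrobeniusStatement + CommStatement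
   + FinLevStatement` (at level `N`) `+ EigHAdicStatement ⇒ EigenAdicStatement`.
-/

set_option autoImplicit false
set_option linter.style.longLine false
set_option linter.unusedSectionVars false
set_option linter.unnecessarySimpa false
set_option linter.style.haveILetI false

open Matrix

noncomputable section

namespace H23EA

open H11W3G ModularCurve CongruenceSubgroup TensorProduct
open scoped MatrixGroups
theorem h23ea_groupFG_SL2Z : Group.FG SL(2, ℤ) :=
  Group.fg_iff.mpr ⟨{ModularGroup.S, ModularGroup.T}, SpecialLinearGroup.SL2Z_generators,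
    by simp⟩

theorem h23ea_groupFG_Gamma0 (N : ℕ) [NeZero N] : Group.FG (Gamma0 N) := by
  have := h23ea_groupFG_SL2Z
  exact Subgroup.fg_of_index_ne_zero _

/-- homs from a finitely generated group to `ℤ` form a finite `ℤ`-module -/
theorem h23ea_finite_hom (Γ : Type) [Group Γ] (h : Group.FG Γ) :
    Module.Finite ℤ (Additive Γ →+ ℤ) := by
  obtain ⟨s, hs⟩ := Group.fg_iff.1 h
  obtain ⟨hs1, hs2⟩ := hs
  let ev : (Additive Γ →+ ℤ) →ₗ[ℤ] (s → ℤ) :=
    { toFun := fun φ x => φ (Additive.ofMul x.1)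
      map_add' := fun φ ψ => rfl
      map_smul' := fun c φ => rfl }
  have hinj : Function.Injective ev := by
    intro φ ψ hφψ
    have h1 : Set.EqOn (AddMonoidHom.toMultiplicativeRight φ)
        (AddMonoidHom.toMultiplicativeRight ψ) s := by
      intro x hx
      have := congrFun hφψ ⟨x, hx⟩
      exact congrArg Multiplicative.ofAdd this
    have h2 := MonoidHom.eq_of_eqOn_dense hs1 h1
    exact AddMonoidHom.toMultiplicativeRight.injective h2
  haveI : Finite s := hs2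
  exact Module.Finite.of_injective ev hinj

instance h23ea_finite_Lpar (N : ℕ) [NeZero N] : Module.Finite ℤ (Lpar N) := by
  haveI := h23ea_finite_hom (Gamma0 N) (h23ea_groupFG_Gamma0 N)
  infer_instance

instance h23ea_torsionFree_Lpar (N : ℕ) [NeZero N] : Module.IsTorsionFree ℤ (Lpar N) := by
  refine Function.Injective.moduleIsTorsionFree (N := Gamma0 N → ℤ)
    (fun φ γ => (φ : Additive (Gamma0 N) →+ ℤ) (Additive.ofMul γ)) ?_ ?_
  · intro φ ψ h
    apply Subtype.ext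
    apply AddMonoidHom.ext
    intro γ
    exact congrFun h (Additive.toMul γ)
  · intro r φ
    rfl

instance h23ea_free_Lpar (N : ℕ) [NeZero N] : Module.Free ℤ (Lpar N) := by
  infer_instance

/-- the comparison datum attached to comparison maps with Galois-stable images and a basis of
`Lpar N` -/
def h23eaDatumOfLam (N : ℕ) [NeZero N] {ι : Type} [Fintype ι] [DecidableEq ι]
    (b : Module.Basis ι ℤ (Lpar N)) (lam : ℕ → (Lpar N →+ JZero N)) (hlam : IsLam N lam)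
    (hgal : ∀ n : ℕ, 0 < n → ∀ (σ : GQ) (φ : Lpar N), ∃ φ' : Lpar N, σ • lam n φ = lam n φ') :
    h23eaDatum GQ (JZero N) ι where
  emb n := (lam n).comp (b.equivFun.symm : (ι → ℤ) ≃ₗ[ℤ] Lpar N).toLinearMap.toAddMonoidHom
  tors n a := hlam.1 n _
  inj n hn a ha := by
    obtain ⟨φ', hφ'⟩ := hlam.2.1 n hn _ ha
    refine ⟨b.equivFun φ', ?_⟩
    have h1 := congrArg b.equivFun hφ'
    rw [map_nsmul] at h1
    rw [← h1]
    exact (b.equivFun.apply_symm_apply a).symm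
  compat n m hn hm a := hlam.2.2.1 n m hn hm _
  stable n hn σ a := by
    obtain ⟨φ', hφ'⟩ := hgal n hn σ (b.equivFun.symm a)
    refine ⟨b.equivFun φ', ?_⟩
    show σ • lam n (b.equivFun.symm a) = lam n (b.equivFun.symm (b.equivFun φ'))
    rw [b.equivFun.symm_apply_apply]
    exact hφ'

theorem h23eaDatumOfLam_emb (N : ℕ) [NeZero N] {ι : Type} [Fintype ι] [DecidableEq ι]
    (b : Module.Basis ι ℤ (Lpar N)) (lam : ℕ → (Lpar N →+ JZero N)) (hlam : IsLam N lam)
    (hgal : ∀ n : ℕ, 0 < n → ∀ (σ : GQ) (φ : Lpar N), ∃ φ' : Lpar N, σ • lam n φ = lam n φ')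
    (n : ℕ) (a : ι → ℤ) :
    (h23eaDatumOfLam N b lam hlam hgal).emb n a = lam n (b.equivFun.symm a) := rfl

/-- additivity: a `σ` fixing the images of the standard basis vectors fixes the image of `emb n` -/
theorem h23ea_fix_of_single {G : Type} [Group G] {J : Type*} [AddCommGroup J]
    [DistribMulAction G J] {ι : Type} [Fintype ι] [DecidableEq ι] (D : h23eaDatum G J ι)
    (n : ℕ) (σ : G) (h : ∀ j : ι, σ • D.emb n (Pi.single j 1) = D.emb n (Pi.single j 1))
    (a : ι → ℤ) : σ • D.emb n a = D.emb n a := by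
  have ha : a = ∑ j, a j • (Pi.single j (1 : ℤ) : ι → ℤ) := by
    funext i
    simp [Finset.sum_apply, Pi.single_apply]
  rw [ha, map_sum, Finset.smul_sum]
  refine Finset.sum_congr rfl fun j _ => ?_
  rw [map_zsmul, smul_comm, h j]

/-- **EigenAdic assembly at level `N`.** -/
theorem h23ea_eigenAdic_at (N : ℕ) [NeZero N]
    (hHecke : HeckeLStatement N) (hLam : LamGalStatement N)
    (hESI : ESInertiaStatement N) (hESF : ESFrobeniusStatement N)
    (hComm : CommStatement N) (hFin : FinLevStatement N) (hEig : EigHAdicStatement)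
    (p : ℕ) [Fact p.Prime] (S : Finset ℕ)
    (hpS : p ∈ S)
    (𝒪' : Type) [CommRing 𝒪'] [IsDomain 𝒪'] [IsDiscreteValuationRing 𝒪']
    [IsAdicComplete (IsLocalRing.maximalIdeal 𝒪') 𝒪']
    [CharZero 𝒪'] (hp𝒪' : (p : 𝒪') ∈ IsLocalRing.maximalIdeal 𝒪')
    (χ : CuspForm.heckeAlgebra N 2 (↑S : Set ℕ) →+* 𝒪') :
    ∃ (M : Type) (_ : AddCommGroup M) (_ : Module 𝒪' M) (_ : Module.Free 𝒪' M)
      (_ : Module.Finite 𝒪' M) (_ : Nontrivial M) (ρ : GQ →* Module.End 𝒪' M),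
      GaloisActionIsAdicContinuous 𝒪' ρ ∧
      (∀ q : ℕ, q.Prime → ¬ q ∣ N → q ≠ p → ∀ A : ValuationSubring (AlgebraicClosure ℚ),
        A.LiesOverPrime q → ∀ σ ∈ A.inertiaSubgroupIn ℚ, ρ σ = 1) ∧
      (∀ (ℓ : ℕ) (hℓ : ℓ.Prime) (hℓN : ¬ ℓ ∣ N) (hℓS : ℓ ∉ (↑S : Set ℕ)),
        ∀ A : ValuationSubring (AlgebraicClosure ℚ), A.LiesOverPrime ℓ →
          ∀ σ : GQ, A.IsFrobeniusAt σ ℓ →
            QuadRel (ρ σ) (χ (CuspForm.heckeAlgebra.T hℓ hℓN hℓS)) (ℓ : 𝒪')) := by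
  classical
  have hpp : p.Prime := Fact.out
  obtain ⟨lam, hlam, hgal⟩ := hLam
  let ι := Module.Free.ChooseBasisIndex ℤ (Lpar N)
  let b : Module.Basis ι ℤ (Lpar N) := Module.Free.chooseBasis ℤ (Lpar N)
  let D := h23eaDatumOfLam N b lam hlam hgal
  have hDemb : ∀ (n : ℕ) (a : ι → ℤ), D.emb n a = lam n (b.equivFun.symm a) := fun _ _ => rfl
  -- the index set of Hecke operators
  let τ : Type := {ℓ : ℕ // ℓ.Prime ∧ ¬ ℓ ∣ N ∧ ℓ ∉ (↑S : Set ℕ)}
  have hT0 : ∀ t : τ, ∃ T : Lpar N →ₗ[ℤ] Lpar N, @IsHeckeL N t.1 ⟨t.2.1⟩ t.2.2.1 T := by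
    intro t
    haveI : Fact t.1.Prime := ⟨t.2.1⟩
    exact hHecke t.1 t.2.2.1
  choose T hTH using hT0
  have hTlam : ∀ (t : τ) (n : ℕ), 0 < n → ∀ φ : Lpar N,
      lam n (T t φ) = heckeOperatorBar N ⟨t.1, t.2.1⟩ (lam n φ) := by
    intro t n hn φ
    haveI : Fact t.1.Prime := ⟨t.2.1⟩
    exact hlam.2.2.2 n hn t.1 t.2.1 t.2.2.1 (T t) (hTH t) φ
  let Tmat : τ → Matrix ι ι ℤ := fun t => LinearMap.toMatrix b b (T t)
  let TJ : τ → (JZero N →+ JZero N) := fun t => (heckeOperatorBar N ⟨t.1, t.2.1⟩).toAddMonoidHom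
  let c : τ → 𝒪' := fun t => χ (CuspForm.heckeAlgebra.T t.2.1 t.2.2.1 t.2.2.2)
  have hT : ∀ n : ℕ, 0 < n → ∀ (t : τ) (a : ι → ℤ),
      D.emb n ((Tmat t).mulVec a) = TJ t (D.emb n a) := by
    intro n hn t a
    rw [hDemb, hDemb]
    have h1 : b.equivFun.symm ((Tmat t).mulVec a) = T t (b.equivFun.symm a) := by
      apply b.equivFun.injective
      rw [LinearEquiv.apply_symm_apply]
      have h2 := LinearMap.toMatrix_mulVec_repr b b (T t) (b.equivFun.symm a)
      have h3 : (b.repr (b.equivFun.symm a) : ι → ℤ) = a := b.equivFun.apply_symm_apply a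
      rw [h3] at h2
      exact h2
    rw [h1, hTlam t n hn]
    rfl
  have hcommJ : ∀ (t : τ) (σ : GQ) (x : JZero N), σ • TJ t x = TJ t (σ • x) := by
    intro t σ x
    exact hComm t.1 t.2.1 t.2.2.1 σ x
  have heig : ∃ v : ι → 𝒪', v ≠ 0 ∧
      ∀ t, ((Tmat t).map (Int.cast : ℤ → 𝒪')).mulVec v = c t • v := by
    obtain ⟨v, hv0, hv⟩ := hEig N S 𝒪' χ
    let B : Module.Basis ι 𝒪' (𝒪' ⊗[ℤ] Lpar N) := Algebra.TensorProduct.basis 𝒪' b
    refine ⟨B.equivFun v, ?_, ?_⟩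
    · intro h
      apply hv0
      exact B.equivFun.map_eq_zero_iff.1 h
    · intro t
      haveI : Fact t.1.Prime := ⟨t.2.1⟩
      have h1 := hv t.1 t.2.1 t.2.2.1 t.2.2.2 (T t) (hTH t)
      have h2 := LinearMap.toMatrix_mulVec_repr B B ((T t).baseChange 𝒪') v
      rw [h1] at h2
      have h3 : LinearMap.toMatrix B B ((T t).baseChange 𝒪') =
          (Tmat t).map (Int.cast : ℤ → 𝒪') := by
        have := LinearMap.toMatrix_baseChange (A := 𝒪') (T t) b b
        rw [this]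
        rfl
      rw [h3] at h2
      rw [map_smul] at h2
      exact h2
  have hp0 : (p : 𝒪') ≠ 0 := Nat.cast_ne_zero.2 hpp.ne_zero
  obtain ⟨M, i1, i2, i3, i4, i5, ρ, h1, h2, h3⟩ :=
    h23ea_main D p 𝒪' hp𝒪' hp0 τ Tmat TJ c hT hcommJ heig
  refine ⟨M, i1, i2, i3, i4, i5, ρ, ?_, ?_, ?_⟩
  · -- adic continuity
    intro n
    have hL : ∀ j : ι, ∃ L : IntermediateField ℚ (AlgebraicClosure ℚ), FiniteDimensional ℚ L ∧
        ∀ σ : GQ, (∀ y ∈ L, σ y = y) →
          σ • D.emb (p ^ n) (Pi.single j 1) = D.emb (p ^ n) (Pi.single j 1) :=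
      fun j => hFin _
    choose L hL1 hL2 using hL
    refine ⟨⨆ j, L j, ?_, ?_⟩
    · haveI : ∀ j, FiniteDimensional ℚ (L j) := hL1
      exact IntermediateField.finiteDimensional_iSup_of_finite
    · intro σ hσ v
      apply h1 σ n
      apply h23ea_fix_of_single D (p ^ n) σ
      intro j
      apply hL2 j σ
      intro y hy
      exact hσ y ((le_iSup L j) hy)
  · -- unramified outside `N p`
    intro q hq hqN hqp A hA σ hσ
    apply h2 σ
    intro k a
    apply hESI (p ^ k) q hq hqN _ A hA σ hσ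
    · exact D.tors _ _
    · intro hdvd
      exact hqp ((Nat.prime_dvd_prime_iff_eq hq hpp).1 (hq.dvd_of_dvd_pow hdvd))
  · -- the Eichler–Shimura relation
    intro ℓ hℓ hℓN hℓS A hA σ hσ
    have hℓp : ℓ ≠ p := by
      rintro rfl
      exact hℓS (Finset.mem_coe.2 hpS)
    have h4 := h3 σ ⟨ℓ, hℓ, hℓN, hℓS⟩ (ℓ : ℤ) ?_
    · show ρ σ * ρ σ - χ (CuspForm.heckeAlgebra.T hℓ hℓN hℓS) • ρ σ + (ℓ : 𝒪') • 1 = 0
      have h5 : (((ℓ : ℤ) : 𝒪')) = (ℓ : 𝒪') := by push_cast; rfl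
      rw [h5] at h4
      exact h4
    · intro k a
      have h6 := hESF (p ^ k) ℓ hℓ hℓN (fun hdvd =>
        hℓp ((Nat.prime_dvd_prime_iff_eq hℓ hpp).1 (hℓ.dvd_of_dvd_pow hdvd))) A hA σ hσ
        (D.emb (p ^ k) a) (D.tors _ _)
      rw [natCast_zsmul]
      exact h6

/-- **EigenAdic assembly.** -/
theorem h23ea_eigenAdic
    (hHecke : ∀ (N : ℕ) [NeZero N], HeckeLStatement N)
    (hLam : ∀ (N : ℕ) [NeZero N], LamGalStatement N)
    (hESI : ∀ (N : ℕ) [NeZero N], ESInertiaStatement N)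
    (hESF : ∀ (N : ℕ) [NeZero N], ESFrobeniusStatement N)
    (hComm : ∀ (N : ℕ) [NeZero N], CommStatement N)
    (hFin : ∀ (N : ℕ) [NeZero N], FinLevStatement N)
    (hEig : EigHAdicStatement) : EigenAdicStatement := by
  intro p _ N _ S hpS _ 𝒪' _ _ _ _ _ _ hp𝒪' χ
  exact h23ea_eigenAdic_at N (hHecke N) (hLam N) (hESI N) (hESF N) (hComm N) (hFin N) hEig
    p S hpS 𝒪' hp𝒪' χ

end H23EA

end
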