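import Fermat.Agent.W3G.LiftN_helper11

/-!
# Item 80 (W3G): `KumGalStatement N → LamGalStatement N` (helper11)

The lattice form of the comparison maps: `lam n φ := kum n (φ mod n)`.
-/

set_option autoImplicit false
set_option linter.style.haveILetI false
set_option linter.unusedSectionVars false

noncomputable section

namespace H11W3G

open ModularCurve CongruenceSubgroup

variable (N : ℕ)

theorem h11lb_finOrder_zero (φ : Additive (Gamma0 N) →+ ℤ) (γ : Gamma0 N)
    (hγ : IsOfFinOrder γ) : φ (Additive.ofMul γ) = 0 := by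
  obtain ⟨k, hk, hγk⟩ := isOfFinOrder_iff_pow_eq_one.mp hγ
  have h1 : k • φ (Additive.ofMul γ) = 0 := by
    rw [← map_nsmul, ← ofMul_pow, hγk, ofMul_one, map_zero]
  rw [nsmul_eq_mul] at h1
  rcases mul_eq_zero.mp h1 with h | h
  · exact absurd (by exact_mod_cast h) hk.ne'
  · exact h

/-- reduction modulo `n` of an integral parabolic homomorphism -/
def h11lb_red (n : ℕ) : Lpar N →+ Hpe N (ZMod n) where
  toFun φ := ⟨(Int.castAddHom (ZMod n)).comp (φ : Additive (Gamma0 N) →+ ℤ),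
    fun γ hγ => by
      show ((((φ : Additive (Gamma0 N) →+ ℤ) (Additive.ofMul γ) : ℤ)) : ZMod n) = 0
      rw [φ.2 γ hγ, Int.cast_zero],
    fun γ hγ => by
      show ((((φ : Additive (Gamma0 N) →+ ℤ) (Additive.ofMul γ) : ℤ)) : ZMod n) = 0
      rw [h11lb_finOrder_zero N _ γ hγ, Int.cast_zero]⟩
  map_zero' := by
    apply Subtype.ext
    apply AddMonoidHom.ext
    intro γ
    show (((0 : ℤ)) : ZMod n) = 0
    exact Int.cast_zero
  map_add' φ ψ := by
    apply Subtype.ext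
    apply AddMonoidHom.ext
    intro γ
    show ((((φ : Additive (Gamma0 N) →+ ℤ) γ + (ψ : Additive (Gamma0 N) →+ ℤ) γ : ℤ)) : ZMod n)
      = _
    rw [Int.cast_add]
    rfl

theorem h11lb_red_apply (n : ℕ) (φ : Lpar N) (γ : Gamma0 N) :
    (h11lb_red N n φ : Additive (Gamma0 N) →+ ZMod n) (Additive.ofMul γ) =
      (((φ : Additive (Gamma0 N) →+ ℤ) (Additive.ofMul γ) : ℤ) : ZMod n) := rfl

theorem h11lb_nsmul_hpe (n : ℕ) (χ : Hpe N (ZMod n)) : n • χ = 0 := by
  apply Subtype.ext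
  apply AddMonoidHom.ext
  intro γ
  show (n • (χ : Additive (Gamma0 N) →+ ZMod n)) γ = 0
  rw [AddMonoidHom.smul_apply, nsmul_eq_mul, ZMod.natCast_self, zero_mul]

/-- division of an integral parabolic homomorphism divisible by `n` -/
theorem h11lb_div (n : ℕ) (hn : 0 < n) (φ : Lpar N) (h : h11lb_red N n φ = 0) :
    ∃ φ' : Lpar N, φ = n • φ' := by
  have hdvd : ∀ γ : Additive (Gamma0 N), (n : ℤ) ∣ (φ : Additive (Gamma0 N) →+ ℤ) γ := by
    intro γ
    have h1 : (h11lb_red N n φ : Additive (Gamma0 N) →+ ZMod n) γ = 0 := by rw [h]; rfl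
    exact (ZMod.intCast_zmod_eq_zero_iff_dvd _ n).mp h1
  have hn0 : (n : ℤ) ≠ 0 := by exact_mod_cast hn.ne'
  let φ' : Additive (Gamma0 N) →+ ℤ :=
    { toFun := fun γ => (φ : Additive (Gamma0 N) →+ ℤ) γ / n
      map_zero' := by rw [map_zero, Int.zero_ediv]
      map_add' := fun a b => by
        rw [map_add, Int.add_ediv_of_dvd_left (hdvd a)] }
  refine ⟨⟨φ', fun γ hγ => ?_⟩, ?_⟩
  · show (φ : Additive (Gamma0 N) →+ ℤ) (Additive.ofMul γ) / n = 0
    rw [φ.2 γ hγ, Int.zero_ediv]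
  · apply Subtype.ext
    apply AddMonoidHom.ext
    intro γ
    show (φ : Additive (Gamma0 N) →+ ℤ) γ = (n • φ') γ
    rw [AddMonoidHom.smul_apply, nsmul_eq_mul]
    exact (Int.mul_ediv_cancel' (hdvd γ)).symm

variable [NeZero N]

theorem h11lb_smul_nsmul (σ : GQ) (k : ℕ) (x : JZero N) : σ • (k • x) = k • (σ • x) :=
  map_nsmul (DistribSMul.toAddMonoidHom (JZero N) σ) k x

/-- **the lattice form of the comparison maps** -/
theorem h11lb_lamGal (hK : KumGalStatement N) : LamGalStatement N := by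
  obtain ⟨kum, ⟨hinj, hhecke⟩, hcompat, hsurj⟩ := hK
  have hcast : ∀ (n m : ℕ) (φ : Lpar N) (γ : Gamma0 N),
      (h11lb_red N n φ : Additive (Gamma0 N) →+ ZMod n) (Additive.ofMul γ) =
        ZMod.castHom (dvd_mul_right n m) (ZMod n)
          ((h11lb_red N (n * m) φ : Additive (Gamma0 N) →+ ZMod (n * m)) (Additive.ofMul γ)) := by
    intro n m φ γ
    rw [h11lb_red_apply, h11lb_red_apply, map_intCast]
  have h3 : ∀ n m : ℕ, 0 < n → 0 < m → ∀ φ : Lpar N,
      m • (kum (n * m)) (h11lb_red N (n * m) φ) = kum n (h11lb_red N n φ) :=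
    fun n m hn hm φ => hcompat n m hn hm _ _ (hcast n m φ)
  refine ⟨fun n => (kum n).comp (h11lb_red N n), ⟨?_, ?_, ?_, ?_⟩, ?_⟩
  · intro n φ
    show n • kum n (h11lb_red N n φ) = 0
    rw [← map_nsmul, h11lb_nsmul_hpe, map_zero]
  · intro n hn φ h
    have h0 : kum n (h11lb_red N n φ) = kum n 0 := by rw [map_zero]; exact h
    exact h11lb_div N n hn φ (hinj n hn h0)
  · exact h3
  · intro n hn ℓ _ hℓ hℓN T hT φ
    obtain ⟨χ', hχ', hk⟩ := hhecke n hn ℓ hℓ hℓN (h11lb_red N n φ)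
    show kum n (h11lb_red N n (T φ)) = heckeOperatorBar N ⟨ℓ, hℓ⟩ (kum n (h11lb_red N n φ))
    rw [← hk]
    congr 1
    apply Subtype.ext
    apply AddMonoidHom.ext
    intro γ
    have h1 := hχ' (Additive.toMul γ)
    have h2 := hT φ (Additive.toMul γ)
    show (((T φ : Additive (Gamma0 N) →+ ℤ) γ : ℤ) : ZMod n) = _
    rw [show γ = Additive.ofMul (Additive.toMul γ) from rfl, h1, h2]
    unfold H21S16.heckeTFun
    rw [Int.cast_sum]
    rfl
  · intro n hn σ φ
    obtain ⟨m, hm, hL⟩ := h11ln_liftN N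
    have hnm : 0 < n * m := Nat.mul_pos hn hm
    have htors : (n * m) • (σ • kum (n * m) (h11lb_red N (n * m) φ)) = 0 := by
      rw [← h11lb_smul_nsmul, ← map_nsmul, h11lb_nsmul_hpe, map_zero]
      exact map_zero (DistribSMul.toAddMonoidHom (JZero N) σ)
    obtain ⟨χ, hχ⟩ := hsurj (n * m) hnm _ htors
    obtain ⟨φ', hφ'⟩ := hL n hn χ
    refine ⟨φ', ?_⟩
    show σ • kum n (h11lb_red N n φ) = kum n (h11lb_red N n φ')
    rw [← h3 n m hn hm φ, h11lb_smul_nsmul, ← hχ]
    exact hcompat n m hn hm χ (h11lb_red N n φ') (fun γ => hφ' γ)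

end H11W3G

end
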