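import Fermat.Agent.W3G.ASM30_helper11
import Fermat.Agent.W3G.LamBridge_helper11
import Fermat.Agent.W3G.EigenAdic_helper23
import Fermat.Agent.W3G.EIGH0_helper13
import Fermat.Agent.W3G.EIGHAdic_helper29
import Fermat.Agent.W3G.FinLev_helper13
import Fermat.Agent.W3G.ESFinal_helper10

/-!
# Item 80 (W3G): `S30` from `KumGalStatement` (helper11)

* `h11fin_eigenAdic : (∀ N, KumGalStatement N) → EigenAdicStatement`
* `h11fin_s30       : (∀ N, KumGalStatement N) → (the statement of S30)`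
-/

set_option autoImplicit false
set_option linter.overlappingInstances false

open Polynomial

namespace H11W3G

/-- `EigenAdicStatement` from `KumGalStatement`. -/
theorem h11fin_eigenAdic (hK : ∀ (N : ℕ) [NeZero N], KumGalStatement N) :
    EigenAdicStatement :=
  H23EA.h23ea_eigenAdic (fun N _ => H13E0.heckeLStatement N)
    (fun N _ => h11lb_lamGal N (hK N))
    (fun N _ => H10ES.h10es_inertiaStatement_final N)
    (fun N _ => H10ES.h10es_frobeniusStatement_final N)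
    (fun N _ => H13W3G.commStatement N)
    (fun N _ => H13W3G.finLevStatement N)
    H29EA.h29ea_eigHAdic

/-- **S30** from `KumGalStatement`. -/
theorem h11fin_s30 (hK : ∀ (N : ℕ) [NeZero N], KumGalStatement N) :
    ∀ (p : ℕ) [Fact p.Prime] (N : ℕ) [NeZero N] (S : Finset ℕ)
      (_hpS : p ∈ S) (_hNS : ∀ q : ℕ, q.Prime → q ∣ N → q ∈ S)
      (𝒪' : Type) [CommRing 𝒪'] [IsDomain 𝒪'] [IsDiscreteValuationRing 𝒪']
      [IsAdicComplete (IsLocalRing.maximalIdeal 𝒪') 𝒪'] [Finite (IsLocalRing.ResidueField 𝒪')]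
      [CharZero 𝒪'] (_hp𝒪' : (p : 𝒪') ∈ IsLocalRing.maximalIdeal 𝒪')
      (χ : CuspForm.heckeAlgebra N 2 (↑S : Set ℕ) →+* 𝒪'),
      ∃ (𝒪'' : Type) (_ : CommRing 𝒪'') (_ : IsDomain 𝒪'') (_ : IsDiscreteValuationRing 𝒪'')
        (_ : IsAdicComplete (IsLocalRing.maximalIdeal 𝒪'') 𝒪'')
        (_ : Finite (IsLocalRing.ResidueField 𝒪'')) (_ : CharZero 𝒪'')
        (_ : Algebra 𝒪' 𝒪'') (_ : Module.Finite 𝒪' 𝒪'') (_ : IsLocalHom (algebraMap 𝒪' 𝒪'')),
      Function.Injective (algebraMap 𝒪' 𝒪'') ∧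
      ∃ ρ : GaloisRepAdic 𝒪'',
        (∀ (ℓ : ℕ) (hℓ : ℓ.Prime) (hℓN : ¬ ℓ ∣ N) (hℓS : ℓ ∉ (↑S : Set ℕ)),
          ∀ A : ValuationSubring (AlgebraicClosure ℚ), A.LiesOverPrime ℓ →
            ∀ σ : AlgebraicClosure ℚ ≃ₐ[ℚ] AlgebraicClosure ℚ, A.IsFrobeniusAt σ ℓ →
              LinearMap.charpoly (ρ.ρ σ) =
                X ^ 2 - C (algebraMap 𝒪' 𝒪'' (χ (CuspForm.heckeAlgebra.T hℓ hℓN hℓS))) * X
                  + C ((ℓ : 𝒪''))) ∧
        (∀ q : ℕ, q.Prime → ¬ q ∣ N → q ≠ p → ρ.IsUnramifiedAt q) :=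
  h11s30_of (h11fin_eigenAdic hK)

end H11W3G
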