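import Mathlib

/-!
# Item 80 (W3G), slice AN1 (helper23): `n`-th roots of meromorphic functions on the upper half plane

`U := {z : ℂ | 0 < z.im}` (`H23AN.h23anU`).

* `h23an_exists_root`: a function `f` meromorphic on `U`, all of whose orders are finite and
  divisible by `n`, is (codiscretely within `U`) the `n`-th power of a function `g` that is
  meromorphic in normal form on `U`, and `ord_z f = n * ord_z g`;
* `h23an_root_unique`: on a preconnected open set two meromorphic functions with the same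
  `n`-th power differ by an `n`-th root of unity;
* `h23an_eqOn_of_codiscrete`: functions in normal form on an open set that agree codiscretely
  agree everywhere;
* `h23an_root_ball`, `h23an_root_merom_ball`: the local versions on discs.

Route: exhaustion of `U` by the discs `B(i(r+2), (r+2) - 1/(r+2))`; on each closed disc
`MeromorphicOn.extract_zeros_poles` and a primitive of `h'/h` (`DifferentiableOn.isExactOn_ball`);
the roots on the discs are normalised at a base point and glued (normal form makes the glueing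
pointwise).
-/

set_option autoImplicit false
set_option linter.style.longLine false

open Set Filter Topology Metric Complex

noncomputable section

namespace H23AN

/-- **Holomorphic `n`-th roots on a disc**: a nowhere vanishing holomorphic function on an open
disc is the `n`-th power of a holomorphic function. -/
theorem h23an_root_ball (n : ℕ) (hn : n ≠ 0) (c : ℂ) (R : ℝ) (h : ℂ → ℂ)
    (hh : DifferentiableOn ℂ h (ball c R)) (hne : ∀ z ∈ ball c R, h z ≠ 0) :
    ∃ v : ℂ → ℂ, DifferentiableOn ℂ v (ball c R) ∧ ∀ z ∈ ball c R, v z ^ n = h z := by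
  have hopen : IsOpen (ball c R) := isOpen_ball
  have hpre : IsPreconnected (ball c R) := (convex_ball c R).isPreconnected
  -- the logarithmic derivative is holomorphic on the ball
  have hd : DifferentiableOn ℂ (deriv h) (ball c R) := hh.deriv hopen
  have hlog : DifferentiableOn ℂ (fun z => deriv h z / h z) (ball c R) := hd.div hh hne
  obtain ⟨L, hL⟩ := hlog.isExactOn_ball
  have hLd : DifferentiableOn ℂ L (ball c R) := fun z hz =>
    (hL z hz).differentiableAt.differentiableWithinAt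
  have hE : DifferentiableOn ℂ (fun z => Complex.exp (L z)) (ball c R) := hLd.cexp
  have hEne : ∀ z ∈ ball c R, Complex.exp (L z) ≠ 0 := fun z _ => Complex.exp_ne_zero _
  have hlogeq : EqOn (logDeriv h) (logDeriv (fun z => Complex.exp (L z))) (ball c R) := by
    intro z hz
    have h1 : HasDerivAt (fun z => Complex.exp (L z)) (Complex.exp (L z) * (deriv h z / h z)) z :=
      (hL z hz).cexp
    rw [logDeriv_apply, logDeriv_apply, h1.deriv, mul_div_cancel_left₀ _ (Complex.exp_ne_zero _)]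
  obtain ⟨C, hC0, hC⟩ := (logDeriv_eqOn_iff hh hE hopen hpre hEne hne).1 hlogeq
  obtain ⟨a, ha⟩ : ∃ a : ℂ, Complex.exp a = C := ⟨Complex.log C, Complex.exp_log hC0⟩
  refine ⟨fun z => Complex.exp ((L z + a) / n), ?_, ?_⟩
  · exact ((hLd.add_const a).div_const _).cexp
  · intro z hz
    have hn' : (n : ℂ) ≠ 0 := Nat.cast_ne_zero.2 hn
    rw [← Complex.exp_nat_mul, mul_div_cancel₀ _ hn', Complex.exp_add, ha, hC hz]
    simp [mul_comm]

/-- On an open set, a property that holds codiscretely holds on a punctured neighbourhood of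
every point. -/
theorem h23an_nhdsNE_of_codiscreteWithin {U : Set ℂ} (hU : IsOpen U) {p : ℂ → Prop}
    (h : ∀ᶠ z in codiscreteWithin U, p z) {x : ℂ} (hx : x ∈ U) : ∀ᶠ z in 𝓝[≠] x, p z := by
  have h1 : {z | p z} ∪ Uᶜ ∈ 𝓝[≠] x := (mem_codiscreteWithin_iff_forall_mem_nhdsNE.1 h) x hx
  have h2 : U ∈ 𝓝[≠] x := mem_nhdsWithin_of_mem_nhds (hU.mem_nhds hx)
  filter_upwards [h1, h2] with z hz hzU
  rcases hz with hz | hz
  · exact hz
  · exact absurd hzU hz

/-- A property that holds on a punctured neighbourhood of every point of `U` holds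
codiscretely within `U`. -/
theorem h23an_codiscreteWithin_of_nhdsNE {U : Set ℂ} {p : ℂ → Prop}
    (h : ∀ x ∈ U, ∀ᶠ z in 𝓝[≠] x, p z) : ∀ᶠ z in codiscreteWithin U, p z := by
  refine mem_codiscreteWithin_iff_forall_mem_nhdsNE.2 fun x hx => ?_
  filter_upwards [h x hx] with z hz
  exact Or.inl hz

/-- Two functions in normal form on an open set that agree codiscretely agree everywhere. -/
theorem h23an_eqOn_of_codiscrete {W : Set ℂ} (hW : IsOpen W) {G₁ G₂ : ℂ → ℂ}
    (h₁ : MeromorphicNFOn G₁ W) (h₂ : MeromorphicNFOn G₂ W)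
    (h : G₁ =ᶠ[codiscreteWithin W] G₂) : EqOn G₁ G₂ W := by
  intro x hx
  have h3 : G₁ =ᶠ[𝓝[≠] x] G₂ := h23an_nhdsNE_of_codiscreteWithin hW h hx
  exact (((h₁ hx).eventuallyEq_nhdsNE_iff_eventuallyEq_nhds (h₂ hx)).1 h3).eq_of_nhds

/-- **Uniqueness of `n`-th roots up to roots of unity**: on a preconnected open set, two
meromorphic functions with the same `n`-th power differ by an `n`-th root of unity. -/
theorem h23an_root_unique (n : ℕ) (hn : n ≠ 0) {V : Set ℂ} (hV : IsOpen V)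
    (hVc : IsPreconnected V) {g₁ g₂ : ℂ → ℂ} (h₁ : MeromorphicOn g₁ V) (h₂ : MeromorphicOn g₂ V)
    (h₂top : ∀ z ∈ V, meromorphicOrderAt g₂ z ≠ ⊤)
    (heq : g₁ ^ n =ᶠ[codiscreteWithin V] g₂ ^ n) :
    ∃ ζ : ℂ, ζ ^ n = 1 ∧ g₁ =ᶠ[codiscreteWithin V] ζ • g₂ := by
  rcases V.eq_empty_or_nonempty with rfl | ⟨z₀, hz₀⟩
  · refine ⟨1, one_pow n, ?_⟩
    exact h23an_codiscreteWithin_of_nhdsNE fun x hx => absurd hx (Set.notMem_empty x)
  have hw₀ : MeromorphicOn (g₁ * g₂⁻¹) V := h₁.mul h₂.inv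
  set w := toMeromorphicNFOn (g₁ * g₂⁻¹) V with hw
  have hwNF : MeromorphicNFOn w V := meromorphicNFOn_toMeromorphicNFOn _ _
  have hne : ∀ᶠ z in codiscreteWithin V, g₂ z ≠ 0 :=
    h₂.eventually_codiscreteWithin_apply_ne_zero h₂top
  have hww₀ : (g₁ * g₂⁻¹) =ᶠ[codiscreteWithin V] w := toMeromorphicNFOn_eqOn_codiscrete hw₀
  -- `w ^ n = 1` codiscretely
  have hpow : ∀ᶠ z in codiscreteWithin V, w z ^ n = 1 := by
    filter_upwards [hne, hww₀, heq] with z hz1 hz2 hz3
    rw [← hz2]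
    simp only [Pi.mul_apply, Pi.inv_apply, Pi.pow_apply] at hz3 ⊢
    rw [mul_pow, inv_pow, hz3, mul_inv_cancel₀ (pow_ne_zero n hz1)]
  -- `w` has order `0` everywhere, hence is analytic and nonvanishing
  have hord : ∀ x ∈ V, meromorphicOrderAt w x = 0 := by
    intro x hx
    have h3 : (w ^ n) =ᶠ[𝓝[≠] x] (fun _ => (1 : ℂ)) := by
      filter_upwards [h23an_nhdsNE_of_codiscreteWithin hV hpow hx] with z hz
      simpa using hz
    have h4 : meromorphicOrderAt (w ^ n) x = 0 := by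
      rw [meromorphicOrderAt_congr h3]
      rw [← WithTop.coe_zero, meromorphicOrderAt_eq_int_iff (MeromorphicAt.const 1 x)]
      exact ⟨fun _ => 1, analyticAt_const, one_ne_zero, by simp⟩
    rw [meromorphicOrderAt_pow (hwNF hx).meromorphicAt] at h4
    cases hm : meromorphicOrderAt w x with
    | top => rw [hm] at h4; simp [hn] at h4
    | coe m =>
      rw [hm] at h4
      have h5 : ((n : ℤ) * m : ℤ) = 0 := by exact_mod_cast h4
      have h6 : m = 0 := by
        rcases mul_eq_zero.1 h5 with h | h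
        · exact absurd (by exact_mod_cast h) hn
        · exact h
      simp [h6]
  have han : ∀ x ∈ V, AnalyticAt ℂ w x := fun x hx =>
    (hwNF hx).meromorphicOrderAt_nonneg_iff_analyticAt.1 (hord x hx).ge
  have hwne : ∀ x ∈ V, w x ≠ 0 := fun x hx =>
    (hwNF hx).meromorphicOrderAt_eq_zero_iff.1 (hord x hx)
  have hpow' : ∀ x ∈ V, w x ^ n = 1 := by
    intro x hx
    have h3 : (fun z => w z ^ n) =ᶠ[𝓝[≠] x] (fun _ => (1 : ℂ)) :=
      h23an_nhdsNE_of_codiscreteWithin hV hpow hx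
    have hc : ContinuousAt (fun z => w z ^ n) x := ((han x hx).continuousAt).pow n
    exact ((hc.eventuallyEq_nhds_iff_eventuallyEq_nhdsNE continuousAt_const).1 h3).eq_of_nhds
  have hdiff : DifferentiableOn ℂ w V := fun x hx =>
    (han x hx).differentiableAt.differentiableWithinAt
  have hderiv : V.EqOn (deriv w) 0 := by
    intro x hx
    have h3 : (fun z => w z ^ n) =ᶠ[𝓝 x] (fun _ => (1 : ℂ)) := by
      filter_upwards [hV.mem_nhds hx] with z hz using hpow' z hz
    have h4 : deriv (fun z => w z ^ n) x = 0 := by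
      rw [h3.deriv_eq]; simp
    have h5 : HasDerivAt (fun z => w z ^ n) ((n : ℂ) * w x ^ (n - 1) * deriv w x) x :=
      ((han x hx).differentiableAt.hasDerivAt).pow n
    rw [h5.deriv] at h4
    have h6 : (n : ℂ) * w x ^ (n - 1) ≠ 0 :=
      mul_ne_zero (Nat.cast_ne_zero.2 hn) (pow_ne_zero _ (hwne x hx))
    simpa using (mul_eq_zero.1 h4).resolve_left h6
  obtain ⟨a, ha⟩ := hV.exists_is_const_of_deriv_eq_zero hVc hdiff hderiv
  refine ⟨a, ?_, ?_⟩
  · rw [← ha z₀ hz₀]; exact hpow' z₀ hz₀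
  · filter_upwards [hne, hww₀, self_mem_codiscreteWithin V] with z hz1 hz2 hz3
    have h7 : g₁ z * (g₂ z)⁻¹ = a := by
      have := hz2
      simp only [Pi.mul_apply, Pi.inv_apply] at this
      rw [this, ha z hz3]
    simp only [Pi.smul_apply, smul_eq_mul]
    rw [← h7, mul_assoc, inv_mul_cancel₀ hz1, mul_one]

/-- **`n`-th roots of meromorphic functions on a disc**: a function that is meromorphic on a
closed disc, all of whose orders are finite and divisible by `n`, is codiscretely the `n`-th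
power of a meromorphic function on the open disc. -/
theorem h23an_root_merom_ball (n : ℕ) (hn : n ≠ 0) (c : ℂ) (R : ℝ) (f : ℂ → ℂ)
    (hf : MeromorphicOn f (closedBall c R))
    (hord : ∀ z ∈ closedBall c R, ∃ m : ℤ, meromorphicOrderAt f z = ((n * m : ℤ) : WithTop ℤ)) :
    ∃ g : ℂ → ℂ, MeromorphicNFOn g (ball c R) ∧ f =ᶠ[codiscreteWithin (ball c R)] g ^ n := by
  classical
  set K := closedBall c R with hK
  have hKc : IsCompact K := isCompact_closedBall c R
  have h₂f : ∀ u : K, meromorphicOrderAt f u ≠ ⊤ := by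
    rintro ⟨u, hu⟩
    obtain ⟨m, hm⟩ := hord u hu
    rw [hm]
    exact WithTop.coe_ne_top
  have h₃f : (MeromorphicOn.divisor f K).support.Finite :=
    (MeromorphicOn.divisor f K).finiteSupport hKc
  obtain ⟨h, hh_an, hh_ne, hfeq⟩ := hf.extract_zeros_poles h₂f h₃f
  set D : ℂ → ℤ := fun u => MeromorphicOn.divisor f K u with hD
  set E : ℂ → ℤ := fun u => D u / n with hE
  have hDE : ∀ u, D u = E u * n := by
    intro u
    by_cases hu : u ∈ K
    · obtain ⟨m, hm⟩ := hord u hu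
      have h1 : D u = n * m := by
        simp only [hD, MeromorphicOn.divisor_apply hf hu, hm, WithTop.untop₀_coe]
      simp only [hE, h1]
      rw [Int.mul_ediv_cancel_left _ (by exact_mod_cast hn), mul_comm]
    · have h1 : D u = 0 := by
        simp only [hD]
        exact Function.locallyFinsuppWithin.apply_eq_zero_of_notMem _ hu
      simp [hE, h1]
  have hEfin : E.support.Finite := by
    refine h₃f.subset fun u hu => ?_
    simp only [Function.mem_support, ne_eq] at hu ⊢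
    intro h0
    apply hu
    have : D u = 0 := h0
    simp [hE, this]
  -- the rational factor is an `n`-th power
  have hP : (∏ᶠ u, (· - u) ^ D u : ℂ → ℂ) = (∏ᶠ u, (· - u) ^ E u : ℂ → ℂ) ^ n := by
    rw [finprod_pow]
    · congr 1
      funext u
      funext z
      simp only [Pi.pow_apply, hDE u, zpow_mul, zpow_natCast]
    · rw [Function.HasFiniteMulSupport, Function.FactorizedRational.mulSupport]
      exact hEfin
  -- the analytic factor is an `n`-th power on the open ball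
  have hsub : ball c R ⊆ K := ball_subset_closedBall
  obtain ⟨v, hv, hvn⟩ := h23an_root_ball n hn c R h
    (fun z hz => (hh_an z (hsub hz)).differentiableAt.differentiableWithinAt)
    (fun z hz => hh_ne ⟨z, hsub hz⟩)
  have hvan : AnalyticOnNhd ℂ v (ball c R) := hv.analyticOnNhd isOpen_ball
  set g₀ : ℂ → ℂ := (∏ᶠ u, (· - u) ^ E u : ℂ → ℂ) * v with hg₀
  have hg₀m : MeromorphicOn g₀ (ball c R) :=
    ((Function.FactorizedRational.meromorphicNFOn E (ball c R)).meromorphicOn).mul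
      (fun z hz => (hvan z hz).meromorphicAt)
  refine ⟨toMeromorphicNFOn g₀ (ball c R), meromorphicNFOn_toMeromorphicNFOn _ _, ?_⟩
  have h1 : f =ᶠ[codiscreteWithin (ball c R)] (∏ᶠ u, (· - u) ^ D u : ℂ → ℂ) • h :=
    hfeq.filter_mono (codiscreteWithin_mono hsub)
  filter_upwards [h1, toMeromorphicNFOn_eqOn_codiscrete hg₀m,
    self_mem_codiscreteWithin (ball c R)] with z hz1 hz2 hz3
  rw [hz1, Pi.pow_apply, ← hz2, hg₀, hP]
  simp only [Pi.smul_apply', Pi.mul_apply, Pi.pow_apply, smul_eq_mul, mul_pow, hvn z hz3]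

/-- The order of an `n`-th root. -/
theorem h23an_order_root (n : ℕ) {V : Set ℂ} (hV : IsOpen V) {f G : ℂ → ℂ}
    (hG : MeromorphicOn G V) (h : f =ᶠ[codiscreteWithin V] G ^ n) {z : ℂ} (hz : z ∈ V) :
    meromorphicOrderAt f z = n * meromorphicOrderAt G z := by
  rw [meromorphicOrderAt_congr (h23an_nhdsNE_of_codiscreteWithin hV h hz),
    meromorphicOrderAt_pow (hG z hz)]

theorem h23an_order_root_ne_top (n : ℕ) (hn : n ≠ 0) {V : Set ℂ} (hV : IsOpen V) {f G : ℂ → ℂ}
    (hG : MeromorphicOn G V) (h : f =ᶠ[codiscreteWithin V] G ^ n) {z : ℂ} (hz : z ∈ V)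
    (hf : meromorphicOrderAt f z ≠ ⊤) : meromorphicOrderAt G z ≠ ⊤ := by
  intro htop
  apply hf
  rw [h23an_order_root n hV hG h hz, htop]
  exact WithTop.mul_top (by exact_mod_cast hn)

/-- A nonzero constant multiple of a function in normal form is in normal form. -/
theorem h23an_const_smul_NF {V : Set ℂ} {G : ℂ → ℂ} (hG : MeromorphicNFOn G V) {ζ : ℂ}
    (hζ : ζ ≠ 0) : MeromorphicNFOn (ζ • G) V := by
  intro z hz
  have h1 : MeromorphicNFAt ((fun _ : ℂ => ζ) • G) z :=
    (hG hz).smul_analytic analyticAt_const hζ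
  exact h1

/-- Two normalised `n`-th roots in normal form agree. -/
theorem h23an_root_compat (n : ℕ) (hn : n ≠ 0) {V : Set ℂ} (hV : IsOpen V)
    (hVc : IsPreconnected V) {f G₁ G₂ : ℂ → ℂ} (h₁ : MeromorphicNFOn G₁ V)
    (h₂ : MeromorphicNFOn G₂ V) (hf : ∀ z ∈ V, meromorphicOrderAt f z ≠ ⊤)
    (hr₁ : f =ᶠ[codiscreteWithin V] G₁ ^ n) (hr₂ : f =ᶠ[codiscreteWithin V] G₂ ^ n)
    {z₀ : ℂ} (hz₀ : z₀ ∈ V) (h0 : G₁ z₀ = G₂ z₀) (hne : G₂ z₀ ≠ 0) : EqOn G₁ G₂ V := by
  obtain ⟨ζ, hζ, hζe⟩ := h23an_root_unique n hn hV hVc h₁.meromorphicOn h₂.meromorphicOn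
    (fun z hz => h23an_order_root_ne_top n hn hV h₂.meromorphicOn hr₂ hz (hf z hz))
    (hr₁.symm.trans hr₂)
  have hζ0 : ζ ≠ 0 := by
    intro h
    rw [h, zero_pow hn] at hζ
    exact zero_ne_one hζ
  have h3 : EqOn G₁ (ζ • G₂) V :=
    h23an_eqOn_of_codiscrete hV h₁ (h23an_const_smul_NF h₂ hζ0) hζe
  have h4 : ζ = 1 := by
    have := h3 hz₀
    rw [Pi.smul_apply, smul_eq_mul, h0] at this
    exact (mul_eq_right₀ hne).1 this.symm
  intro z hz
  rw [h3 hz, h4, one_smul]

/-- Rescaling a root so that it takes a prescribed value at a base point. -/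
theorem h23an_root_rescale (n : ℕ) (hn : n ≠ 0) {V₀ V : Set ℂ} (hV₀ : IsOpen V₀)
    (hV₀c : IsPreconnected V₀) (hsub : V₀ ⊆ V) {f G₀ G : ℂ → ℂ}
    (h₀ : MeromorphicNFOn G₀ V₀) (hG : MeromorphicNFOn G V)
    (hf : ∀ z ∈ V, meromorphicOrderAt f z ≠ ⊤)
    (hr₀ : f =ᶠ[codiscreteWithin V₀] G₀ ^ n) (hr : f =ᶠ[codiscreteWithin V] G ^ n)
    {z₀ : ℂ} (hz₀ : z₀ ∈ V₀) :
    ∃ G' : ℂ → ℂ, MeromorphicNFOn G' V ∧ f =ᶠ[codiscreteWithin V] G' ^ n ∧ G' z₀ = G₀ z₀ := by
  have hG₀ : MeromorphicNFOn G V₀ := fun z hz => hG (hsub hz)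
  have hr' : f =ᶠ[codiscreteWithin V₀] G ^ n := hr.filter_mono (codiscreteWithin_mono hsub)
  obtain ⟨ζ, hζ, hζe⟩ := h23an_root_unique n hn hV₀ hV₀c h₀.meromorphicOn hG₀.meromorphicOn
    (fun z hz => h23an_order_root_ne_top n hn hV₀ hG₀.meromorphicOn hr' hz (hf z (hsub hz)))
    (hr₀.symm.trans hr')
  have hζ0 : ζ ≠ 0 := by
    intro h
    rw [h, zero_pow hn] at hζ
    exact zero_ne_one hζ
  refine ⟨ζ • G, h23an_const_smul_NF hG hζ0, ?_, ?_⟩
  · filter_upwards [hr] with z hz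
    rw [hz]
    simp only [Pi.pow_apply, Pi.smul_apply, smul_eq_mul, mul_pow, hζ, one_mul]
  · exact ((h23an_eqOn_of_codiscrete hV₀ h₀ (h23an_const_smul_NF hG₀ hζ0) hζe) hz₀).symm

/-- The upper half plane as a subset of `ℂ`. -/
def h23anU : Set ℂ := {z : ℂ | 0 < z.im}

theorem h23anU_isOpen : IsOpen h23anU := isOpen_lt continuous_const Complex.continuous_im

/-- centres of the exhausting discs -/
def h23anC (r : ℕ) : ℂ := (((r : ℝ) + 2 : ℝ) : ℂ) * Complex.I

/-- radii of the exhausting discs -/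
def h23anR (r : ℕ) : ℝ := ((r : ℝ) + 2) - 1 / ((r : ℝ) + 2)

theorem h23anC_im (r : ℕ) : (h23anC r).im = (r : ℝ) + 2 := by
  simp [h23anC]

theorem h23anC_re (r : ℕ) : (h23anC r).re = 0 := by
  simp [h23anC]

theorem h23anR_pos (r : ℕ) : 0 < h23anR r := by
  have h1 : (0 : ℝ) ≤ r := Nat.cast_nonneg r
  have h2 : (0 : ℝ) < (r : ℝ) + 2 := by linarith
  have h3 : 1 / ((r : ℝ) + 2) ≤ 1 / 2 := by
    apply one_div_le_one_div_of_le <;> linarith
  unfold h23anR
  linarith

theorem h23an_closedBall_subset (r : ℕ) : closedBall (h23anC r) (h23anR r) ⊆ h23anU := by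
  intro z hz
  have h1 : ‖z - h23anC r‖ ≤ h23anR r := by simpa [dist_eq_norm] using hz
  have h2 : |(z - h23anC r).im| ≤ ‖z - h23anC r‖ := Complex.abs_im_le_norm _
  have h3 : (z - h23anC r).im = z.im - ((r : ℝ) + 2) := by
    rw [Complex.sub_im, h23anC_im]
  have h4 : (0 : ℝ) < 1 / ((r : ℝ) + 2) := by
    have h1 : (0 : ℝ) ≤ r := Nat.cast_nonneg r
    positivity
  have h5 := (abs_le.1 (h2.trans h1)).1
  rw [h3] at h5
  unfold h23anR at h5
  show 0 < z.im
  linarith

theorem h23an_ball_subset (r : ℕ) : ball (h23anC r) (h23anR r) ⊆ h23anU :=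
  ball_subset_closedBall.trans (h23an_closedBall_subset r)

theorem h23an_ball_mono {r s : ℕ} (hrs : r ≤ s) :
    ball (h23anC r) (h23anR r) ⊆ ball (h23anC s) (h23anR s) := by
  apply ball_subset_ball'
  have h1 : dist (h23anC r) (h23anC s) = (s : ℝ) - r := by
    rw [dist_eq_norm, h23anC, h23anC, ← sub_mul, norm_mul, Complex.norm_I, mul_one,
      ← Complex.ofReal_sub, Complex.norm_real, Real.norm_eq_abs]
    have h2 : (r : ℝ) ≤ s := Nat.cast_le.2 hrs
    rw [abs_of_nonpos (by linarith)]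
    ring
  rw [h1]
  have h2 : (r : ℝ) ≤ s := Nat.cast_le.2 hrs
  have h0 : (0 : ℝ) ≤ r := Nat.cast_nonneg r
  have h3 : 1 / ((s : ℝ) + 2) ≤ 1 / ((r : ℝ) + 2) := by
    apply one_div_le_one_div_of_le <;> linarith
  unfold h23anR
  linarith

theorem h23an_exists_ball {z : ℂ} (hz : z ∈ h23anU) :
    ∃ r : ℕ, z ∈ ball (h23anC r) (h23anR r) := by
  have hy : 0 < z.im := hz
  obtain ⟨r, hr⟩ := exists_nat_ge ((z.re ^ 2 + z.im ^ 2 + 2) / (2 * z.im))
  refine ⟨r, ?_⟩
  rw [mem_ball, dist_eq_norm]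
  have h0 : (0 : ℝ) ≤ r := Nat.cast_nonneg r
  set t : ℝ := (r : ℝ) + 2 with ht
  have ht2 : 2 ≤ t := by linarith
  have h1 : z.re ^ 2 + z.im ^ 2 + 2 ≤ 2 * z.im * t := by
    have := (div_le_iff₀ (by positivity : (0 : ℝ) < 2 * z.im)).1 hr
    nlinarith
  have h2 : ‖z - h23anC r‖ ^ 2 = z.re ^ 2 + (z.im - t) ^ 2 := by
    rw [Complex.sq_norm, Complex.normSq_apply, Complex.sub_re, Complex.sub_im, h23anC_re,
      h23anC_im]
    ring
  have h3 : 0 < 1 / t := by positivity
  have h4 : 1 / t ≤ 1 / 2 := by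
    apply one_div_le_one_div_of_le <;> linarith
  have h5 : ‖z - h23anC r‖ ^ 2 < (h23anR r) ^ 2 := by
    rw [h2]
    unfold h23anR
    rw [← ht]
    have h6 : (t - 1 / t) ^ 2 = t ^ 2 - 2 + (1 / t) ^ 2 := by
      field_simp
      ring
    rw [h6]
    nlinarith [sq_nonneg (1 / t)]
  exact lt_of_pow_lt_pow_left₀ 2 (h23anR_pos r).le h5

/-- **AN1**: a function meromorphic on the upper half plane `U`, all of whose orders are finite
and divisible by `n`, is codiscretely the `n`-th power of a function that is meromorphic in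
normal form on `U`. -/
theorem h23an_exists_root (n : ℕ) (hn : n ≠ 0) (f : ℂ → ℂ) (hf : MeromorphicOn f h23anU)
    (hord : ∀ z ∈ h23anU, ∃ m : ℤ, meromorphicOrderAt f z = ((n * m : ℤ) : WithTop ℤ)) :
    ∃ g : ℂ → ℂ, MeromorphicNFOn g h23anU ∧ f =ᶠ[codiscreteWithin h23anU] g ^ n ∧
      ∀ z ∈ h23anU, ∃ m : ℤ, meromorphicOrderAt g z = m ∧
        meromorphicOrderAt f z = ((n * m : ℤ) : WithTop ℤ) := by
  classical
  set B : ℕ → Set ℂ := fun r => ball (h23anC r) (h23anR r) with hB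
  have hBo : ∀ r, IsOpen (B r) := fun r => isOpen_ball
  have hBc : ∀ r, IsPreconnected (B r) := fun r => (convex_ball _ _).isPreconnected
  have hBU : ∀ r, B r ⊆ h23anU := h23an_ball_subset
  have hftop : ∀ z ∈ h23anU, meromorphicOrderAt f z ≠ ⊤ := by
    intro z hz
    obtain ⟨m, hm⟩ := hord z hz
    rw [hm]
    exact WithTop.coe_ne_top
  -- roots on the discs
  have hloc : ∀ r, ∃ G : ℂ → ℂ, MeromorphicNFOn G (B r) ∧ f =ᶠ[codiscreteWithin (B r)] G ^ n :=
    fun r => h23an_root_merom_ball n hn (h23anC r) (h23anR r) f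
      (fun z hz => hf z (h23an_closedBall_subset r hz))
      (fun z hz => hord z (h23an_closedBall_subset r hz))
  -- base point
  obtain ⟨G₀, hG₀, hr₀⟩ := hloc 0
  have hc0 : h23anC 0 ∈ B 0 := mem_ball_self (h23anR_pos 0)
  obtain ⟨z₀, hz₀, hz₀ne⟩ : ∃ z₀ ∈ B 0, G₀ z₀ ≠ 0 := by
    have h1 : ∀ᶠ z in codiscreteWithin (B 0), G₀ z ≠ 0 :=
      hG₀.meromorphicOn.eventually_codiscreteWithin_apply_ne_zero
        (fun z hz => h23an_order_root_ne_top n hn (hBo 0) hG₀.meromorphicOn hr₀ hz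
          (hftop z (hBU 0 hz)))
    have h2 : ∀ᶠ z in 𝓝[≠] (h23anC 0), G₀ z ≠ 0 :=
      h23an_nhdsNE_of_codiscreteWithin (hBo 0) h1 hc0
    have h3 : ∀ᶠ z in 𝓝[≠] (h23anC 0), z ∈ B 0 :=
      mem_nhdsWithin_of_mem_nhds ((hBo 0).mem_nhds hc0)
    obtain ⟨z, hz⟩ := (h2.and h3).exists
    exact ⟨z, hz.2, hz.1⟩
  -- normalised roots on the discs
  have hnorm : ∀ r, ∃ G : ℂ → ℂ, MeromorphicNFOn G (B r) ∧
      f =ᶠ[codiscreteWithin (B r)] G ^ n ∧ G z₀ = G₀ z₀ := by
    intro r
    obtain ⟨G, hG, hr⟩ := hloc r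
    exact h23an_root_rescale n hn (hBo 0) (hBc 0) (h23an_ball_mono (Nat.zero_le r))
      hG₀ hG (fun z hz => hftop z (hBU r hz)) hr₀ hr hz₀
  choose G hGNF hGr hGz using hnorm
  have hz₀r : ∀ r, z₀ ∈ B r := fun r => h23an_ball_mono (Nat.zero_le r) hz₀
  -- compatibility
  have hcompat : ∀ r s, r ≤ s → EqOn (G r) (G s) (B r) := by
    intro r s hrs
    have hsub : B r ⊆ B s := h23an_ball_mono hrs
    exact h23an_root_compat n hn (hBo r) (hBc r) (hGNF r) (fun z hz => hGNF s (hsub hz))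
      (fun z hz => hftop z (hBU r hz)) (hGr r)
      ((hGr s).filter_mono (codiscreteWithin_mono hsub)) (hz₀r r)
      ((hGz r).trans (hGz s).symm) (by rw [hGz s]; exact hz₀ne)
  -- glueing
  set idx : ℂ → ℕ := fun z => if h : ∃ r, z ∈ B r then Nat.find h else 0 with hidx
  set g : ℂ → ℂ := fun z => G (idx z) z with hg
  have hgG : ∀ s, EqOn g (G s) (B s) := by
    intro s z hz
    have hex : ∃ r, z ∈ B r := ⟨s, hz⟩
    have h1 : idx z = Nat.find hex := by simp only [hidx, dif_pos hex]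
    have h2 : z ∈ B (idx z) := by rw [h1]; exact Nat.find_spec hex
    have h3 : idx z ≤ s := by rw [h1]; exact Nat.find_min' hex hz
    exact hcompat (idx z) s h3 h2
  have hgnhds : ∀ s, ∀ z ∈ B s, g =ᶠ[𝓝 z] G s := by
    intro s z hz
    filter_upwards [(hBo s).mem_nhds hz] with w hw using hgG s hw
  have hgNF : MeromorphicNFOn g h23anU := by
    intro z hz
    obtain ⟨s, hs⟩ := h23an_exists_ball hz
    exact (meromorphicNFAt_congr (hgnhds s z hs)).2 (hGNF s hs)
  have hgr : f =ᶠ[codiscreteWithin h23anU] g ^ n := by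
    refine h23an_codiscreteWithin_of_nhdsNE fun x hx => ?_
    obtain ⟨s, hs⟩ := h23an_exists_ball hx
    have h1 : ∀ᶠ z in 𝓝[≠] x, f z = (G s ^ n) z :=
      h23an_nhdsNE_of_codiscreteWithin (hBo s) (hGr s) hs
    have h2 : ∀ᶠ z in 𝓝[≠] x, g z = G s z := (hgnhds s x hs).filter_mono nhdsWithin_le_nhds
    filter_upwards [h1, h2] with z hz1 hz2
    rw [hz1, Pi.pow_apply, Pi.pow_apply, hz2]
  refine ⟨g, hgNF, hgr, fun z hz => ?_⟩
  have h1 := h23an_order_root n h23anU_isOpen hgNF.meromorphicOn hgr hz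
  have h2 := h23an_order_root_ne_top n hn h23anU_isOpen hgNF.meromorphicOn hgr hz (hftop z hz)
  obtain ⟨m, hm⟩ := WithTop.ne_top_iff_exists.1 h2
  refine ⟨m, hm.symm, ?_⟩
  rw [h1, ← hm]
  norm_cast

end H23AN

end
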