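import Fermat.Agent.W3G.KUMDefs_helper8
import Fermat.Agent.W3G.AN1_helper23

/-!
# Item 80 (W3G), slice K-ROOT (helper23): AN1 in `Mer`-form

`h23kr_root n (hn : 0 < n) : H8KUM.RootStatement n`: an element `W ≠ 0` of `Mer = Frac Hol` all of
whose orders `merVal z₀ W` are `n`-th powers (i.e. the order at every point of `ℍ` is divisible by
`n`) is an `n`-th power in `Mer`.

Proof: `W = a / b`; the holomorphic function `c = a b^(n-1)` has all orders divisible by `n`, so by
AN1 (`H23AN.h23an_exists_root`) `c = gⁿ` with `g` meromorphic in normal form, of orders `≥ 0`, hence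
holomorphic; `G := g / b`.
-/

set_option autoImplicit false
set_option linter.style.longLine false
set_option linter.unusedSectionVars false

open UpperHalfPlane WithZero Filter Topology
open scoped MatrixGroups Manifold

noncomputable section

namespace H23KR

open H24D H23AN

/-- the meromorphic order of the extension of a nonzero holomorphic function -/
theorem h23kr_order_ext (c : Hol) (hc : c ≠ 0) (z : ℍ) :
    meromorphicOrderAt (ext (c : ℍ → ℂ)) (z : ℂ) = ((ordNat z (c : ℍ → ℂ) : ℤ) : WithTop ℤ) := by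
  have hc' : (c : ℍ → ℂ) ≠ 0 := fun h => hc (Subtype.ext h)
  rw [(analyticAt_ext c.2 z).meromorphicOrderAt_eq]
  have h1 : analyticOrderAt (ext (c : ℍ → ℂ)) (z : ℂ) = (ordNat z (c : ℍ → ℂ) : ℕ∞) :=
    (coe_ordNat c.2 hc' z).symm
  rw [h1]
  rfl

/-- **K-ROOT** (AN1 in `Mer`-form). -/
theorem h23kr_root (n : ℕ) (hn : 0 < n) : H8KUM.RootStatement n := by
  intro W hW hord
  obtain ⟨a, b, hb, rfl⟩ := IsFractionRing.div_surjective (A := Hol) W
  have hb0 : b ≠ 0 := nonZeroDivisors.ne_zero hb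
  have hinj : Function.Injective (algebraMap Hol Mer) := IsFractionRing.injective Hol Mer
  have hB0 : algebraMap Hol Mer b ≠ 0 := fun h => hb0 (hinj (by rw [h, map_zero]))
  have ha0 : a ≠ 0 := by
    rintro rfl
    apply hW
    rw [map_zero, zero_div]
  set c : Hol := a * b ^ (n - 1) with hc
  have hc0 : c ≠ 0 := mul_ne_zero ha0 (pow_ne_zero _ hb0)
  -- the orders of `c` are divisible by `n`
  have hcord : ∀ z : ℍ, ∃ m : ℤ, (ordNat z (c : ℍ → ℂ) : ℤ) = n * m := by
    intro z
    obtain ⟨m, hm⟩ := hord z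
    rw [map_div₀, merVal_algebraMap, merVal_algebraMap, ordVal_apply z a ha0,
      ordVal_apply z b hb0, ← WithZero.exp_sub, WithZero.exp_inj] at hm
    have h1 : ordVal z c = WithZero.exp (-(ordNat z (c : ℍ → ℂ) : ℤ)) := ordVal_apply z c hc0
    have h2 : ordVal z c = WithZero.exp (-((ordNat z (a : ℍ → ℂ) : ℤ) +
        (n - 1 : ℕ) * (ordNat z (b : ℍ → ℂ) : ℤ))) := by
      rw [hc, map_mul, map_pow, ordVal_apply z a ha0, ordVal_apply z b hb0, ← WithZero.exp_nsmul,
        ← WithZero.exp_add]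
      congr 1
      simp only [nsmul_eq_mul]
      ring
    rw [h1, WithZero.exp_inj] at h2
    refine ⟨(ordNat z (b : ℍ → ℂ) : ℤ) - m, ?_⟩
    have h3 : ((n - 1 : ℕ) : ℤ) = (n : ℤ) - 1 := by
      rw [Nat.cast_sub hn]; simp
    rw [h3] at h2
    linarith
  -- apply AN1
  have hU : h23anU = Hset := rfl
  have hcan : AnalyticOnNhd ℂ (ext (c : ℍ → ℂ)) h23anU := analyticOnNhd_ext c.2
  obtain ⟨g, hgNF, hgr, hgord⟩ := h23an_exists_root n hn.ne' (ext (c : ℍ → ℂ))
    (fun z hz => (hcan z hz).meromorphicAt) (by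
      intro z hz
      obtain ⟨m, hm⟩ := hcord ⟨z, hz⟩
      refine ⟨m, ?_⟩
      have := h23kr_order_ext c hc0 ⟨z, hz⟩
      rw [this, hm])
  -- `g` is analytic on the upper half plane
  have hgan : ∀ z ∈ h23anU, AnalyticAt ℂ g z := by
    intro z hz
    rw [← (hgNF hz).meromorphicOrderAt_nonneg_iff_analyticAt]
    obtain ⟨m, hm1, hm2⟩ := hgord z hz
    rw [hm1]
    have h1 := h23kr_order_ext c hc0 ⟨z, hz⟩
    rw [show ((⟨z, hz⟩ : ℍ) : ℂ) = z from rfl, hm2] at h1
    have h2 : (n : ℤ) * m = (ordNat ⟨z, hz⟩ (c : ℍ → ℂ) : ℤ) := by exact_mod_cast h1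
    have h3 : 0 ≤ m := by
      by_contra hneg
      push Not at hneg
      have : (n : ℤ) * m < 0 := mul_neg_of_pos_of_neg (by exact_mod_cast hn) hneg
      have h4 : (0 : ℤ) ≤ (ordNat ⟨z, hz⟩ (c : ℍ → ℂ) : ℤ) := Int.natCast_nonneg _
      omega
    exact_mod_cast h3
  -- `g ^ n = c` everywhere on the upper half plane
  have hgpow : ∀ z ∈ h23anU, g z ^ n = ext (c : ℍ → ℂ) z := by
    intro z hz
    have h1 : (ext (c : ℍ → ℂ)) =ᶠ[𝓝[≠] z] (fun w => g w ^ n) :=
      h23an_nhdsNE_of_codiscreteWithin h23anU_isOpen hgr hz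
    have hc1 : ContinuousAt (ext (c : ℍ → ℂ)) z := (hcan z hz).continuousAt
    have hc2 : ContinuousAt (fun w => g w ^ n) z := ((hgan z hz).continuousAt).pow n
    exact (((hc1.eventuallyEq_nhds_iff_eventuallyEq_nhdsNE hc2).1 h1).eq_of_nhds).symm
  -- the holomorphic function `H`
  set H : ℍ → ℂ := fun z => g (z : ℂ) with hH
  have hHd : MDiff H := by
    rw [UpperHalfPlane.mdifferentiable_iff]
    have h1 : DifferentiableOn ℂ g {z : ℂ | 0 < z.im} := fun z hz =>
      (hgan z hz).differentiableAt.differentiableWithinAt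
    refine h1.congr fun z hz => ?_
    simp only [Function.comp_apply, hH]
    rw [ofComplex_apply_of_im_pos hz]
  have hHpow : (⟨H, hHd⟩ : Hol) ^ n = c := by
    apply Subtype.ext
    funext z
    rw [Subring.coe_pow, Pi.pow_apply]
    have := hgpow (z : ℂ) z.2
    rw [ext_coe] at this
    exact this
  refine ⟨algebraMap Hol Mer ⟨H, hHd⟩ / algebraMap Hol Mer b, ?_⟩
  rw [div_pow, ← map_pow, hHpow, hc, map_mul, map_pow, div_eq_div_iff (pow_ne_zero _ hB0) hB0,
    mul_assoc, ← pow_succ, Nat.sub_add_cancel hn, mul_comm]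

end H23KR

end
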