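import Mathlib
import Fermat.Agent.S24.BC3
import Fermat.Agent.S24.BI
import Fermat.Agent.RR.DictAct
import Fermat.Agent.RR.DictDH_helper15
import Fermat.Agent.RR.DictMain1

/-!
# Item 80 (W3G), RIGORD, slice ORD-CUSP (helper16): the local lemma at the cusp

Setting: `a`, `b` holomorphic on `ℍ`, `N`-periodic, of moderate growth, not identically zero;
`r ∣ N`, `n > 0`.

* `H16OC.h16_ordCusp_core` (function form): if `e` is holomorphic, `N`-periodic, with
  `eⁿ · b = a · bⁿ` (`(e/b)ⁿ = a/b`) and `e(z + r) b(z) = e(z) b(z + r)` (`e/b` is `r`-periodic),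
  then `n · (N / r) ∣ ordInf N a - ordInf N b`.
* `H16OC.cusp_local` (`Mer`-form, the LOCAL lemma of helper27's split): if `g ∈ Mer` satisfies
  `gⁿ · b = a` and `precompMer (T ^ c) g = g`, then `n · (N / c) ∣ ordInf N a - ordInf N b`.

Proof: `e` is `N`-periodic and of moderate growth, `n (ordInf e - ordInf b) = ordInf a - ordInf b`,
and `N / r ∣ ordInf e - ordInf b` by BC3 (`RH24.dvd_ordInf_of_periodic`).
-/

set_option autoImplicit false
set_option linter.style.longLine false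

noncomputable section

open UpperHalfPlane ModularForm MatrixGroups CongruenceSubgroup Filter Topology Function
open scoped Manifold

namespace H16OC

open RH24

/-- a function whose `n`-th power is bounded at a filter is bounded -/
theorem h16_bdd_of_pow_bdd {α : Type*} (l : Filter α) (f : α → ℂ) (n : ℕ) (hn : 0 < n)
    (h : BoundedAtFilter l (fun x => f x ^ n)) : BoundedAtFilter l f := by
  unfold BoundedAtFilter at h ⊢
  rw [Asymptotics.isBigO_iff] at h ⊢
  obtain ⟨c, hc⟩ := h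
  refine ⟨max 1 c, ?_⟩
  filter_upwards [hc] with x hx
  simp only [Pi.one_apply, norm_one, mul_one, norm_pow] at hx ⊢
  by_cases h1 : ‖f x‖ ≤ 1
  · exact h1.trans (le_max_left _ _)
  · push Not at h1
    have h2 : ‖f x‖ ≤ ‖f x‖ ^ n := le_self_pow₀ h1.le hn.ne'
    exact (h2.trans hx).trans (le_max_right _ _)

/-- the holomorphic functions on `ℍ` form a domain: pointwise version -/
theorem h16_eq_zero_of_mul_eq_zero {f g : ℍ → ℂ} (hf : MDiff f) (hg : MDiff g)
    (hg0 : ∃ z, g z ≠ 0) (h : ∀ z, f z * g z = 0) : ∀ z, f z = 0 := by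
  have h1 : (⟨f, hf⟩ : H24D.Hol) * ⟨g, hg⟩ = 0 := Subtype.ext (funext h)
  rcases mul_eq_zero.mp h1 with h2 | h2
  · intro z
    exact congrFun (congrArg Subtype.val h2) z
  · exfalso
    obtain ⟨z, hz⟩ := hg0
    exact hz (congrFun (congrArg Subtype.val h2) z)

/-- **ORD-CUSP**, function form with `e` already known to be `N`-periodic. -/
theorem h16_ordCusp_core (N : ℕ) [NeZero N] (r : ℕ) (hr : r ∣ N) (hr0 : r ≠ 0)
    (n : ℕ) (hn : 0 < n) (a b e : ℍ → ℂ) (ha : MDiff a) (hb : MDiff b) (he : MDiff e)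
    (hap : ∀ z : ℍ, a ((N : ℝ) +ᵥ z) = a z) (hbp : ∀ z : ℍ, b ((N : ℝ) +ᵥ z) = b z)
    (hep : ∀ z : ℍ, e ((N : ℝ) +ᵥ z) = e z)
    (hag : ModerateGrowth a) (hbg : ModerateGrowth b)
    (ha0 : ∃ z, a z ≠ 0) (hb0 : ∃ z, b z ≠ 0)
    (hpow : ∀ z : ℍ, e z ^ n * b z = a z * b z ^ n)
    (hper : ∀ z : ℍ, e ((r : ℝ) +ᵥ z) * b z = e z * b ((r : ℝ) +ᵥ z)) :
    ((n * (N / r) : ℕ) : ℤ) ∣ (ordInf N a).untop₀ - (ordInf N b).untop₀ := by
  classical
  -- `eⁿ = a bⁿ⁻¹`
  obtain ⟨n', rfl⟩ : ∃ n', n = n' + 1 := ⟨n - 1, by omega⟩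
  have hpow' : ∀ z : ℍ, e z ^ (n' + 1) = a z * b z ^ n' := by
    have h1 : ∀ z : ℍ, (e z ^ (n' + 1) - a z * b z ^ n') * b z = 0 := by
      intro z
      have := hpow z
      rw [sub_mul, this]
      ring
    have h2 := h16_eq_zero_of_mul_eq_zero ((he.pow (n' + 1)).sub (ha.mul (hb.pow n'))) hb hb0 h1
    intro z
    exact sub_eq_zero.mp (h2 z)
  -- `e ≠ 0`
  have he0 : ∃ z, e z ≠ 0 := by
    by_contra hcon
    push Not at hcon
    have h1 : ∀ z : ℍ, a z * b z ^ n' = 0 := fun z => by rw [← hpow' z, hcon z, zero_pow (by omega)]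
    have h2 : ∀ z, a z = 0 :=
      h16_eq_zero_of_mul_eq_zero ha (hb.pow n')
        (by obtain ⟨z, hz⟩ := hb0; exact ⟨z, pow_ne_zero _ hz⟩) h1
    obtain ⟨z, hz⟩ := ha0
    exact hz (h2 z)
  -- moderate growth of `e`
  have heg : ModerateGrowth e := by
    obtain ⟨Ma, hMa⟩ := hag
    obtain ⟨Mb, hMb⟩ := hbg
    refine ⟨Ma + Mb, ?_⟩
    apply h16_bdd_of_pow_bdd _ _ (n' + 1) (by omega)
    have h1 : BoundedAtFilter atImInfty
        (fun z : ℍ => (b z * ModularForm.discriminant z ^ Mb) ^ n') := by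
      have := BoundedAtFilter.prod (l := atImInfty) (Finset.range n')
        (f := fun _ z => b z * ModularForm.discriminant z ^ Mb) (fun _ _ => hMb)
      refine (this.congr' ?_ (EventuallyEq.refl _ _))
      exact Eventually.of_forall (fun z => by simp [Finset.prod_const])
    have h2 := (BoundedAtFilter.mul hMa h1).mul (h24_bdd_disc_pow (n' * Ma + Mb))
    have heq : (fun z : ℍ => (e z * ModularForm.discriminant z ^ (Ma + Mb)) ^ (n' + 1))
        = ((fun z => a z * ModularForm.discriminant z ^ Ma) *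
            fun z : ℍ => (b z * ModularForm.discriminant z ^ Mb) ^ n') *
          fun z : ℍ => ModularForm.discriminant z ^ (n' * Ma + Mb) := by
      funext z
      simp only [Pi.mul_apply]
      rw [mul_pow, hpow' z]
      ring
    rw [heq]
    exact h2
  -- the orders
  have hAm : MeromorphicAt (h23c_G N a) 0 := h23c_meromorphicAt N ha hap hag
  have hBm : MeromorphicAt (h23c_G N b) 0 := h23c_meromorphicAt N hb hbp hbg
  have hEm : MeromorphicAt (h23c_G N e) 0 := h23c_meromorphicAt N he hep heg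
  have hAtop : ordInf N a ≠ ⊤ := ordInf_ne_top N a ha hap hag ha0
  have hBtop : ordInf N b ≠ ⊤ := ordInf_ne_top N b hb hbp hbg hb0
  have hEtop : ordInf N e ≠ ⊤ := ordInf_ne_top N e he hep heg he0
  have hfun : (h23c_G N e) ^ (n' + 1) * h23c_G N b = h23c_G N a * (h23c_G N b) ^ (n' + 1) := by
    funext q
    simp only [Pi.mul_apply, Pi.pow_apply, h23c_G]
    exact hpow _
  have hordeq : ((n' + 1 : ℕ) : WithTop ℤ) * ordInf N e + ordInf N b
      = ordInf N a + ((n' + 1 : ℕ) : WithTop ℤ) * ordInf N b := by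
    have h1 : meromorphicOrderAt ((h23c_G N e) ^ (n' + 1) * h23c_G N b) (0 : ℂ)
        = meromorphicOrderAt (h23c_G N a * (h23c_G N b) ^ (n' + 1)) (0 : ℂ) := by rw [hfun]
    rw [meromorphicOrderAt_mul (hEm.pow _) hBm, meromorphicOrderAt_mul hAm (hBm.pow _),
      meromorphicOrderAt_pow hEm, meromorphicOrderAt_pow hBm] at h1
    exact h1
  rw [← WithTop.coe_untop₀_of_ne_top hAtop, ← WithTop.coe_untop₀_of_ne_top hBtop,
    ← WithTop.coe_untop₀_of_ne_top hEtop] at hordeq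
  have hordZ : ((n' + 1 : ℕ) : ℤ) * (ordInf N e).untop₀ + (ordInf N b).untop₀
      = (ordInf N a).untop₀ + ((n' + 1 : ℕ) : ℤ) * (ordInf N b).untop₀ := by
    exact_mod_cast hordeq
  -- BC3 for `(e, b)`
  have hbc3 := dvd_ordInf_of_periodic N r hr hr0 e b he hb hep hbp heg hbg he0 hb0 hper
  obtain ⟨m, hm⟩ := hbc3
  refine ⟨m, ?_⟩
  have h3 : (ordInf N a).untop₀ - (ordInf N b).untop₀
      = ((n' + 1 : ℕ) : ℤ) * ((ordInf N e).untop₀ - (ordInf N b).untop₀) := by
    linear_combination -hordZ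
  rw [h3, hm]
  push_cast
  ring

end H16OC

/-! ## the `Mer`-form -/

namespace H16OC

open H24D WithZero

/-- in `ℤᵐ⁰`: `xⁿ ≤ 1 → x ≤ 1` -/
theorem h16_le_one_of_pow_le_one (x : ℤᵐ⁰) (n : ℕ) (hn : 0 < n) (h : x ^ n ≤ 1) : x ≤ 1 := by
  by_contra hx
  push Not at hx
  exact absurd h (not_le.mpr (one_lt_pow₀ hx hn.ne'))

/-- invariance under `γ` implies invariance under `γ ^ k` -/
theorem h16_precompMer_pow (γ : SL(2, ℤ)) (g : Mer) (h : precompMer γ g = g) (k : ℕ) :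
    precompMer (γ ^ k) g = g := by
  induction k with
  | zero => rw [pow_zero, precompMer_one]; rfl
  | succ k ih => rw [pow_succ, precompMer_mul_apply, ih, h]

/-- if `g` is `γ`-invariant and `e = g · b` with `e`, `b` holomorphic, then
`e(γ z) b(z) = e(z) b(γ z)` -/
theorem h16_cross (γ : SL(2, ℤ)) (g : Mer) (hγ : precompMer γ g = g) (e b : Hol)
    (he : algebraMap Hol Mer e = g * algebraMap Hol Mer b) (z : ℍ) :
    (e : ℍ → ℂ) (γ • z) * (b : ℍ → ℂ) z = (e : ℍ → ℂ) z * (b : ℍ → ℂ) (γ • z) := by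
  have hinj := IsFractionRing.injective Hol Mer
  have h1 : algebraMap Hol Mer (precomp γ e * b) = algebraMap Hol Mer (e * precomp γ b) := by
    rw [map_mul, map_mul, ← precompMer_algebraMap, ← precompMer_algebraMap, he, map_mul, hγ]
    ring
  have h2 := hinj h1
  have h3 := congrFun (congrArg Subtype.val h2) z
  exact h3

/-- `T ^ c` acts by the translation by `c` -/
theorem h16_T_pow_smul (c : ℕ) (z : ℍ) : (ModularGroup.T ^ c) • z = ((c : ℝ) +ᵥ z : ℍ) := by
  rw [← zpow_natCast, RH24.T_zpow_smul_eq_vadd]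
  norm_cast

/-- **ORD-CUSP, the LOCAL lemma** (`Mer`-form): an `n`-th root `g ∈ Mer` of `a / b`
(`a`, `b` holomorphic, `N`-periodic, of moderate growth) which is invariant under `z ↦ z + c`
(`c ∣ N`) forces `n · (N / c) ∣ ord_∞ a - ord_∞ b`. -/
theorem cusp_local (N : ℕ) [NeZero N] (n c : ℕ) (hn : 0 < n) (hc : 0 < c) (hcN : c ∣ N)
    (g : Mer) (hg : g ≠ 0)
    (hper : precompMer (ModularGroup.T ^ c) g = g)
    (a b : Hol) (ha : a ≠ 0) (hb : b ≠ 0) (haI : (a : ℍ → ℂ) ∈ RH24.HolInf N)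
    (hbI : (b : ℍ → ℂ) ∈ RH24.HolInf N)
    (h : g ^ n * algebraMap Hol Mer b = algebraMap Hol Mer a) :
    ((n * (N / c) : ℕ) : ℤ) ∣ (RH24.ordInf N a).untop₀ - (RH24.ordInf N b).untop₀ := by
  have hinj := IsFractionRing.injective Hol Mer
  obtain ⟨n', rfl⟩ : ∃ n', n = n' + 1 := ⟨n - 1, by omega⟩
  -- `g · b` is holomorphic
  have hEpow : (g * algebraMap Hol Mer b) ^ (n' + 1) = algebraMap Hol Mer (a * b ^ n') := by
    rw [mul_pow, pow_succ (algebraMap Hol Mer b), ← mul_assoc, mul_right_comm, h, map_mul,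
      map_pow]
  have hE : ∀ z₀ : ℍ, merVal z₀ (g * algebraMap Hol Mer b) ≤ 1 := by
    intro z₀
    apply h16_le_one_of_pow_le_one _ (n' + 1) hn
    rw [← map_pow, hEpow, merVal_algebraMap]
    exact ordVal_le_one _ _
  obtain ⟨e, he⟩ := exists_hol_of_merVal_le _ hE
  -- the relations
  have hpowH : e ^ (n' + 1) * b = a * b ^ (n' + 1) := by
    apply hinj
    rw [map_mul, map_mul, map_pow, map_pow, he, mul_pow, ← h]
    ring
  have hpow : ∀ z : ℍ, (e : ℍ → ℂ) z ^ (n' + 1) * (b : ℍ → ℂ) z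
      = (a : ℍ → ℂ) z * (b : ℍ → ℂ) z ^ (n' + 1) := by
    intro z
    exact congrFun (congrArg Subtype.val hpowH) z
  have hb0 : ∃ z, (b : ℍ → ℂ) z ≠ 0 := by
    by_contra hcon
    push Not at hcon
    exact hb (Subtype.ext (funext hcon))
  have ha0 : ∃ z, (a : ℍ → ℂ) z ≠ 0 := by
    by_contra hcon
    push Not at hcon
    exact ha (Subtype.ext (funext hcon))
  -- `e` is `c`-periodic relative to `b`
  have hperc : ∀ z : ℍ, (e : ℍ → ℂ) ((c : ℝ) +ᵥ z) * (b : ℍ → ℂ) z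
      = (e : ℍ → ℂ) z * (b : ℍ → ℂ) ((c : ℝ) +ᵥ z) := by
    intro z
    have := h16_cross (ModularGroup.T ^ c) g hper e b he z
    rwa [h16_T_pow_smul] at this
  -- `e` is `N`-periodic
  have hperN : precompMer (ModularGroup.T ^ N) g = g := by
    obtain ⟨k, hk⟩ := hcN
    rw [hk, pow_mul]
    exact h16_precompMer_pow _ g hper k
  have hep : ∀ z : ℍ, (e : ℍ → ℂ) ((N : ℝ) +ᵥ z) = (e : ℍ → ℂ) z := by
    have h1 : ∀ z : ℍ, ((e : ℍ → ℂ) ((N : ℝ) +ᵥ z) - (e : ℍ → ℂ) z) * (b : ℍ → ℂ) z = 0 := by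
      intro z
      have := h16_cross (ModularGroup.T ^ N) g hperN e b he z
      rw [h16_T_pow_smul, hbI.2.1 z] at this
      rw [sub_mul, this, sub_self]
    have hshift : MDiff (fun z : ℍ => (e : ℍ → ℂ) ((N : ℝ) +ᵥ z)) := by
      have := (precomp (ModularGroup.T ^ N) e).2
      have heq : ((precomp (ModularGroup.T ^ N) e : Hol) : ℍ → ℂ)
          = fun z : ℍ => (e : ℍ → ℂ) ((N : ℝ) +ᵥ z) := by
        funext z
        rw [precomp_apply, h16_T_pow_smul]
      rwa [heq] at this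
    have h2 := h16_eq_zero_of_mul_eq_zero (hshift.sub e.2) b.2 hb0 h1
    intro z
    exact sub_eq_zero.mp (h2 z)
  exact h16_ordCusp_core N c hcN hc.ne' (n' + 1) hn (a : ℍ → ℂ) (b : ℍ → ℂ) (e : ℍ → ℂ)
    a.2 b.2 e.2 haI.2.1 hbI.2.1 hep haI.2.2 hbI.2.2 ha0 hb0 hpow hperc

end H16OC

end
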