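import Fermat.Agent.W3G.RIGCuspC_helper27
import Fermat.Agent.W3G.RIGOrdCusp_helper16

/-!
# Item 80 (W3G), RIGORD, slice ORD-CUSP: `H27RIG.ordCusp N n : OrdCuspStatement N n`

from the cusp dictionary (`H27RIG.cusp_dict`, helper27) and the local lemma at the cusp
(`H16OC.cusp_local`, helper16).
-/

set_option autoImplicit false

noncomputable section

namespace H27RIG

variable (N : ℕ) [NeZero N]

theorem cuspLocal : CuspLocalStatement N :=
  fun n c hn hc hcN g hg hper a b ha hb haI hbI h =>
    H16OC.cusp_local N n c hn hc hcN g hg hper a b ha hb haI hbI h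

/-- **ORD over `ℚ̄`, cusps** (unconditional). -/
theorem ordCusp (n : ℕ) (hn : 0 < n) : OrdCuspStatement N n :=
  ordCusp_of N (cuspLocal N) n hn

end H27RIG

end
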