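import Fermat.Agent.W3G.RIGAsm_helper27
import Fermat.Agent.W3G.RIGOrdCusp_helper27
import Fermat.Agent.W3G.OrdEll_helper6
import Fermat.Agent.W3G.RIGDescentFinal_helper10

/-!
# Item 80 (W3G): `H27RIG.rigOrd N n : H8KUM.RigOrdStatement N n` (unconditional)

Assembly of
* the descent `H10RIG.descent` (helper10, with helper1 NF-ABS + VINF, helper2 FC-C, helper4 FIN-T +
  FIN-ROOT, helper16 AUT-ALG, helper23 FIN-AN),
* ORD over `ℂ` at the generic places (`H27RIG.ordCGen`),
* ORD over `ℚ̄`: cusps (`H27RIG.ordCusp`: dictionary helper27 + local lemma helper16), elliptic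
  points (`H6ORD.h6oe_ordEll`, helper6, with ORD-RAM helper6/helper13), generic places
  (`H27RIG.ordGenQ`).
-/

set_option autoImplicit false

noncomputable section

namespace H27RIG

variable (N : ℕ) [NeZero N]

/-- **ORD over `ℚ̄`** (unconditional, `n > 0`). -/
theorem ordQbar (n : ℕ) (hn : 0 < n) : OrdQbarStatement N n :=
  ordQbar_of N n (ordCusp N n hn) (H6ORD.h6oe_ordEll N n) (ordGenQ N n)

/-- **RIG + ORD** (unconditional). -/
theorem rigOrd (n : ℕ) : H8KUM.RigOrdStatement N n :=
  rigOrd_of' N n (fun hn => H10RIG.descent N n hn) (fun hn => ordCusp N n hn)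
    (fun _ => H6ORD.h6oe_ordEll N n)

end H27RIG

end
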