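import Fermat.Agent.W3G.KUMHpeInv_helper8
import Fermat.Agent.W3G.KUMSurj_helper4
import Fermat.Agent.W3G.KUMDesc_helper1
import Fermat.Agent.W3G.KUMUnit_helper16
import Fermat.Agent.W3G.HpeHecke_helper13
import Fermat.Agent.W3G.AN3Alg2_helper2
import Fermat.Agent.W3G.KUMRoot_helper23
import Fermat.Agent.W3G.RIGOrd_helper27

/-!
# Item 80 (W3G), slice KUM (helper8): `H11W3G.KumGalStatement N`, UNCONDITIONAL

Inputs: K-UNIT (helper16), K-DESC (helper1) + AN3-A (helper2), K-SURJ (helper4) + RIGORD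
(helper27 and the RIGORD crew), HpeHecke (helper13), K-ROOT (helper23), K-PE (helper8 + helper13),
HPE-INV (helper8).
-/

set_option autoImplicit false

namespace H8KUM

/-- **KUM-GAL**, unconditional. -/
theorem h8k_kumGal (N : ℕ) [NeZero N] : H11W3G.KumGalStatement N :=
  h8k_kumGalStatement (H16KU.h16_isRealisation N)
    (fun _ hn => H1KD.invRoot N hn (H2AN3.algStatement N))
    (fun n hn => H4KUM.kumSurj_of_rigOrd N n hn (H27RIG.rigOrd N n))
    (H13E0.hpeHeckeStatement N)
    (fun n hn => H23KR.h23kr_root n hn)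
    (h8k_hpeInv N)

end H8KUM
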