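import Fermat.Agent.W3G.ESFrob_helper10
import Fermat.Agent.S37.RedBridge_helper8
import Fermat.Agent.S37.R3Norm_helper13
import Fermat.Agent.FF.R0Final
import Fermat.Agent.FF.PrincipalDivisors
import Fermat.Agent.S24.BDegreeFinal

/-!
# Item 80 (W3-G), slice ES (helper10): final statements

The only open input is the Kummer statement `(K)_n` of item 75 (S18, route Y'):
`H7S18.KummerStatement A (IsLocalRing.residue A) N n`.

* `h10es_frobenius` : `φ² x - T_ℓ (φ x) + ℓ x = 0` on `J₀(N)[n]` (`φ` a Frobenius element at `A`);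
* `h10es_inertia`   : (in `ESPres_helper10.lean`) inertia at `A` fixes `J₀(N)[n]`;
* `KummerAll N`     : `(K)_n` at every place over every `ℓ ∤ N`, for all `n` prime to `ℓ`;
* `h10es_unramifiedOutside`, `h10es_frobeniusQuadratic` : the prelude's
  `UnramifiedOutside N p (JZero N)` and `FrobeniusQuadratic N p (JZero N)` from `KummerAll N`.
-/

set_option autoImplicit false
set_option linter.style.haveILetI false
set_option synthInstance.maxHeartbeats 400000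
set_option maxHeartbeats 1000000

noncomputable section

namespace H10ES

open ModularCurve AlgebraicCurve H8S37

/-- principal divisors of the function field of `X₀(N)` over `ℚ̄`. -/
theorem h10es_hasPrincipalDivisors (N : ℕ) [NeZero N] :
    HasPrincipalDivisors (AlgebraicClosure ℚ) (modularFunctionFieldBar N) := by
  obtain ⟨hfd, -⟩ := RH24.B_degree N
  haveI := hfd
  exact H27FF.h27ff_hasPrincipalDivisors (RH24.Jbar N) (RH24.B_transcendental N)

/-- **ES, Frobenius half**: for a Frobenius element `φ` at `A` over `ℓ ∤ N` and `x ∈ J₀(N)` with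
`n x = 0`: `φ² x - T_ℓ (φ x) + ℓ x = 0`, given `(K)_n`. -/
theorem h10es_frobenius (N : ℕ) [NeZero N] (ℓ : ℕ) (hℓ : ℓ.Prime) (hℓN : ¬ ℓ ∣ N)
    (A : ValuationSubring (AlgebraicClosure ℚ)) (hA : A.LiesOverPrime ℓ)
    (n : ℕ) (hn : 0 < n)
    (hK : H7S18.KummerStatement A (IsLocalRing.residue A) N n)
    (φ : GQ) (hφ : A.IsFrobeniusAt φ ℓ) (x : JZero N) (hx : n • x = 0) :
    φ • φ • x - heckeOperatorBar N ⟨ℓ, hℓ⟩ (φ • x) + ℓ • x = 0 := by
  haveI : NeZero ℓ := ⟨hℓ.ne_zero⟩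
  haveI := h10es_hasPrincipalDivisors N
  exact h10es_frobenius_of ℓ hℓ hℓN hA (H27FF.h27ff_heckeInputsAlong N ℓ)
    (H13R3.normStatement N ℓ hℓ hℓN) (h8rb_red ℓ hℓ) n hn hK φ hφ x hx

/-- `(K)_n` at every place over every prime `ℓ ∤ N`, for every `n` prime to `ℓ`
(= S18, route Y', without the top reduction). -/
def KummerAll (N : ℕ) [NeZero N] : Prop :=
  ∀ (ℓ : ℕ), ℓ.Prime → ¬ ℓ ∣ N →
    ∀ A : ValuationSubring (AlgebraicClosure ℚ), A.LiesOverPrime ℓ →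
      ∀ n : ℕ, 0 < n → ¬ ℓ ∣ n → H7S18.KummerStatement A (IsLocalRing.residue A) N n

theorem h10es_not_dvd_pow {ℓ N p : ℕ} (hℓ : ℓ.Prime) (h : ¬ ℓ ∣ N * p) (m : ℕ) :
    ¬ ℓ ∣ N ∧ 0 < p ^ m ∧ ¬ ℓ ∣ p ^ m := by
  refine ⟨fun h1 => h (h1.mul_right p), ?_, fun h1 => h ((hℓ.dvd_of_dvd_pow h1).mul_left N)⟩
  apply pow_pos
  rcases Nat.eq_zero_or_pos p with rfl | hp
  · exact absurd (by simp) h
  · exact hp

/-- the prelude's `UnramifiedOutside` for `J₀(N)`, from `(K)`. -/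
theorem h10es_unramifiedOutside (N p : ℕ) [NeZero N] (hK : KummerAll N) :
    letI := heckeModuleBar N
    ∀ (_ : SMulCommClass (AlgebraicClosure ℚ ≃ₐ[ℚ] AlgebraicClosure ℚ) HeckeAlg (JZero N)),
      UnramifiedOutside (K := ℚ) (L := AlgebraicClosure ℚ) N p (JZero N) := by
  letI := heckeModuleBar N
  intro _ ℓ hℓ hℓNp A hA σ hσ x hx
  obtain ⟨m, hm⟩ := hx
  obtain ⟨hℓN, hpos, hndvd⟩ := h10es_not_dvd_pow hℓ hℓNp m
  haveI : Fact ℓ.Prime := ⟨hℓ⟩
  exact h10es_inertia ℓ hℓN hA (p ^ m) hpos (hK ℓ hℓ hℓN A hA (p ^ m) hpos hndvd) σ hσ x hm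

/-- the prelude's `FrobeniusQuadratic` for `J₀(N)`, from `(K)`. -/
theorem h10es_frobeniusQuadratic (N p : ℕ) [NeZero N] (hcomm : HeckeOperatorsCommuteBar N)
    (hK : KummerAll N) :
    letI := heckeModuleBar N
    ∀ (_ : SMulCommClass (AlgebraicClosure ℚ ≃ₐ[ℚ] AlgebraicClosure ℚ) HeckeAlg (JZero N)),
      FrobeniusQuadratic (K := ℚ) (L := AlgebraicClosure ℚ) N p (JZero N) := by
  letI := heckeModuleBar N
  intro _ ℓ hℓ hℓNp A hA σ hσ x hx
  obtain ⟨m, hm⟩ := hx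
  obtain ⟨hℓN, hpos, hndvd⟩ := h10es_not_dvd_pow hℓ hℓNp m
  rw [heckeModuleBar_heckeGen_smul hcomm]
  exact h10es_frobenius N ℓ hℓ hℓN A hA (p ^ m) hpos (hK ℓ hℓ hℓN A hA (p ^ m) hpos hndvd)
    σ hσ x hm

end H10ES

end
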