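import Fermat.Agent.W3G.Defs
import Fermat.Agent.W3G.ES_helper10
import Fermat.Agent.S18.Final_helper7
import Fermat.Agent.S18.C11a_helper16
import Fermat.Agent.S18.C11b_helper12

/-!
# Item 80 (W3-G), slice ES (helper10): the interface statements of `W3G/Defs.lean`

* `h10es_kummerAll_of_tame` : `KummerAll N` from the main theorem of item 75, route Y'
  (`H7S18.KummerTameStatement`), using C11a (`H16C11a.h16_primeReduction`) and
  C11b (`H12C11b.levelChange`), both landed;
* `h10es_inertiaStatement`   : `KummerAll N → H11W3G.ESInertiaStatement N`;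
* `h10es_frobeniusStatement` : `KummerAll N → H11W3G.ESFrobeniusStatement N`;
* `h10es_inertiaStatement_of_tame`, `h10es_frobeniusStatement_of_tame` : the same from
  `H7S18.KummerTameStatement`.
-/

set_option autoImplicit false
set_option linter.style.haveILetI false
set_option synthInstance.maxHeartbeats 400000
set_option maxHeartbeats 1000000

noncomputable section

namespace H10ES

open ModularCurve AlgebraicCurve H7S18

theorem h10es_dedekindPsi_pos (N : ℕ) (hN0 : N ≠ 0) : 0 < dedekindPsi N := by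
  unfold dedekindPsi
  refine Finset.sum_pos' (fun _ _ => Nat.zero_le _) ⟨1, ?_, ?_⟩
  · simp [hN0]
  · simp [Nat.pos_of_ne_zero hN0]

/-- `(K)_p` at every level `N` prime to `ℓ`, from `(K)_p` at tame levels (level change by the
norm, C11b). -/
theorem h10es_kummer_prime_of_tame (hTame : KummerTameStatement)
    (N : ℕ) [NeZero N] (ℓ : ℕ) [Fact ℓ.Prime] (hℓN : ¬ ℓ ∣ N)
    (A : ValuationSubring (AlgebraicClosure ℚ)) (hA : A.LiesOverPrime ℓ)
    (p : ℕ) (hp : p.Prime) (hpℓ : p ≠ ℓ) :
    KummerStatement A (IsLocalRing.residue A) N p := by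
  have hℓ : ℓ.Prime := Fact.out
  have hN0 : N ≠ 0 := NeZero.ne N
  have hLevel : LevelChangeStatement := H12C11b.levelChange
  by_cases h2 : ℓ = 2
  · by_cases h3N : 3 ∣ N
    · exact hTame N ℓ ⟨hℓN, fun _ => h3N, fun h3 => by omega⟩ A hA p hp hpℓ
    · have : NeZero (3 * N) := ⟨by positivity⟩
      have hℓ3N : ¬ ℓ ∣ 3 * N := by
        intro hd
        rcases (Nat.Prime.dvd_mul hℓ).1 hd with h' | h'
        · rw [h2] at h'; omega
        · exact hℓN h'
      have hψ : dedekindPsi (3 * N) / dedekindPsi N = 4 := by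
        rw [h7_dedekindPsi_prime_mul 3 N Nat.prime_three hN0 h3N]
        exact Nat.mul_div_cancel _ (h10es_dedekindPsi_pos N hN0)
      have hcop : Nat.Coprime (dedekindPsi (3 * N) / dedekindPsi N) p := by
        rw [hψ]
        have : Nat.Coprime 2 p := (Nat.coprime_primes Nat.prime_two hp).2 (by omega)
        exact Nat.Coprime.pow_left 2 this
      exact hLevel N (3 * N) ℓ hℓ3N (dvd_mul_left N 3) A hA p hp hcop
        (hTame (3 * N) ℓ ⟨hℓ3N, fun _ => dvd_mul_right 3 N, fun h3 => by omega⟩ A hA p hp hpℓ)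
  · by_cases h3 : ℓ = 3
    · by_cases h2N : 2 ∣ N
      · exact hTame N ℓ ⟨hℓN, fun h => absurd h h2, fun _ => h2N⟩ A hA p hp hpℓ
      · haveI : NeZero (2 * N) := ⟨by positivity⟩
        have hℓ2N : ¬ ℓ ∣ 2 * N := by
          intro hd
          rcases (Nat.Prime.dvd_mul hℓ).1 hd with h' | h'
          · rw [h3] at h'; omega
          · exact hℓN h'
        have hψ : dedekindPsi (2 * N) / dedekindPsi N = 3 := by
          rw [h7_dedekindPsi_prime_mul 2 N Nat.prime_two hN0 h2N]
          exact Nat.mul_div_cancel _ (h10es_dedekindPsi_pos N hN0)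
        have hcop : Nat.Coprime (dedekindPsi (2 * N) / dedekindPsi N) p := by
          rw [hψ]
          exact (Nat.coprime_primes Nat.prime_three hp).2 (by omega)
        exact hLevel N (2 * N) ℓ hℓ2N (dvd_mul_left N 2) A hA p hp hcop
          (hTame (2 * N) ℓ ⟨hℓ2N, fun h => absurd h h2, fun _ => dvd_mul_right 2 N⟩ A hA p hp hpℓ)
    · exact hTame N ℓ ⟨hℓN, fun h => absurd h h2, fun h => absurd h h3⟩ A hA p hp hpℓ

/-- `KummerAll N` from the main theorem of item 75 (route Y'). -/
theorem h10es_kummerAll_of_tame (hTame : KummerTameStatement) (N : ℕ) [NeZero N] :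
    KummerAll N := by
  intro ℓ hℓ hℓN A hA n hn hℓn
  haveI : Fact ℓ.Prime := ⟨hℓ⟩
  exact H16C11a.h16_primeReduction N ℓ hℓN A hA
    (fun p hp hpℓ => h10es_kummer_prime_of_tame hTame N ℓ hℓN A hA p hp hpℓ) n hn hℓn

/-- **ES (inertia)**, interface form. -/
theorem h10es_inertiaStatement (N : ℕ) [NeZero N] (hK : KummerAll N) :
    H11W3G.ESInertiaStatement N := by
  intro n q hq hqN hqn A hA σ hσ x hx
  haveI : Fact q.Prime := ⟨hq⟩
  have hn : 0 < n := Nat.pos_of_ne_zero (fun h => hqn (h ▸ dvd_zero q))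
  exact h10es_inertia q hqN hA n hn (hK q hq hqN A hA n hn hqn) σ hσ x hx

/-- **ES (Frobenius)**, interface form. -/
theorem h10es_frobeniusStatement (N : ℕ) [NeZero N] (hK : KummerAll N) :
    H11W3G.ESFrobeniusStatement N := by
  intro n ℓ hℓ hℓN hℓn A hA σ hσ x hx
  have hn : 0 < n := Nat.pos_of_ne_zero (fun h => hℓn (h ▸ dvd_zero ℓ))
  exact h10es_frobenius N ℓ hℓ hℓN A hA n hn (hK ℓ hℓ hℓN A hA n hn hℓn) σ hσ x hx

theorem h10es_inertiaStatement_of_tame (hTame : KummerTameStatement) (N : ℕ) [NeZero N] :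
    H11W3G.ESInertiaStatement N :=
  h10es_inertiaStatement N (h10es_kummerAll_of_tame hTame N)

theorem h10es_frobeniusStatement_of_tame (hTame : KummerTameStatement) (N : ℕ) [NeZero N] :
    H11W3G.ESFrobeniusStatement N :=
  h10es_frobeniusStatement N (h10es_kummerAll_of_tame hTame N)

end H10ES

end
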