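import Fermat.Agent.W3G.DefsGeom
import Mathlib.GroupTheory.FiniteAbelian.Basic
import Mathlib.GroupTheory.Abelianization.Defs
import Mathlib.GroupTheory.Schreier
import Mathlib.Algebra.Module.Projective
import Mathlib.LinearAlgebra.FreeModule.PID

/-!
# Item 80 (W3G), slice LIFT (helper28): `H11W3G.LiftStatement N`

Pure algebra.  `A := Γ₀(N)^ab / ⟨parabolic, finite order⟩` is a finitely generated abelian group,
`Hom(A, ℤ) = Lpar N`, `Hom(A, ℤ/n) = Hpe N (ZMod n)`.  With `p^v` the `p`-part of the order of the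
torsion subgroup `T` of `A`, a character `χ : A → ℤ/p^(k+v)` kills `T` modulo `p^k`, hence factors
modulo `p^k` through the free module `A/T`, hence lifts to `ℤ`.
-/

set_option autoImplicit false
set_option linter.style.haveILetI false

noncomputable section

namespace H28LIFT

open ModularCurve CongruenceSubgroup

/-- an element of `ℤ/p^(k+v)` killed by `p^v` vanishes modulo `p^k` -/
theorem cast_eq_zero_of_pow_mul (p : ℕ) (hp : p.Prime) (k v : ℕ) (c : ZMod (p ^ (k + v)))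
    (hc : ((p ^ v : ℕ) : ZMod (p ^ (k + v))) * c = 0) :
    ZMod.castHom (pow_dvd_pow p (Nat.le_add_right k v)) (ZMod (p ^ k)) c = 0 := by
  haveI : NeZero (p ^ (k + v)) := ⟨pow_ne_zero _ hp.ne_zero⟩
  have h1 : c = ((c.val : ℕ) : ZMod (p ^ (k + v))) := (ZMod.natCast_zmod_val c).symm
  rw [h1, ← Nat.cast_mul, ZMod.natCast_eq_zero_iff] at hc
  rw [h1, map_natCast, ZMod.natCast_eq_zero_iff]
  have hc' : p ^ v * p ^ k ∣ p ^ v * c.val := by
    rw [← pow_add, add_comm v k]; exact hc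
  exact (Nat.mul_dvd_mul_iff_left (pow_pos hp.pos v)).mp hc'

/-- **LIFT for modules**: for a finitely generated abelian group `A`, a character modulo
`p^j`, `j ≫ k`, agrees modulo `p^k` with a homomorphism `A → ℤ`. -/
theorem lift_module (A : Type) [AddCommGroup A] [Module.Finite ℤ A] (p : ℕ) (hp : p.Prime)
    (k : ℕ) :
    ∃ (j : ℕ) (hkj : k ≤ j), ∀ χ : A →+ ZMod (p ^ j), ∃ φ : A →+ ℤ,
      ∀ a, ((φ a : ℤ) : ZMod (p ^ k)) =
        ZMod.castHom (pow_dvd_pow p hkj) (ZMod (p ^ k)) (χ a) := by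
  classical
  haveI : IsNoetherian ℤ A := isNoetherian_of_isNoetherianRing_of_finite ℤ A
  haveI : Module.Finite ℤ (Submodule.torsion ℤ A) := Module.IsNoetherian.finite ℤ _
  haveI : Finite (Submodule.torsion ℤ A) :=
    Module.finite_of_fg_torsion _ (Submodule.torsion_isTorsion)
  have he : Nat.card (Submodule.torsion ℤ A) ≠ 0 := Nat.card_pos.ne'
  obtain ⟨v, e', he', hee'⟩ := Nat.exists_eq_pow_mul_and_not_dvd he p hp.ne_one
  refine ⟨k + v, Nat.le_add_right k v, fun χ => ?_⟩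
  -- `χ` kills the torsion modulo `p^k`
  have hT : ∀ t ∈ Submodule.torsion ℤ A,
      ZMod.castHom (pow_dvd_pow p (Nat.le_add_right k v)) (ZMod (p ^ k)) (χ t) = 0 := by
    intro t ht
    apply cast_eq_zero_of_pow_mul p hp k v
    have h1 : Nat.card (Submodule.torsion ℤ A) • (⟨t, ht⟩ : Submodule.torsion ℤ A) = 0 :=
      card_nsmul_eq_zero'
    have h2 : Nat.card (Submodule.torsion ℤ A) • t = 0 := by
      have := congrArg (Submodule.subtype _) h1
      simpa using this
    have h3 : Nat.card (Submodule.torsion ℤ A) • χ t = 0 := by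
      rw [← map_nsmul, h2, map_zero]
    rw [hee', nsmul_eq_mul, Nat.cast_mul, mul_assoc] at h3
    have hu : IsUnit ((e' : ℕ) : ZMod (p ^ (k + v))) := by
      rw [ZMod.isUnit_iff_coprime]
      exact Nat.Coprime.pow_right _ ((Nat.Prime.coprime_iff_not_dvd hp).mpr he').symm
    have h4 : ((p ^ v : ℕ) : ZMod (p ^ (k + v))) * χ t * (e' : ZMod (p ^ (k + v))) = 0 := by
      rw [mul_right_comm, mul_comm]
      rw [← mul_assoc] at h3
      rw [← h3]
      ring
    exact (hu.mul_left_eq_zero).mp h4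
  -- the reduction of `χ` modulo `p^k`, as a linear map
  let ψ : A →ₗ[ℤ] ZMod (p ^ k) :=
    ((ZMod.castHom (pow_dvd_pow p (Nat.le_add_right k v)) (ZMod (p ^ k))).toAddMonoidHom.comp
      χ).toIntLinearMap
  have hψ : Submodule.torsion ℤ A ≤ LinearMap.ker ψ := fun t ht => hT t ht
  let c : ℤ →ₗ[ℤ] ZMod (p ^ k) := (Int.castAddHom (ZMod (p ^ k))).toIntLinearMap
  have hc : Function.Surjective c := ZMod.intCast_surjective
  obtain ⟨h, hh⟩ := Module.projective_lifting_property c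
    ((Submodule.torsion ℤ A).liftQ ψ hψ) hc
  refine ⟨(h ∘ₗ (Submodule.torsion ℤ A).mkQ).toAddMonoidHom, fun a => ?_⟩
  have := LinearMap.congr_fun hh ((Submodule.torsion ℤ A).mkQ a)
  simpa [c, ψ] using this

/-- **LIFT for groups**: for a finitely generated group `G` and a set `P ⊆ G`, a character
modulo `p^j`, `j ≫ k`, trivial on `P`, agrees modulo `p^k` with a homomorphism `G → ℤ` trivial
on `P`. -/
theorem lift_group (G : Type) [Group G] [hG : Group.FG G] (P : Set G) (p : ℕ) (hp : p.Prime)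
    (k : ℕ) :
    ∃ (j : ℕ) (hkj : k ≤ j), ∀ χ : Additive G →+ ZMod (p ^ j),
      (∀ g ∈ P, χ (Additive.ofMul g) = 0) →
      ∃ φ : Additive G →+ ℤ, (∀ g ∈ P, φ (Additive.ofMul g) = 0) ∧
        ∀ g : G, ((φ (Additive.ofMul g) : ℤ) : ZMod (p ^ k)) =
          ZMod.castHom (pow_dvd_pow p hkj) (ZMod (p ^ k)) (χ (Additive.ofMul g)) := by
  classical
  let ι : Additive G →+ Additive (Abelianization G) := MonoidHom.toAdditive Abelianization.of
  let S : Submodule ℤ (Additive (Abelianization G)) :=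
    Submodule.span ℤ ((fun g => ι (Additive.ofMul g)) '' P)
  haveI : Group.FG (Abelianization G) :=
    Group.fg_of_surjective (f := Abelianization.of)
      (fun x => QuotientGroup.mk_surjective (s := commutator G) x)
  haveI : Module.Finite ℤ (Additive (Abelianization G)) :=
    Module.Finite.iff_addGroup_fg.mpr inferInstance
  obtain ⟨j, hkj, hj⟩ := lift_module (Additive (Abelianization G) ⧸ S) p hp k
  refine ⟨j, hkj, fun χ hχ => ?_⟩
  let χ₂ : Additive (Abelianization G) →+ ZMod (p ^ j) :=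
    MonoidHom.toAdditiveLeft (Abelianization.lift (AddMonoidHom.toMultiplicativeRight χ))
  have hχ₂ : ∀ g : G, χ₂ (ι (Additive.ofMul g)) = χ (Additive.ofMul g) := fun g => by
    show (Abelianization.lift (AddMonoidHom.toMultiplicativeRight χ)
      (Abelianization.of g)).toAdd = _
    rw [Abelianization.lift_apply_of]
    rfl
  have hS : S ≤ LinearMap.ker χ₂.toIntLinearMap := by
    rw [Submodule.span_le]
    rintro _ ⟨g, hg, rfl⟩
    show χ₂ _ = 0
    rw [hχ₂]
    exact hχ g hg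
  obtain ⟨φ, hφ⟩ := hj (S.liftQ χ₂.toIntLinearMap hS).toAddMonoidHom
  refine ⟨(φ.comp S.mkQ.toAddMonoidHom).comp ι, fun g hg => ?_, fun g => ?_⟩
  · show φ (S.mkQ (ι (Additive.ofMul g))) = 0
    have : S.mkQ (ι (Additive.ofMul g)) = 0 := by
      rw [Submodule.mkQ_apply, Submodule.Quotient.mk_eq_zero]
      exact Submodule.subset_span ⟨g, hg, rfl⟩
    rw [this, map_zero]
  · show ((φ (S.mkQ (ι (Additive.ofMul g))) : ℤ) : ZMod (p ^ k)) = _
    rw [hφ]
    show ZMod.castHom _ _ (χ₂ (ι (Additive.ofMul g))) = _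
    rw [hχ₂]

/-- every element of `Γ₀(0)` has trace `±2` -/
theorem gamma0_zero_trace (γ : Gamma0 0) :
    ((γ : Matrix.SpecialLinearGroup (Fin 2) ℤ) : Matrix (Fin 2) (Fin 2) ℤ).trace ^ 2 = 4 := by
  obtain ⟨A, hA⟩ := γ
  rw [Gamma0_mem] at hA
  have h10 : A.1 1 0 = 0 := by simpa using hA
  have hdet := A.2
  rw [Matrix.det_fin_two, h10, mul_zero, sub_zero] at hdet
  show (A.1).trace ^ 2 = 4
  rw [Matrix.trace_fin_two]
  rcases Int.eq_one_or_neg_one_of_mul_eq_one' hdet with ⟨h1, h2⟩ | ⟨h1, h2⟩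
  · rw [h1, h2]; norm_num
  · rw [h1, h2]; norm_num

/-- **LIFT** (item 80): `H11W3G.LiftStatement N`. -/
theorem liftStatement (N : ℕ) : H11W3G.LiftStatement N := by
  intro p hp k
  rcases Nat.eq_zero_or_pos N with rfl | hN
  · refine ⟨k, le_rfl, fun χ => ⟨0, fun γ => ?_⟩⟩
    have h := χ.2.1 γ (gamma0_zero_trace γ)
    rw [h, map_zero]
    simp
  · haveI : NeZero N := ⟨hN.ne'⟩
    haveI : Group.FG (Matrix.SpecialLinearGroup (Fin 2) ℤ) :=
      Group.fg_iff.mpr ⟨{ModularGroup.S, ModularGroup.T}, SpecialLinearGroup.SL2Z_generators,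
        by simp⟩
    haveI : Group.FG (Gamma0 N) := Subgroup.fg_of_index_ne_zero _
    obtain ⟨j, hkj, hj⟩ := lift_group (Gamma0 N)
      ({γ | ((γ : Matrix.SpecialLinearGroup (Fin 2) ℤ) : Matrix (Fin 2) (Fin 2) ℤ).trace ^ 2 = 4}
        ∪ {γ | IsOfFinOrder γ}) p hp k
    refine ⟨j, hkj, fun χ => ?_⟩
    obtain ⟨φ, hφ0, hφ⟩ := hj χ.1 (by
      rintro g (hg | hg)
      · exact χ.2.1 g hg
      · exact χ.2.2 g hg)
    exact ⟨⟨φ, fun γ hγ => hφ0 γ (Or.inl hγ)⟩, hφ⟩

end H28LIFT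

end
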