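import Mathlib
import Fermat.Agent.W3G.AN3_helper10
import Fermat.Agent.W3G.AN3Defs_helper2

/-!
# Item 80 (W3-G), slice AN3, form B (helper10): `H2AN3.FormStatement N`, unconditionally

From `H10AN3.h10an3` (Lagrange interpolation over the cosets of `Γ₀(N)`): a quotient of two
modular forms of the same weight on `Γ₀(N)` lies in `KN N = ℂ(j_d : d ∣ N) ⊆ Mer`.
-/

set_option autoImplicit false
set_option linter.style.haveILetI false
set_option linter.unusedSectionVars false

noncomputable section

open UpperHalfPlane ModularForm MatrixGroups CongruenceSubgroup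
open scoped Manifold

namespace H10AN3

open H24D H2AN3
open RH24 (Dv jf jd)

variable (N : ℕ) [NeZero N]

/-- polynomials in the generators lie in `KN N`. -/
theorem eval₂_mem_KN (P : MvPolynomial (Dv N) ℂ) :
    MvPolynomial.eval₂ constMer (fun d : Dv N => jdMer d) P ∈ KN N := by
  induction P using MvPolynomial.induction_on with
  | C a =>
    rw [MvPolynomial.eval₂_C]
    exact Subfield.subset_closure (Or.inl ⟨a, rfl⟩)
  | add p q hp hq =>
    rw [MvPolynomial.eval₂_add]
    exact (KN N).add_mem hp hq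
  | mul_X p i hp =>
    rw [MvPolynomial.eval₂_mul, MvPolynomial.eval₂_X]
    exact (KN N).mul_mem hp (Subfield.subset_closure (Or.inr ⟨i, rfl⟩))

/-- **AN3, form B**, unconditionally. -/
theorem formStatement : FormStatement N := by
  intro k F₁ F₂ hF₂
  have hb : (⇑F₂ : ℍ → ℂ) ≠ 0 := by
    intro h
    apply hF₂
    ext z
    rw [h]
    rfl
  obtain ⟨P, Q, ⟨z₀, hz₀⟩, h⟩ := h10an3 N F₁ F₂ hb
  have hQ0 : polyHol N Q ≠ 0 := by
    intro h0
    apply hz₀
    rw [← polyHol_apply, h0]
    rfl
  have hQ0' : algebraMap Hol Mer (polyHol N Q) ≠ 0 := by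
    rw [Ne, map_eq_zero_iff _ (IsFractionRing.injective Hol Mer)]
    exact hQ0
  refine ⟨MvPolynomial.eval₂ constMer (fun d : Dv N => jdMer d) P /
      MvPolynomial.eval₂ constMer (fun d : Dv N => jdMer d) Q,
    (KN N).div_mem (eval₂_mem_KN N P) (eval₂_mem_KN N Q), ?_⟩
  rw [eval₂_constMer, eval₂_constMer, div_mul_eq_mul_div, div_eq_iff hQ0']
  unfold ofFun
  rw [← map_mul, ← map_mul]
  congr 1
  apply Subtype.ext
  funext z
  show (polyHol N P : ℍ → ℂ) z * F₂ z = F₁ z * (polyHol N Q : ℍ → ℂ) z
  rw [polyHol_apply, polyHol_apply, h z]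
  ring

end H10AN3

end
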