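/-
Item 80 (W3-G), slice EXT-lat (lead): `H11W3G.ExtLatticeStatement`.

`𝒪` a DVR with `2 ≠ 0`, `M ≠ 0` finite free with an action of `G` all of whose elements satisfy a
quadratic relation with constant term `d`, and a "complex conjugation" `c`.  Base change to
`K = Frac 𝒪` in coordinates (`endK`, `jmap`), apply `LeadEXT.ext_sub_conj`, and take the lattice
`latOf b W = { m | jmap b m ∈ W }` (saturated, stable, free of rank `dim W`).
Rank one: the character is integral by its quadratic relation, `ρ' = ψ ⊕ d ψ⁻¹` on `𝒪²`.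
-/
import Fermat.Agent.W3G.Defs
import Fermat.Agent.W3G.EXT_lead

set_option autoImplicit false
set_option linter.unusedSectionVars false

namespace LeadEXT

open Polynomial

section Lat

variable {G : Type} [Group G] {𝒪 : Type} [CommRing 𝒪] [IsDomain 𝒪]
variable {M : Type} [AddCommGroup M] [Module 𝒪 M]

/-- The ring homomorphism `End_𝒪 M → End_K (ι → K)` attached to a basis. -/
noncomputable def endK {ι : Type} [Fintype ι] [DecidableEq ι] (b : Module.Basis ι 𝒪 M) :
    Module.End 𝒪 M →+* Module.End (FractionRing 𝒪) (ι → FractionRing 𝒪) :=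
  ((Matrix.toLinAlgEquiv' : Matrix ι ι (FractionRing 𝒪) ≃ₐ[FractionRing 𝒪] _) :
      Matrix ι ι (FractionRing 𝒪) →+* _).comp
    (((algebraMap 𝒪 (FractionRing 𝒪)).mapMatrix).comp
      ((LinearMap.toMatrixAlgEquiv b : Module.End 𝒪 M ≃ₐ[𝒪] Matrix ι ι 𝒪) :
        Module.End 𝒪 M →+* Matrix ι ι 𝒪))

/-- coordinates in `K` -/
noncomputable def jmap {ι : Type} [Fintype ι] (b : Module.Basis ι 𝒪 M) :
    M →ₗ[𝒪] (ι → FractionRing 𝒪) where
  toFun m i := algebraMap 𝒪 (FractionRing 𝒪) (b.repr m i)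
  map_add' x y := by ext i; simp
  map_smul' a x := by ext i; simp [Algebra.smul_def]

theorem jmap_injective {ι : Type} [Fintype ι] (b : Module.Basis ι 𝒪 M) :
    Function.Injective (jmap b) := by
  intro x y h
  apply b.repr.injective
  ext i
  have := congrFun h i
  exact IsFractionRing.injective 𝒪 (FractionRing 𝒪) this

theorem jmap_endK {ι : Type} [Fintype ι] [DecidableEq ι] (b : Module.Basis ι 𝒪 M)
    (f : Module.End 𝒪 M) (m : M) : jmap b (f m) = endK b f (jmap b m) := by
  ext i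
  have h := congrFun (LinearMap.toMatrix_mulVec_repr b b f m) i
  simp only [endK, jmap, LinearMap.coe_mk, AddHom.coe_mk, RingHom.coe_comp, RingHom.coe_coe,
    Function.comp_apply, RingHom.mapMatrix_apply, Matrix.toLinAlgEquiv'_apply,
    Matrix.toLin'_apply, Matrix.mulVec, dotProduct, Matrix.map_apply]
  rw [← h]
  simp only [Matrix.mulVec, dotProduct, map_sum, map_mul]
  rfl

theorem endK_smul {ι : Type} [Fintype ι] [DecidableEq ι] (b : Module.Basis ι 𝒪 M)
    (t : 𝒪) (f : Module.End 𝒪 M) :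
    endK b (t • f) = (algebraMap 𝒪 (FractionRing 𝒪) t) • endK b f := by
  apply LinearMap.ext
  intro v
  ext i
  simp only [endK, RingHom.coe_comp, RingHom.coe_coe, Function.comp_apply, map_smul,
    RingHom.mapMatrix_apply, Matrix.toLinAlgEquiv'_apply, Matrix.toLin'_apply, Matrix.mulVec,
    dotProduct, Matrix.map_apply, Matrix.smul_apply, LinearMap.smul_apply, Pi.smul_apply,
    smul_eq_mul, Finset.mul_sum, map_mul, mul_assoc]

theorem qrel_endK {ι : Type} [Fintype ι] [DecidableEq ι] (b : Module.Basis ι 𝒪 M)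
    {x : Module.End 𝒪 M} {t δ : 𝒪} (h : H11W3G.QuadRel x t δ) :
    QRel (endK b x) (algebraMap 𝒪 (FractionRing 𝒪) t) (algebraMap 𝒪 (FractionRing 𝒪) δ) := by
  unfold H11W3G.QuadRel at h
  have := congrArg (endK b) h
  rw [map_zero, map_add, map_sub, map_mul, endK_smul, endK_smul, map_one] at this
  exact this

end Lat

end LeadEXT

namespace LeadEXT

open Polynomial

section Lat2

variable {G : Type} [Group G] {𝒪 : Type} [CommRing 𝒪] [IsDomain 𝒪]
variable {M : Type} [AddCommGroup M] [Module 𝒪 M]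

/-- restriction of a representation on a module to a stable submodule -/
def restrR (ρ : G →* Module.End 𝒪 M) (Λ : Submodule 𝒪 M) (hΛ : ∀ g, ∀ m ∈ Λ, ρ g m ∈ Λ) :
    G →* Module.End 𝒪 Λ where
  toFun g := (ρ g).restrict (hΛ g)
  map_one' := by
    ext v
    simp [LinearMap.restrict_apply]
  map_mul' g h := by
    ext v
    simp [LinearMap.restrict_apply, map_mul]

@[simp] theorem restrR_apply_coe (ρ : G →* Module.End 𝒪 M) (Λ : Submodule 𝒪 M)
    (hΛ : ∀ g, ∀ m ∈ Λ, ρ g m ∈ Λ) (g : G) (v : Λ) :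
    ((restrR ρ Λ hΛ g v : Λ) : M) = ρ g (v : M) := rfl

/-- the lattice cut out by a `K`-subspace -/
noncomputable def latOf {ι : Type} [Fintype ι] (b : Module.Basis ι 𝒪 M)
    (W : Submodule (FractionRing 𝒪) (ι → FractionRing 𝒪)) : Submodule 𝒪 M :=
  (W.restrictScalars 𝒪).comap (jmap b)

theorem mem_latOf {ι : Type} [Fintype ι] (b : Module.Basis ι 𝒪 M)
    (W : Submodule (FractionRing 𝒪) (ι → FractionRing 𝒪)) (m : M) :
    m ∈ latOf b W ↔ jmap b m ∈ W := Iff.rfl

/-- saturation -/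
theorem latOf_saturated {ι : Type} [Fintype ι] (b : Module.Basis ι 𝒪 M)
    (W : Submodule (FractionRing 𝒪) (ι → FractionRing 𝒪)) {s : 𝒪} (hs : s ≠ 0) {m : M}
    (h : s • m ∈ latOf b W) : m ∈ latOf b W := by
  rw [mem_latOf] at h ⊢
  rw [map_smul, ← algebraMap_smul (FractionRing 𝒪) s (jmap b m)] at h
  have hs' : algebraMap 𝒪 (FractionRing 𝒪) s ≠ 0 := by
    simpa using hs
  exact (W.smul_mem_iff hs').mp h

/-- clearing denominators -/
theorem exists_smul_eq_jmap {ι : Type} [Fintype ι] (b : Module.Basis ι 𝒪 M)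
    (v : ι → FractionRing 𝒪) : ∃ (s : 𝒪) (m : M), s ≠ 0 ∧ jmap b m = s • v := by
  obtain ⟨s, hs⟩ := IsLocalization.exist_integer_multiples_of_finite (nonZeroDivisors 𝒪) v
  choose c hc using hs
  refine ⟨(s : 𝒪), b.equivFun.symm c, nonZeroDivisors.ne_zero s.2, ?_⟩
  ext i
  have h1 : b.repr (b.equivFun.symm c) i = c i := by
    have := congrFun (b.equivFun.apply_symm_apply c) i
    rwa [Module.Basis.equivFun_apply] at this
  simp only [jmap, LinearMap.coe_mk, AddHom.coe_mk, Pi.smul_apply]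
  rw [h1, hc i]

end Lat2

end LeadEXT

namespace LeadEXT

open Polynomial

section Lat3

variable {𝒪 : Type} [CommRing 𝒪] [IsDomain 𝒪]
variable {M : Type} [AddCommGroup M] [Module 𝒪 M]

/-- the image in `W` of a family in the lattice -/
noncomputable def toW {ι : Type} [Fintype ι] (b : Module.Basis ι 𝒪 M)
    (W : Submodule (FractionRing 𝒪) (ι → FractionRing 𝒪)) : latOf b W →ₗ[𝒪] W where
  toFun m := ⟨jmap b (m : M), m.2⟩
  map_add' x y := by ext; simp
  map_smul' a x := by ext; simp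

@[simp] theorem toW_coe {ι : Type} [Fintype ι] (b : Module.Basis ι 𝒪 M)
    (W : Submodule (FractionRing 𝒪) (ι → FractionRing 𝒪)) (m : latOf b W) :
    ((toW b W m : W) : ι → FractionRing 𝒪) = jmap b (m : M) := rfl

theorem toW_injective {ι : Type} [Fintype ι] (b : Module.Basis ι 𝒪 M)
    (W : Submodule (FractionRing 𝒪) (ι → FractionRing 𝒪)) : Function.Injective (toW b W) := by
  intro x y h
  have := congrArg (fun w : W => (w : ι → FractionRing 𝒪)) h
  exact Subtype.ext (jmap_injective b this)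

/-- an `𝒪`-basis of the lattice is linearly independent over `K` in `W` -/
theorem li_toW {ι : Type} [Fintype ι] (b : Module.Basis ι 𝒪 M)
    (W : Submodule (FractionRing 𝒪) (ι → FractionRing 𝒪)) {κ : Type}
    (e : Module.Basis κ 𝒪 (latOf b W)) :
    LinearIndependent (FractionRing 𝒪) (fun k => toW b W (e k)) := by
  rw [← LinearIndependent.iff_fractionRing 𝒪 (FractionRing 𝒪)]
  exact e.linearIndependent.map' (toW b W) (LinearMap.ker_eq_bot.mpr (toW_injective b W))

/-- an `𝒪`-basis of the lattice spans `W` over `K` -/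
theorem span_toW {ι : Type} [Fintype ι] (b : Module.Basis ι 𝒪 M)
    (W : Submodule (FractionRing 𝒪) (ι → FractionRing 𝒪)) {κ : Type}
    (e : Module.Basis κ 𝒪 (latOf b W)) :
    ⊤ ≤ Submodule.span (FractionRing 𝒪) (Set.range fun k => toW b W (e k)) := by
  rintro w -
  obtain ⟨s, m, hs, hm⟩ := exists_smul_eq_jmap b (w : ι → FractionRing 𝒪)
  have hmW : m ∈ latOf b W := by
    rw [mem_latOf, hm]
    exact (W.restrictScalars 𝒪).smul_mem s w.2
  have hs' : algebraMap 𝒪 (FractionRing 𝒪) s ≠ 0 := by simpa using hs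
  have h1 : toW b W ⟨m, hmW⟩ = s • w := Subtype.ext hm
  have hall : ∀ x : latOf b W, toW b W x ∈
      Submodule.span (FractionRing 𝒪) (Set.range fun k => toW b W (e k)) := by
    intro x
    have hm' : x ∈ Submodule.span 𝒪 (Set.range e) := by
      rw [e.span_eq]; trivial
    induction hm' using Submodule.span_induction with
    | mem x hx =>
      obtain ⟨k, rfl⟩ := hx
      exact Submodule.subset_span ⟨k, rfl⟩
    | zero => rw [map_zero]; exact Submodule.zero_mem _
    | add x y _ _ hx hy => rw [map_add]; exact Submodule.add_mem _ hx hy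
    | smul a x _ hx =>
      rw [map_smul, ← algebraMap_smul (FractionRing 𝒪) a (toW b W x)]
      exact Submodule.smul_mem _ _ hx
  have h2 := hall ⟨m, hmW⟩
  rw [h1, ← algebraMap_smul (FractionRing 𝒪) s w] at h2
  exact (Submodule.smul_mem_iff _ hs').mp h2

/-- the `K`-basis of `W` attached to an `𝒪`-basis of the lattice -/
noncomputable def basisW {ι : Type} [Fintype ι] (b : Module.Basis ι 𝒪 M)
    (W : Submodule (FractionRing 𝒪) (ι → FractionRing 𝒪)) {κ : Type}
    (e : Module.Basis κ 𝒪 (latOf b W)) : Module.Basis κ (FractionRing 𝒪) W :=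
  Module.Basis.mk (li_toW b W e) (span_toW b W e)

@[simp] theorem basisW_apply {ι : Type} [Fintype ι] (b : Module.Basis ι 𝒪 M)
    (W : Submodule (FractionRing 𝒪) (ι → FractionRing 𝒪)) {κ : Type}
    (e : Module.Basis κ 𝒪 (latOf b W)) (k : κ) : basisW b W e k = toW b W (e k) := by
  simp [basisW]

end Lat3

end LeadEXT

namespace LeadEXT

open Polynomial

section Lat4

variable {G : Type} [Group G] {𝒪 : Type} [CommRing 𝒪] [IsDomain 𝒪] [IsDiscreteValuationRing 𝒪]
variable {M : Type} [AddCommGroup M] [Module 𝒪 M] [Module.Free 𝒪 M] [Module.Finite 𝒪 M]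

theorem latOf_finite {ι : Type} [Fintype ι] (b : Module.Basis ι 𝒪 M)
    (W : Submodule (FractionRing 𝒪) (ι → FractionRing 𝒪)) : Module.Finite 𝒪 (latOf b W) := by
  haveI : IsNoetherian 𝒪 M := isNoetherian_of_isNoetherianRing_of_finite 𝒪 M
  exact Module.Finite.of_fg (IsNoetherian.noetherian (latOf b W))

theorem latOf_free {ι : Type} [Fintype ι] (b : Module.Basis ι 𝒪 M)
    (W : Submodule (FractionRing 𝒪) (ι → FractionRing 𝒪)) : Module.Free 𝒪 (latOf b W) := by
  haveI := latOf_finite b W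
  infer_instance

/-- rank of the lattice = dimension of the subspace -/
theorem finrank_latOf {ι : Type} [Fintype ι] (b : Module.Basis ι 𝒪 M)
    (W : Submodule (FractionRing 𝒪) (ι → FractionRing 𝒪)) :
    Module.finrank 𝒪 (latOf b W) = Module.finrank (FractionRing 𝒪) W := by
  haveI := latOf_finite b W
  haveI := latOf_free b W
  let e := Module.Free.chooseBasis 𝒪 (latOf b W)
  rw [Module.finrank_eq_card_basis e, Module.finrank_eq_card_basis (basisW b W e)]

/-- the lattice is stable -/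
theorem latOf_stable {ι : Type} [Fintype ι] [DecidableEq ι] (b : Module.Basis ι 𝒪 M)
    (ρ : G →* Module.End 𝒪 M)
    (W : Submodule (FractionRing 𝒪) (ι → FractionRing 𝒪))
    (hW : Stable (((endK b : Module.End 𝒪 M →+* _) : Module.End 𝒪 M →* _).comp ρ) W) :
    ∀ g, ∀ m ∈ latOf b W, ρ g m ∈ latOf b W := by
  intro g m hm
  rw [mem_latOf] at hm ⊢
  rw [jmap_endK]
  exact hW g _ hm

/-- congruences pass to the (saturated) lattice -/
theorem latOf_congr {ι : Type} [Fintype ι] (b : Module.Basis ι 𝒪 M)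
    (W : Submodule (FractionRing 𝒪) (ι → FractionRing 𝒪)) (n : ℕ) (x : latOf b W)
    (hx : (x : M) ∈ (IsLocalRing.maximalIdeal 𝒪 ^ n) • (⊤ : Submodule 𝒪 M)) :
    x ∈ (IsLocalRing.maximalIdeal 𝒪 ^ n) • (⊤ : Submodule 𝒪 (latOf b W)) := by
  obtain ⟨ϖ, hϖ⟩ := IsDiscreteValuationRing.exists_irreducible 𝒪
  have hm : IsLocalRing.maximalIdeal 𝒪 = Ideal.span {ϖ} := hϖ.maximalIdeal_eq
  have hpow : IsLocalRing.maximalIdeal 𝒪 ^ n = Ideal.span {ϖ ^ n} := by
    rw [hm, Ideal.span_singleton_pow]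
  rw [hpow] at hx ⊢
  rw [Submodule.ideal_span_singleton_smul] at hx
  obtain ⟨y, -, hy⟩ := hx
  have hy' : ϖ ^ n • y = (x : M) := hy
  have hϖn : ϖ ^ n ≠ 0 := pow_ne_zero n hϖ.ne_zero
  have hyW : y ∈ latOf b W := latOf_saturated b W hϖn (by rw [hy']; exact x.2)
  have : x = ϖ ^ n • (⟨y, hyW⟩ : latOf b W) := Subtype.ext hy'.symm
  rw [this]
  exact Submodule.smul_mem_smul (Ideal.mem_span_singleton_self _) trivial

end Lat4

end LeadEXT

namespace LeadEXT

open Polynomial

section Lat5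

variable {G : Type} [Group G] {𝒪 : Type} [CommRing 𝒪] [IsDomain 𝒪] [IsDiscreteValuationRing 𝒪]
variable {M : Type} [AddCommGroup M] [Module 𝒪 M] [Module.Free 𝒪 M] [Module.Finite 𝒪 M]

/-- the base-changed representation -/
noncomputable def rhoK {ι : Type} [Fintype ι] [DecidableEq ι] (b : Module.Basis ι 𝒪 M)
    (ρ : G →* Module.End 𝒪 M) : G →* Module.End (FractionRing 𝒪) (ι → FractionRing 𝒪) :=
  ((endK b : Module.End 𝒪 M →+* _) : Module.End 𝒪 M →* _).comp ρ

/-- the base-changed character -/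
noncomputable def dK (d : G →* 𝒪ˣ) : G →* (FractionRing 𝒪)ˣ :=
  (Units.map ((algebraMap 𝒪 (FractionRing 𝒪) : 𝒪 →+* FractionRing 𝒪) : 𝒪 →* FractionRing 𝒪)).comp d

@[simp] theorem dK_apply (d : G →* 𝒪ˣ) (g : G) :
    ((dK d g : (FractionRing 𝒪)ˣ) : FractionRing 𝒪) = algebraMap 𝒪 (FractionRing 𝒪) (d g : 𝒪) := rfl

theorem rhoK_apply {ι : Type} [Fintype ι] [DecidableEq ι] (b : Module.Basis ι 𝒪 M)
    (ρ : G →* Module.End 𝒪 M) (g : G) : rhoK b ρ g = endK b (ρ g) := rfl

theorem toW_equivariant {ι : Type} [Fintype ι] [DecidableEq ι] (b : Module.Basis ι 𝒪 M)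
    (ρ : G →* Module.End 𝒪 M) (W : Submodule (FractionRing 𝒪) (ι → FractionRing 𝒪))
    (hW : Stable (rhoK b ρ) W) (g : G) (x : latOf b W) :
    toW b W (restrR ρ (latOf b W) (latOf_stable b ρ W hW) g x) = restr (rhoK b ρ) W hW g (toW b W x) := by
  apply Subtype.ext
  simp only [toW_coe, restrR_apply_coe, restr_apply_coe, rhoK_apply]
  exact jmap_endK b (ρ g) (x : M)

theorem repr_toW {ι : Type} [Fintype ι] (b : Module.Basis ι 𝒪 M)
    (W : Submodule (FractionRing 𝒪) (ι → FractionRing 𝒪)) {κ : Type} [Fintype κ]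
    (e : Module.Basis κ 𝒪 (latOf b W)) (x : latOf b W) (i : κ) :
    (basisW b W e).repr (toW b W x) i = algebraMap 𝒪 (FractionRing 𝒪) (e.repr x i) := by
  have h : toW b W x = ∑ k, (algebraMap 𝒪 (FractionRing 𝒪) (e.repr x k)) • basisW b W e k := by
    conv_lhs => rw [← e.sum_repr x]
    rw [map_sum]
    refine Finset.sum_congr rfl fun k _ => ?_
    rw [map_smul, basisW_apply, algebraMap_smul]
  rw [h, Module.Basis.repr_sum_self]

/-- Case (b): the lattice of a two-dimensional good subspace. -/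
theorem charpoly_case_two {ι : Type} [Fintype ι] [DecidableEq ι] (b : Module.Basis ι 𝒪 M)
    (ρ : G →* Module.End 𝒪 M) (d : G →* 𝒪ˣ)
    (W : Submodule (FractionRing 𝒪) (ι → FractionRing 𝒪)) (hW : Stable (rhoK b ρ) W)
    (h2 : Module.finrank (FractionRing 𝒪) W = 2)
    (hprop : ∀ g, LinearMap.det (restr (rhoK b ρ) W hW g) = ((dK d g : (FractionRing 𝒪)ˣ) : FractionRing 𝒪) ∧
      ∀ t : FractionRing 𝒪, QRel (rhoK b ρ g) t ((dK d g : (FractionRing 𝒪)ˣ) : FractionRing 𝒪) →
        LinearMap.trace (FractionRing 𝒪) W (restr (rhoK b ρ) W hW g) = t)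
    (g : G) (t : 𝒪) (ht : H11W3G.QuadRel (ρ g) t ((d g : 𝒪ˣ) : 𝒪)) :
    haveI := latOf_finite b W
    haveI := latOf_free b W
    LinearMap.charpoly (restrR ρ (latOf b W) (latOf_stable b ρ W hW) g)
      = X ^ 2 - C t * X + C ((d g : 𝒪ˣ) : 𝒪) := by
  haveI := latOf_finite b W
  haveI := latOf_free b W
  have hr : Module.finrank 𝒪 (latOf b W) = 2 := by rw [finrank_latOf, h2]
  let e : Module.Basis (Fin 2) 𝒪 (latOf b W) := Module.finBasisOfFinrankEq 𝒪 (latOf b W) hr
  let wB := basisW b W e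
  set f := restrR ρ (latOf b W) (latOf_stable b ρ W hW) g with hf
  set A := LinearMap.toMatrix e e f with hA
  have hmap : A.map (algebraMap 𝒪 (FractionRing 𝒪))
      = LinearMap.toMatrix wB wB (restr (rhoK b ρ) W hW g) := by
    ext i k
    rw [Matrix.map_apply, hA, LinearMap.toMatrix_apply, LinearMap.toMatrix_apply, basisW_apply,
      ← toW_equivariant, repr_toW]
  have hinj := IsFractionRing.injective 𝒪 (FractionRing 𝒪)
  have hdet : A.det = ((d g : 𝒪ˣ) : 𝒪) := by
    apply hinj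
    have h1 : algebraMap 𝒪 (FractionRing 𝒪) A.det
        = (A.map (algebraMap 𝒪 (FractionRing 𝒪))).det := by
      rw [RingHom.map_det]; rfl
    rw [h1, hmap, LinearMap.det_toMatrix, (hprop g).1, dK_apply]
  have htr : A.trace = t := by
    apply hinj
    have h1 : algebraMap 𝒪 (FractionRing 𝒪) A.trace
        = (A.map (algebraMap 𝒪 (FractionRing 𝒪))).trace := by
      simp [Matrix.trace]
    rw [h1, hmap, ← LinearMap.trace_eq_matrix_trace (FractionRing 𝒪) wB]
    exact (hprop g).2 _ (qrel_endK b ht)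
  rw [← LinearMap.charpoly_toMatrix f e, Matrix.charpoly_fin_two, ← hA, hdet, htr]

end Lat5

end LeadEXT

namespace LeadEXT

open Polynomial

section Lat6

variable {G : Type} [Group G] {𝒪 : Type} [CommRing 𝒪] [IsDomain 𝒪] [IsDiscreteValuationRing 𝒪]
variable {M : Type} [AddCommGroup M] [Module 𝒪 M] [Module.Free 𝒪 M] [Module.Finite 𝒪 M]

/-- coordinates of an element of `I • ⊤` lie in `I` -/
theorem repr_mem_of_mem_smul_top {ι : Type} (b : Module.Basis ι 𝒪 M) (I : Ideal 𝒪) {x : M}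
    (hx : x ∈ I • (⊤ : Submodule 𝒪 M)) (i : ι) : b.repr x i ∈ I := by
  refine Submodule.smul_induction_on (p := fun x => b.repr x i ∈ I) hx ?_ ?_
  · intro r hr m _
    rw [map_smul, Finsupp.smul_apply, smul_eq_mul]
    exact I.mul_mem_right _ hr
  · intro x y hx hy
    rw [map_add, Finsupp.add_apply]
    exact I.add_mem hx hy

/-- a vector of `𝒪²` with coordinates in `I` lies in `I • ⊤` -/
theorem mem_smul_top_pi (I : Ideal 𝒪) (v : Fin 2 → 𝒪) (h : ∀ i, v i ∈ I) :
    v ∈ I • (⊤ : Submodule 𝒪 (Fin 2 → 𝒪)) := by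
  have hv : v = ∑ i, v i • (Pi.single i (1 : 𝒪) : Fin 2 → 𝒪) := by
    ext j
    simp [Finset.sum_apply, Pi.single_apply]
  rw [hv]
  exact Submodule.sum_mem _ fun i _ => Submodule.smul_mem_smul (h i) trivial

/-- a primitive element of the lattice -/
theorem exists_primitive {ι : Type} [Fintype ι] (b : Module.Basis ι 𝒪 M)
    (W : Submodule (FractionRing 𝒪) (ι → FractionRing 𝒪)) (hW0 : W ≠ ⊥) :
    ∃ m ∈ latOf b W, ∃ i, IsUnit (b.repr m i) := by
  obtain ⟨ϖ, hϖ⟩ := IsDiscreteValuationRing.exists_irreducible 𝒪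
  have key : ∀ n : ℕ, ∀ m ∈ latOf b W, ∀ (i : ι) (u : 𝒪ˣ), b.repr m i = u * ϖ ^ n →
      ∃ m' ∈ latOf b W, ∃ i, IsUnit (b.repr m' i) := by
    intro n
    induction n with
    | zero =>
      intro m hm i u h
      exact ⟨m, hm, i, by rw [h, pow_zero, mul_one]; exact u.isUnit⟩
    | succ n ih =>
      intro m hm i u h
      by_cases hex : ∃ j, IsUnit (b.repr m j)
      · exact ⟨m, hm, hex⟩
      · simp only [not_exists] at hex
        have hdiv : ∀ j, ∃ c, b.repr m j = ϖ * c := by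
          intro j
          have : b.repr m j ∈ IsLocalRing.maximalIdeal 𝒪 := by
            rw [IsLocalRing.mem_maximalIdeal]; exact hex j
          rw [hϖ.maximalIdeal_eq, Ideal.mem_span_singleton'] at this
          obtain ⟨c, hc⟩ := this
          exact ⟨c, by rw [← hc, mul_comm]⟩
        choose c hc using hdiv
        let m' : M := b.equivFun.symm c
        have hm'repr : ∀ j, b.repr m' j = c j := by
          intro j
          have := congrFun (b.equivFun.apply_symm_apply c) j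
          rwa [Module.Basis.equivFun_apply] at this
        have hmm' : ϖ • m' = m := by
          apply b.repr.injective
          ext j
          rw [map_smul, Finsupp.smul_apply, smul_eq_mul, hm'repr, hc j]
        have hm'W : m' ∈ latOf b W := latOf_saturated b W hϖ.ne_zero (by rw [hmm']; exact hm)
        refine ih m' hm'W i u ?_
        have h1 : ϖ * c i = ϖ * (u * ϖ ^ n) := by
          rw [← hc i, h, pow_succ]; ring
        rw [hm'repr]
        exact mul_left_cancel₀ hϖ.ne_zero h1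
  -- a nonzero element of the lattice
  obtain ⟨w, hw, hw0⟩ := (Submodule.ne_bot_iff W).mp hW0
  obtain ⟨s, m, hs, hm⟩ := exists_smul_eq_jmap b w
  have hmW : m ∈ latOf b W := by
    rw [mem_latOf, hm]
    exact (W.restrictScalars 𝒪).smul_mem s hw
  have hm0 : m ≠ 0 := by
    rintro rfl
    rw [map_zero] at hm
    have hs' : algebraMap 𝒪 (FractionRing 𝒪) s ≠ 0 := by simpa using hs
    rw [← algebraMap_smul (FractionRing 𝒪) s w] at hm
    rcases smul_eq_zero.mp hm.symm with h | h
    · exact hs' h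
    · exact hw0 h
  have : ∃ i, b.repr m i ≠ 0 := by
    by_contra hcon
    simp only [not_exists, not_not] at hcon
    apply hm0
    apply b.repr.injective
    ext i
    rw [hcon i, map_zero, Finsupp.zero_apply]
  obtain ⟨i, hi⟩ := this
  obtain ⟨n, u, hu⟩ := IsDiscreteValuationRing.eq_unit_mul_pow_irreducible hi hϖ
  exact key n m hmW i u hu

end Lat6

end LeadEXT

namespace LeadEXT

open Polynomial

section Lat7

/-- A diagonal representation over a commutative ring. -/
def diagHomR {G : Type} [Group G] {R : Type} [CommRing R] (ψ₁ ψ₂ : G →* R) :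
    G →* Matrix (Fin 2) (Fin 2) R where
  toFun g := Matrix.diagonal ![ψ₁ g, ψ₂ g]
  map_one' := by
    ext i j
    fin_cases i <;> fin_cases j <;> simp
  map_mul' g h := by
    ext i j
    fin_cases i <;> fin_cases j <;> simp [Matrix.mul_apply, Fin.sum_univ_two]

/-- **EXT-lattice**: `H11W3G.ExtLatticeStatement`. -/
theorem lead_extLatticeStatement : H11W3G.ExtLatticeStatement := by
  intro G _ 𝒪 _ _ _ h2 M _ _ _ _ _ ρ d c hcc hdc hA
  classical
  let ι := Module.Free.ChooseBasisIndex 𝒪 M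
  let b : Module.Basis ι 𝒪 M := Module.Free.chooseBasis 𝒪 M
  have hinj := IsFractionRing.injective 𝒪 (FractionRing 𝒪)
  have hAK : HypA (rhoK b ρ) (dK d) := fun g => by
    obtain ⟨t, ht⟩ := hA g
    exact ⟨algebraMap 𝒪 _ t, qrel_endK b ht⟩
  have h2K : (2 : FractionRing 𝒪) ≠ 0 := by
    intro h
    apply h2
    apply hinj
    rw [map_ofNat, h, map_zero]
  have hcK : rhoK b ρ c * rhoK b ρ c = 1 := by rw [← map_mul, hcc, map_one]
  have hdcK : ((dK d c : (FractionRing 𝒪)ˣ) : FractionRing 𝒪) = -1 := by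
    rw [dK_apply, hdc, map_neg, map_one]
  haveI : Nonempty ι := b.index_nonempty
  obtain ⟨W, hW, hW0, hgood⟩ := ext_sub_conj hAK h2K c hcK hdcK
  have hWnt : Nontrivial W := Submodule.nontrivial_iff_ne_bot.mpr hW0
  rcases hgood with ⟨ψ, hψ⟩ | ⟨hr2, hprop⟩
  · -- Case (a): a character
    have hscal : ∀ (g : G) (t : 𝒪), H11W3G.QuadRel (ρ g) t ((d g : 𝒪ˣ) : 𝒪) →
        ((ψ g : (FractionRing 𝒪)ˣ) : FractionRing 𝒪) * (ψ g : FractionRing 𝒪)
          - algebraMap 𝒪 (FractionRing 𝒪) t * (ψ g : FractionRing 𝒪)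
          + algebraMap 𝒪 (FractionRing 𝒪) ((d g : 𝒪ˣ) : 𝒪) = 0 := by
      intro g t ht
      have h1 : QRel (restr (rhoK b ρ) W hW g) (algebraMap 𝒪 (FractionRing 𝒪) t)
          (algebraMap 𝒪 (FractionRing 𝒪) ((d g : 𝒪ˣ) : 𝒪)) := (qrel_endK b ht).restr hW
      rw [QRel, hψ g] at h1
      obtain ⟨v, hv⟩ := exists_ne (0 : W)
      have h5 := congrArg (fun f : W →ₗ[FractionRing 𝒪] W => f v) h1
      simp only [LinearMap.add_apply, LinearMap.sub_apply, Module.End.mul_apply,
        LinearMap.smul_apply, Module.End.one_apply, LinearMap.zero_apply] at h5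
      have h6 : (((ψ g : (FractionRing 𝒪)ˣ) : FractionRing 𝒪) * (ψ g : FractionRing 𝒪)
          - algebraMap 𝒪 (FractionRing 𝒪) t * (ψ g : FractionRing 𝒪)
          + algebraMap 𝒪 (FractionRing 𝒪) ((d g : 𝒪ˣ) : 𝒪)) • v = 0 := by
        rw [add_smul, sub_smul, mul_smul, mul_smul]
        exact h5
      rcases smul_eq_zero.mp h6 with h | h
      · exact h
      · exact absurd h hv
    have hint : ∀ g, ∃ u : 𝒪, algebraMap 𝒪 (FractionRing 𝒪) u = (ψ g : FractionRing 𝒪) := by
      intro g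
      obtain ⟨t, ht⟩ := hA g
      have hs := hscal g t ht
      have hI : IsIntegral 𝒪 ((ψ g : (FractionRing 𝒪)ˣ) : FractionRing 𝒪) := by
        refine ⟨X ^ 2 - C t * X + C ((d g : 𝒪ˣ) : 𝒪), ?_, ?_⟩
        · have : (X ^ 2 - C t * X + C ((d g : 𝒪ˣ) : 𝒪) : 𝒪[X]).natDegree = 2 := by
            compute_degree!
          rw [Monic, leadingCoeff, this]
          simp [coeff_X, coeff_C]
        · simp only [eval₂_add, eval₂_sub, eval₂_pow, eval₂_X, eval₂_mul, eval₂_C]
          linear_combination hs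
      exact IsIntegrallyClosed.algebraMap_eq_of_integral hI
    choose u hu using hint
    have hu1 : u 1 = 1 := hinj (by rw [hu, map_one, Units.val_one, map_one])
    have humul : ∀ g h, u (g * h) = u g * u h := fun g h =>
      hinj (by rw [hu, map_mul, Units.val_mul, map_mul, hu, hu])
    let f : G →* 𝒪 := { toFun := u, map_one' := hu1, map_mul' := humul }
    let ψO : G →* 𝒪ˣ := f.toHomUnits
    have hψO : ∀ g, ((ψO g : 𝒪ˣ) : 𝒪) = u g := fun g => rfl
    have hrelO : ∀ (g : G) (t : 𝒪), H11W3G.QuadRel (ρ g) t ((d g : 𝒪ˣ) : 𝒪) →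
        u g * u g - t * u g + ((d g : 𝒪ˣ) : 𝒪) = 0 := by
      intro g t ht
      apply hinj
      rw [map_zero, map_add, map_sub, map_mul, map_mul, hu]
      exact hscal g t ht
    have hinvmul : ∀ g, ((ψO g)⁻¹ : 𝒪ˣ) * u g = (1 : 𝒪) := fun g => by
      rw [← hψO]; exact Units.inv_mul _
    let D : G →* Matrix (Fin 2) (Fin 2) 𝒪 := diagHomR f ((Units.coeHom 𝒪).comp (d * ψO⁻¹))
    have hD : ∀ g, D g = Matrix.diagonal ![u g, ((d g : 𝒪ˣ) : 𝒪) * (((ψO g)⁻¹ : 𝒪ˣ) : 𝒪)] := by
      intro g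
      rfl
    let e' : Matrix (Fin 2) (Fin 2) 𝒪 ≃ₐ[𝒪] Module.End 𝒪 (Fin 2 → 𝒪) := Matrix.toLinAlgEquiv'
    refine ⟨Fin 2 → 𝒪, inferInstance, inferInstance, inferInstance, inferInstance,
      (e' : Matrix (Fin 2) (Fin 2) 𝒪 →* Module.End 𝒪 (Fin 2 → 𝒪)).comp D, ?_, ?_, ?_, ?_⟩
    · simp
    · intro g n hcong hdcong v
      obtain ⟨m₀, hm₀, i, hi⟩ := exists_primitive b W hW0
      have hρm : ρ g m₀ = u g • m₀ := by
        apply jmap_injective b
        rw [jmap_endK, map_smul]
        have h5 := congrArg (fun f : W →ₗ[FractionRing 𝒪] W =>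
          ((f ⟨jmap b m₀, hm₀⟩ : W) : ι → FractionRing 𝒪)) (hψ g)
        simp only [restr_apply_coe, LinearMap.smul_apply, Module.End.one_apply,
          Submodule.coe_smul] at h5
        rw [rhoK_apply] at h5
        rw [h5, ← hu g, algebraMap_smul]
      have h1 : (u g - 1) * b.repr m₀ i ∈ IsLocalRing.maximalIdeal 𝒪 ^ n := by
        have h6 := repr_mem_of_mem_smul_top b _ (hcong m₀) i
        rw [hρm, map_sub, map_smul, Finsupp.sub_apply, Finsupp.smul_apply, smul_eq_mul] at h6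
        have : (u g - 1) * b.repr m₀ i = u g * b.repr m₀ i - b.repr m₀ i := by ring
        rw [this]; exact h6
      have hu1' : u g - 1 ∈ IsLocalRing.maximalIdeal 𝒪 ^ n :=
        (Ideal.mul_unit_mem_iff_mem _ hi).mp h1
      have hu2 : ((d g : 𝒪ˣ) : 𝒪) * (((ψO g)⁻¹ : 𝒪ˣ) : 𝒪) - 1
          ∈ IsLocalRing.maximalIdeal 𝒪 ^ n := by
        have : ((d g : 𝒪ˣ) : 𝒪) * (((ψO g)⁻¹ : 𝒪ˣ) : 𝒪) - 1
            = (((ψO g)⁻¹ : 𝒪ˣ) : 𝒪) * ((((d g : 𝒪ˣ) : 𝒪) - 1) - (u g - 1)) := by
          linear_combination hinvmul g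
        rw [this]
        exact Ideal.mul_mem_left _ _ (Ideal.sub_mem _ hdcong hu1')
      apply mem_smul_top_pi
      intro k
      have hk : (((e' : Matrix (Fin 2) (Fin 2) 𝒪 →* Module.End 𝒪 (Fin 2 → 𝒪)).comp D) g v - v) k
          = (![u g, ((d g : 𝒪ˣ) : 𝒪) * (((ψO g)⁻¹ : 𝒪ˣ) : 𝒪)] k - 1) * v k := by
        show (Matrix.toLin' (D g) v - v) k = _
        rw [hD, Pi.sub_apply, Matrix.toLin'_apply, Matrix.mulVec_diagonal]
        ring
      rw [hk]
      apply Ideal.mul_mem_right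
      fin_cases k
      · simpa using hu1'
      · simpa using hu2
    · intro g hg hdg
      have h5 := congrArg (fun f : W →ₗ[FractionRing 𝒪] W => f) (hψ g)
      have hone : restr (rhoK b ρ) W hW g = 1 := by
        ext v
        simp [rhoK_apply, hg]
      have h6 : ((ψ g : (FractionRing 𝒪)ˣ) : FractionRing 𝒪) = 1 := by
        apply smul_one_injective (V := W)
        rw [← hψ g, hone, one_smul]
      have hug : u g = 1 := hinj (by rw [hu, h6, map_one])
      have hψOg : ψO g = 1 := Units.ext (by rw [hψO, hug]; rfl)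
      show e' (D g) = 1
      rw [hD, hug, hψOg, hdg]
      have : Matrix.diagonal ![(1 : 𝒪), ((1 : 𝒪ˣ) : 𝒪) * (((1 : 𝒪ˣ)⁻¹ : 𝒪ˣ) : 𝒪)] = 1 := by
        ext i j
        fin_cases i <;> fin_cases j <;> simp
      rw [this, map_one]
    · intro g t ht
      have hr := hrelO g t ht
      have h1 : LinearMap.charpoly (e' (D g)) = (D g).charpoly := by
        rw [← LinearMap.charpoly_toMatrix (e' (D g)) (Pi.basisFun 𝒪 (Fin 2))]
        congr 1
        show LinearMap.toMatrix (Pi.basisFun 𝒪 (Fin 2)) (Pi.basisFun 𝒪 (Fin 2))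
          (Matrix.toLin' (D g)) = D g
        rw [LinearMap.toMatrix_eq_toMatrix', LinearMap.toMatrix'_toLin']
      show LinearMap.charpoly (e' (D g)) = _
      rw [h1, Matrix.charpoly_fin_two, hD]
      have htr : (Matrix.diagonal ![u g, ((d g : 𝒪ˣ) : 𝒪) * (((ψO g)⁻¹ : 𝒪ˣ) : 𝒪)]).trace = t := by
        rw [Matrix.trace_fin_two]
        simp only [Matrix.diagonal_apply_eq, Matrix.cons_val_zero, Matrix.cons_val_one]
        linear_combination ((((ψO g)⁻¹ : 𝒪ˣ) : 𝒪)) * hr - (u g - t) * hinvmul g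
      have hdet : (Matrix.diagonal ![u g, ((d g : 𝒪ˣ) : 𝒪) * (((ψO g)⁻¹ : 𝒪ˣ) : 𝒪)]).det
          = ((d g : 𝒪ˣ) : 𝒪) := by
        rw [Matrix.det_fin_two]
        simp only [Matrix.diagonal_apply_eq, Matrix.cons_val_zero, Matrix.cons_val_one]
        simp
        linear_combination ((d g : 𝒪ˣ) : 𝒪) * hinvmul g
      rw [htr, hdet]
  · -- Case (b): rank two
    have := latOf_finite b W
    have := latOf_free b W
    refine ⟨latOf b W, inferInstance, inferInstance, latOf_free b W, latOf_finite b W,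
      restrR ρ (latOf b W) (latOf_stable b ρ W hW), ?_, ?_, ?_, ?_⟩
    · rw [finrank_latOf, hr2]
    · intro g n hcong _ v
      refine latOf_congr b W n (restrR ρ (latOf b W) (latOf_stable b ρ W hW) g v - v) ?_
      simpa using hcong (v : M)
    · intro g hg _
      ext v
      simp [hg]
    · intro g t ht
      exact charpoly_case_two b ρ d W hW hr2 hprop g t ht

end Lat7

end LeadEXT
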