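import Fermat.Agent.W3G.Defs
import Fermat.Agent.W3G.ExtAFinal_helper11
import Fermat.Agent.W3G.EXTLat_lead
import Fermat.Agent.W3G.CycAdic_helper27

/-!
# Item 80 (W3G): the final wiring of `S30` (helper11)

`h11s30_of : EigenAdicStatement → (the statement of S30)`, with `𝒪'' := 𝒪'`
(lattice EXT with complex conjugation, no extension of the coefficient ring).
-/

set_option autoImplicit false
set_option linter.style.haveILetI false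

noncomputable section

open Polynomial

namespace H11W3G

/-- **S30** from `EigenAdicStatement`. -/
theorem h11s30_of (hEig : EigenAdicStatement) :
    ∀ (p : ℕ) [Fact p.Prime] (N : ℕ) [NeZero N] (S : Finset ℕ)
      (_hpS : p ∈ S) (_hNS : ∀ q : ℕ, q.Prime → q ∣ N → q ∈ S)
      (𝒪' : Type) [CommRing 𝒪'] [IsDomain 𝒪'] [IsDiscreteValuationRing 𝒪']
      [IsAdicComplete (IsLocalRing.maximalIdeal 𝒪') 𝒪'] [Finite (IsLocalRing.ResidueField 𝒪')]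
      [CharZero 𝒪'] (_hp𝒪' : (p : 𝒪') ∈ IsLocalRing.maximalIdeal 𝒪')
      (χ : CuspForm.heckeAlgebra N 2 (↑S : Set ℕ) →+* 𝒪'),
      ∃ (𝒪'' : Type) (_ : CommRing 𝒪'') (_ : IsDomain 𝒪'') (_ : IsDiscreteValuationRing 𝒪'')
        (_ : IsAdicComplete (IsLocalRing.maximalIdeal 𝒪'') 𝒪'')
        (_ : Finite (IsLocalRing.ResidueField 𝒪'')) (_ : CharZero 𝒪'')
        (_ : Algebra 𝒪' 𝒪'') (_ : Module.Finite 𝒪' 𝒪'') (_ : IsLocalHom (algebraMap 𝒪' 𝒪'')),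
      Function.Injective (algebraMap 𝒪' 𝒪'') ∧
      ∃ ρ : GaloisRepAdic 𝒪'',
        (∀ (ℓ : ℕ) (hℓ : ℓ.Prime) (hℓN : ¬ ℓ ∣ N) (hℓS : ℓ ∉ (↑S : Set ℕ)),
          ∀ A : ValuationSubring (AlgebraicClosure ℚ), A.LiesOverPrime ℓ →
            ∀ σ : AlgebraicClosure ℚ ≃ₐ[ℚ] AlgebraicClosure ℚ, A.IsFrobeniusAt σ ℓ →
              LinearMap.charpoly (ρ.ρ σ) =
                X ^ 2 - C (algebraMap 𝒪' 𝒪'' (χ (CuspForm.heckeAlgebra.T hℓ hℓN hℓS))) * X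
                  + C ((ℓ : 𝒪''))) ∧
        (∀ q : ℕ, q.Prime → ¬ q ∣ N → q ≠ p → ρ.IsUnramifiedAt q) := by
  classical
  intro p _ N _ S hpS hNS 𝒪' _ _ _ _ _ _ hp𝒪' χ
  have hp : p.Prime := Fact.out
  -- the Hecke–Galois lattice
  obtain ⟨M, iM1, iM2, iM3, iM4, iM5, ρ, hρc, hρu, hρF⟩ := hEig p N S hpS hNS 𝒪' hp𝒪' χ
  -- the cyclotomic character
  obtain ⟨d, hdc, hdF, hdu, hdconj⟩ := H27CYC.h27cyc_adic p hp 𝒪' hp𝒪'
  -- the eigenvalues as a function on `ℕ`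
  let a : ℕ → 𝒪' := fun ℓ =>
    if h : ℓ.Prime ∧ ¬ ℓ ∣ N ∧ ℓ ∉ (↑S : Set ℕ) then
      χ (CuspForm.heckeAlgebra.T h.1 h.2.1 h.2.2) else 0
  have ha : ∀ (ℓ : ℕ) (hℓ : ℓ.Prime) (hℓN : ¬ ℓ ∣ N) (hℓS : ℓ ∉ (↑S : Set ℕ)),
      a ℓ = χ (CuspForm.heckeAlgebra.T hℓ hℓN hℓS) := by
    intro ℓ hℓ hℓN hℓS
    show (if h : ℓ.Prime ∧ ¬ ℓ ∣ N ∧ ℓ ∉ (↑S : Set ℕ) then
      χ (CuspForm.heckeAlgebra.T h.1 h.2.1 h.2.2) else 0) = _
    rw [dif_pos ⟨hℓ, hℓN, hℓS⟩]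
  -- Frobenius lifts outside `S`
  have hFrob : ∀ ℓ : ℕ, ℓ.Prime → ℓ ∉ S → ∀ A : ValuationSubring (AlgebraicClosure ℚ),
      A.LiesOverPrime ℓ → ∀ σ : GQ, A.IsFrobeniusAt σ ℓ →
        QuadRel (ρ σ) (a ℓ) ((d σ : 𝒪'ˣ) : 𝒪') := by
    intro ℓ hℓ hℓS A hA σ hσ
    have hℓN : ¬ ℓ ∣ N := fun h => hℓS (hNS ℓ hℓ h)
    have hℓS' : ℓ ∉ (↑S : Set ℕ) := fun h => hℓS (Finset.mem_coe.mp h)
    have hℓp : ℓ ≠ p := fun h => hℓS (h ▸ hpS)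
    rw [ha ℓ hℓ hℓN hℓS', hdF ℓ hℓ hℓp A hA σ hσ]
    exact hρF ℓ hℓ hℓN hℓS' A hA σ hσ
  -- EXT-A
  have hquad : ∀ g : GQ, ∃ t : 𝒪', QuadRel (ρ g) t ((d g : 𝒪'ˣ) : 𝒪') :=
    h11xa_extAAdic 𝒪' M ρ d S a hρc hdc hFrob
  -- EXT-lattice
  have h2 : (2 : 𝒪') ≠ 0 := two_ne_zero
  obtain ⟨Λ, iΛ1, iΛ2, iΛ3, iΛ4, ρ', hrank, hcong, htriv, hchar⟩ :=
    LeadEXT.lead_extLatticeStatement GQ 𝒪' h2 M ρ d complexConjugation
      complexConjugation_mul_self hdconj hquad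
  refine ⟨𝒪', inferInstance, inferInstance, inferInstance, inferInstance, inferInstance,
    inferInstance, Algebra.id 𝒪', inferInstance, ?_, ?_, ?_⟩
  · exact ⟨fun a ha => ha⟩
  · exact Function.injective_id
  · refine ⟨{ V := Λ, finrank_eq := hrank, ρ := ρ', isAdicContinuous := ?_ }, ?_, ?_⟩
    · intro n
      obtain ⟨L₁, hL₁, hρL⟩ := hρc n
      obtain ⟨L₂, hL₂, hdL⟩ := hdc n
      haveI := hL₁
      haveI := hL₂
      refine ⟨L₁ ⊔ L₂, inferInstance, fun σ hσ => ?_⟩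
      exact hcong σ n (hρL σ fun x hx => hσ x (le_sup_left (a := L₁) (b := L₂) hx))
        (hdL σ fun x hx => hσ x (le_sup_right (a := L₁) (b := L₂) hx))
    · intro ℓ hℓ hℓN hℓS A hA σ hσ
      have hℓp : ℓ ≠ p := fun h => hℓS (Finset.mem_coe.mpr (h ▸ hpS))
      have h1 := hρF ℓ hℓ hℓN hℓS A hA σ hσ
      have h3 := hdF ℓ hℓ hℓp A hA σ hσ
      rw [← h3] at h1
      have h4 := hchar σ _ h1
      rw [h3] at h4
      exact h4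
    · intro q hq hqN hqp P hP σ hσ
      exact htriv σ (hρu q hq hqN hqp P hP σ hσ) (hdu q hq hqp P hP σ hσ)

end H11W3G

end
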