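import Fermat.Agent.W3G.CHEBCyc_helper29

/-!
# W3-G, slice CHEB (helper29), part 5: the absolute case

`F/ℚ` Galois, `g ∈ Gal(F/ℚ)`: there are a prime `ℓ ∤ D`, a prime `Q` of `F` over `ℓ`, unramified,
and a Frobenius element `φ` at `Q` (over `ℚ`) with `g ∈ ⟨φ⟩`.
-/

set_option autoImplicit false
set_option linter.unusedSectionVars false
set_option linter.style.haveILetI false

namespace H29CHEB

open NumberField

section abs

variable (F : Type) [Field F] [NumberField F] [IsGalois ℚ F]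

/-- **Weak Chebotarev for a finite Galois extension of `ℚ`.** -/
theorem h29cheb_absolute (g : F ≃ₐ[ℚ] F) (D : ℕ) (hD : D ≠ 0) :
    ∃ (Q : Ideal (𝓞 F)) (hQ : Q.IsPrime) (φ : F ≃ₐ[ℚ] F) (ℓ : ℕ), Q ≠ ⊥ ∧ ℓ.Prime ∧ ¬ ℓ ∣ D ∧
      ((ℓ : ℤ) : 𝓞 F) ∈ Q ∧ @Algebra.IsUnramifiedAt ℤ (𝓞 F) _ _ _ Q hQ ∧
      (∀ x : 𝓞 F, φ • x - x ^ ℓ ∈ Q) ∧ g ∈ Subgroup.zpowers φ := by
  set E₀ : IntermediateField ℚ F := IntermediateField.fixedField (Subgroup.zpowers g) with hE₀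
  have hfix : E₀.fixingSubgroup = Subgroup.zpowers g :=
    IntermediateField.fixingSubgroup_fixedField (Subgroup.zpowers g)
  have hg : g ∈ E₀.fixingSubgroup := by
    rw [hfix]
    exact Subgroup.mem_zpowers g
  set e := IntermediateField.fixingSubgroupEquiv E₀ with he
  set γ : F ≃ₐ[E₀] F := e ⟨g, hg⟩ with hγdef
  have hγ : ∀ g' : F ≃ₐ[E₀] F, g' ∈ Subgroup.zpowers γ := by
    intro g'
    have h1 : ((e.symm g' : E₀.fixingSubgroup) : F ≃ₐ[ℚ] F) ∈ Subgroup.zpowers g := by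
      rw [← hfix]
      exact (e.symm g').2
    obtain ⟨k, hk⟩ := Subgroup.mem_zpowers_iff.mp h1
    rw [Subgroup.mem_zpowers_iff]
    refine ⟨k, ?_⟩
    have h2 : (⟨g, hg⟩ : E₀.fixingSubgroup) ^ k = e.symm g' := by
      apply Subtype.ext
      rw [Subgroup.coe_zpow]
      exact hk
    rw [hγdef, ← map_zpow, h2, MulEquiv.apply_symm_apply]
  have hD' : D * (discr F).natAbs ≠ 0 :=
    mul_ne_zero hD (by simpa using discr_ne_zero F)
  obtain ⟨Q, hQ, φ₀, hQ0, hdeg, hunr, hφ₀, hgen⟩ :=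
    h29cheb_cyclic E₀ F γ hγ (D * (discr F).natAbs) hD' (dvd_mul_left _ _)
  haveI := hQ
  set P := Q.under (𝓞 E₀) with hP
  set ℓ := Ideal.absNorm P with hℓ
  obtain ⟨hprime, hnd⟩ := hdeg
  have hmemP : ((ℓ : ℕ) : 𝓞 E₀) ∈ P := Ideal.absNorm_mem P
  have hmem : ((ℓ : ℤ) : 𝓞 F) ∈ Q := by
    have h1 : algebraMap (𝓞 E₀) (𝓞 F) ((ℓ : ℕ) : 𝓞 E₀) ∈ Q := by
      rw [← Ideal.mem_comap, ← Ideal.under_def]
      exact hmemP
    simpa using h1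
  refine ⟨Q, hQ, ((e.symm φ₀ : E₀.fixingSubgroup) : F ≃ₐ[ℚ] F), ℓ, hQ0, hprime,
    fun h => hnd (h.mul_right _), hmem, hunr, ?_, ?_⟩
  · intro x
    exact hφ₀ x
  · obtain ⟨k, hk⟩ := Subgroup.mem_zpowers_iff.mp hgen
    rw [Subgroup.mem_zpowers_iff]
    refine ⟨k, ?_⟩
    rw [← Subgroup.coe_zpow, ← map_zpow, hk, hγdef, MulEquiv.symm_apply_apply]

end abs

end H29CHEB
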