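import Fermat.Agent.CFT.AN.H17Main

/-!
# W3-G, slice CHEB (helper29), part 1: asymptotics of prime sums

`h29cheb_Asym f α` : `f(s) = α · log (1/(s-1)) + O(1)` on `(1, 2]`.

* `h29cheb_asym_split` : for `M/E` Galois, the sum over the primes of `E` of degree one outside
  `D` which split completely in `M` is `(1/[M:E]) · log (1/(s-1)) + O(1)`;
* `h29cheb_primeSum_diff` : `Σ_{T \ U} = Σ_T - Σ_{T ∩ U}`;
* `h29cheb_sieve` : the sieve over the prime divisors of `n` (no inclusion-exclusion).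
-/

set_option autoImplicit false

namespace H29CHEB

open NumberField
open scoped nonZeroDivisors Classical

/-- `f(s) = α · log (1/(s-1)) + O(1)` on `(1, 2]`. -/
def h29cheb_Asym (f : ℝ → ℝ) (α : ℝ) : Prop :=
  ∃ B : ℝ, ∀ s ∈ Set.Ioc (1 : ℝ) 2, |f s - α * (-Real.log (s - 1))| ≤ B

theorem h29cheb_asym_sub {f g : ℝ → ℝ} {α β : ℝ} (hf : h29cheb_Asym f α)
    (hg : h29cheb_Asym g β) : h29cheb_Asym (fun s => f s - g s) (α - β) := by
  obtain ⟨B, hB⟩ := hf
  obtain ⟨C, hC⟩ := hg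
  refine ⟨B + C, fun s hs => ?_⟩
  have h1 := hB s hs
  have h2 := hC s hs
  have h3 : f s - g s - (α - β) * (-Real.log (s - 1)) =
      (f s - α * (-Real.log (s - 1))) - (g s - β * (-Real.log (s - 1))) := by ring
  rw [h3]
  exact (abs_sub _ _).trans (add_le_add h1 h2)

theorem h29cheb_asym_congr {f g : ℝ → ℝ} {α β : ℝ} (hf : h29cheb_Asym f α)
    (h : ∀ s ∈ Set.Ioc (1 : ℝ) 2, g s = f s) (hαβ : α = β) : h29cheb_Asym g β := by
  obtain ⟨B, hB⟩ := hf
  subst hαβ
  exact ⟨B, fun s hs => by rw [h s hs]; exact hB s hs⟩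

/-- A function with a positive logarithmic pole does not vanish identically on `(1, 2]`. -/
theorem h29cheb_asym_ne_zero {f : ℝ → ℝ} {α : ℝ} (hα : 0 < α) (hf : h29cheb_Asym f α) :
    ∃ s ∈ Set.Ioc (1 : ℝ) 2, f s ≠ 0 := by
  obtain ⟨B, hB⟩ := hf
  by_contra hcon
  push Not at hcon
  set t : ℝ := Real.exp (-((|B| + 1) / α)) with ht
  have ht0 : 0 < t := Real.exp_pos _
  have hpos : 0 < (|B| + 1) / α := div_pos (by positivity) hα
  have ht1 : t ≤ 1 := by
    rw [ht]
    exact Real.exp_le_one_iff.mpr (by linarith)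
  have hs : (1 + t) ∈ Set.Ioc (1 : ℝ) 2 := ⟨by linarith, by linarith⟩
  have h1 := hB (1 + t) hs
  rw [hcon _ hs] at h1
  have h2 : (1 + t) - 1 = t := by ring
  rw [h2, ht, Real.log_exp] at h1
  have h3 : (0 : ℝ) - α * (- -((|B| + 1) / α)) = -(|B| + 1) := by
    field_simp
    ring
  rw [h3, abs_neg, abs_of_pos (by positivity : (0 : ℝ) < |B| + 1)] at h1
  have := le_abs_self B
  linarith

/-- `Σ_{T \ U} = Σ_T - Σ_{T ∩ U}`. -/
theorem h29cheb_primeSum_diff (E : Type) [Field E] [NumberField E] (T U : Set (Ideal (𝓞 E)))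
    {s : ℝ} (hs : 1 < s) :
    H17AN.primeSum E (T \ U) s = H17AN.primeSum E T s - H17AN.primeSum E (T ∩ U) s := by
  rw [H12AN.primeSum_eq_tsum, H12AN.primeSum_eq_tsum, H12AN.primeSum_eq_tsum,
    ← (H12AN.summable_indicator_prime E T hs).tsum_sub
      (H12AN.summable_indicator_prime E (T ∩ U) hs)]
  apply tsum_congr
  intro v
  by_cases hT : v.asIdeal ∈ T <;> by_cases hU : v.asIdeal ∈ U <;> simp [hT, hU]

/-- A prime sum which is not zero is a sum over a nonempty set. -/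
theorem h29cheb_exists_of_primeSum_ne_zero (E : Type) [Field E] [NumberField E]
    (T : Set (Ideal (𝓞 E))) {s : ℝ} (h : H17AN.primeSum E T s ≠ 0) :
    ∃ P : Ideal (𝓞 E), P.IsPrime ∧ P ≠ ⊥ ∧ P ∈ T := by
  by_contra hcon
  apply h
  have hemp : IsEmpty (H17AN.PrimesIn E T) := ⟨fun P => hcon ⟨P.1, P.2.1, P.2.2.1, P.2.2.2⟩⟩
  unfold H17AN.primeSum
  exact tsum_empty

section split

variable (E M : Type) [Field E] [NumberField E] [Field M] [NumberField M] [Algebra E M]

/-- variant of `H17AN.PrimeSumGood` with the primes of degree one on the side of `E`. -/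
theorem h29cheb_primeSumGood [IsGalois E M] :
    ∃ D₀ : ℕ, D₀ ≠ 0 ∧ ∀ (D : ℕ) (s : ℝ), D ≠ 0 → 1 < s →
      H17AN.primeSum M (H17AN.degOne M (D * D₀)) s ≤
        (Module.finrank E M : ℝ) *
          H17AN.primeSum E
            {P | P ∈ H17AN.degOne E D ∧ H14CFT.SplitsCompletely E M P} s := by
  obtain ⟨D₀, hD₀, hgood⟩ := H25SP.h25sp_splitGood E M
  refine ⟨D₀, hD₀, ?_⟩
  intro D s hD hs
  have hE : H25SP.h25sp_PrimeSummable E := H25SP.h25sp_primeSummable E
  set T : Set (Ideal (𝓞 E)) :=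
    {P | P ∈ H17AN.degOne E D ∧ H14CFT.SplitsCompletely E M P} with hTdef
  set T' : Set (Ideal (𝓞 M)) := H17AN.degOne M (D * D₀) with hT'def
  have hT : ∀ Q : Ideal (𝓞 M), Q.IsPrime → Q ≠ ⊥ → Q ∈ T' → Q.under (𝓞 E) ∈ T := by
    rintro Q hQ hQ0 ⟨hprime, hnd⟩
    have hnd0 : ¬ (Ideal.absNorm Q ∣ D₀) := fun h => hnd (dvd_mul_of_dvd_right h D)
    obtain ⟨hsp, hN⟩ := hgood Q hQ hprime hnd0
    refine ⟨⟨?_, ?_⟩, hsp⟩
    · rw [hN]; exact hprime
    · rw [hN]
      exact fun h => hnd (dvd_mul_of_dvd_left h D₀)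
  unfold H17AN.primeSum
  have hnn : 0 ≤ (Module.finrank E M : ℝ) *
      ∑' P : H17AN.PrimesIn E T, (Ideal.absNorm P.1 : ℝ) ^ (-s) :=
    mul_nonneg (Nat.cast_nonneg _) (tsum_nonneg fun P => by positivity)
  by_cases hsum : Summable (fun Q : H17AN.PrimesIn M T' => (Ideal.absNorm Q.1 : ℝ) ^ (-s))
  · have hfib := hsum.hasSum.tsum_fiberwise (H25SP.h25sp_below E M T T' hT)
    have hE' := ((H25SP.h25sp_summable_primesIn E hE T s hs).mul_left
      (Module.finrank E M : ℝ)).hasSum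
    rw [tsum_mul_left] at hE'
    refine hasSum_le ?_ hfib hE'
    intro P
    have hsP : H14CFT.SplitsCompletely E M P.1 := P.2.2.2.2
    rw [H25SP.h25sp_fibre_tsum E M T T' hT P hsP s]
    have hle := H25SP.h25sp_fibre_card_le E M T T' hT P hsP
    have hle' : (Nat.card (H25SP.h25sp_below E M T T' hT ⁻¹' {P}) : ℝ) ≤
        (Module.finrank E M : ℝ) := by
      exact_mod_cast hle
    exact mul_le_mul_of_nonneg_right hle' (by positivity)
  · rw [tsum_eq_zero_of_not_summable hsum]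
    exact hnn

/-- **Density of the split primes** (in logarithmic form): for `M/E` Galois the prime sum over
the primes of `E` of degree one outside `D` which split completely in `M` is
`(1/[M:E]) log (1/(s-1)) + O(1)`. -/
theorem h29cheb_asym_split [IsGalois E M] (D : ℕ) (hD : D ≠ 0) :
    h29cheb_Asym
      (H17AN.primeSum E {P | P ∈ H17AN.degOne E D ∧ H14CFT.SplitsCompletely E M P})
      (1 / (Module.finrank E M : ℝ)) := by
  set m : ℝ := (Module.finrank E M : ℝ) with hm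
  have hmpos : 0 < m := by
    rw [hm]
    exact_mod_cast (Module.finrank_pos : 0 < Module.finrank E M)
  obtain ⟨cM, CM, hcM, hM⟩ := H17AN.h17an_zetaBounds' M
  obtain ⟨D₀, hD₀, hG⟩ := h29cheb_primeSumGood E M
  obtain ⟨C, hC⟩ := H12AN.h12_primeUpper M (D * D₀) (mul_ne_zero hD hD₀)
  set T : Set (Ideal (𝓞 E)) :=
    {P | P ∈ H17AN.degOne E D ∧ H14CFT.SplitsCompletely E M P} with hT
  have hsplit : ∀ P : Ideal (𝓞 E), P.IsPrime → P ≠ ⊥ → P ∈ T →
      H14CFT.SplitsCompletely E M P := fun P _ _ h => h.2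
  refine ⟨(|Real.log cM - Real.log C| + |Real.log CM|) / m, fun s hs => ?_⟩
  have hs1 : 1 < s := hs.1
  have hspos : 0 < s - 1 := by linarith
  have hzM1 : cM / (s - 1) ≤ H17AN.zetaI M s := (hM s hs).1
  have hzM2 : H17AN.zetaI M s ≤ CM / (s - 1) := (hM s hs).2
  have hzMpos : 0 < H17AN.zetaI M s := lt_of_lt_of_le (div_pos hcM hspos) hzM1
  have hCMpos : 0 < CM := by
    by_contra hneg
    rw [not_lt] at hneg
    have : CM / (s - 1) ≤ 0 := div_nonpos_of_nonpos_of_nonneg hneg hspos.le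
    linarith
  have h3 := hC s hs
  have hCpos : 0 < C := by
    by_contra hneg
    rw [not_lt] at hneg
    have : C * Real.exp (H17AN.primeSum M (H17AN.degOne M (D * D₀)) s) ≤ 0 :=
      mul_nonpos_of_nonpos_of_nonneg hneg (Real.exp_pos _).le
    linarith
  -- lower bound
  have hlow : Real.log cM - Real.log C ≤ m * H17AN.primeSum E T s - (-Real.log (s - 1)) := by
    have h1 := hG D s hD hs1
    have h4 : cM / (s - 1) ≤ C * Real.exp (H17AN.primeSum M (H17AN.degOne M (D * D₀)) s) :=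
      hzM1.trans h3
    have h5 := Real.log_le_log (div_pos hcM hspos) h4
    rw [Real.log_div hcM.ne' hspos.ne', Real.log_mul hCpos.ne' (Real.exp_pos _).ne',
      Real.log_exp] at h5
    linarith
  -- upper bound
  have hupp : m * H17AN.primeSum E T s - (-Real.log (s - 1)) ≤ Real.log CM := by
    have h1 := H25SP.h25sp_primeSumSplit E M T s hs1 hsplit
    have h2 := (H12AN.h12_primeLower M {Q | Q.under (𝓞 E) ∈ T} s hs1).2
    have h4 : Real.exp (H17AN.primeSum M {Q | Q.under (𝓞 E) ∈ T} s) ≤ CM / (s - 1) :=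
      h2.trans hzM2
    have h5 := Real.log_le_log (Real.exp_pos _) h4
    rw [Real.log_exp, Real.log_div hCMpos.ne' hspos.ne'] at h5
    linarith
  have h6 : H17AN.primeSum E T s - 1 / m * (-Real.log (s - 1)) =
      (m * H17AN.primeSum E T s - (-Real.log (s - 1))) / m := by
    field_simp
  rw [h6, abs_div, abs_of_pos hmpos]
  apply div_le_div_of_nonneg_right _ hmpos.le
  rw [abs_le]
  constructor
  · have := neg_abs_le (Real.log cM - Real.log C)
    have := abs_nonneg (Real.log CM)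
    linarith
  · have := le_abs_self (Real.log CM)
    have := abs_nonneg (Real.log cM - Real.log C)
    linarith

end split

section sieve

variable (E : Type) [Field E] [NumberField E]

/-- the sieved set: in `S m`, in no `S r` for `r ∈ I`. -/
def h29cheb_U (S : ℕ → Set (Ideal (𝓞 E))) (m : ℕ) (I : Finset ℕ) : Set (Ideal (𝓞 E)) :=
  {P | P ∈ S m ∧ ∀ r ∈ I, P ∉ S r}

/-- the density of the sieved set. -/
noncomputable def h29cheb_c (m : ℕ) (I : Finset ℕ) : ℝ :=
  1 / (m : ℝ) * ∏ r ∈ I, (1 - 1 / (r : ℝ))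

theorem h29cheb_sieve_aux (n : ℕ) (S : ℕ → Set (Ideal (𝓞 E)))
    (hasym : ∀ d, d ∣ n → h29cheb_Asym (H17AN.primeSum E (S d)) (1 / (d : ℝ)))
    (hinter : ∀ m r, Nat.Coprime m r → m * r ∣ n → S (m * r) = S m ∩ S r)
    (I : Finset ℕ) :
    (∀ r ∈ I, r.Prime ∧ r ∣ n) → ∀ m : ℕ, m ∣ n → (∀ r ∈ I, Nat.Coprime m r) →
      h29cheb_Asym (H17AN.primeSum E (h29cheb_U E S m I)) (h29cheb_c m I) := by
  induction I using Finset.induction_on with
  | empty =>
    intro _ m hm _
    have h1 : h29cheb_U E S m ∅ = S m := by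
      ext P
      simp [h29cheb_U]
    rw [h1]
    have h2 : h29cheb_c m ∅ = 1 / (m : ℝ) := by simp [h29cheb_c]
    rw [h2]
    exact hasym m hm
  | insert r₀ I₀ hr₀ ih =>
    intro hI m hm hcop
    have hI₀ : ∀ r ∈ I₀, r.Prime ∧ r ∣ n := fun r hr => hI r (Finset.mem_insert_of_mem hr)
    obtain ⟨hr₀p, hr₀n⟩ := hI r₀ (Finset.mem_insert_self _ _)
    have hcop₀ : Nat.Coprime m r₀ := hcop r₀ (Finset.mem_insert_self _ _)
    have hmr : m * r₀ ∣ n := Nat.Coprime.mul_dvd_of_dvd_of_dvd hcop₀ hm hr₀n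
    have ih1 := ih hI₀ m hm (fun r hr => hcop r (Finset.mem_insert_of_mem hr))
    have ih2 := ih hI₀ (m * r₀) hmr (fun r hr => by
      have h1 : Nat.Coprime m r := hcop r (Finset.mem_insert_of_mem hr)
      have h2 : Nat.Coprime r₀ r := by
        rw [Nat.coprime_primes hr₀p (hI₀ r hr).1]
        rintro rfl
        exact hr₀ hr
      exact Nat.Coprime.mul_left h1 h2)
    have hset1 : h29cheb_U E S m (insert r₀ I₀) = h29cheb_U E S m I₀ \ S r₀ := by
      ext P
      simp only [h29cheb_U, Set.mem_ofPred_eq, Finset.mem_insert, forall_eq_or_imp,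
        Set.mem_sdiff]
      tauto
    have hset2 : h29cheb_U E S m I₀ ∩ S r₀ = h29cheb_U E S (m * r₀) I₀ := by
      ext P
      simp only [h29cheb_U, Set.mem_ofPred_eq, Set.mem_inter_iff, hinter m r₀ hcop₀ hmr]
      tauto
    have hc : h29cheb_c m I₀ - h29cheb_c (m * r₀) I₀ = h29cheb_c m (insert r₀ I₀) := by
      unfold h29cheb_c
      rw [Finset.prod_insert hr₀]
      have hm0 : (m : ℝ) ≠ 0 := by
        have : m ≠ 0 := by
          rintro rfl
          rw [Nat.coprime_zero_left] at hcop₀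
          exact hr₀p.one_lt.ne' hcop₀
        exact_mod_cast this
      have hr0 : (r₀ : ℝ) ≠ 0 := by exact_mod_cast hr₀p.ne_zero
      push_cast
      field_simp
    refine h29cheb_asym_congr (h29cheb_asym_sub ih1 ih2) (fun s hs => ?_) hc
    rw [hset1, h29cheb_primeSum_diff E _ _ hs.1, hset2]

/-- **The sieve**: if the sets `S d` (`d ∣ n`) have logarithmic density `1/d` and
`S (m r) = S m ∩ S r` for coprime `m`, `r`, then some prime lies in `S 1` and in no `S r`,
`r` a prime divisor of `n`. -/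
theorem h29cheb_sieve (n : ℕ) (hn : n ≠ 0) (S : ℕ → Set (Ideal (𝓞 E)))
    (hasym : ∀ d, d ∣ n → h29cheb_Asym (H17AN.primeSum E (S d)) (1 / (d : ℝ)))
    (hinter : ∀ m r, Nat.Coprime m r → m * r ∣ n → S (m * r) = S m ∩ S r) :
    ∃ P : Ideal (𝓞 E), P.IsPrime ∧ P ≠ ⊥ ∧ P ∈ S 1 ∧ ∀ r : ℕ, r.Prime → r ∣ n → P ∉ S r := by
  have h1 := h29cheb_sieve_aux E n S hasym hinter n.primeFactors
    (fun r hr => ⟨Nat.prime_of_mem_primeFactors hr, Nat.dvd_of_mem_primeFactors hr⟩)
    1 (one_dvd n) (fun r _ => Nat.coprime_one_left r)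
  have hpos : 0 < h29cheb_c 1 n.primeFactors := by
    unfold h29cheb_c
    apply mul_pos (by norm_num)
    apply Finset.prod_pos
    intro r hr
    have h2 : 2 ≤ r := (Nat.prime_of_mem_primeFactors hr).two_le
    have h3 : (2 : ℝ) ≤ (r : ℝ) := by exact_mod_cast h2
    have h4 : 1 / (r : ℝ) ≤ 1 / 2 := by
      apply one_div_le_one_div_of_le (by norm_num) h3
    linarith
  obtain ⟨s, hs, hne⟩ := h29cheb_asym_ne_zero hpos h1
  obtain ⟨P, hP, hP0, hPU⟩ := h29cheb_exists_of_primeSum_ne_zero E _ hne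
  refine ⟨P, hP, hP0, hPU.1, fun r hr hrn => ?_⟩
  exact hPU.2 r (Nat.mem_primeFactors.mpr ⟨hr, hrn, hn⟩)

end sieve

end H29CHEB
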