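import Mathlib
import Fermat.Agent.CFT.Defs
import Fermat.Agent.CFT.AN.H25SPNorm

/-!
# W3-G, slice CHEB (helper29), part 2: complete splitting and Frobenius elements

For a tower `F / L / E` of number fields with `F/E` and `L/E` Galois, a prime `Q` of `F`
unramified over `ℤ` and a Frobenius element `φ ∈ Gal(F/E)` at `Q`:
the prime `Q ∩ E` splits completely in `L` iff `φ` fixes `L`  (`h29cheb_split_iff_fixes`).
-/

set_option autoImplicit false
set_option linter.unusedSectionVars false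
set_option linter.style.haveILetI false

namespace H29CHEB

open NumberField

section char

variable (E L F : Type) [Field E] [NumberField E] [Field L] [NumberField L] [Field F]
  [NumberField F] [Algebra E L] [Algebra L F] [Algebra E F] [IsScalarTower E L F]

/-- ramification index one in the bottom layer. -/
theorem h29cheb_e_eq_one (Q : Ideal (𝓞 F)) [Q.IsPrime] [Algebra.IsUnramifiedAt ℤ Q] :
    (Q.under (𝓞 L)).ramificationIdx (𝓞 E) = 1 := by
  have he : Q.ramificationIdx ℤ = 1 := Ideal.ramificationIdx_eq_one_of_isUnramifiedAt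
  have hlies : Q.LiesOver (Q.under (𝓞 L)) := ⟨rfl⟩
  have h1 := Ideal.ramificationIdx_tower (R := ℤ) (Q.under (𝓞 L)) Q
  rw [he] at h1
  have h2 : (Q.under (𝓞 L)).ramificationIdx ℤ = 1 := Nat.eq_one_of_mul_eq_one_right h1.symm
  have hlies' : (Q.under (𝓞 L)).LiesOver ((Q.under (𝓞 L)).under (𝓞 E)) := ⟨rfl⟩
  have h3 := Ideal.ramificationIdx_tower (R := ℤ) ((Q.under (𝓞 L)).under (𝓞 E)) (Q.under (𝓞 L))
  rw [h2] at h3
  exact Nat.eq_one_of_mul_eq_one_left h3.symm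

/-- **Step 1**: complete splitting is `f = 1`. -/
theorem h29cheb_split_iff_inertiaDeg [IsGalois E L] (Q : Ideal (𝓞 F)) [Q.IsPrime]
    [Algebra.IsUnramifiedAt ℤ Q] :
    H14CFT.SplitsCompletely E L (Q.under (𝓞 E)) ↔ (Q.under (𝓞 L)).inertiaDeg (𝓞 E) = 1 := by
  have he := h29cheb_e_eq_one E L F Q
  set P := Q.under (𝓞 E) with hP
  set QL := Q.under (𝓞 L) with hQL
  have hlies : QL.LiesOver P := ⟨(Ideal.under_under (A := 𝓞 E) (B := 𝓞 L) Q).symm⟩
  have h := Ideal.ncard_primesOver_mul_ramificationIdxIn_mul_inertiaDegIn P (𝓞 L) (L ≃ₐ[E] L)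
  rw [Ideal.ramificationIdxIn_eq_ramificationIdx P QL (L ≃ₐ[E] L),
    Ideal.inertiaDegIn_eq_inertiaDeg P QL (L ≃ₐ[E] L), he, one_mul,
    IsGaloisGroup.card_eq_finrank (L ≃ₐ[E] L) E L] at h
  have hpos : 0 < Module.finrank E L := Module.finrank_pos
  unfold H14CFT.SplitsCompletely
  constructor
  · intro hs
    rw [hs] at h
    exact Nat.eq_of_mul_eq_mul_left hpos (by rw [h, mul_one])
  · intro hf
    rw [hf, mul_one] at h
    exact h

/-- a finite field all of whose elements satisfy `y ^ q = y` has at most `q` elements. -/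
theorem h29cheb_card_le {k : Type*} [Field k] [Finite k] (q : ℕ) (hq : 1 < q)
    (h : ∀ y : k, y ^ q = y) : Nat.card k ≤ q := by
  classical
  haveI := Fintype.ofFinite k
  rw [Nat.card_eq_fintype_card, ← Finset.card_univ]
  have hdeg := FiniteField.X_pow_card_sub_X_natDegree_eq k hq
  have hne : (Polynomial.X ^ q - Polynomial.X : Polynomial k) ≠ 0 := by
    intro h0
    rw [h0] at hdeg
    simp at hdeg
    omega
  calc (Finset.univ : Finset k).card
      ≤ (Polynomial.X ^ q - Polynomial.X : Polynomial k).natDegree :=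
        Polynomial.card_le_degree_of_subset_roots (fun y _ => by
          rw [Polynomial.mem_roots hne, Polynomial.IsRoot, Polynomial.eval_sub,
            Polynomial.eval_pow, Polynomial.eval_X, h y, sub_self])
    _ = q := hdeg

/-- **Step 2**: `f = 1` iff `x ^ q ≡ x` modulo `Q ∩ L` on the integers of `L`. -/
theorem h29cheb_inertiaDeg_iff_pow (Q : Ideal (𝓞 F)) [Q.IsPrime] (hQ0 : Q ≠ ⊥) :
    (Q.under (𝓞 L)).inertiaDeg (𝓞 E) = 1 ↔
      ∀ x : 𝓞 L, x ^ Nat.card (𝓞 E ⧸ Q.under (𝓞 E)) - x ∈ Q.under (𝓞 L) := by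
  set P := Q.under (𝓞 E) with hP
  set QL := Q.under (𝓞 L) with hQL
  have hlies : QL.LiesOver P := ⟨(Ideal.under_under (A := 𝓞 E) (B := 𝓞 L) Q).symm⟩
  have hP0 : P ≠ ⊥ := Ideal.under_ne_bot (𝓞 E) hQ0
  have hQL0 : QL ≠ ⊥ := Ideal.under_ne_bot (𝓞 L) hQ0
  have hPprime : P.IsPrime := inferInstance
  have hQLprime : QL.IsPrime := inferInstance
  haveI hQLmax : QL.IsMaximal := Ring.DimensionLEOne.maximalOfPrime hQL0 inferInstance
  letI : Field (𝓞 L ⧸ QL) := Ideal.Quotient.field QL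
  haveI : Finite (𝓞 L ⧸ QL) := Ideal.finiteQuotientOfFreeOfNeBot QL hQL0
  set q := Nat.card (𝓞 E ⧸ P) with hq
  have hqN : Ideal.absNorm P = q := rfl
  have hq1 : 1 < q := by
    have h0 : Ideal.absNorm P ≠ 0 := by
      rw [Ne, Ideal.absNorm_eq_zero_iff]
      exact hP0
    have h1 : Ideal.absNorm P ≠ 1 := by
      rw [Ne, Ideal.absNorm_eq_one_iff]
      exact hPprime.ne_top
    rw [← hqN]
    omega
  have hN := H25SP.h25sp_absNorm_eq_pow E L P QL hP0
  have hcard : Nat.card (𝓞 L ⧸ QL) = q ^ QL.inertiaDeg (𝓞 E) := by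
    rw [← hqN, ← hN]
    rfl
  constructor
  · intro hf x
    rw [hf, pow_one] at hcard
    have h1 : ∀ y : 𝓞 L ⧸ QL, y ^ q = y := by
      intro y
      haveI := Fintype.ofFinite (𝓞 L ⧸ QL)
      have := FiniteField.pow_card y
      rwa [← Nat.card_eq_fintype_card, hcard] at this
    rw [← Ideal.Quotient.eq_zero_iff_mem, map_sub, map_pow, h1, sub_self]
  · intro h
    have h1 : ∀ y : 𝓞 L ⧸ QL, y ^ q = y := by
      intro y
      obtain ⟨x, rfl⟩ := Ideal.Quotient.mk_surjective y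
      have := h x
      rw [← Ideal.Quotient.eq_zero_iff_mem, map_sub, map_pow, sub_eq_zero] at this
      exact this
    have h2 := h29cheb_card_le q hq1 h1
    rw [hcard] at h2
    have hfpos : 0 < QL.inertiaDeg (𝓞 E) := QL.inertiaDeg_pos (𝓞 E)
    by_contra hne
    have h3 : 2 ≤ QL.inertiaDeg (𝓞 E) := by omega
    have h4 : q ^ 2 ≤ q ^ QL.inertiaDeg (𝓞 E) := Nat.pow_le_pow_right (by omega) h3
    have h5 : q * 2 ≤ q * q := Nat.mul_le_mul_left q hq1
    nlinarith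

/-- **Step 3, easy direction**: a Frobenius element fixing `L` gives `x ^ q ≡ x`. -/
theorem h29cheb_pow_of_fixes [IsGalois E F] (Q : Ideal (𝓞 F)) [Q.IsPrime]
    (φ : F ≃ₐ[E] F) (hφ : IsArithFrobAt (𝓞 E) φ Q)
    (hfix : ∀ x : L, φ (algebraMap L F x) = algebraMap L F x) :
    ∀ x : 𝓞 L, x ^ Nat.card (𝓞 E ⧸ Q.under (𝓞 E)) - x ∈ Q.under (𝓞 L) := by
  intro x
  have h1 := hφ (algebraMap (𝓞 L) (𝓞 F) x)
  have h2 : (MulSemiringAction.toAlgHom (𝓞 E) (𝓞 F) φ) (algebraMap (𝓞 L) (𝓞 F) x) =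
      algebraMap (𝓞 L) (𝓞 F) x := by
    apply Subtype.ext
    exact hfix (x : L)
  rw [h2] at h1
  rw [Ideal.under_def, Ideal.mem_comap, map_sub, map_pow]
  have h3 := Q.neg_mem h1
  rwa [neg_sub] at h3

/-- **Step 3, hard direction**: if `x ^ q ≡ x` modulo `Q ∩ L` then the Frobenius elements at
`Q` fix `L` (uniqueness of the Frobenius element at an unramified prime). -/
theorem h29cheb_fixes_of_pow [IsGalois E F] [IsGalois E L] (Q : Ideal (𝓞 F)) [Q.IsPrime]
    [Algebra.IsUnramifiedAt ℤ Q]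
    (φ : F ≃ₐ[E] F) (hφ : IsArithFrobAt (𝓞 E) φ Q)
    (hpow : ∀ x : 𝓞 L, x ^ Nat.card (𝓞 E ⧸ Q.under (𝓞 E)) - x ∈ Q.under (𝓞 L)) :
    ∀ x : L, φ (algebraMap L F x) = algebraMap L F x := by
  set QL := Q.under (𝓞 L) with hQL
  have hlies : Q.LiesOver QL := ⟨rfl⟩
  have hunder : QL.under (𝓞 E) = Q.under (𝓞 E) := Ideal.under_under (A := 𝓞 E) (B := 𝓞 L) Q
  haveI hu1 : Algebra.IsUnramifiedAt ℤ QL := Algebra.IsUnramifiedAt.of_liesOver ℤ QL Q
  haveI hu2 : Algebra.IsUnramifiedAt (𝓞 E) QL := Algebra.IsUnramifiedAt.of_restrictScalars ℤ QL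
  set ψ : L ≃ₐ[E] L := φ.restrictNormal L with hψ
  have hcomm : ∀ x : L, algebraMap L F (ψ x) = φ (algebraMap L F x) :=
    fun x => AlgEquiv.restrictNormal_commutes φ L x
  have h1 : IsArithFrobAt (𝓞 E) ψ QL := by
    intro x
    rw [hunder]
    rw [Ideal.under_def, Ideal.mem_comap, map_sub, map_pow]
    have h2 := hφ (algebraMap (𝓞 L) (𝓞 F) x)
    have h3 : algebraMap (𝓞 L) (𝓞 F) ((MulSemiringAction.toAlgHom (𝓞 E) (𝓞 L) ψ) x) =
        (MulSemiringAction.toAlgHom (𝓞 E) (𝓞 F) φ) (algebraMap (𝓞 L) (𝓞 F) x) := by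
      apply Subtype.ext
      exact hcomm (x : L)
    rw [h3]
    exact h2
  have h2 : IsArithFrobAt (𝓞 E) (1 : L ≃ₐ[E] L) QL := by
    intro x
    rw [hunder]
    have h3 := QL.neg_mem (hpow x)
    rw [neg_sub] at h3
    have h4 : (MulSemiringAction.toAlgHom (𝓞 E) (𝓞 L) (1 : L ≃ₐ[E] L)) x = x := by
      apply Subtype.ext
      rfl
    rw [h4]
    exact h3
  have h3 := AlgHom.IsArithFrobAt.eq_of_isUnramifiedAt h1 h2 QL.primeCompl_le_nonZeroDivisors
  have h4 : ∀ x : 𝓞 L, ψ • x = (1 : L ≃ₐ[E] L) • x := fun x => DFunLike.congr_fun h3 x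
  haveI hfaith : FaithfulSMul (L ≃ₐ[E] L) (𝓞 L) :=
    IsGaloisGroup.faithful (G := L ≃ₐ[E] L) (𝓞 E)
  have h5 : ψ = 1 := eq_of_smul_eq_smul h4
  intro x
  rw [← hcomm, h5]
  rfl

/-- **Frobenius criterion for complete splitting**: `Q ∩ E` splits completely in `L` iff the
Frobenius elements at `Q` fix `L`. -/
theorem h29cheb_split_iff_fixes [IsGalois E F] [IsGalois E L] (Q : Ideal (𝓞 F)) [Q.IsPrime]
    (hQ0 : Q ≠ ⊥) [Algebra.IsUnramifiedAt ℤ Q]
    (φ : F ≃ₐ[E] F) (hφ : IsArithFrobAt (𝓞 E) φ Q) :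
    H14CFT.SplitsCompletely E L (Q.under (𝓞 E)) ↔
      ∀ x : L, φ (algebraMap L F x) = algebraMap L F x := by
  rw [h29cheb_split_iff_inertiaDeg E L F Q, h29cheb_inertiaDeg_iff_pow E L F Q hQ0]
  exact ⟨h29cheb_fixes_of_pow E L F Q φ hφ, h29cheb_pow_of_fixes E L F Q φ hφ⟩

end char

end H29CHEB
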