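import Mathlib

/-!
# W3-G, slice CHEB (helper29), part 3: subgroups of a cyclic group

`Γ` a group, `γ : Γ`; `H d := zpowers (γ ^ d)`.
-/

set_option autoImplicit false

namespace H29CHEB

section group

variable {Γ : Type*} [Group Γ] (γ : Γ)

theorem h29cheb_mem_zpowers_pow_iff (d : ℕ) (φ : Γ) :
    φ ∈ Subgroup.zpowers (γ ^ d) ↔ ∃ k : ℤ, φ = γ ^ ((d : ℤ) * k) := by
  rw [Subgroup.mem_zpowers_iff]
  constructor
  · rintro ⟨k, rfl⟩
    exact ⟨k, by rw [zpow_mul, zpow_natCast]⟩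
  · rintro ⟨k, rfl⟩
    exact ⟨k, by rw [zpow_mul, zpow_natCast]⟩

/-- `H (m r) = H m ⊓ H r` for coprime `m`, `r`. -/
theorem h29cheb_mem_zpowers_mul (m r : ℕ) (hmr : Nat.Coprime m r) (φ : Γ) :
    φ ∈ Subgroup.zpowers (γ ^ (m * r)) ↔
      φ ∈ Subgroup.zpowers (γ ^ m) ∧ φ ∈ Subgroup.zpowers (γ ^ r) := by
  simp only [h29cheb_mem_zpowers_pow_iff]
  constructor
  · rintro ⟨k, rfl⟩
    refine ⟨⟨(r : ℤ) * k, ?_⟩, ⟨(m : ℤ) * k, ?_⟩⟩
    · congr 1
      push_cast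
      ring
    · congr 1
      push_cast
      ring
  · rintro ⟨⟨a, ha⟩, ⟨b, hb⟩⟩
    -- `m u + r v = 1`
    have hgcd : Int.gcd (m : ℤ) (r : ℤ) = 1 := by
      rw [Int.gcd_natCast_natCast]
      exact hmr
    have hbez := Int.gcd_eq_gcd_ab (m : ℤ) (r : ℤ)
    rw [hgcd] at hbez
    set u := Int.gcdA (m : ℤ) (r : ℤ)
    set v := Int.gcdB (m : ℤ) (r : ℤ)
    -- `φ = φ ^ (m u + r v)`, `φ ^ m = γ ^ (m r b)`, `φ ^ r = γ ^ (m r a)`
    refine ⟨b * u + a * v, ?_⟩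
    have h1 : φ = φ ^ ((m : ℤ) * u + (r : ℤ) * v) := by
      rw [← hbez]
      simp
    have h2 : φ ^ ((m : ℤ) * u) = γ ^ (((m * r : ℕ) : ℤ) * (b * u)) := by
      rw [hb, ← zpow_mul]
      congr 1
      push_cast
      ring
    have h3 : φ ^ ((r : ℤ) * v) = γ ^ (((m * r : ℕ) : ℤ) * (a * v)) := by
      rw [ha, ← zpow_mul]
      congr 1
      push_cast
      ring
    rw [h1, zpow_add, h2, h3, ← zpow_add]
    congr 1
    ring

/-- an element of `⟨γ⟩` which lies in no maximal subgroup generates. -/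
theorem h29cheb_generator_of_not_mem (φ : Γ)
    (hφ : φ ∈ Subgroup.zpowers γ)
    (h : ∀ r : ℕ, r.Prime → r ∣ orderOf γ → φ ∉ Subgroup.zpowers (γ ^ r)) :
    γ ∈ Subgroup.zpowers φ := by
  obtain ⟨a, rfl⟩ := Subgroup.mem_zpowers_iff.mp hφ
  set n := orderOf γ with hn
  have hgcd : Int.gcd a (n : ℤ) = 1 := by
    by_contra hne
    obtain ⟨r, hr, hrd⟩ := Nat.exists_prime_and_dvd hne
    have hra : (r : ℤ) ∣ a := by
      have := Int.gcd_dvd_left a (n : ℤ)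
      exact (Int.natCast_dvd_natCast.mpr hrd).trans this
    have hrn : r ∣ n := by
      have := Int.gcd_dvd_right a (n : ℤ)
      exact Int.natCast_dvd_natCast.mp ((Int.natCast_dvd_natCast.mpr hrd).trans this)
    obtain ⟨a', rfl⟩ := hra
    apply h r hr hrn
    rw [h29cheb_mem_zpowers_pow_iff]
    exact ⟨a', rfl⟩
  have hbez := Int.gcd_eq_gcd_ab a (n : ℤ)
  rw [hgcd] at hbez
  rw [Subgroup.mem_zpowers_iff]
  refine ⟨Int.gcdA a (n : ℤ), ?_⟩
  rw [← zpow_mul]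
  have h1 : a * Int.gcdA a (n : ℤ) = 1 - (n : ℤ) * Int.gcdB a (n : ℤ) := by
    have : ((1 : ℕ) : ℤ) = 1 := rfl
    rw [this] at hbez
    linarith
  rw [h1, zpow_sub, zpow_one, zpow_mul, zpow_natCast, hn, pow_orderOf_eq_one, one_zpow,
    inv_one, mul_one]

/-- cardinality of `⟨γ ^ d⟩` for `d ∣ ord γ`. -/
theorem h29cheb_card_zpowers_pow (d : ℕ) (hd : d ∣ orderOf γ) (hfin : orderOf γ ≠ 0) :
    Nat.card (Subgroup.zpowers (γ ^ d)) * d = orderOf γ := by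
  have hd0 : d ≠ 0 := by
    rintro rfl
    exact hfin (Nat.eq_zero_of_zero_dvd hd)
  rw [Nat.card_zpowers, orderOf_pow' γ hd0, Nat.gcd_eq_right hd]
  exact Nat.div_mul_cancel hd

end group

end H29CHEB
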