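import Fermat.Agent.W3G.CHEBAn_helper29
import Fermat.Agent.W3G.CHEBFrob_helper29
import Fermat.Agent.W3G.CHEBGrp_helper29

/-!
# W3-G, slice CHEB (helper29), part 4: the relative cyclic case

`F/E` a cyclic extension of number fields with group `⟨γ⟩`: there is a prime `Q` of `F`,
unramified over `ℤ`, over a prime of `E` of degree one outside `D`, whose Frobenius element
generates `Gal(F/E)`.
-/

set_option autoImplicit false
set_option linter.unusedSectionVars false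
set_option linter.style.haveILetI false

namespace H29CHEB

open NumberField

section cyc

variable (E F : Type) [Field E] [NumberField E] [Field F] [NumberField F] [Algebra E F]
  [IsGalois E F]

/-- a prime of `F` with a Frobenius element over a prime of `E` of degree one outside the
discriminant. -/
theorem h29cheb_exists_frob (D : ℕ) (hdisc : (discr F).natAbs ∣ D) (P : Ideal (𝓞 E))
    (hP : P ∈ H17AN.degOne E D) :
    ∃ (Q : Ideal (𝓞 F)) (hQ : Q.IsPrime) (φ : F ≃ₐ[E] F), Q ≠ ⊥ ∧ Q.under (𝓞 E) = P ∧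
      @Algebra.IsUnramifiedAt ℤ (𝓞 F) _ _ _ Q hQ ∧ IsArithFrobAt (𝓞 E) φ Q := by
  obtain ⟨hprime, hnd⟩ := hP
  haveI hPprime : P.IsPrime := Ideal.isPrime_of_irreducible_absNorm hprime
  have hP0 : P ≠ ⊥ := by
    rintro rfl
    simp at hprime
    exact Nat.not_prime_zero hprime
  obtain ⟨⟨Q, hQ, hQP⟩⟩ := (inferInstance : Nonempty (P.primesOver (𝓞 F)))
  haveI := hQ
  haveI := hQP
  have hQ0 : Q ≠ ⊥ := Ideal.ne_bot_of_liesOver_of_ne_bot hP0 Q
  set ℓ := Ideal.absNorm P with hℓ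
  have hℓZ : Prime (ℓ : ℤ) := Nat.prime_iff_prime_int.mp hprime
  have hmemP : ((ℓ : ℕ) : 𝓞 E) ∈ P := Ideal.absNorm_mem P
  have hmem : ((ℓ : ℤ) : 𝓞 F) ∈ Q := by
    have h1 : algebraMap (𝓞 E) (𝓞 F) ((ℓ : ℕ) : 𝓞 E) ∈ Q := by
      rw [← Ideal.mem_comap, ← Ideal.under_def, ← Ideal.over_def Q P]
      exact hmemP
    simpa using h1
  have hnd' : ¬ ((ℓ : ℤ) ∣ discr F) := by
    intro h
    apply hnd
    have h2 := Int.natAbs_dvd_natAbs.mpr h
    rw [Int.natAbs_natCast] at h2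
    exact h2.trans hdisc
  have hunr : Algebra.IsUnramifiedAt ℤ Q :=
    (not_dvd_discr_iff_forall_mem F (𝓞 F) hℓZ).mp hnd' Q inferInstance hmem
  haveI : Finite (𝓞 F ⧸ Q) := Ideal.finiteQuotientOfFreeOfNeBot Q hQ0
  obtain ⟨φ, hφ⟩ := IsArithFrobAt.exists_of_isInvariant (𝓞 E) (F ≃ₐ[E] F) Q
  exact ⟨Q, hQ, φ, hQ0, (Ideal.over_def Q P).symm, hunr, hφ⟩

/-- the fixed field of `⟨γ ^ d⟩`. -/
noncomputable abbrev h29cheb_L (γ : F ≃ₐ[E] F) (d : ℕ) : IntermediateField E F :=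
  IntermediateField.fixedField (Subgroup.zpowers (γ ^ d))

theorem h29cheb_fix_iff (γ : F ≃ₐ[E] F) (d : ℕ) (φ : F ≃ₐ[E] F) :
    (∀ x : h29cheb_L E F γ d, φ (algebraMap (h29cheb_L E F γ d) F x) =
        algebraMap (h29cheb_L E F γ d) F x) ↔ φ ∈ Subgroup.zpowers (γ ^ d) := by
  have h1 := IntermediateField.fixingSubgroup_fixedField (Subgroup.zpowers (γ ^ d))
  constructor
  · intro h
    rw [← h1, IntermediateField.mem_fixingSubgroup_iff]
    intro x hx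
    exact h ⟨x, hx⟩
  · intro h x
    rw [← h1, IntermediateField.mem_fixingSubgroup_iff] at h
    exact h x.1 x.2

theorem h29cheb_isGalois_L (γ : F ≃ₐ[E] F) (hγ : ∀ g : F ≃ₐ[E] F, g ∈ Subgroup.zpowers γ)
    (d : ℕ) : IsGalois E (h29cheb_L E F γ d) := by
  have hcomm : ∀ a b : F ≃ₐ[E] F, a * b = b * a := by
    intro a b
    obtain ⟨i, rfl⟩ := Subgroup.mem_zpowers_iff.mp (hγ a)
    obtain ⟨j, rfl⟩ := Subgroup.mem_zpowers_iff.mp (hγ b)
    rw [← zpow_add, ← zpow_add, add_comm]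
  haveI : (Subgroup.zpowers (γ ^ d)).Normal :=
    ⟨fun h hh g => by rw [hcomm g h, mul_inv_cancel_right]; exact hh⟩
  exact IsGalois.of_fixedField_normal_subgroup (Subgroup.zpowers (γ ^ d))

theorem h29cheb_finrank_L (γ : F ≃ₐ[E] F) (hγ : ∀ g : F ≃ₐ[E] F, g ∈ Subgroup.zpowers γ)
    (d : ℕ) (hd : d ∣ orderOf γ) : Module.finrank E (h29cheb_L E F γ d) = d := by
  have hn0 : orderOf γ ≠ 0 := (orderOf_pos γ).ne'
  have h1 := IntermediateField.finrank_fixedField_eq_card (Subgroup.zpowers (γ ^ d))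
  have h2 := h29cheb_card_zpowers_pow γ d hd hn0
  have h3 := Module.finrank_mul_finrank E (h29cheb_L E F γ d) F
  have h4 : Module.finrank E F = orderOf γ := by
    rw [← IsGalois.card_aut_eq_finrank, orderOf_eq_card_of_forall_mem_zpowers hγ]
  rw [h4, h1] at h3
  have hc0 : Nat.card (Subgroup.zpowers (γ ^ d)) ≠ 0 := by
    intro h0
    rw [h0, zero_mul] at h2
    exact hn0 h2.symm
  have h5 : Module.finrank E (h29cheb_L E F γ d) * Nat.card (Subgroup.zpowers (γ ^ d)) =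
      d * Nat.card (Subgroup.zpowers (γ ^ d)) := by
    rw [h3, mul_comm d, h2]
  exact Nat.eq_of_mul_eq_mul_right (Nat.pos_of_ne_zero hc0) h5

/-- the primes of degree one outside `D` which split completely in the fixed field of
`⟨γ ^ d⟩`. -/
def h29cheb_S (γ : F ≃ₐ[E] F) (D : ℕ) (d : ℕ) : Set (Ideal (𝓞 E)) :=
  {P | P ∈ H17AN.degOne E D ∧ H14CFT.SplitsCompletely E (h29cheb_L E F γ d) P}

theorem h29cheb_mem_S_iff (γ : F ≃ₐ[E] F) (hγ : ∀ g : F ≃ₐ[E] F, g ∈ Subgroup.zpowers γ)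
    (D : ℕ) (d : ℕ) (Q : Ideal (𝓞 F)) [Q.IsPrime] (hQ0 : Q ≠ ⊥) [Algebra.IsUnramifiedAt ℤ Q]
    (φ : F ≃ₐ[E] F) (hφ : IsArithFrobAt (𝓞 E) φ Q) (hQD : Q.under (𝓞 E) ∈ H17AN.degOne E D) :
    Q.under (𝓞 E) ∈ h29cheb_S E F γ D d ↔ φ ∈ Subgroup.zpowers (γ ^ d) := by
  haveI := h29cheb_isGalois_L E F γ hγ d
  have h1 := h29cheb_split_iff_fixes E (h29cheb_L E F γ d) F Q hQ0 φ hφ
  rw [h29cheb_fix_iff] at h1
  unfold h29cheb_S
  rw [Set.mem_ofPred_eq, h1]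
  exact ⟨fun h => h.2, fun h => ⟨hQD, h⟩⟩

/-- **The relative cyclic case of the weak Chebotarev theorem.** -/
theorem h29cheb_cyclic (γ : F ≃ₐ[E] F) (hγ : ∀ g : F ≃ₐ[E] F, g ∈ Subgroup.zpowers γ)
    (D : ℕ) (hD : D ≠ 0) (hdisc : (discr F).natAbs ∣ D) :
    ∃ (Q : Ideal (𝓞 F)) (hQ : Q.IsPrime) (φ : F ≃ₐ[E] F), Q ≠ ⊥ ∧
      Q.under (𝓞 E) ∈ H17AN.degOne E D ∧
      @Algebra.IsUnramifiedAt ℤ (𝓞 F) _ _ _ Q hQ ∧ IsArithFrobAt (𝓞 E) φ Q ∧
      γ ∈ Subgroup.zpowers φ := by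
  have hn0 : orderOf γ ≠ 0 := (orderOf_pos γ).ne'
  have hasym : ∀ d, d ∣ orderOf γ →
      h29cheb_Asym (H17AN.primeSum E (h29cheb_S E F γ D d)) (1 / (d : ℝ)) := by
    intro d hd
    haveI := h29cheb_isGalois_L E F γ hγ d
    have h1 := h29cheb_asym_split E (h29cheb_L E F γ d) D hD
    rw [h29cheb_finrank_L E F γ hγ d hd] at h1
    exact h1
  have hinter : ∀ m r, Nat.Coprime m r → m * r ∣ orderOf γ →
      h29cheb_S E F γ D (m * r) = h29cheb_S E F γ D m ∩ h29cheb_S E F γ D r := by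
    intro m r hmr _
    ext P
    by_cases hP : P ∈ H17AN.degOne E D
    · obtain ⟨Q, hQ, φ, hQ0, hQP, hunr, hφ⟩ := h29cheb_exists_frob E F D hdisc P hP
      haveI := hQ
      haveI := hunr
      subst hQP
      rw [Set.mem_inter_iff, h29cheb_mem_S_iff E F γ hγ D (m * r) Q hQ0 φ hφ hP,
        h29cheb_mem_S_iff E F γ hγ D m Q hQ0 φ hφ hP,
        h29cheb_mem_S_iff E F γ hγ D r Q hQ0 φ hφ hP]
      exact h29cheb_mem_zpowers_mul γ m r hmr φ
    · constructor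
      · intro h
        exact absurd h.1 hP
      · intro h
        exact absurd h.1.1 hP
  obtain ⟨P, _, _, hP1, hPr⟩ := h29cheb_sieve E (orderOf γ) hn0 (h29cheb_S E F γ D) hasym hinter
  have hP : P ∈ H17AN.degOne E D := hP1.1
  obtain ⟨Q, hQ, φ, hQ0, hQP, hunr, hφ⟩ := h29cheb_exists_frob E F D hdisc P hP
  haveI := hQ
  haveI := hunr
  subst hQP
  refine ⟨Q, hQ, φ, hQ0, hP, hunr, hφ, ?_⟩
  apply h29cheb_generator_of_not_mem γ φ (hγ φ)
  intro r hr hrn hmem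
  apply hPr r hr hrn
  rw [h29cheb_mem_S_iff E F γ hγ D r Q hQ0 φ hφ hP]
  exact hmem

end cyc

end H29CHEB
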