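import Fermat.Agent.S37.R1_helper10
import Fermat.Agent.S18.DefsC

/-!
# Item 80 (W3-G), slice ES, part 1 (helper10): good series and the inertia half

`ES` = "inertia at `ℓ ∤ N n` acts trivially on `J₀(N)[n]` and a Frobenius element `φ` at `ℓ`
satisfies `φ² - T_ℓ φ + ℓ = 0` on `J₀(N)[n]`", from the Kummer statement `(K)_n` of item 75
(`H7S18.KummerStatement`), WITHOUT any place reduction map.

* `Good N A` : an `A`-integral Laurent series `Y` with `εY ∈ F_L`, `ρY ∈ F_k`, `ρY ≠ 0`
  (`Good.toF`, `Good.red`, products, powers, action of the decomposition group);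
* `h10es_kummer` : if `red a = red b` and `ord_P a - ord_P b = n E(P)` for all `P` then `E` is
  principal (this is `(K)_n` with `γ = 1`);
* `h10es_inertia_of_presentation` : the inertia half for a class `[D]` with `n D = div (a / b)`.
-/

set_option autoImplicit false
set_option linter.style.haveILetI false
set_option synthInstance.maxHeartbeats 400000
set_option maxHeartbeats 1000000

noncomputable section

namespace H10ES

open ModularCurve AlgebraicCurve HahnSeries H8S37 H10R1

/-- an `A`-integral series of `F_L` with nonzero reduction in `F_k`. -/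
structure Good (N : ℕ) (A : ValuationSubring (AlgebraicClosure ℚ)) where
  /-- the series -/
  Y : LaurentSeries A
  eps_mem : coeffMap A.subtype Y ∈
    laurentBaseChange (AlgebraicClosure ℚ) (modularFunctionFieldFull N)
  rho_mem : coeffMap (IsLocalRing.residue A) Y ∈
    modularFunctionFieldFullC (IsLocalRing.ResidueField A) N
  rho_ne : coeffMap (IsLocalRing.residue A) Y ≠ 0

namespace Good

variable {N : ℕ} {A : ValuationSubring (AlgebraicClosure ℚ)}

/-- the element of `F_L`. -/
def toF (a : Good N A) : modularFunctionFieldBar N := ⟨coeffMap A.subtype a.Y, a.eps_mem⟩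

/-- the reduction, a Laurent series over the residue field. -/
def red (a : Good N A) : LaurentSeries (IsLocalRing.ResidueField A) :=
  coeffMap (IsLocalRing.residue A) a.Y

theorem coe_toF (a : Good N A) :
    ((a.toF : modularFunctionFieldBar N) : LaurentSeries (AlgebraicClosure ℚ)) =
      coeffMap A.subtype a.Y := rfl

theorem red_def (a : Good N A) : a.red = coeffMap (IsLocalRing.residue A) a.Y := rfl

theorem red_ne (a : Good N A) : a.red ≠ 0 := a.rho_ne

theorem red_mem (a : Good N A) :
    a.red ∈ modularFunctionFieldFullC (IsLocalRing.ResidueField A) N := a.rho_mem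

theorem Y_ne (a : Good N A) : a.Y ≠ 0 := by
  intro h
  apply a.rho_ne
  rw [h, map_zero]

theorem toF_ne (a : Good N A) : a.toF ≠ 0 := by
  intro h
  apply a.Y_ne
  have h1 : coeffMap A.subtype a.Y = 0 := congrArg Subtype.val h
  exact h10r1_coeffMap_injective A.subtype A.subtype_injective (h1.trans (map_zero _).symm)

/-- product of good series -/
def mul (a b : Good N A) : Good N A where
  Y := a.Y * b.Y
  eps_mem := by rw [map_mul]; exact mul_mem a.eps_mem b.eps_mem
  rho_mem := by rw [map_mul]; exact mul_mem a.rho_mem b.rho_mem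
  rho_ne := by rw [map_mul]; exact mul_ne_zero a.rho_ne b.rho_ne

theorem toF_mul (a b : Good N A) : (a.mul b).toF = a.toF * b.toF :=
  Subtype.ext (map_mul (coeffMap A.subtype) a.Y b.Y)

theorem red_mul (a b : Good N A) : (a.mul b).red = a.red * b.red :=
  map_mul (coeffMap (IsLocalRing.residue A)) a.Y b.Y

/-- power of a good series -/
def npow (a : Good N A) (m : ℕ) : Good N A where
  Y := a.Y ^ m
  eps_mem := by rw [map_pow]; exact pow_mem a.eps_mem m
  rho_mem := by rw [map_pow]; exact pow_mem a.rho_mem m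
  rho_ne := by rw [map_pow]; exact pow_ne_zero m a.rho_ne

theorem toF_npow (a : Good N A) (m : ℕ) : (a.npow m).toF = a.toF ^ m :=
  Subtype.ext (map_pow (coeffMap A.subtype) a.Y m)

theorem red_npow (a : Good N A) (m : ℕ) : (a.npow m).red = a.red ^ m :=
  map_pow (coeffMap (IsLocalRing.residue A)) a.Y m

/-- action of the decomposition group on good series -/
def gal (σ : GQ) (hσ : σ ∈ A.decompositionSubgroup ℚ) (a : Good N A) : Good N A where
  Y := coeffMap (h10r1_resA A σ hσ) a.Y
  eps_mem := by
    rw [coeffMap_coeffMap, h10r1_subtype_comp, ← coeffMap_coeffMap]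
    exact coeffMap_mem_laurentBaseChange σ a.eps_mem
  rho_mem := by
    rw [coeffMap_coeffMap, h10r1_residue_comp, ← coeffMap_coeffMap]
    exact h8r_coeffMap_mem N _ a.rho_mem
  rho_ne := by
    rw [coeffMap_coeffMap, h10r1_residue_comp, ← coeffMap_coeffMap]
    intro h0
    apply a.rho_ne
    apply h10r1_coeffMap_injective
      ((h8r_resAut A σ hσ : IsLocalRing.ResidueField A ≃+* IsLocalRing.ResidueField A) :
        IsLocalRing.ResidueField A →+* IsLocalRing.ResidueField A)
      (h8r_resAut A σ hσ).injective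
    rw [map_zero]
    exact h0

theorem toF_gal (σ : GQ) (hσ : σ ∈ A.decompositionSubgroup ℚ) (a : Good N A) :
    (a.gal σ hσ).toF = arithmeticGalois (modularFunctionFieldFull N) σ • a.toF := by
  apply Subtype.ext
  show coeffMap A.subtype (coeffMap (h10r1_resA A σ hσ) a.Y) =
    coeffMap (σ : AlgebraicClosure ℚ →+* AlgebraicClosure ℚ) (coeffMap A.subtype a.Y)
  rw [coeffMap_coeffMap, coeffMap_coeffMap, h10r1_subtype_comp]

theorem red_gal (σ : GQ) (hσ : σ ∈ A.decompositionSubgroup ℚ) (a : Good N A) :
    (a.gal σ hσ).red =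
      coeffMap ((h8r_resAut A σ hσ : IsLocalRing.ResidueField A ≃+* IsLocalRing.ResidueField A) :
        IsLocalRing.ResidueField A →+* IsLocalRing.ResidueField A) a.red := by
  show coeffMap (IsLocalRing.residue A) (coeffMap (h10r1_resA A σ hσ) a.Y) = _
  rw [coeffMap_coeffMap, h10r1_residue_comp, ← coeffMap_coeffMap]
  rfl

theorem red_gal_inertia (σ : GQ) (hσ : σ ∈ A.inertiaSubgroupIn ℚ)
    (hσd : σ ∈ A.decompositionSubgroup ℚ) (a : Good N A) :
    (a.gal σ hσd).red = a.red := by
  rw [red_gal, h8r_resAut_inertia A hσ hσd]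
  have h1 : (((1 : IsLocalRing.ResidueField A ≃+* IsLocalRing.ResidueField A)) :
      IsLocalRing.ResidueField A →+* IsLocalRing.ResidueField A) = RingHom.id _ :=
    RingHom.ext fun _ => rfl
  rw [h1, coeffMap_id]

theorem ord_gal (σ : GQ) (hσ : σ ∈ A.decompositionSubgroup ℚ) (a : Good N A)
    (P : Place (AlgebraicClosure ℚ) (modularFunctionFieldBar N)) :
    P.ord (a.gal σ hσ).toF =
      ((arithmeticGalois (modularFunctionFieldFull N) σ)⁻¹ • P).ord a.toF := by
  rw [toF_gal]
  have h := SemilinearAut.ord_smul (arithmeticGalois (modularFunctionFieldFull N) σ)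
    ((arithmeticGalois (modularFunctionFieldFull N) σ)⁻¹ • P) a.toF
  rw [smul_inv_smul] at h
  exact h

theorem ord_mul (a b : Good N A)
    (P : Place (AlgebraicClosure ℚ) (modularFunctionFieldBar N)) :
    P.ord (a.mul b).toF = P.ord a.toF + P.ord b.toF := by
  rw [toF_mul, P.ord_mul a.toF_ne b.toF_ne]

theorem ord_npow (a : Good N A) (m : ℕ)
    (P : Place (AlgebraicClosure ℚ) (modularFunctionFieldBar N)) :
    P.ord (a.npow m).toF = m * P.ord a.toF := by
  rw [toF_npow]
  have := P.ord_zpow a.toF (m : ℤ)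
  rw [zpow_natCast] at this
  exact this

end Good

section Kummer

variable {N : ℕ} [NeZero N] {A : ValuationSubring (AlgebraicClosure ℚ)}

/-- **`(K)_n` with `γ = 1`**: if two good series have the same reduction and their orders differ
by `n E`, then `E` is principal. -/
theorem h10es_kummer (n : ℕ) (hn : 0 < n)
    (hK : H7S18.KummerStatement A (IsLocalRing.residue A) N n)
    (a b : Good N A) (hred : a.red = b.red)
    (E : Divisor (AlgebraicClosure ℚ) (modularFunctionFieldBar N))
    (hE : ∀ P : Place (AlgebraicClosure ℚ) (modularFunctionFieldBar N),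
      P.ord a.toF - P.ord b.toF = n * E P) :
    E ∈ Divisor.principal (K := AlgebraicClosure ℚ) (F := modularFunctionFieldBar N) := by
  obtain ⟨g, hg, hgeq⟩ := hK a.Y b.Y 1 a.eps_mem b.eps_mem a.rho_mem b.rho_mem b.rho_ne
    one_ne_zero (one_mem _) (by rw [one_pow, one_mul]; exact hred)
    (fun P => ⟨E P, hE P⟩)
  have hgeq' : a.toF = (⟨g, hg⟩ : modularFunctionFieldBar N) ^ n * b.toF := Subtype.ext hgeq
  have hg0 : (⟨g, hg⟩ : modularFunctionFieldBar N) ≠ 0 := by
    intro h0
    apply a.toF_ne
    rw [hgeq', h0, zero_pow hn.ne', zero_mul]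
  refine ⟨⟨g, hg⟩, hg0, fun P => ?_⟩
  have h1 := hE P
  rw [hgeq', P.ord_mul (pow_ne_zero n hg0) b.toF_ne, add_sub_cancel_right] at h1
  have h2 := P.ord_zpow (⟨g, hg⟩ : modularFunctionFieldBar N) (n : ℤ)
  rw [zpow_natCast] at h2
  rw [h2] at h1
  have hn' : (n : ℤ) ≠ 0 := by exact_mod_cast hn.ne'
  exact (mul_left_cancel₀ hn' h1).symm

/-- **Inertia half**, for a divisor `D` with `n D = div (a / b)`. -/
theorem h10es_inertia_of_presentation (n : ℕ) (hn : 0 < n)
    (hK : H7S18.KummerStatement A (IsLocalRing.residue A) N n)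
    (σ : GQ) (hσ : σ ∈ A.inertiaSubgroupIn ℚ)
    (a b : Good N A)
    (D : Divisor (AlgebraicClosure ℚ) (modularFunctionFieldBar N))
    (hD : ∀ P : Place (AlgebraicClosure ℚ) (modularFunctionFieldBar N),
      P.ord a.toF - P.ord b.toF = n * D P) :
    arithmeticGalois (modularFunctionFieldFull N) σ • D - D ∈
      Divisor.principal (K := AlgebraicClosure ℚ) (F := modularFunctionFieldBar N) := by
  have hσd : σ ∈ A.decompositionSubgroup ℚ := by
    obtain ⟨τ, -, rfl⟩ := hσ
    exact τ.2
  refine h10es_kummer n hn hK ((a.gal σ hσd).mul b) (a.mul (b.gal σ hσd)) ?_ _ fun P => ?_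
  · rw [Good.red_mul, Good.red_mul, Good.red_gal_inertia σ hσ hσd, Good.red_gal_inertia σ hσ hσd]
  · rw [Good.ord_mul, Good.ord_mul, Good.ord_gal, Good.ord_gal, Finsupp.sub_apply,
      SemilinearAut.divisor_smul_apply, mul_sub, ← hD, ← hD]
    ring

end Kummer

end H10ES

end
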