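import Fermat.Agent.W3G.ESPres_helper10
import Fermat.Agent.S37.CongAsm_helper8

/-!
# Item 80 (W3-G), slice ES, part 3 (helper10): the Frobenius half

For a Frobenius element `φ` at `A` (over `ℓ ∤ N`) and a class `x ∈ J₀(N)` killed by `n`:
`φ² x - T_ℓ (φ x) + ℓ x = 0`, from `(K)_n`, the Hecke inputs (R0), the norm formula (R3-NORM)
and its reduction (R3-RED).  No place reduction map is used.

* `h10es_hecke_good` : for a good series `a`, `Norm_α (β a)` is a good series with reduction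
  `(τ⁻¹ ā)^ℓ · τ ā` (`τ` the Frobenius of the residue field);
* `h10es_frobenius_of_presentation` : the divisor `φ² D - T_ℓ (φ D) + ℓ D` is principal when
  `n D = div (a / b)`;
* `h10es_frobenius_of` : the statement on `J₀(N)[n]`.
-/

set_option autoImplicit false
set_option linter.style.haveILetI false
set_option synthInstance.maxHeartbeats 400000
set_option maxHeartbeats 1000000

noncomputable section

namespace H10ES

open ModularCurve AlgebraicCurve HahnSeries H8S37 H10R1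

section Hecke

variable {N ℓ : ℕ} [NeZero N] [NeZero ℓ] {A : ValuationSubring (AlgebraicClosure ℚ)}

/-- the Hecke transform `Norm_α (β a)` of a good series is a good series, with reduction
`(τ⁻¹ ā)^ℓ · τ ā`. -/
theorem h10es_hecke_good (hℓ : ℓ.Prime) (hNorm : NormStatement N ℓ) (hRed : RedStatement ℓ)
    (hA : A.LiesOverPrime ℓ)
    (τ : IsLocalRing.ResidueField A ≃+* IsLocalRing.ResidueField A) (hτ : ∀ a, τ a = a ^ ℓ)
    (a : Good N A) :
    ∃ a' : Good N A, a'.toF = h8r_normBeta N ℓ a.toF ∧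
      a'.red = (coeffMap (τ.symm : IsLocalRing.ResidueField A →+* IsLocalRing.ResidueField A)
        a.red) ^ ℓ *
        coeffMap (τ : IsLocalRing.ResidueField A →+* IsLocalRing.ResidueField A) a.red := by
  haveI : NeZero ((ℓ : ℕ) : ℚ) := ⟨by exact_mod_cast hℓ.ne_zero⟩
  obtain ⟨ζ, hζ⟩ := HasEnoughRootsOfUnity.exists_primitiveRoot (AlgebraicClosure ℚ) ℓ
  have hζu : IsUnit ζ := hζ.isUnit hℓ.ne_zero
  have hζ' : IsPrimitiveRoot ((hζu.unit : (AlgebraicClosure ℚ)ˣ) : AlgebraicClosure ℚ) ℓ := by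
    rw [IsUnit.unit_spec]
    exact hζ
  have hn := hNorm hζu.unit hζ' a.toF
  obtain ⟨y'₀, e1, e2⟩ := hRed A hA hζu.unit hζ' τ hτ a.Y _ hn
  have hτinj : Function.Injective
      (coeffMap (τ : IsLocalRing.ResidueField A →+* IsLocalRing.ResidueField A)) :=
    h10r1_coeffMap_injective _ τ.injective
  have hτsinj : Function.Injective
      (coeffMap (τ.symm : IsLocalRing.ResidueField A →+* IsLocalRing.ResidueField A)) :=
    h10r1_coeffMap_injective _ τ.symm.injective
  refine ⟨⟨y'₀, ?_, ?_, ?_⟩, Subtype.ext e1, e2⟩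
  · rw [e1]
    exact (h8r_normBeta N ℓ a.toF).2
  · rw [e2]
    exact mul_mem (pow_mem (h8r_coeffMap_mem N _ a.rho_mem) ℓ) (h8r_coeffMap_mem N _ a.rho_mem)
  · rw [e2]
    refine mul_ne_zero (pow_ne_zero _ ?_) ?_
    · exact fun h => a.rho_ne (hτsinj (by rw [h, map_zero]))
    · exact fun h => a.rho_ne (hτinj (by rw [h, map_zero]))

end Hecke

section Frobenius

variable {N ℓ : ℕ} [NeZero N] [NeZero ℓ] {A : ValuationSubring (AlgebraicClosure ℚ)}

theorem h10es_coeffMap_symm_apply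
    (τ : IsLocalRing.ResidueField A ≃+* IsLocalRing.ResidueField A)
    (x : LaurentSeries (IsLocalRing.ResidueField A)) :
    coeffMap (τ.symm : IsLocalRing.ResidueField A →+* IsLocalRing.ResidueField A)
      (coeffMap (τ : IsLocalRing.ResidueField A →+* IsLocalRing.ResidueField A) x) = x := by
  rw [coeffMap_coeffMap,
    coeffMap_congr (g := RingHom.id _) (RingHom.ext fun a => τ.symm_apply_apply a), coeffMap_id]

/-- **Frobenius half**, for a divisor `D` with `n D = div (a / b)`: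
`φ² D - T_ℓ (φ D) + ℓ D` is principal. -/
theorem h10es_frobenius_of_presentation (hℓ : ℓ.Prime)
    (hα : HeckeAlphaBarIntegral (AlgebraicClosure ℚ) N ℓ)
    (hβ : HeckeBetaBarIntegral (AlgebraicClosure ℚ) N ℓ)
    [HasPrincipalDivisors (AlgebraicClosure ℚ) (modularFunctionFieldBar (N * ℓ))]
    [HasPrincipalDivisors (AlgebraicClosure ℚ) (modularFunctionFieldBar N)]
    (hfin : FiniteAlong (AlgebraicClosure ℚ) (heckeAlphaBar (AlgebraicClosure ℚ) N ℓ))
    (hNF : NormFormulaAlong (AlgebraicClosure ℚ) (heckeAlphaBar (AlgebraicClosure ℚ) N ℓ) hfin)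
    (hNorm : NormStatement N ℓ) (hRed : RedStatement ℓ) (hA : A.LiesOverPrime ℓ)
    (n : ℕ) (hn : 0 < n)
    (hK : H7S18.KummerStatement A (IsLocalRing.residue A) N n)
    (φ : GQ) (hφ : A.IsFrobeniusAt φ ℓ)
    (a b : Good N A)
    (D : Divisor (AlgebraicClosure ℚ) (modularFunctionFieldBar N))
    (hD : ∀ P : Place (AlgebraicClosure ℚ) (modularFunctionFieldBar N),
      P.ord a.toF - P.ord b.toF = n * D P) :
    arithmeticGalois (modularFunctionFieldFull N) φ •
        (arithmeticGalois (modularFunctionFieldFull N) φ • D) -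
      heckeDivBar hα hβ (arithmeticGalois (modularFunctionFieldFull N) φ • D) + ℓ • D ∈
      Divisor.principal (K := AlgebraicClosure ℚ) (F := modularFunctionFieldBar N) := by
  have hφd : φ ∈ A.decompositionSubgroup ℚ := hφ.mem_decompositionSubgroup
  set g := arithmeticGalois (modularFunctionFieldFull N) φ with hg
  set τ := h8r_resAut A φ hφd with hτdef
  have hτ : ∀ x, τ x = x ^ ℓ := h8r_resAut_frobenius A hφ
  -- the Frobenius translates
  set a1 := a.gal φ hφd with ha1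
  set b1 := b.gal φ hφd with hb1
  set a2 := a1.gal φ hφd with ha2
  set b2 := b1.gal φ hφd with hb2
  obtain ⟨aT, haT, haTred⟩ := h10es_hecke_good hℓ hNorm hRed hA τ hτ a1
  obtain ⟨bT, hbT, hbTred⟩ := h10es_hecke_good hℓ hNorm hRed hA τ hτ b1
  -- reductions
  have ra1 : a1.red = coeffMap (τ : _ →+* _) a.red := Good.red_gal φ hφd a
  have rb1 : b1.red = coeffMap (τ : _ →+* _) b.red := Good.red_gal φ hφd b
  have ra2 : a2.red = coeffMap (τ : _ →+* _) a1.red := Good.red_gal φ hφd a1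
  have rb2 : b2.red = coeffMap (τ : _ →+* _) b1.red := Good.red_gal φ hφd b1
  have raT : aT.red = a.red ^ ℓ * a2.red := by
    rw [haTred, ra2, ra1, h10es_coeffMap_symm_apply]
  have rbT : bT.red = b.red ^ ℓ * b2.red := by
    rw [hbTred, rb2, rb1, h10es_coeffMap_symm_apply]
  -- divisors of `a1`, `b1`
  obtain ⟨Da, hDa, -⟩ := HasPrincipalDivisors.exists_divisor (K := AlgebraicClosure ℚ)
    a1.toF a1.toF_ne
  obtain ⟨Db, hDb, -⟩ := HasPrincipalDivisors.exists_divisor (K := AlgebraicClosure ℚ)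
    b1.toF b1.toF_ne
  have hDab : Da - Db = n • (g • D) := by
    ext P
    rw [Finsupp.sub_apply, hDa, hDb, Finsupp.smul_apply, nsmul_eq_mul,
      SemilinearAut.divisor_smul_apply, ha1, hb1, Good.ord_gal, Good.ord_gal, hD]
  have hT : ∀ P, P.ord aT.toF - P.ord bT.toF = n * (heckeDivBar hα hβ (g • D)) P := by
    intro P
    rw [haT, hbT, ← h8a_hecke_div hα hβ hfin hNF a1.toF a1.toF_ne Da hDa P,
      ← h8a_hecke_div hα hβ hfin hNF b1.toF b1.toF_ne Db hDb P, ← Finsupp.sub_apply, ← map_sub,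
      hDab, map_nsmul, Finsupp.smul_apply, nsmul_eq_mul]
  refine h10es_kummer n hn hK ((a2.mul (a.npow ℓ)).mul bT) ((b2.mul (b.npow ℓ)).mul aT) ?_ _
    fun P => ?_
  · rw [Good.red_mul, Good.red_mul, Good.red_mul, Good.red_mul, Good.red_npow, Good.red_npow,
      raT, rbT]
    ring
  · rw [Good.ord_mul, Good.ord_mul, Good.ord_mul, Good.ord_mul, Good.ord_npow, Good.ord_npow,
      Finsupp.add_apply, Finsupp.sub_apply, Finsupp.smul_apply, nsmul_eq_mul,
      SemilinearAut.divisor_smul_apply, SemilinearAut.divisor_smul_apply]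
    have h1 : P.ord a2.toF - P.ord b2.toF = n * D (g⁻¹ • g⁻¹ • P) := by
      have e1 : P.ord a2.toF = (g⁻¹ • g⁻¹ • P).ord a.toF := by
        rw [ha2, Good.ord_gal, ha1, Good.ord_gal]
      have e2 : P.ord b2.toF = (g⁻¹ • g⁻¹ • P).ord b.toF := by
        rw [hb2, Good.ord_gal, hb1, Good.ord_gal]
      rw [e1, e2, hD]
    have h2 := hD P
    have h3 := hT P
    linear_combination h1 + (ℓ : ℤ) * h2 - h3

end Frobenius

section Pic

variable {N : ℕ} [NeZero N] {A : ValuationSubring (AlgebraicClosure ℚ)}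

/-- **ES, Frobenius half**: `φ² x - T_ℓ (φ x) + ℓ x = 0` on the `n`-torsion of `J₀(N)`,
for a Frobenius element `φ` at `A` over `ℓ ∤ N`, given `(K)_n`, R0, R3-NORM and R3-RED. -/
theorem h10es_frobenius_of (ℓ : ℕ) (hℓ : ℓ.Prime) (hℓN : ¬ ℓ ∣ N) (hA : A.LiesOverPrime ℓ)
    (hR0 : haveI : NeZero ℓ := ⟨hℓ.ne_zero⟩; HeckeInputsAlong (AlgebraicClosure ℚ) N ℓ)
    [HasPrincipalDivisors (AlgebraicClosure ℚ) (modularFunctionFieldBar N)]
    (hNorm : haveI : NeZero ℓ := ⟨hℓ.ne_zero⟩; NormStatement N ℓ)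
    (hRed : haveI : NeZero ℓ := ⟨hℓ.ne_zero⟩; RedStatement ℓ)
    (n : ℕ) (hn : 0 < n)
    (hK : H7S18.KummerStatement A (IsLocalRing.residue A) N n)
    (φ : GQ) (hφ : A.IsFrobeniusAt φ ℓ) (x : JZero N) (hx : n • x = 0) :
    φ • φ • x - heckeOperatorBar N ⟨ℓ, hℓ⟩ (φ • x) + ℓ • x = 0 := by
  haveI : NeZero ℓ := ⟨hℓ.ne_zero⟩
  haveI : Fact ℓ.Prime := ⟨hℓ⟩
  obtain ⟨hα, hβ, hP, hfin, hFI, hNF⟩ := hR0
  haveI := hP
  obtain ⟨D, rfl⟩ := Pic0.mk_surjective x
  obtain ⟨a, b, hab⟩ := h10es_torsion_presentation ℓ hℓN hA n D hx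
  have hprin := h10es_frobenius_of_presentation hℓ hα hβ hfin hNF hNorm hRed hA n hn hK φ hφ a b
    (D : Divisor (AlgebraicClosure ℚ) (modularFunctionFieldBar N)) hab
  have hT : ∀ E : Divisor.degZero (K := AlgebraicClosure ℚ) (F := modularFunctionFieldBar N),
      heckeOperatorBar N ⟨ℓ, hℓ⟩ (Pic0.mk E) =
      Pic0.mk (Pic0.degZeroCorrespondence (heckeBetaBar (AlgebraicClosure ℚ) N ℓ)
        (heckeAlphaBar (AlgebraicClosure ℚ) N ℓ) hβ hα hFI E) := by
    intro E
    have e := heckeOperatorAlong_eq hα hβ hFI hfin hNF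
    show (heckeOperatorAlong (AlgebraicClosure ℚ) N ℓ) (Pic0.mk E) = _
    rw [e]
    rfl
  rw [galois_smul_pic0_def, galois_smul_pic0_def, SemilinearAut.pic0_smul_mk,
    SemilinearAut.pic0_smul_mk, hT]
  exact h10es_mk_eq_zero
    (SemilinearAut.degZeroSMulHom (arithmeticGalois (modularFunctionFieldFull N) φ)
        (SemilinearAut.degZeroSMulHom (arithmeticGalois (modularFunctionFieldFull N) φ) D) -
      Pic0.degZeroCorrespondence (heckeBetaBar (AlgebraicClosure ℚ) N ℓ)
        (heckeAlphaBar (AlgebraicClosure ℚ) N ℓ) hβ hα hFI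
        (SemilinearAut.degZeroSMulHom (arithmeticGalois (modularFunctionFieldFull N) φ) D) +
      ℓ • D) hprin

end Pic

end H10ES

end
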