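import Fermat.Agent.W3G.ESCore_helper10
import Fermat.Agent.S18.GVBar_helper28
import Fermat.Agent.S24.PlaceBasic

/-!
# Item 80 (W3-G), slice ES, part 2 (helper10): presentations and the inertia half

* `h10es_presentation` : every principal divisor of `F_L` is `div (a / b)` for good series `a`, `b`
  (this is helper28's `gv_frac`);
* `h10es_torsion_presentation` : for a class `[D]` killed by `n`, `n D = div (a / b)`;
* `h10es_inertia` : **inertia at `ℓ` acts trivially on the `n`-torsion of `J₀(N)`**, given `(K)_n`.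
-/

set_option autoImplicit false
set_option linter.style.haveILetI false
set_option synthInstance.maxHeartbeats 400000
set_option maxHeartbeats 1000000

noncomputable section

namespace H10ES

open ModularCurve AlgebraicCurve HahnSeries H8S37 H10R1

section Pres

variable {N : ℕ} [NeZero N] {A : ValuationSubring (AlgebraicClosure ℚ)}

/-- every principal divisor is the divisor of a quotient of good series. -/
theorem h10es_presentation (ℓ : ℕ) [Fact ℓ.Prime] (hℓN : ¬ ℓ ∣ N) (hA : A.LiesOverPrime ℓ)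
    (E : Divisor (AlgebraicClosure ℚ) (modularFunctionFieldBar N))
    (hE : E ∈ Divisor.principal (K := AlgebraicClosure ℚ) (F := modularFunctionFieldBar N)) :
    ∃ a b : Good N A, ∀ P : Place (AlgebraicClosure ℚ) (modularFunctionFieldBar N),
      P.ord a.toF - P.ord b.toF = E P := by
  obtain ⟨f, hf0, hf⟩ := hE
  obtain ⟨B⟩ := H28GV.gv_basis_bar A ℓ hA N hℓN
  have hfmem : (f : LaurentSeries (AlgebraicClosure ℚ)) ∈
      modularFunctionFieldFullC (AlgebraicClosure ℚ) N := by
    rw [← H28GV.gv_bar_eq]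
    exact f.2
  have hf0' : (f : LaurentSeries (AlgebraicClosure ℚ)) ≠ 0 := fun h => hf0 (Subtype.ext h)
  obtain ⟨c, Y1, Y2, hc, hY1, hY2, hY1L, hY2L, hY1k, hY2k, heq⟩ :=
    H28GV.gv_frac B (f : LaurentSeries (AlgebraicClosure ℚ)) hfmem hf0'
  have hY1L' : coeffMap A.subtype Y1 ∈
      laurentBaseChange (AlgebraicClosure ℚ) (modularFunctionFieldFull N) := by
    rw [H28GV.gv_bar_eq]
    exact hY1L
  have hY2L' : coeffMap A.subtype Y2 ∈
      laurentBaseChange (AlgebraicClosure ℚ) (modularFunctionFieldFull N) := by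
    rw [H28GV.gv_bar_eq]
    exact hY2L
  refine ⟨⟨Y1, hY1L', hY1k, hY1⟩, ⟨Y2, hY2L', hY2k, hY2⟩, fun P => ?_⟩
  set a : Good N A := ⟨Y1, hY1L', hY1k, hY1⟩
  set b : Good N A := ⟨Y2, hY2L', hY2k, hY2⟩
  have heq' : f * b.toF =
      algebraMap (AlgebraicClosure ℚ) (modularFunctionFieldBar N) c * a.toF := by
    apply Subtype.ext
    show (f : LaurentSeries (AlgebraicClosure ℚ)) * coeffMap A.subtype Y2 =
      ((algebraMap (AlgebraicClosure ℚ) (modularFunctionFieldBar N) c :
        modularFunctionFieldBar N) : LaurentSeries (AlgebraicClosure ℚ)) *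
        coeffMap A.subtype Y1
    have hC : ((algebraMap (AlgebraicClosure ℚ) (modularFunctionFieldBar N) c :
        modularFunctionFieldBar N) : LaurentSeries (AlgebraicClosure ℚ)) = HahnSeries.C c := by
      show algebraMap (AlgebraicClosure ℚ) (LaurentSeries (AlgebraicClosure ℚ)) c = _
      rw [algebraMap_laurentSeries_eq_single]
      rfl
    rw [hC]
    exact heq
  have hc' : algebraMap (AlgebraicClosure ℚ) (modularFunctionFieldBar N) c ≠ 0 := by
    rw [Ne, map_eq_zero]
    exact hc
  have h1 := congrArg P.ord heq'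
  rw [P.ord_mul hf0 b.toF_ne, P.ord_mul hc' a.toF_ne, RH24.h20_ord_algebraMap, zero_add] at h1
  rw [hf P, ← h1, add_sub_cancel_right]

/-- a class killed by `n`: `n D = div (a / b)`. -/
theorem h10es_torsion_presentation (ℓ : ℕ) [Fact ℓ.Prime] (hℓN : ¬ ℓ ∣ N)
    (hA : A.LiesOverPrime ℓ) (n : ℕ)
    (D : Divisor.degZero (K := AlgebraicClosure ℚ) (F := modularFunctionFieldBar N))
    (hx : n • (Pic0.mk D : JZero N) = 0) :
    ∃ a b : Good N A, ∀ P : Place (AlgebraicClosure ℚ) (modularFunctionFieldBar N),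
      P.ord a.toF - P.ord b.toF =
        n * (D : Divisor (AlgebraicClosure ℚ) (modularFunctionFieldBar N)) P := by
  have h1 : (Pic0.mk (n • D) : JZero N) = 0 := hx
  have h2 : ((n • D : Divisor.degZero (K := AlgebraicClosure ℚ) (F := modularFunctionFieldBar N)) :
      Divisor (AlgebraicClosure ℚ) (modularFunctionFieldBar N)) ∈
      Divisor.principal (K := AlgebraicClosure ℚ) (F := modularFunctionFieldBar N) :=
    (QuotientAddGroup.eq_zero_iff (n • D)).mp h1
  obtain ⟨a, b, hab⟩ := h10es_presentation ℓ hℓN hA _ h2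
  refine ⟨a, b, fun P => ?_⟩
  rw [hab P, AddSubgroup.coe_nsmul, Finsupp.smul_apply, nsmul_eq_mul]

end Pres

section Inertia

variable {N : ℕ} {A : ValuationSubring (AlgebraicClosure ℚ)}

/-- a class `Pic0.mk E` with `E` principal is zero. -/
theorem h10es_mk_eq_zero
    (E : Divisor.degZero (K := AlgebraicClosure ℚ) (F := modularFunctionFieldBar N))
    (hE : (E : Divisor (AlgebraicClosure ℚ) (modularFunctionFieldBar N)) ∈
      Divisor.principal (K := AlgebraicClosure ℚ) (F := modularFunctionFieldBar N)) :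
    (Pic0.mk E : JZero N) = 0 :=
  (QuotientAddGroup.eq_zero_iff E).mpr hE

variable [NeZero N]

/-- **ES, inertia half**: inertia at `ℓ ∤ N` acts trivially on the `n`-torsion of `J₀(N)`,
given the Kummer statement `(K)_n`. -/
theorem h10es_inertia (ℓ : ℕ) [Fact ℓ.Prime] (hℓN : ¬ ℓ ∣ N) (hA : A.LiesOverPrime ℓ)
    (n : ℕ) (hn : 0 < n)
    (hK : H7S18.KummerStatement A (IsLocalRing.residue A) N n)
    (σ : GQ) (hσ : σ ∈ A.inertiaSubgroupIn ℚ) (x : JZero N) (hx : n • x = 0) :
    σ • x = x := by
  obtain ⟨D, rfl⟩ := Pic0.mk_surjective x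
  obtain ⟨a, b, hab⟩ := h10es_torsion_presentation ℓ hℓN hA n D hx
  have hprin := h10es_inertia_of_presentation n hn hK σ hσ a b
    (D : Divisor (AlgebraicClosure ℚ) (modularFunctionFieldBar N)) hab
  rw [← sub_eq_zero, galois_smul_pic0_def, SemilinearAut.pic0_smul_mk]
  exact h10es_mk_eq_zero
    (SemilinearAut.degZeroSMulHom (arithmeticGalois (modularFunctionFieldFull N) σ) D - D) hprin

end Inertia

end H10ES

end
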