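/-
Item 80 (W3-G), slice EXT-core (lead): `H11W3G.ExtCoreStatement` from `LeadEXT.ext_core`
(`W3G/EXT_lead.lean`).
-/
import Fermat.Agent.W3G.Defs
import Fermat.Agent.W3G.EXT_lead

set_option autoImplicit false

namespace LeadEXT

open Polynomial

/-- `H11W3G.ExtCoreStatement`, from `LeadEXT.ext_core`. -/
theorem lead_extCoreStatement : H11W3G.ExtCoreStatement := by
  intro G _ K _ hroot V _ _ _ _ ρ d hA
  have hA' : HypA ρ d := fun g => hA g
  have hroot' : ∀ t e : K, ∃ α : K, α * α - t * α + e = 0 := by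
    intro t e
    obtain ⟨x, hx⟩ := hroot (-t) e
    exact ⟨x, by linear_combination hx⟩
  obtain ⟨M, hdet, htr, hker⟩ := ext_core hA' hroot'
  let e : Matrix (Fin 2) (Fin 2) K ≃ₐ[K] ((Fin 2 → K) →ₗ[K] (Fin 2 → K)) := Matrix.toLinAlgEquiv'
  refine ⟨Fin 2 → K, inferInstance, inferInstance, inferInstance,
    (e : Matrix (Fin 2) (Fin 2) K →* ((Fin 2 → K) →ₗ[K] (Fin 2 → K))).comp M, ?_, ?_, ?_⟩
  · simp
  · intro g hg hd
    have := hker g hg hd
    show e (M g) = 1
    rw [this, map_one]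
  · intro g t ht
    have h1 : LinearMap.charpoly (e (M g)) = (M g).charpoly := by
      rw [← LinearMap.charpoly_toMatrix (e (M g)) (Pi.basisFun K (Fin 2))]
      congr 1
      show LinearMap.toMatrix (Pi.basisFun K (Fin 2)) (Pi.basisFun K (Fin 2))
        (Matrix.toLin' (M g)) = M g
      rw [LinearMap.toMatrix_eq_toMatrix', LinearMap.toMatrix'_toLin']
    show LinearMap.charpoly (e (M g)) = _
    rw [h1, Matrix.charpoly_fin_two, hdet g, htr g t ht]

end LeadEXT
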