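import Fermat.Agent.W3G.Defs

/-!
# W3-G, EigenMod assembly, ABSTRACT part (helper11; Mathlib only + `QuadRel`)

* `h11em_theta` : `Θ : K ⊗[F] H → (X → K)` for a space `H` of `F`-valued functions; injective.
* `h11em_span`, `h11em_rep` : the representation on the `K`-span of the orbit of a vector.
* `h11em_abstract` : from an eigenfunction `φ = ∑ e_j χ_j` (`χ_j ∈ H`), a Hecke-equivariant
  injection `kum : H → P` into a `G`-module with finite orbits, a finite-dimensional nonzero
  representation `V ⊆ K ⊗ P` on which the Hecke operators are the scalars `c i`.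
-/

set_option autoImplicit false
set_option linter.style.haveILetI false
set_option linter.unusedSectionVars false

noncomputable section

open TensorProduct

namespace H11W3G

section theta

variable {F : Type*} [Field F] {K : Type*} [Field K] [Algebra F K]
  {H : Type*} [AddCommGroup H] [Module F H] {X : Type*}

/-- `K`-valued evaluation of `F`-valued functions -/
def h11em_evK (K : Type*) [Field K] [Algebra F K] (ev : H →ₗ[F] (X → F)) : H →ₗ[F] (X → K) where
  toFun χ := fun x => algebraMap F K (ev χ x)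
  map_add' a b := by
    funext x
    simp only [map_add, Pi.add_apply]
  map_smul' c a := by
    funext x
    simp only [map_smul, Pi.smul_apply, smul_eq_mul, map_mul, RingHom.id_apply, Algebra.smul_def]

/-- `Θ : K ⊗ H → (X → K)`, `c ⊗ χ ↦ c · χ` -/
def h11em_theta (K : Type*) [Field K] [Algebra F K] (ev : H →ₗ[F] (X → F)) :
    K ⊗[F] H →ₗ[K] (X → K) :=
  (h11em_evK K ev).liftBaseChange K

theorem h11em_theta_tmul (ev : H →ₗ[F] (X → F)) (c : K) (χ : H) (x : X) :
    h11em_theta K ev (c ⊗ₜ χ) x = c * algebraMap F K (ev χ x) := by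
  unfold h11em_theta
  rw [LinearMap.liftBaseChange_tmul]
  rfl

theorem h11em_theta_injective (ev : H →ₗ[F] (X → F)) (hev : Function.Injective ev) :
    Function.Injective (h11em_theta K ev) := by
  classical
  rw [injective_iff_map_eq_zero]
  intro w hw
  let b := Module.Basis.ofVectorSpace F K
  set f := TensorProduct.equivFinsuppOfBasisLeft (N := H) b w with hf
  have hw' : w = f.sum fun i n => b i ⊗ₜ[F] n := by
    rw [← TensorProduct.equivFinsuppOfBasisLeft_symm_apply, hf, LinearEquiv.symm_apply_apply]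
  have hx : ∀ x : X, (f.sum fun i n => (ev n x) • b i) = 0 := by
    intro x
    have h1 : h11em_theta K ev w x = 0 := by rw [hw]; rfl
    rw [hw', map_finsuppSum, Finsupp.sum, Finset.sum_apply] at h1
    rw [Finsupp.sum, ← h1]
    refine Finset.sum_congr rfl fun i _ => ?_
    rw [h11em_theta_tmul, Algebra.smul_def, mul_comm]
  have hf0 : f = 0 := by
    ext i
    rw [Finsupp.zero_apply]
    apply hev
    rw [map_zero]
    funext x
    rw [Pi.zero_apply]
    have hli := b.linearIndependent
    rw [linearIndependent_iff] at hli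
    have h2 := hli (f.mapRange (fun n => ev n x) (by rw [map_zero]; rfl)) (by
      rw [Finsupp.linearCombination_apply, Finsupp.sum_mapRange_index (fun i => zero_smul F (b i))]
      exact hx x)
    have h3 := DFunLike.congr_fun h2 i
    rwa [Finsupp.mapRange_apply, Finsupp.zero_apply] at h3
  have : w = (TensorProduct.equivFinsuppOfBasisLeft (N := H) b).symm f := by
    rw [hf, LinearEquiv.symm_apply_apply]
  rw [this, hf0, map_zero]

theorem h11em_baseChange_injective {P : Type*} [AddCommGroup P] [Module F P]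
    (kum : H →ₗ[F] P) (hkum : Function.Injective kum) :
    Function.Injective (kum.baseChange K) := by
  rw [LinearMap.baseChange_eq_ltensor]
  exact Module.Flat.lTensor_preserves_injective_linearMap kum hkum

end theta

section orbit

variable {K : Type*} [Field K] {G : Type*} [Group G] {W : Type*} [AddCommGroup W] [Module K W]
  (ρ₀ : G →* Module.End K W) (v : W)

/-- the `K`-span of the orbit of `v` -/
def h11em_span : Submodule K W := Submodule.span K (Set.range fun τ : G => ρ₀ τ v)

theorem h11em_orbit_mem (τ : G) : ρ₀ τ v ∈ h11em_span ρ₀ v :=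
  Submodule.subset_span ⟨τ, rfl⟩

theorem h11em_self_mem : v ∈ h11em_span ρ₀ v := by
  have := h11em_orbit_mem ρ₀ v 1
  rwa [map_one, Module.End.one_apply] at this

theorem h11em_span_stable (σ : G) {w : W} (hw : w ∈ h11em_span ρ₀ v) :
    ρ₀ σ w ∈ h11em_span ρ₀ v := by
  unfold h11em_span at hw ⊢
  induction hw using Submodule.span_induction with
  | mem x hx =>
    obtain ⟨τ, rfl⟩ := hx
    refine Submodule.subset_span ⟨σ * τ, ?_⟩
    show ρ₀ (σ * τ) v = ρ₀ σ (ρ₀ τ v)
    rw [map_mul, Module.End.mul_apply]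
  | zero => rw [map_zero]; exact Submodule.zero_mem _
  | add x y _ _ hx hy => rw [map_add]; exact Submodule.add_mem _ hx hy
  | smul c x _ hx => rw [map_smul]; exact Submodule.smul_mem _ c hx

/-- the representation on the span of the orbit -/
def h11em_rep : G →* Module.End K (h11em_span ρ₀ v) where
  toFun σ := (ρ₀ σ).restrict (fun _ hw => h11em_span_stable ρ₀ v σ hw)
  map_one' := by
    ext w
    simp only [LinearMap.coe_restrict_apply, map_one, Module.End.one_apply]
  map_mul' a b := by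
    ext w
    simp only [LinearMap.coe_restrict_apply, map_mul, Module.End.mul_apply]

theorem h11em_rep_apply (σ : G) (w : h11em_span ρ₀ v) :
    ((h11em_rep ρ₀ v σ w : h11em_span ρ₀ v) : W) = ρ₀ σ (w : W) := rfl

/-- two endomorphisms of `W` that agree on the orbit agree on the span -/
theorem h11em_eqOn_span (f g : Module.End K W) (h : ∀ τ : G, f (ρ₀ τ v) = g (ρ₀ τ v))
    {w : W} (hw : w ∈ h11em_span ρ₀ v) : f w = g w := by
  have : Set.EqOn f g (Set.range fun τ : G => ρ₀ τ v) := by
    rintro x ⟨τ, rfl⟩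
    exact h τ
  exact LinearMap.eqOn_span this hw

theorem h11em_rep_eq_one (σ : G) (h : ∀ τ : G, ρ₀ σ (ρ₀ τ v) = ρ₀ τ v) :
    h11em_rep ρ₀ v σ = 1 := by
  ext w
  rw [h11em_rep_apply, Module.End.one_apply]
  exact h11em_eqOn_span ρ₀ v (ρ₀ σ) 1 (fun τ => by rw [h τ, Module.End.one_apply]) w.2

/-- an endomorphism commuting with `G` which has `v` as an eigenvector is a scalar on the span -/
theorem h11em_scalar (E : Module.End K W) (c : K) (hE : ∀ τ : G, E * ρ₀ τ = ρ₀ τ * E)
    (hv : E v = c • v) {w : W} (hw : w ∈ h11em_span ρ₀ v) : E w = c • w := by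
  have := h11em_eqOn_span ρ₀ v E (c • (1 : Module.End K W)) (fun τ => by
    have h1 : E (ρ₀ τ v) = (E * ρ₀ τ) v := rfl
    rw [h1, hE τ, Module.End.mul_apply, hv, map_smul, LinearMap.smul_apply,
      Module.End.one_apply]) hw
  rw [this, LinearMap.smul_apply, Module.End.one_apply]

theorem h11em_quadRel (E : Module.End K W) (c δ : K) (hE : ∀ τ : G, E * ρ₀ τ = ρ₀ τ * E)
    (hv : E v = c • v) (σ : G)
    (hrel : ∀ w : W, ρ₀ σ (ρ₀ σ w) - E (ρ₀ σ w) + δ • w = 0) :
    QuadRel (h11em_rep ρ₀ v σ) c δ := by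
  unfold QuadRel
  ext w
  have h1 := hrel (w : W)
  rw [h11em_scalar ρ₀ v E c hE hv (h11em_span_stable ρ₀ v σ w.2)] at h1
  simp only [LinearMap.add_apply, LinearMap.sub_apply, Module.End.mul_apply,
    LinearMap.smul_apply, Module.End.one_apply, LinearMap.zero_apply, Submodule.coe_add,
    Submodule.coe_sub, Submodule.coe_smul, h11em_rep_apply, ZeroMemClass.coe_zero]
  exact h1

theorem h11em_finiteDimensional (hfin : (Set.range fun τ : G => ρ₀ τ v).Finite) :
    FiniteDimensional K (h11em_span ρ₀ v) :=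
  FiniteDimensional.span_of_finite K hfin

theorem h11em_nontrivial (hv : v ≠ 0) : Nontrivial (h11em_span ρ₀ v) :=
  ⟨⟨⟨v, h11em_self_mem ρ₀ v⟩, 0, fun h => hv (congrArg Subtype.val h)⟩⟩

end orbit


section abstract

variable {F : Type} [Field F] {K : Type} [Field K] [Algebra F K]
  {G : Type} [Group G]
  {P : Type} [AddCommGroup P] [Module F P]

/-- the base change of a representation -/
def h11em_bc (K : Type) [Field K] [Algebra F K] (ρP : G →* Module.End F P) :
    G →* Module.End K (K ⊗[F] P) where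
  toFun σ := (ρP σ).baseChange K
  map_one' := by rw [map_one]; exact LinearMap.baseChange_one _ _
  map_mul' a b := by rw [map_mul]; exact LinearMap.baseChange_mul _ _

theorem h11em_bc_tmul (ρP : G →* Module.End F P) (σ : G) (a : K) (x : P) :
    h11em_bc K ρP σ (a ⊗ₜ[F] x) = a ⊗ₜ[F] (ρP σ x) := rfl

theorem h11em_bc_sum (ρP : G →* Module.End F P) (σ : G) {s : ℕ} (e : Fin s → K)
    (y : Fin s → P) :
    h11em_bc K ρP σ (∑ j, e j ⊗ₜ[F] y j) = ∑ j, e j ⊗ₜ[F] (ρP σ (y j)) := by
  rw [map_sum]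
  rfl

/-- **EigenMod, abstract form.** -/
theorem h11em_abstract
    (ρP : G →* Module.End F P)
    {H : Type} [AddCommGroup H] [Module F H] (kum : H →ₗ[F] P)
    (hkum : Function.Injective kum)
    {X : Type} (ev : H →ₗ[F] (X → F)) (hev : Function.Injective ev)
    {s : ℕ} (e : Fin s → K) (χ : Fin s → H)
    (hne : ∃ x, ∑ j, e j * algebraMap F K (ev (χ j) x) ≠ 0)
    (hfin : ∀ x : P, (Set.range fun σ : G => ρP σ x).Finite)
    {ι : Type} (TP : ι → Module.End F P) (hcomm : ∀ i σ, TP i * ρP σ = ρP σ * TP i)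
    (Y : ι → Type) [∀ i, Fintype (Y i)] (t : ∀ i, X → Y i → X)
    (hH : ∀ i (χ₀ : H), ∃ χ' : H, (∀ x, ev χ' x = ∑ k, ev χ₀ (t i x k)) ∧
      kum χ' = TP i (kum χ₀))
    (c : ι → K)
    (heig : ∀ i x, ∑ k, (∑ j, e j * algebraMap F K (ev (χ j) (t i x k)))
      = c i * ∑ j, e j * algebraMap F K (ev (χ j) x)) :
    ∃ (V : Type) (_ : AddCommGroup V) (_ : Module K V) (_ : FiniteDimensional K V)
      (_ : Nontrivial V) (ρ : G →* Module.End K V),
      (∀ σ : G, (∀ (τ : G) (j : Fin s), ρP σ (ρP τ (kum (χ j))) = ρP τ (kum (χ j))) →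
        ρ σ = 1) ∧
      (∀ (σ : G) (i : ι) (δ : F),
        (∀ x : P, ρP σ (ρP σ x) - TP i (ρP σ x) + δ • x = 0) →
          QuadRel (ρ σ) (c i) (algebraMap F K δ)) := by
  classical
  set ρ₀ := h11em_bc K ρP with hρ₀
  set u : K ⊗[F] H := ∑ j, e j ⊗ₜ[F] χ j with hu
  set v : K ⊗[F] P := ∑ j, e j ⊗ₜ[F] kum (χ j) with hv
  have hvu : v = kum.baseChange K u := by
    rw [hu, hv, map_sum]
    rfl
  -- Θ u
  have hΘu : ∀ x, h11em_theta K ev u x = ∑ j, e j * algebraMap F K (ev (χ j) x) := by
    intro x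
    rw [hu, map_sum, Finset.sum_apply]
    exact Finset.sum_congr rfl fun j _ => h11em_theta_tmul ev (e j) (χ j) x
  have hu0 : u ≠ 0 := by
    intro h0
    obtain ⟨x, hx⟩ := hne
    apply hx
    rw [← hΘu x, h0, map_zero]
    rfl
  have hv0 : v ≠ 0 := by
    intro h0
    apply hu0
    apply h11em_baseChange_injective (K := K) kum hkum
    rw [← hvu, h0, map_zero]
  -- the orbit
  have horb : ∀ τ : G, ρ₀ τ v = ∑ j, e j ⊗ₜ[F] (ρP τ (kum (χ j))) := fun τ =>
    h11em_bc_sum ρP τ e _
  have hfinorb : (Set.range fun τ : G => ρ₀ τ v).Finite := by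
    have h1 : (Set.range fun τ : G => (fun j : Fin s => ρP τ (kum (χ j)))).Finite := by
      refine Set.Finite.subset (Set.Finite.pi' (fun j => hfin (kum (χ j)))) ?_
      rintro y ⟨τ, rfl⟩ j
      exact ⟨τ, rfl⟩
    refine Set.Finite.subset (h1.image (fun y : Fin s → P => ∑ j, e j ⊗ₜ[F] y j)) ?_
    rintro w ⟨τ, rfl⟩
    exact ⟨_, ⟨τ, rfl⟩, (horb τ).symm⟩
  haveI := h11em_finiteDimensional ρ₀ v hfinorb
  haveI := h11em_nontrivial ρ₀ v hv0
  refine ⟨h11em_span ρ₀ v, inferInstance, inferInstance, inferInstance, inferInstance,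
    h11em_rep ρ₀ v, ?_, ?_⟩
  · intro σ hσ
    refine h11em_rep_eq_one ρ₀ v σ fun τ => ?_
    rw [horb τ, h11em_bc_sum]
    exact Finset.sum_congr rfl fun j _ => by rw [hσ τ j]
  · intro σ i δ hrel
    -- the operator
    set E : Module.End K (K ⊗[F] P) := (TP i).baseChange K with hE
    have hEcomm : ∀ τ : G, E * ρ₀ τ = ρ₀ τ * E := by
      intro τ
      show (TP i).baseChange K * (ρP τ).baseChange K = (ρP τ).baseChange K * (TP i).baseChange K
      rw [← LinearMap.baseChange_mul, ← LinearMap.baseChange_mul, hcomm i τ]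
    -- the eigenvector
    choose χ' hχ'ev hχ'kum using fun j => hH i (χ j)
    set u' : K ⊗[F] H := ∑ j, e j ⊗ₜ[F] χ' j with hu'
    have hu'v : kum.baseChange K u' = E v := by
      rw [hu', hv, map_sum, map_sum]
      refine Finset.sum_congr rfl fun j _ => ?_
      show e j ⊗ₜ[F] kum (χ' j) = e j ⊗ₜ[F] (TP i (kum (χ j)))
      rw [hχ'kum j]
    have hΘu' : h11em_theta K ev u' = h11em_theta K ev (c i • u) := by
      funext x
      rw [map_smul, Pi.smul_apply, hΘu x, smul_eq_mul, ← heig i x, hu', map_sum,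
        Finset.sum_apply, Finset.sum_comm]
      refine Finset.sum_congr rfl fun j _ => ?_
      rw [h11em_theta_tmul, hχ'ev j, map_sum, Finset.mul_sum]
    have hu'u : u' = c i • u := h11em_theta_injective ev hev hΘu'
    have hEv : E v = c i • v := by
      rw [← hu'v, hu'u, map_smul, ← hvu]
    refine h11em_quadRel ρ₀ v E (c i) (algebraMap F K δ) hEcomm hEv σ ?_
    intro w
    induction w using TensorProduct.induction_on with
    | zero => simp only [map_zero, smul_zero, sub_self, add_zero]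
    | tmul a x =>
      rw [h11em_bc_tmul, h11em_bc_tmul]
      show a ⊗ₜ[F] (ρP σ (ρP σ x)) - a ⊗ₜ[F] (TP i (ρP σ x)) + algebraMap F K δ • (a ⊗ₜ[F] x) = 0
      have h1 : algebraMap F K δ • (a ⊗ₜ[F] x) = a ⊗ₜ[F] (δ • x) := by
        rw [TensorProduct.smul_tmul', smul_eq_mul, ← Algebra.smul_def, TensorProduct.smul_tmul]
      rw [h1, ← TensorProduct.tmul_sub, ← TensorProduct.tmul_add, hrel x, TensorProduct.tmul_zero]
    | add w₁ w₂ h₁ h₂ =>
      have : ρ₀ σ (ρ₀ σ (w₁ + w₂)) - E (ρ₀ σ (w₁ + w₂)) + algebraMap F K δ • (w₁ + w₂) =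
          (ρ₀ σ (ρ₀ σ w₁) - E (ρ₀ σ w₁) + algebraMap F K δ • w₁) +
          (ρ₀ σ (ρ₀ σ w₂) - E (ρ₀ σ w₂) + algebraMap F K δ • w₂) := by
        simp only [map_add, smul_add]
        abel
      rw [this, h₁, h₂, add_zero]

end abstract

end H11W3G

end
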