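import Fermat.Agent.W3G.Defs

/-!
# W3-G, slice EXT-A (helper11): quadratic relations propagate from Frobenius lifts to `G_ℚ`

* `h11xa_quadRel_pow` : `x² - a x + δ = 0 ⇒ (xⁿ)² - s_n xⁿ + δⁿ = 0` (`s_n` the Lucas sequence).
* `h11xa_mod   : ChebStatement → ExtAModStatement`
* `h11xa_adic  : ChebStatement → ExtAAdicStatement`
-/

set_option autoImplicit false
set_option linter.style.haveILetI false

noncomputable section

namespace H11W3G

/-- the Lucas sequence `s_0 = 2`, `s_1 = a`, `s_{n+2} = a s_{n+1} - δ s_n` (`= αⁿ + βⁿ`). -/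
def h11xa_lucas {R : Type*} [CommRing R] (a δ : R) : ℕ → R
  | 0 => 2
  | 1 => a
  | (n + 2) => a * h11xa_lucas a δ (n + 1) - δ * h11xa_lucas a δ n

section pow

variable {R : Type*} [CommRing R] {V : Type*} [AddCommGroup V] [Module R V]

theorem h11xa_conj_mul (x : Module.End R V) (a δ : R) (h : QuadRel x a δ) :
    x * (a • (1 : Module.End R V) - x) = δ • (1 : Module.End R V) := by
  unfold QuadRel at h
  have h1 : x * (a • (1 : Module.End R V) - x) = a • x - x * x := by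
    rw [mul_sub, mul_smul_comm, mul_one]
  rw [h1]
  have h2 : a • x - x * x = δ • (1 : Module.End R V) - (x * x - a • x + δ • (1 : Module.End R V)) := by
    abel
  rw [h2, h, sub_zero]

theorem h11xa_commute (x : Module.End R V) (a : R) :
    Commute x (a • (1 : Module.End R V) - x) := by
  refine Commute.sub_right ?_ (Commute.refl x)
  exact (Commute.one_right x).smul_right a

theorem h11xa_lucas_eq (x : Module.End R V) (a δ : R) (h : QuadRel x a δ) (n : ℕ) :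
    h11xa_lucas a δ n • (1 : Module.End R V) = x ^ n + (a • (1 : Module.End R V) - x) ^ n := by
  set y : Module.End R V := a • (1 : Module.End R V) - x with hy
  have hxy : x * y = δ • (1 : Module.End R V) := h11xa_conj_mul x a δ h
  have hc : Commute x y := h11xa_commute x a
  have hsum : x + y = a • (1 : Module.End R V) := by rw [hy]; abel
  induction n using Nat.twoStepInduction with
  | zero =>
    simp only [h11xa_lucas, pow_zero]
    rw [← one_add_one_eq_two, add_smul, one_smul]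
  | one =>
    simp only [h11xa_lucas, pow_one]
    rw [hsum]
  | more n ih0 ih1 =>
    have hrec : x ^ (n + 2) + y ^ (n + 2) =
        (x + y) * (x ^ (n + 1) + y ^ (n + 1)) - (x * y) * (x ^ n + y ^ n) := by
      have e1 : x * y * x ^ n = y * x ^ (n + 1) := by
        rw [hc.eq, mul_assoc, ← pow_succ']
      have e2 : x * y * y ^ n = x * y ^ (n + 1) := by
        rw [mul_assoc, ← pow_succ']
      rw [add_mul, mul_add, mul_add, mul_add, e1, e2, ← pow_succ', ← pow_succ']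
      abel
    rw [hrec, ← ih0, ← ih1, hsum, hxy]
    simp only [h11xa_lucas]
    rw [smul_mul_assoc, one_mul, smul_mul_assoc, one_mul, smul_smul, smul_smul, ← sub_smul]

/-- **Lucas**: `x² - a x + δ = 0 ⇒ (xⁿ)² - s_n xⁿ + δⁿ = 0`. -/
theorem h11xa_quadRel_pow (x : Module.End R V) (a δ : R) (h : QuadRel x a δ) (n : ℕ) :
    QuadRel (x ^ n) (h11xa_lucas a δ n) (δ ^ n) := by
  set y : Module.End R V := a • (1 : Module.End R V) - x with hy
  have hxy : x * y = δ • (1 : Module.End R V) := h11xa_conj_mul x a δ h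
  have hc : Commute x y := h11xa_commute x a
  have hl := h11xa_lucas_eq x a δ h n
  rw [← hy] at hl
  unfold QuadRel
  have h1 : h11xa_lucas a δ n • x ^ n = (x ^ n + y ^ n) * x ^ n := by
    rw [← hl, smul_mul_assoc, one_mul]
  have h2 : δ ^ n • (1 : Module.End R V) = y ^ n * x ^ n := by
    have : (δ • (1 : Module.End R V)) ^ n = δ ^ n • (1 : Module.End R V) := by
      rw [smul_pow, one_pow]
    rw [← this, ← hxy, hc.mul_pow, (hc.pow_pow n n).eq]
  rw [h1, h2, add_mul]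
  abel

end pow

/-! ## EXT-A mod `p` -/

theorem h11xa_fix_of_agree {L : IntermediateField ℚ (AlgebraicClosure ℚ)} {g σ : GQ} {b : ℕ}
    (h : ∀ x ∈ L, (σ ^ b) x = g x) : ∀ x ∈ L, (g⁻¹ * σ ^ b) x = x := by
  intro x hx
  rw [AlgEquiv.mul_apply, h x hx]
  exact g.symm_apply_apply x

/-- **EXT-A mod p** from weak Chebotarev. -/
theorem h11xa_mod (hC : ChebStatement) : ExtAModStatement := by
  intro K _ V _ _ ρ d S a hρ hd hF g
  obtain ⟨L₁, hL₁, hρL⟩ := hρ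
  obtain ⟨L₂, hL₂, hdL⟩ := hd
  haveI := hL₁
  haveI := hL₂
  obtain ⟨ℓ, A, σ, b, hℓ, hℓS, hA, hσ, _hb, hag⟩ :=
    hC (L₁ ⊔ L₂) inferInstance g S
  have hfix := h11xa_fix_of_agree hag
  have h1 : ρ (g⁻¹ * σ ^ b) = 1 := hρL _ fun x hx => hfix x (le_sup_left (a := L₁) (b := L₂) hx)
  have h2 : d (g⁻¹ * σ ^ b) = 1 := hdL _ fun x hx => hfix x (le_sup_right (a := L₁) (b := L₂) hx)
  have hρg : ρ g = ρ σ ^ b := by
    have : ρ (σ ^ b) = ρ g * ρ (g⁻¹ * σ ^ b) := by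
      rw [← map_mul, mul_inv_cancel_left]
    rw [← map_pow, this, h1, mul_one]
  have hdg : d g = d σ ^ b := by
    have : d (σ ^ b) = d g * d (g⁻¹ * σ ^ b) := by
      rw [← map_mul, mul_inv_cancel_left]
    rw [← map_pow, this, h2, mul_one]
  have hq := h11xa_quadRel_pow (ρ σ) (a ℓ) ((d σ : Kˣ) : K) (hF ℓ hℓ hℓS A hA σ hσ) b
  refine ⟨h11xa_lucas (a ℓ) ((d σ : Kˣ) : K) b, ?_⟩
  rw [hρg, hdg, Units.val_pow_eq_pow_val]
  exact hq


/-! ## EXT-A `p`-adic -/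

section adic

variable {𝒪 : Type*} [CommRing 𝒪] {M : Type*} [AddCommGroup M] [Module 𝒪 M]

/-- endomorphisms mapping `M` into `I • M` -/
def h11xa_Small (I : Ideal 𝒪) (f : Module.End 𝒪 M) : Prop :=
  ∀ v : M, f v ∈ I • (⊤ : Submodule 𝒪 M)

theorem h11xa_preserve (I : Ideal 𝒪) (f : Module.End 𝒪 M) {v : M}
    (hv : v ∈ I • (⊤ : Submodule 𝒪 M)) : f v ∈ I • (⊤ : Submodule 𝒪 M) := by
  have h1 : Submodule.map f (I • (⊤ : Submodule 𝒪 M)) ≤ I • (⊤ : Submodule 𝒪 M) := by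
    rw [Submodule.map_smul'']
    exact Submodule.smul_mono (le_refl I) le_top
  exact h1 (Submodule.mem_map_of_mem hv)

theorem h11xa_Small.add {I : Ideal 𝒪} {f g : Module.End 𝒪 M} (hf : h11xa_Small I f)
    (hg : h11xa_Small I g) : h11xa_Small I (f + g) := fun v =>
  Submodule.add_mem _ (hf v) (hg v)

theorem h11xa_Small.sub {I : Ideal 𝒪} {f g : Module.End 𝒪 M} (hf : h11xa_Small I f)
    (hg : h11xa_Small I g) : h11xa_Small I (f - g) := fun v =>
  Submodule.sub_mem _ (hf v) (hg v)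

theorem h11xa_Small.smul {I : Ideal 𝒪} {f : Module.End 𝒪 M} (hf : h11xa_Small I f) (c : 𝒪) :
    h11xa_Small I (c • f) := fun v => Submodule.smul_mem _ c (hf v)

theorem h11xa_Small.mul_left {I : Ideal 𝒪} {f : Module.End 𝒪 M} (hf : h11xa_Small I f)
    (g : Module.End 𝒪 M) : h11xa_Small I (g * f) := fun v => h11xa_preserve I g (hf v)

theorem h11xa_Small.mul_right {I : Ideal 𝒪} {f : Module.End 𝒪 M} (hf : h11xa_Small I f)
    (g : Module.End 𝒪 M) : h11xa_Small I (f * g) := fun v => hf (g v)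

theorem h11xa_Small.mono {I J : Ideal 𝒪} (hIJ : I ≤ J) {f : Module.End 𝒪 M}
    (hf : h11xa_Small I f) : h11xa_Small J f := fun v =>
  Submodule.smul_mono_left hIJ (hf v)

theorem h11xa_small_of_mem {I : Ideal 𝒪} {c : 𝒪} (hc : c ∈ I) :
    h11xa_Small I (c • (1 : Module.End 𝒪 M)) := fun v =>
  Submodule.smul_mem_smul hc (Submodule.mem_top (x := v))

/-- a linear functional maps `I • M` into `I` -/
theorem h11xa_functional_mem (I : Ideal 𝒪) (φ : M →ₗ[𝒪] 𝒪) {v : M}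
    (hv : v ∈ I • (⊤ : Submodule 𝒪 M)) : φ v ∈ I := by
  refine Submodule.smul_induction_on hv ?_ ?_
  · intro r hr m _
    rw [map_smul, smul_eq_mul]
    exact Ideal.mul_mem_right _ _ hr
  · intro x y hx hy
    rw [map_add]
    exact Ideal.add_mem _ hx hy

/-- on a nontrivial free module, a small scalar endomorphism has a small scalar -/
theorem h11xa_mem_of_small [Module.Free 𝒪 M] [Nontrivial M] {I : Ideal 𝒪} {c : 𝒪}
    (hc : h11xa_Small I (c • (1 : Module.End 𝒪 M))) : c ∈ I := by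
  classical
  let b := Module.Free.chooseBasis 𝒪 M
  haveI : Nonempty (Module.Free.ChooseBasisIndex 𝒪 M) := b.index_nonempty
  obtain ⟨i⟩ := ‹Nonempty (Module.Free.ChooseBasisIndex 𝒪 M)›
  have h1 := h11xa_functional_mem I (b.coord i) (hc (b i))
  have h2 : b.coord i ((c • (1 : Module.End 𝒪 M)) (b i)) = c := by
    rw [LinearMap.smul_apply, Module.End.one_apply, map_smul, Module.Basis.coord_apply,
      Module.Basis.repr_self, Finsupp.single_eq_same, smul_eq_mul, mul_one]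
  rwa [h2] at h1

end adic

/-- **EXT-A p-adic** from weak Chebotarev. -/
theorem h11xa_adic (hC : ChebStatement) : ExtAAdicStatement := by
  intro 𝒪 _ _ _ _ M _ _ _ _ _ ρ d S a hρ hd hF g
  set 𝔪 : Ideal 𝒪 := IsLocalRing.maximalIdeal 𝒪 with h𝔪
  -- the relation modulo `𝔪ⁿ`
  have step1 : ∀ n : ℕ, ∃ t : 𝒪,
      h11xa_Small (𝔪 ^ n) (ρ g * ρ g - t • ρ g + ((d g : 𝒪ˣ) : 𝒪) • (1 : Module.End 𝒪 M)) := by
    intro n
    obtain ⟨L₁, hL₁, hρL⟩ := hρ n
    obtain ⟨L₂, hL₂, hdL⟩ := hd n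
    haveI := hL₁
    haveI := hL₂
    obtain ⟨ℓ, A, σ, b, hℓ, hℓS, hA, hσ, _hb, hag⟩ :=
      hC (L₁ ⊔ L₂) inferInstance g S
    have hfix := h11xa_fix_of_agree hag
    set τ : GQ := g⁻¹ * σ ^ b with hτ
    have h1 : h11xa_Small (𝔪 ^ n) (ρ τ - 1) := fun v =>
      hρL τ (fun x hx => hfix x (le_sup_left (a := L₁) (b := L₂) hx)) v
    have h2 : ((d τ : 𝒪ˣ) : 𝒪) - 1 ∈ 𝔪 ^ n :=
      hdL τ fun x hx => hfix x (le_sup_right (a := L₁) (b := L₂) hx)
    have hX : ρ σ ^ b = ρ g * ρ τ := by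
      rw [← map_pow, ← map_mul, hτ, mul_inv_cancel_left]
    have hΔ : ((d σ : 𝒪ˣ) : 𝒪) ^ b = ((d g : 𝒪ˣ) : 𝒪) * ((d τ : 𝒪ˣ) : 𝒪) := by
      rw [← Units.val_pow_eq_pow_val, ← map_pow, ← Units.val_mul, ← map_mul, hτ,
        mul_inv_cancel_left]
    have hq := h11xa_quadRel_pow (ρ σ) (a ℓ) ((d σ : 𝒪ˣ) : 𝒪) (hF ℓ hℓ hℓS A hA σ hσ) b
    unfold QuadRel at hq
    refine ⟨h11xa_lucas (a ℓ) ((d σ : 𝒪ˣ) : 𝒪) b, ?_⟩
    set s := h11xa_lucas (a ℓ) ((d σ : 𝒪ˣ) : 𝒪) b with hs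
    set X := ρ σ ^ b with hXdef
    -- `X - ρ g` is small
    have hXg : h11xa_Small (𝔪 ^ n) (X - ρ g) := by
      have : X - ρ g = ρ g * (ρ τ - 1) := by rw [hX, mul_sub, mul_one]
      rw [this]
      exact h1.mul_left _
    have hΔg : h11xa_Small (𝔪 ^ n)
        ((((d σ : 𝒪ˣ) : 𝒪) ^ b - ((d g : 𝒪ˣ) : 𝒪)) • (1 : Module.End 𝒪 M)) := by
      refine h11xa_small_of_mem ?_
      have : ((d σ : 𝒪ˣ) : 𝒪) ^ b - ((d g : 𝒪ˣ) : 𝒪) =
          ((d g : 𝒪ˣ) : 𝒪) * (((d τ : 𝒪ˣ) : 𝒪) - 1) := by rw [hΔ]; ring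
      rw [this]
      exact Ideal.mul_mem_left _ _ h2
    have key : ρ g * ρ g - s • ρ g + ((d g : 𝒪ˣ) : 𝒪) • (1 : Module.End 𝒪 M) =
        (X * X - s • X + ((d σ : 𝒪ˣ) : 𝒪) ^ b • (1 : Module.End 𝒪 M))
          - (X * (X - ρ g) + (X - ρ g) * ρ g - s • (X - ρ g)
            + (((d σ : 𝒪ˣ) : 𝒪) ^ b - ((d g : 𝒪ˣ) : 𝒪)) • (1 : Module.End 𝒪 M)) := by
      rw [mul_sub, sub_mul, smul_sub, sub_smul]
      abel
    rw [key, hq, zero_sub]
    intro v
    have := (((hXg.mul_left X).add (hXg.mul_right (ρ g))).sub (hXg.smul s)).add hΔg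
    have h3 := this v
    rw [LinearMap.neg_apply]
    exact Submodule.neg_mem _ h3
  choose t ht using step1
  -- `ρ g` is invertible
  have hinv : ρ g * ρ g⁻¹ = 1 := by rw [← map_mul, mul_inv_cancel, map_one]
  -- the sequence `t n` is Cauchy
  have step2 : ∀ {m n : ℕ}, m ≤ n → t m - t n ∈ 𝔪 ^ m := by
    intro m n hmn
    have h1 : h11xa_Small (𝔪 ^ m) ((t m - t n) • ρ g) := by
      have e : (t m - t n) • ρ g =
          (ρ g * ρ g - t n • ρ g + ((d g : 𝒪ˣ) : 𝒪) • (1 : Module.End 𝒪 M))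
            - (ρ g * ρ g - t m • ρ g + ((d g : 𝒪ˣ) : 𝒪) • (1 : Module.End 𝒪 M)) := by
        rw [sub_smul]; abel
      rw [e]
      exact ((ht n).mono (Ideal.pow_le_pow_right hmn)).sub (ht m)
    have h2 : h11xa_Small (𝔪 ^ m) ((t m - t n) • (1 : Module.End 𝒪 M)) := by
      have e : (t m - t n) • (1 : Module.End 𝒪 M) = ((t m - t n) • ρ g) * ρ g⁻¹ := by
        rw [smul_mul_assoc, hinv]
      rw [e]
      exact h1.mul_right _
    exact h11xa_mem_of_small h2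
  -- the limit
  have hprec : IsPrecomplete 𝔪 𝒪 := inferInstance
  obtain ⟨T, hT⟩ := hprec.prec' t (fun {m n} hmn => by
    rw [SModEq.sub_mem, smul_eq_mul, Ideal.mul_top]
    exact step2 hmn)
  have hT' : ∀ n, t n - T ∈ 𝔪 ^ n := by
    intro n
    have := hT n
    rwa [SModEq.sub_mem, smul_eq_mul, Ideal.mul_top] at this
  refine ⟨T, ?_⟩
  unfold QuadRel
  -- the relation holds modulo every `𝔪ⁿ`
  have hsmall : ∀ n, h11xa_Small (𝔪 ^ n)
      (ρ g * ρ g - T • ρ g + ((d g : 𝒪ˣ) : 𝒪) • (1 : Module.End 𝒪 M)) := by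
    intro n
    have e : ρ g * ρ g - T • ρ g + ((d g : 𝒪ˣ) : 𝒪) • (1 : Module.End 𝒪 M) =
        (ρ g * ρ g - t n • ρ g + ((d g : 𝒪ˣ) : 𝒪) • (1 : Module.End 𝒪 M))
          + ((t n - T) • (1 : Module.End 𝒪 M)) * ρ g := by
      rw [smul_mul_assoc, one_mul, sub_smul]; abel
    rw [e]
    exact (ht n).add ((h11xa_small_of_mem (hT' n)).mul_right _)
  have hkrull : (⨅ i : ℕ, 𝔪 ^ i • ⊤ : Submodule 𝒪 M) = ⊥ :=
    Ideal.iInf_pow_smul_eq_bot_of_isLocalRing 𝔪 (IsLocalRing.maximalIdeal.isMaximal 𝒪).ne_top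
  ext v
  rw [LinearMap.zero_apply]
  have hv : (ρ g * ρ g - T • ρ g + ((d g : 𝒪ˣ) : 𝒪) • (1 : Module.End 𝒪 M)) v ∈
      (⨅ i : ℕ, 𝔪 ^ i • ⊤ : Submodule 𝒪 M) := by
    rw [Submodule.mem_iInf]
    exact fun n => hsmall n v
  rw [hkrull] at hv
  exact (Submodule.mem_bot 𝒪).mp hv

end H11W3G

end
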