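/-
helper13, item 80 (W3-G), slice HEQ, part 1 (NORM-AN): the analytic norm formula.

`F = F_N ℚ̄ ⊆ F' = F_{Nℓ} ℚ̄` (`α` = inclusion), `β = (q ↦ q^ℓ) : F → F'`, `ℓ` prime, `ℓ ∤ N`,
`phi N : F →+* Mer` the realisation of helper24 (`RR/DictPhi.lean`).  Then

  `phi N (Norm_α (β y)) = ∏_{x ∈ P¹(𝔽_ℓ)} (phi N y) ∘ heckeRep ℓ x`     (`norm_an`)

i.e. the realisation of `T_ℓ (div y) = div (Norm_α (β y))` is the product of the `ℓ + 1` Hecke
translates of the realisation of `y`.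
-/
import Mathlib
import Fermat.Agent.RR.DictMain1
import Fermat.Agent.S37.R3Norm_helper13
import Fermat.Agent.S16.H21ADefs
import Fermat.Agent.S24.BC2J

set_option autoImplicit false
set_option linter.style.haveILetI false
set_option linter.unusedSectionVars false
set_option linter.unusedVariables false
set_option linter.style.longLine false

noncomputable section

open UpperHalfPlane ModularForm MatrixGroups CongruenceSubgroup AlgebraicCurve IntermediateField
open ModularCurve RH24 H24D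
open P2MW.S_ModularForm_heckeU_slash_eq_self_of_mem_Gamma0.ModularForm.HeckeSlashInvariance

namespace H13HEQ

section Basic

theorem det_heckeRep_pos (ℓ : ℕ) (x : OnePoint (ZMod ℓ)) : 0 < ((heckeRep ℓ x).det : ℝ) := by
  induction x using OnePoint.rec with
  | infty => exact det_heckeDiagMatrix_pos ℓ
  | coe j => exact det_heckeMatrix_pos ℓ j.val

/-- precomposition with the Hecke representative `heckeRep ℓ x` on `Mer` -/
def preRep (ℓ : ℕ) (x : OnePoint (ZMod ℓ)) : Mer →+* Mer :=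
  precompMerGL (heckeRep ℓ x) (det_heckeRep_pos ℓ x)

theorem precompMerGL_constMer (g : GL (Fin 2) ℝ) (hg : 0 < g.det.val) (c : ℂ) :
    precompMerGL g hg (constMer c) = constMer c := by
  have h0 : precompGL g hg (constHol c) = constHol c := by
    apply Subtype.ext
    funext z
    rfl
  rw [constMer_apply, precompMerGL_algebraMap, h0]

theorem jdMer_congr {M M' : ℕ} [NeZero M] [NeZero M'] (d : Dv M) (d' : Dv M') (h : d.1 = d'.1) :
    jdMer d = jdMer d' := by
  have h1 : jdHol d = jdHol d' := by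
    apply Subtype.ext
    funext z
    show jd d.1 z = jd d'.1 z
    rw [h]
  unfold jdMer
  rw [h1]

theorem precompMerGL_jdMer {M : ℕ} [NeZero M] (g : GL (Fin 2) ℝ) (hg : 0 < g.det.val) (d : Dv M)
    (f : H24D.Hol) (hf : ∀ z, jd d.1 (g • z) = (f : ℍ → ℂ) z) :
    precompMerGL g hg (jdMer d) = algebraMap H24D.Hol Mer f := by
  have h1 : precompGL g hg (jdHol d) = f := by
    apply Subtype.ext
    funext z
    exact hf z
  unfold jdMer
  rw [precompMerGL_algebraMap, h1]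

end Basic

section Emb

variable (N ℓ : ℕ) [NeZero N] [NeZero ℓ]

/-- the analytic partial Atkin–Lehner swap -/
theorem exists_Omega (hℓ : ℓ.Prime) (hℓN : ¬ ℓ ∣ N) : ∃ Ω : modularFunctionFieldBar (N * ℓ) →+* Mer,
    (∀ d, Ω (Jgen d) = jdMer (H29W.h29w_swap N ℓ hℓ d)) ∧
      ∀ c : Kbar, Ω (algebraMap Kbar _ c) = constMer (iota c) := by
  refine RH24.exists_real (N * ℓ) constMer (fun d => jdMer (H29W.h29w_swap N ℓ hℓ d)) ?_
  intro P
  rw [H29W.h29w_formal_swap N ℓ hℓ hℓN, eval₂_constMer_eq_zero_iff (N * ℓ),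
    MvPolynomial.eval₂_rename]
  rfl

/-- the analytic partial Atkin–Lehner swap `Ω : F' → Mer`,
`j(q^d) ↦ j(dℓ z)`, `j(q^{dℓ}) ↦ j(d z)` (`d ∣ N`) -/
def Omega (hℓ : ℓ.Prime) (hℓN : ¬ ℓ ∣ N) : modularFunctionFieldBar (N * ℓ) →+* Mer :=
  (exists_Omega N ℓ hℓ hℓN).choose

theorem Omega_Jgen (hℓ : ℓ.Prime) (hℓN : ¬ ℓ ∣ N) (d : Dv (N * ℓ)) :
    Omega N ℓ hℓ hℓN (Jgen d) = jdMer (H29W.h29w_swap N ℓ hℓ d) :=
  (exists_Omega N ℓ hℓ hℓN).choose_spec.1 d

theorem Omega_const (hℓ : ℓ.Prime) (hℓN : ¬ ℓ ∣ N) (c : Kbar) :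
    Omega N ℓ hℓ hℓN (algebraMap Kbar _ c) = constMer (iota c) :=
  (exists_Omega N ℓ hℓ hℓN).choose_spec.2 c

/-- the `ℓ + 1` embeddings `F' → Mer` over `F` -/
def embAn (hℓ : ℓ.Prime) (hℓN : ¬ ℓ ∣ N) :
    OnePoint (ZMod ℓ) → (modularFunctionFieldBar (N * ℓ) →+* Mer)
  | none => phi (N * ℓ)
  | some j => (precompMerGL (heckeMatrix ℓ j.val) (det_heckeMatrix_pos ℓ j.val)).comp
      (Omega N ℓ hℓ hℓN)

theorem embAn_infty (hℓ : ℓ.Prime) (hℓN : ¬ ℓ ∣ N) : embAn N ℓ hℓ hℓN (OnePoint.infty : OnePoint (ZMod ℓ)) = phi (N * ℓ) := rfl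

theorem embAn_coe (hℓ : ℓ.Prime) (hℓN : ¬ ℓ ∣ N) (j : ZMod ℓ) : embAn N ℓ hℓ hℓN (j : OnePoint (ZMod ℓ)) =
    (precompMerGL (heckeMatrix ℓ j.val) (det_heckeMatrix_pos ℓ j.val)).comp
      (Omega N ℓ hℓ hℓN) := rfl

theorem embAn_const (hℓ : ℓ.Prime) (hℓN : ¬ ℓ ∣ N) (x : OnePoint (ZMod ℓ)) (c : Kbar) :
    embAn N ℓ hℓ hℓN x (algebraMap Kbar _ c) = constMer (iota c) := by
  induction x using OnePoint.rec with
  | infty => rw [embAn_infty]; exact phi_const (N * ℓ) c
  | coe j =>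
    rw [embAn_coe, RingHom.comp_apply, Omega_const, precompMerGL_constMer]

/-- `j(dℓ · (z + j)/ℓ) = j(d z)` -/
theorem jd_mul_heckeMatrix (d : ℕ) (hd : d ≠ 0) (j : ℕ) (z : ℍ) :
    jd (d * ℓ) (heckeMatrix ℓ j • z) = jd d z := by
  have hℓ0 : ℓ ≠ 0 := NeZero.ne ℓ
  have hℓC : (ℓ : ℂ) ≠ 0 := by exact_mod_cast hℓ0
  unfold jd
  rw [← h23c_jf_vadd (d * j) (heckeDiagMatrix d • z)]
  congr 1
  apply UpperHalfPlane.ext
  rw [coe_heckeDiagMatrix_smul (Nat.mul_ne_zero hd hℓ0), coe_heckeMatrix_smul hℓ0,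
    UpperHalfPlane.coe_vadd, coe_heckeDiagMatrix_smul hd]
  push_cast
  field_simp
  ring

theorem embAn_alpha (hℓ : ℓ.Prime) (hℓN : ¬ ℓ ∣ N) (x : OnePoint (ZMod ℓ))
    (y : modularFunctionFieldBar N) :
    embAn N ℓ hℓ hℓN x (heckeAlphaBar Kbar N ℓ y) = phi N y := by
  have key : (embAn N ℓ hℓ hℓN x).comp (heckeAlphaBar Kbar N ℓ).toRingHom = phi N := by
    apply H13R3.ringHom_ext_bar
    · intro c
      show embAn N ℓ hℓ hℓN x (heckeAlphaBar Kbar N ℓ (algebraMap Kbar _ c)) = _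
      rw [AlgHom.commutes, embAn_const, phi_const]
    · intro d
      show embAn N ℓ hℓ hℓN x (heckeAlphaBar Kbar N ℓ (Jgen d)) = _
      rw [H13R3.alpha_Jgen, phi_Jgen]
      induction x using OnePoint.rec with
      | infty =>
        rw [embAn_infty, phi_Jgen]
        exact jdMer_congr _ _ rfl
      | coe j =>
        rw [embAn_coe, RingHom.comp_apply, Omega_Jgen]
        have hnd : ¬ ℓ ∣ (⟨d.1, d.2.mul_right ℓ⟩ : Dv (N * ℓ)).1 := fun h => hℓN (h.trans d.2)
        refine (precompMerGL_jdMer _ _ _ (jdHol d) fun z => ?_).trans rfl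
        rw [H29W.h29w_swap_of_not_dvd N ℓ hℓ _ hnd]
        exact jd_mul_heckeMatrix ℓ d.1 (Dv_ne_zero d) j.val z
  exact RingHom.congr_fun key y

theorem embAn_beta (hℓ : ℓ.Prime) (hℓN : ¬ ℓ ∣ N) (x : OnePoint (ZMod ℓ))
    (y : modularFunctionFieldBar N) :
    embAn N ℓ hℓ hℓN x (heckeBetaBar Kbar N ℓ y) = preRep ℓ x (phi N y) := by
  have key : (embAn N ℓ hℓ hℓN x).comp (heckeBetaBar Kbar N ℓ).toRingHom
      = (preRep ℓ x).comp (phi N) := by
    apply H13R3.ringHom_ext_bar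
    · intro c
      show embAn N ℓ hℓ hℓN x (heckeBetaBar Kbar N ℓ (algebraMap Kbar _ c))
        = preRep ℓ x (phi N (algebraMap Kbar _ c))
      rw [AlgHom.commutes, embAn_const, phi_const]
      exact (precompMerGL_constMer _ _ _).symm
    · intro d
      show embAn N ℓ hℓ hℓN x (heckeBetaBar Kbar N ℓ (Jgen d)) = preRep ℓ x (phi N (Jgen d))
      rw [H13R3.beta_Jgen, phi_Jgen]
      have hdv : ℓ ∣ (⟨d.1 * ℓ, Nat.mul_dvd_mul_right d.2 ℓ⟩ : Dv (N * ℓ)).1 :=
        Dvd.intro_left _ rfl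
      induction x using OnePoint.rec with
      | infty =>
        rw [embAn_infty, phi_Jgen]
        symm
        refine precompMerGL_jdMer _ _ _ (jdHol _) fun z => ?_
        exact H29W.h29w_jd_diag ℓ d.1 (Dv_ne_zero d) z
      | coe j =>
        rw [embAn_coe, RingHom.comp_apply, Omega_Jgen]
        have h1 : (H29W.h29w_swap N ℓ hℓ
            (⟨d.1 * ℓ, Nat.mul_dvd_mul_right d.2 ℓ⟩ : Dv (N * ℓ))).1 = d.1 := by
          rw [H29W.h29w_swap_of_dvd N ℓ hℓ _ hdv]
          exact Nat.mul_div_cancel _ hℓ.pos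
        rw [jdMer_congr _ d h1]
        rfl
  exact RingHom.congr_fun key y

end Emb

section Distinct

variable (ℓ : ℕ) [NeZero ℓ]

/-- `(z + j)/ℓ + x = (z' + j')/ℓ`-type identities: the point `M_j • z` translated by `x`. -/
theorem T_smul_heckeMatrix (x : ℝ) (j : ℕ) (z z' : ℍ) (j' : ℕ)
    (h : (z : ℂ) + j + x * ℓ = (z' : ℂ) + j') :
    H23.h12_T x • (heckeMatrix ℓ j • z) = heckeMatrix ℓ j' • z' := by
  have hℓ0 : ℓ ≠ 0 := NeZero.ne ℓ
  have hℓC : (ℓ : ℂ) ≠ 0 := by exact_mod_cast hℓ0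
  apply UpperHalfPlane.ext
  rw [H23.h12_T_coe_smul, coe_heckeMatrix_smul hℓ0, coe_heckeMatrix_smul hℓ0, ← h]
  field_simp

theorem exists_heckeMatrix_smul_eq (j : ℕ) (w : ℍ) : ∃ z : ℍ, heckeMatrix ℓ j • z = w :=
  ⟨(heckeMatrix ℓ j)⁻¹ • w, smul_inv_smul _ _⟩

theorem not_int_inv (hℓ : ℓ.Prime) : ¬ ∃ n : ℤ, (1 / (ℓ : ℝ)) = n := by
  rintro ⟨n, hn⟩
  have hℓ0 : (ℓ : ℝ) ≠ 0 := by exact_mod_cast hℓ.ne_zero
  have h1 : (1 : ℝ) = n * ℓ := by
    field_simp at hn
    linarith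
  have h2 : (1 : ℤ) = n * ℓ := by exact_mod_cast h1
  have h3 : (ℓ : ℤ) ∣ 1 := ⟨n, by rw [h2]; ring⟩
  have h4 : ℓ ∣ 1 := by exact_mod_cast h3
  exact hℓ.one_lt.ne' (Nat.dvd_one.mp h4)

/-- the `ℓ + 1` Hecke translates of `j` are pairwise distinct -/
theorem rep_injective (hℓ : ℓ.Prime) {x x' : OnePoint (ZMod ℓ)}
    (h : ∀ z : ℍ, jf (heckeRep ℓ x • z) = jf (heckeRep ℓ x' • z)) : x = x' := by
  have hℓ0 : ℓ ≠ 0 := NeZero.ne ℓ
  have hℓR : (ℓ : ℝ) ≠ 0 := by exact_mod_cast hℓ0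
  -- `∞` versus `j`
  have key1 : ∀ j : ZMod ℓ,
      (∀ z : ℍ, jf (heckeDiagMatrix ℓ • z) = jf (heckeMatrix ℓ j.val • z)) → False := by
    intro j hj
    apply not_int_inv ℓ hℓ
    apply h15b_int_of_jf_T
    intro w
    obtain ⟨z, rfl⟩ := exists_heckeMatrix_smul_eq ℓ j.val w
    have e1 : H23.h12_T (1 / (ℓ : ℝ)) • (heckeMatrix ℓ j.val • z)
        = heckeMatrix ℓ j.val • (((1 : ℕ) : ℝ) +ᵥ z) := by
      apply T_smul_heckeMatrix
      rw [UpperHalfPlane.coe_vadd]
      push_cast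
      field_simp
      ring
    have e2 : heckeDiagMatrix ℓ • (((1 : ℕ) : ℝ) +ᵥ z) = ((ℓ : ℕ) : ℝ) +ᵥ (heckeDiagMatrix ℓ • z) := by
      apply UpperHalfPlane.ext
      rw [coe_heckeDiagMatrix_smul hℓ0, UpperHalfPlane.coe_vadd, UpperHalfPlane.coe_vadd,
        coe_heckeDiagMatrix_smul hℓ0]
      push_cast
      ring
    rw [e1, ← hj, e2, h23c_jf_vadd, hj]
  -- `j` versus `j'`
  have key2 : ∀ j j' : ZMod ℓ,
      (∀ z : ℍ, jf (heckeMatrix ℓ j.val • z) = jf (heckeMatrix ℓ j'.val • z)) → j = j' := by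
    intro j j' hj
    have h1 : ∃ n : ℤ, (((j'.val : ℝ) - j.val) / ℓ) = n := by
      apply h15b_int_of_jf_T
      intro w
      obtain ⟨z, rfl⟩ := exists_heckeMatrix_smul_eq ℓ j.val w
      have e1 : H23.h12_T (((j'.val : ℝ) - j.val) / ℓ) • (heckeMatrix ℓ j.val • z)
          = heckeMatrix ℓ j'.val • z := by
        apply T_smul_heckeMatrix
        push_cast
        field_simp
        ring
      rw [e1, hj]
    obtain ⟨n, hn⟩ := h1
    have h2 : ((j'.val : ℝ) - j.val) = n * ℓ := by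
      field_simp at hn
      linarith
    have h3 : ((j'.val : ℤ) - j.val) = n * ℓ := by exact_mod_cast h2
    have h4 : ((j'.val : ℤ) : ZMod ℓ) = ((j.val : ℤ) : ZMod ℓ) := by
      have := congrArg (Int.cast : ℤ → ZMod ℓ) h3
      push_cast at this
      simp only [CharP.cast_eq_zero, mul_zero] at this
      push_cast
      exact sub_eq_zero.mp this
    simpa using h4.symm
  induction x using OnePoint.rec with
  | infty =>
    induction x' using OnePoint.rec with
    | infty => rfl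
    | coe j' => exact (key1 j' h).elim
  | coe j =>
    induction x' using OnePoint.rec with
    | infty => exact (key1 j fun z => (h z).symm).elim
    | coe j' => exact congrArg _ (key2 j j' h)

end Distinct

section Norm

variable (N ℓ : ℕ) [NeZero N] [NeZero ℓ]

theorem embAn_beta_Jbar (hℓ : ℓ.Prime) (hℓN : ¬ ℓ ∣ N) (x : OnePoint (ZMod ℓ)) :
    embAn N ℓ hℓ hℓN x (heckeBetaBar Kbar N ℓ (Jbar N))
      = algebraMap H24D.Hol Mer (precompGL (heckeRep ℓ x) (det_heckeRep_pos ℓ x) jHol) := by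
  rw [embAn_beta, phi_Jbar]
  exact precompMerGL_algebraMap _ _ _

theorem embAn_injective (hℓ : ℓ.Prime) (hℓN : ¬ ℓ ∣ N) :
    Function.Injective (embAn N ℓ hℓ hℓN) := by
  intro x x' h
  apply rep_injective ℓ hℓ
  intro z
  have h1 := congrArg (fun σ => σ (heckeBetaBar Kbar N ℓ (Jbar N))) h
  simp only [embAn_beta_Jbar] at h1
  have h2 := IsFractionRing.injective H24D.Hol Mer h1
  have h3 := congrArg (fun f : H24D.Hol => (f : ℍ → ℂ) z) h2
  exact h3

set_option synthInstance.maxHeartbeats 400000 in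
set_option maxHeartbeats 3200000 in
/-- **NORM-AN**: the realisation of `Norm_α (β y)` is the product of the `ℓ + 1` Hecke translates
of the realisation of `y`. -/
theorem norm_an (hℓ : ℓ.Prime) (hℓN : ¬ ℓ ∣ N) (y : modularFunctionFieldBar N) :
    phi N (H8S37.h8r_normBeta N ℓ y) = ∏ x : OnePoint (ZMod ℓ), preRep ℓ x (phi N y) := by
  classical
  letI iA : Algebra (modularFunctionFieldBar N) (modularFunctionFieldBar (N * ℓ)) :=
    algebraAlong (heckeAlphaBar Kbar N ℓ)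
  haveI hfd : FiniteDimensional (modularFunctionFieldBar N) (modularFunctionFieldBar (N * ℓ)) :=
    H13R3.finiteDimensional_along_alpha N ℓ hℓ hℓN
  have hrank : Module.finrank (modularFunctionFieldBar N) (modularFunctionFieldBar (N * ℓ))
      = ℓ + 1 := H13R3.finrank_along_alpha N ℓ hℓ hℓN
  letI iE : Algebra (modularFunctionFieldBar N) (AlgebraicClosure Mer) :=
    ((algebraMap Mer (AlgebraicClosure Mer)).comp (phi N)).toAlgebra
  haveI : CharZero (modularFunctionFieldBar N) :=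
    charZero_of_injective_algebraMap (algebraMap Kbar (modularFunctionFieldBar N)).injective
  haveI : Algebra.IsSeparable (modularFunctionFieldBar N) (modularFunctionFieldBar (N * ℓ)) :=
    inferInstance
  -- the algebra embeddings
  let g : OnePoint (ZMod ℓ) → (modularFunctionFieldBar (N * ℓ) →ₐ[modularFunctionFieldBar N]
      AlgebraicClosure Mer) := fun o =>
    { toRingHom := (algebraMap Mer (AlgebraicClosure Mer)).comp (embAn N ℓ hℓ hℓN o)
      commutes' := fun y => by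
        show algebraMap Mer (AlgebraicClosure Mer)
            (embAn N ℓ hℓ hℓN o (heckeAlphaBar Kbar N ℓ y))
          = algebraMap Mer (AlgebraicClosure Mer) (phi N y)
        rw [embAn_alpha N ℓ hℓ hℓN] }
  have hg_apply : ∀ o (z : modularFunctionFieldBar (N * ℓ)),
      g o z = algebraMap Mer (AlgebraicClosure Mer) (embAn N ℓ hℓ hℓN o z) := fun _ _ => rfl
  have hinjE : Function.Injective (algebraMap Mer (AlgebraicClosure Mer)) :=
    (algebraMap Mer (AlgebraicClosure Mer)).injective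
  have hg_inj : Function.Injective g := by
    intro o o' h
    apply embAn_injective N ℓ hℓ hℓN
    ext z
    have h1 := congrArg (fun σ => σ z) h
    simp only [hg_apply] at h1
    exact hinjE h1
  have hcard : Fintype.card (OnePoint (ZMod ℓ)) =
      Fintype.card (modularFunctionFieldBar (N * ℓ) →ₐ[modularFunctionFieldBar N]
        AlgebraicClosure Mer) := by
    rw [AlgHom.card, hrank]
    show Fintype.card (Option (ZMod ℓ)) = _
    rw [Fintype.card_option, ZMod.card]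
  have hg : Function.Bijective g := (Fintype.bijective_iff_injective_and_card g).2 ⟨hg_inj, hcard⟩
  have hnorm := Algebra.norm_eq_prod_embeddings (modularFunctionFieldBar N)
    (AlgebraicClosure Mer) (heckeBetaBar Kbar N ℓ y)
  rw [← Fintype.prod_bijective g hg (fun o => g o (heckeBetaBar Kbar N ℓ y)) _ (fun _ => rfl)]
    at hnorm
  simp only [hg_apply] at hnorm
  have hL : algebraMap (modularFunctionFieldBar N) (AlgebraicClosure Mer)
      (Algebra.norm (modularFunctionFieldBar N) (heckeBetaBar Kbar N ℓ y))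
      = algebraMap Mer (AlgebraicClosure Mer) (phi N (H8S37.h8r_normBeta N ℓ y)) := rfl
  rw [hL] at hnorm
  simp only [embAn_beta] at hnorm
  rw [← map_prod] at hnorm
  exact hinjE hnorm

end Norm

end H13HEQ

end
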