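import Fermat.Agent.W3G.KUMDefs_helper8
import Fermat.Agent.S24.A5Place

/-!
# Item 80 (W3G), slice KUM, part K-ABS (helper8): the abstract Kummer map

Setting of `KUMDefs_helper8.lean`: `F / K`, `φ : F →+* Mer`, `Γ ≤ SL(2, ℤ)`.
* `h8k_root_of_unity`: `Aⁿ = Bⁿ` in the field `Mer` ⟹ `A = ζ B` with a constant `ζ`, `ζⁿ = 1`;
* `h8k_char_unique`: the Kummer character of a class is unique;
* `h8k_char_mul`, `h8k_char_pow`: it is multiplicative with values in `μ_n`;
* `h8k_char_add`, `h8k_char_zero`, `h8k_char_neg`: additivity in the class;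
* `h8k_char_level`: level change `n m → n`;
* `h8k_class_unique`: the class is determined by the character (from `InvRootStatement`);
* `h8k_ord_dvd`, `h8k_char_exists`: existence (from `RootStatement`).
-/

set_option autoImplicit false

noncomputable section

open UpperHalfPlane WithZero AlgebraicCurve CongruenceSubgroup ModularCurve
open scoped MatrixGroups

namespace H8KUM

open H24D

/-! ## constants in `Mer` -/

theorem h8k_constMer_injective : Function.Injective constMer := constMer.injective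

theorem h8k_precompMer_const (γ : SL(2, ℤ)) (c : ℂ) : precompMer γ (constMer c) = constMer c := by
  rw [constMer_apply, precompMer_algebraMap]
  congr 1

theorem h8k_merVal_const (z₀ : ℍ) {c : ℂ} (hc : c ≠ 0) : merVal z₀ (constMer c) = 1 := by
  rw [constMer_apply, merVal_algebraMap]
  have h0 : constHol c ≠ 0 := by
    intro h
    have := congrArg (fun f : Hol => (f : ℍ → ℂ) UpperHalfPlane.I) h
    simp at this
    exact hc this
  have hle : ordVal z₀ (constHol c) ≤ 1 := ordVal_le_one z₀ _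
  exact le_antisymm hle (by
    rw [← not_lt, ordVal_lt_one_iff]
    simpa using hc)

/-- In the field `Mer`, two `n`-th roots of the same nonzero element differ by a constant root of
unity. -/
theorem h8k_root_of_unity {n : ℕ} (hn : n ≠ 0) {A B : Mer} (hB : B ≠ 0) (h : A ^ n = B ^ n) :
    ∃ ζ : ℂ, ζ ^ n = 1 ∧ A = constMer ζ * B := by
  have hn' : 0 < n := Nat.pos_of_ne_zero hn
  obtain ⟨ω, hω⟩ : ∃ ω : ℂ, IsPrimitiveRoot ω n :=
    ⟨_, Complex.isPrimitiveRoot_exp n hn⟩
  have hprod : (Polynomial.X ^ n - 1 : Polynomial ℂ)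
      = ∏ μ ∈ Polynomial.nthRootsFinset n (1 : ℂ), (Polynomial.X - Polynomial.C μ) :=
    Polynomial.X_pow_sub_one_eq_prod hn' hω
  set R : Mer := A / B with hR
  have hRn : R ^ n = 1 := by
    rw [hR, div_pow, h, div_self (pow_ne_zero n hB)]
  have heval := congrArg (fun P : Polynomial ℂ => Polynomial.eval₂ constMer R P) hprod
  simp only [Polynomial.eval₂_sub, Polynomial.eval₂_pow, Polynomial.eval₂_X, Polynomial.eval₂_one,
    Polynomial.eval₂_finsetProd, Polynomial.eval₂_C] at heval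
  rw [hRn, sub_self] at heval
  obtain ⟨μ, hμ, hμ0⟩ := Finset.prod_eq_zero_iff.mp heval.symm
  refine ⟨μ, ?_, ?_⟩
  · exact (Polynomial.mem_nthRootsFinset hn' 1).mp hμ
  · have : R = constMer μ := sub_eq_zero.mp hμ0
    rw [← this, hR, div_mul_cancel₀ _ hB]

variable {K F : Type*} [Field K] [Field F] [Algebra K F]
variable {Γ : Subgroup SL(2, ℤ)} {φ : F →+* Mer} {n : ℕ}

/-- the multiplier of a nonzero element of `Mer` is unique -/
theorem h8k_mult_unique {G : Mer} (hG : G ≠ 0) {c c' : ℂ}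
    (h : constMer c * G = constMer c' * G) : c = c' :=
  h8k_constMer_injective (mul_right_cancel₀ hG h)

theorem h8k_gen_ne_zero {f : F} (hf : f ≠ 0) {G : Mer} (hn : n ≠ 0) (hG : G ^ n = φ f) : G ≠ 0 := by
  rintro rfl
  rw [zero_pow hn] at hG
  exact (map_ne_zero φ).mpr hf hG.symm

/-- A Kummer generator of a function without zeros and poles is constant. -/
theorem h8k_const_of_unit (hφ : IsRealisation K Γ φ) (hn : n ≠ 0) {u : F} (hu : u ≠ 0)
    (hord : ∀ v : Place K F, v.ord u = 0) {G : Mer} (hG : G ^ n = φ u) :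
    ∃ c : ℂ, G = constMer c := by
  obtain ⟨a, rfl⟩ := hφ.unit u hu hord
  obtain ⟨c', hc'⟩ := hφ.const a
  rw [hc'] at hG
  obtain ⟨c, hc⟩ : ∃ c : ℂ, c ^ n = c' := by
    obtain ⟨c, hc⟩ := IsAlgClosed.exists_pow_nat_eq c' (Nat.pos_of_ne_zero hn)
    exact ⟨c, hc⟩
  have hc0 : c ≠ 0 := by
    rintro rfl
    rw [zero_pow hn] at hc
    rw [← hc, map_zero] at hc'
    exact hu ((map_eq_zero φ).mp hc')
  have hB : constMer c ≠ 0 := (map_ne_zero constMer).mpr hc0
  have h : G ^ n = constMer c ^ n := by rw [hG, ← map_pow, hc]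
  obtain ⟨ζ, -, hζ⟩ := h8k_root_of_unity hn hB h
  exact ⟨ζ * c, by rw [hζ, map_mul]⟩

/-! ## the Kummer character: uniqueness, multiplicativity -/

/-- two representatives of the same class differ by a principal divisor -/
theorem h8k_exists_principal {D D' : Divisor.degZero (K := K) (F := F)}
    (h : Pic0.mk D = Pic0.mk D') :
    ∃ u : F, u ≠ 0 ∧ ∀ v : Place K F,
      (D : Divisor K F) v - (D' : Divisor K F) v = v.ord u := by
  have h1 : (QuotientAddGroup.mk D : Pic0 K F) = QuotientAddGroup.mk D' := h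
  rw [QuotientAddGroup.eq] at h1
  have h2 : ((-D + D' : Divisor.degZero (K := K) (F := F)) : Divisor K F)
      ∈ Divisor.principal (K := K) (F := F) := h1
  obtain ⟨u, hu, hord⟩ := h2
  refine ⟨u⁻¹, inv_ne_zero hu, fun v => ?_⟩
  rw [Place.ord_inv, ← hord v]
  simp only [AddSubgroup.coe_add, AddSubgroup.coe_neg, Finsupp.add_apply, Finsupp.neg_apply]
  ring

/-- **Uniqueness** of the Kummer character of a class. -/
theorem h8k_char_unique (hφ : IsRealisation K Γ φ) (hn : n ≠ 0) {x : Pic0 K F} {χ χ' : Γ → ℂ}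
    (h : IsKummerChar Γ φ n x χ) (h' : IsKummerChar Γ φ n x χ') : χ = χ' := by
  obtain ⟨D, f, G, hD, hf, hdiv, hG, hmul⟩ := h
  obtain ⟨D', f', G', hD', hf', hdiv', hG', hmul'⟩ := h'
  obtain ⟨u, hu, hord⟩ := h8k_exists_principal (hD.trans hD'.symm)
  have hG0 : G ≠ 0 := h8k_gen_ne_zero hf hn hG
  have hG'0 : G' ≠ 0 := h8k_gen_ne_zero hf' hn hG'
  -- `w = f / (f' uⁿ)` has trivial divisor
  set w : F := f / (f' * u ^ n) with hw
  have hw0 : w ≠ 0 := div_ne_zero hf (mul_ne_zero hf' (pow_ne_zero n hu))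
  have hword : ∀ v : Place K F, v.ord w = 0 := by
    intro v
    have e1 : v.ord w = v.ord f - (v.ord f' + n * v.ord u) := by
      rw [hw, div_eq_mul_inv, v.ord_mul hf (inv_ne_zero (mul_ne_zero hf' (pow_ne_zero n hu))),
        v.ord_inv, v.ord_mul hf' (pow_ne_zero n hu)]
      have : v.ord (u ^ n) = n * v.ord u := by
        have := v.ord_zpow u n
        simpa using this
      rw [this]; ring
    rw [e1, ← hdiv v, ← hdiv' v, ← hord v]
    ring
  -- `G / (G' φ u)` is an `n`-th root of `φ w`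
  have hφu : φ u ≠ 0 := (map_ne_zero φ).mpr hu
  set Q : Mer := G / (G' * φ u) with hQ
  have hQn : Q ^ n = φ w := by
    rw [hQ, div_pow, mul_pow, hG, hG', hw, map_div₀, map_mul, map_pow]
  obtain ⟨c, hc⟩ := h8k_const_of_unit hφ hn hw0 hword hQn
  have hGeq : G = constMer c * (G' * φ u) := by
    rw [← hc, hQ, div_mul_cancel₀ _ (mul_ne_zero hG'0 hφu)]
  funext γ
  have h1 := hmul γ
  rw [hGeq] at h1
  simp only [map_mul, h8k_precompMer_const, hφ.inv _ γ.2, hmul' γ] at h1
  have h2 : constMer (χ' γ) * (constMer c * (G' * φ u))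
      = constMer (χ γ) * (constMer c * (G' * φ u)) := by
    rw [← h1]; ring
  have hne : constMer c * (G' * φ u) ≠ 0 := by rw [← hGeq]; exact hG0
  exact (h8k_mult_unique hne h2).symm

/-- the values of a Kummer character are `n`-th roots of unity -/
theorem h8k_char_pow (hφ : IsRealisation K Γ φ) (hn : n ≠ 0) {x : Pic0 K F} {χ : Γ → ℂ}
    (h : IsKummerChar Γ φ n x χ) (γ : Γ) : χ γ ^ n = 1 := by
  obtain ⟨D, f, G, hD, hf, hdiv, hG, hmul⟩ := h
  have hG0 : G ≠ 0 := h8k_gen_ne_zero hf hn hG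
  have h1 : precompMer (γ : SL(2, ℤ)) (G ^ n) = G ^ n := by rw [hG]; exact hφ.inv _ γ.2 f
  rw [map_pow, hmul γ, mul_pow, ← map_pow] at h1
  have h2 : constMer (χ γ ^ n) * G ^ n = constMer 1 * G ^ n := by rw [h1, map_one, one_mul]
  exact h8k_mult_unique (pow_ne_zero n hG0) h2

/-- a Kummer character is multiplicative -/
theorem h8k_char_mul (hn : n ≠ 0) {x : Pic0 K F} {χ : Γ → ℂ}
    (h : IsKummerChar Γ φ n x χ) (γ δ : Γ) : χ (γ * δ) = χ γ * χ δ := by
  obtain ⟨D, f, G, hD, hf, hdiv, hG, hmul⟩ := h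
  have hG0 : G ≠ 0 := h8k_gen_ne_zero hf hn hG
  have h1 := hmul (γ * δ)
  rw [Subgroup.coe_mul, precompMer_mul_apply, hmul γ, map_mul, h8k_precompMer_const, hmul δ] at h1
  have h2 : constMer (χ γ * χ δ) * G = constMer (χ (γ * δ)) * G := by
    rw [← h1, map_mul]; ring
  exact (h8k_mult_unique hG0 h2).symm

theorem h8k_char_one (hn : n ≠ 0) {x : Pic0 K F} {χ : Γ → ℂ}
    (h : IsKummerChar Γ φ n x χ) : χ 1 = 1 := by
  obtain ⟨D, f, G, hD, hf, hdiv, hG, hmul⟩ := h
  have hG0 : G ≠ 0 := h8k_gen_ne_zero hf hn hG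
  have h1 := hmul 1
  rw [Subgroup.coe_one, precompMer_one, RingHom.id_apply] at h1
  have h2 : constMer (χ 1) * G = constMer 1 * G := by rw [← h1, map_one, one_mul]
  exact h8k_mult_unique hG0 h2

/-! ## additivity in the class -/

theorem h8k_char_zero : IsKummerChar (K := K) Γ φ n 0 (fun _ => 1) :=
  ⟨0, 1, 1, rfl, one_ne_zero, fun v => by simp, by simp, fun γ => by simp⟩

theorem h8k_char_add {x y : Pic0 K F} {χ ψ : Γ → ℂ}
    (hx : IsKummerChar Γ φ n x χ) (hy : IsKummerChar Γ φ n y ψ) :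
    IsKummerChar Γ φ n (x + y) (fun γ => χ γ * ψ γ) := by
  obtain ⟨D, f, G, hD, hf, hdiv, hG, hmul⟩ := hx
  obtain ⟨D', f', G', hD', hf', hdiv', hG', hmul'⟩ := hy
  refine ⟨D + D', f * f', G * G', ?_, mul_ne_zero hf hf', fun v => ?_, ?_, fun γ => ?_⟩
  · rw [Pic0.mk_add, hD, hD']
  · rw [v.ord_mul hf hf', ← hdiv v, ← hdiv' v]
    simp only [AddSubgroup.coe_add, Finsupp.add_apply]
    ring
  · rw [mul_pow, hG, hG', map_mul]
  · rw [map_mul, hmul γ, hmul' γ, map_mul]; ring

theorem h8k_char_neg {x : Pic0 K F} {χ : Γ → ℂ}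
    (hx : IsKummerChar Γ φ n x χ) : IsKummerChar Γ φ n (-x) (fun γ => (χ γ)⁻¹) := by
  obtain ⟨D, f, G, hD, hf, hdiv, hG, hmul⟩ := hx
  refine ⟨-D, f⁻¹, G⁻¹, ?_, inv_ne_zero hf, fun v => ?_, ?_, fun γ => ?_⟩
  · rw [← hD]; rfl
  · rw [v.ord_inv, ← hdiv v]
    simp only [AddSubgroup.coe_neg, Finsupp.neg_apply]
    ring
  · rw [inv_pow, hG, map_inv₀]
  · rw [map_inv₀, hmul γ, mul_inv, map_inv₀]

/-- level change: a Kummer character at level `n m` of `x` gives the `m`-th power as a Kummer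
character at level `n` of `m • x`. -/
theorem h8k_char_level {m : ℕ} {x : Pic0 K F} {χ : Γ → ℂ}
    (hx : IsKummerChar Γ φ (n * m) x χ) :
    IsKummerChar Γ φ n (m • x) (fun γ => χ γ ^ m) := by
  obtain ⟨D, f, G, hD, hf, hdiv, hG, hmul⟩ := hx
  refine ⟨m • D, f, G ^ m, ?_, hf, fun v => ?_, ?_, fun γ => ?_⟩
  · rw [← hD]; rfl
  · rw [← hdiv v]
    simp only [AddSubgroup.coe_nsmul, Finsupp.smul_apply, nsmul_eq_mul]
    push_cast
    ring
  · rw [← pow_mul, mul_comm m n, hG]
  · rw [map_pow, hmul γ, mul_pow, map_pow]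

/-- the class of a Kummer character is killed by `n` -/
theorem h8k_char_torsion {x : Pic0 K F} {χ : Γ → ℂ}
    (hx : IsKummerChar Γ φ n x χ) : n • x = 0 := by
  obtain ⟨D, f, G, hD, hf, hdiv, hG, hmul⟩ := hx
  rw [← hD]
  show (QuotientAddGroup.mk (n • D) : Pic0 K F) = 0
  rw [QuotientAddGroup.eq_zero_iff]
  refine ⟨f, hf, fun v => ?_⟩
  rw [← hdiv v]
  simp [Finsupp.smul_apply]

/-! ## injectivity -/

/-- **Injectivity**: a class with trivial Kummer character is zero (from `InvRootStatement`). -/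
theorem h8k_class_zero (hinv : InvRootStatement Γ φ n) (hn : n ≠ 0) {x : Pic0 K F}
    (hx : IsKummerChar Γ φ n x (fun _ => 1)) : x = 0 := by
  obtain ⟨D, f, G, hD, hf, hdiv, hG, hmul⟩ := hx
  obtain ⟨h, hh⟩ := hinv G f hf hG (fun γ hγ => by
    have := hmul ⟨γ, hγ⟩
    simpa using this)
  have hfh : f = h ^ n := by
    apply φ.injective
    rw [← hG, hh, map_pow]
  have hh0 : h ≠ 0 := by
    rintro rfl
    rw [zero_pow hn] at hfh
    exact hf hfh
  rw [← hD]
  show (QuotientAddGroup.mk D : Pic0 K F) = 0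
  rw [QuotientAddGroup.eq_zero_iff]
  refine ⟨h, hh0, fun v => ?_⟩
  have h1 := hdiv v
  rw [hfh] at h1
  have h2 : v.ord (h ^ n) = n * v.ord h := by
    have := v.ord_zpow h n
    simpa using this
  rw [h2] at h1
  have hn' : (n : ℤ) ≠ 0 := by exact_mod_cast hn
  exact mul_left_cancel₀ hn' h1

/-- the class is determined by its Kummer character -/
theorem h8k_class_unique (hinv : InvRootStatement Γ φ n) (hn : n ≠ 0) {x y : Pic0 K F}
    {χ : Γ → ℂ} (hχ : ∀ γ, χ γ ≠ 0)
    (hx : IsKummerChar Γ φ n x χ) (hy : IsKummerChar Γ φ n y χ) : x = y := by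
  have h := h8k_char_add hx (h8k_char_neg hy)
  have h1 : (fun γ => χ γ * (χ γ)⁻¹) = fun _ : Γ => (1 : ℂ) := by
    funext γ
    exact mul_inv_cancel₀ (hχ γ)
  rw [h1] at h
  have := h8k_class_zero hinv hn h
  rwa [← sub_eq_add_neg, sub_eq_zero] at this

end H8KUM

end
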