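import Fermat.Agent.W3G.KUMAbs_helper8
import Fermat.Agent.S24.A5Local

/-!
# Item 80 (W3G), slice KUM, part K-ABS 2 (helper8): existence of Kummer characters, finiteness

* `h8k_ord_dvd` (ORD): if `div f = n D` then every analytic order of `φ f` is divisible by `n`
  (the analytic valuation at `z₀` is a multiple of a place of `F / K`, or trivial);
* `h8k_char_exists`: every `n`-torsion class has a Kummer character (from `RootStatement`);
* `h8k_torsion_finite`: the `n`-torsion of `Pic⁰` is finite if `Γ` is finitely generated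
  (from `RootStatement` + `InvRootStatement`).
-/

set_option autoImplicit false

noncomputable section

open UpperHalfPlane WithZero AlgebraicCurve CongruenceSubgroup ModularCurve
open scoped MatrixGroups

namespace H8KUM

open H24D

variable {K F : Type*} [Field K] [Field F] [Algebra K F]
variable {Γ : Subgroup SL(2, ℤ)} {φ : F →+* Mer} {n : ℕ}

/-- **ORD**: if `div f = n D`, the order of `φ f` at every point of `ℍ` is divisible by `n`. -/
theorem h8k_ord_dvd (hφ : IsRealisation K Γ φ) {f : F} (hf : f ≠ 0) (D : Divisor K F)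
    (hdiv : ∀ v : Place K F, (n : ℤ) * D v = v.ord f) (z₀ : ℍ) :
    ∃ m : ℤ, merVal z₀ (φ f) = WithZero.exp ((n : ℤ) * m) := by
  set u : F → ℤ := RH24.h2a5_u (merVal z₀) φ with hu
  have hadd : RH24.H2IsAddVal u := RH24.h2a5_isAddVal (merVal z₀) φ
  have hK : ∀ c : K, c ≠ 0 → u (algebraMap K F c) = 0 := by
    intro c hc
    obtain ⟨c', hc'⟩ := hφ.const c
    have hc'0 : c' ≠ 0 := by
      rintro rfl
      rw [map_zero] at hc'
      exact hc ((map_eq_zero (algebraMap K F)).mp ((map_eq_zero φ).mp hc'))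
    show -WithZero.log (merVal z₀ (φ (algebraMap K F c))) = 0
    rw [hc', h8k_merVal_const z₀ hc'0, WithZero.log_one, neg_zero]
  have hval : merVal z₀ (φ f) = WithZero.exp (-(u f)) := by
    have h0 : merVal z₀ (φ f) ≠ 0 := RH24.h2a5_w_ne_zero (merVal z₀) φ hf
    show merVal z₀ (φ f) = WithZero.exp (-(-WithZero.log (merVal z₀ (φ f))))
    rw [neg_neg, WithZero.exp_log h0]
  by_cases hpos : ∃ y : F, y ≠ 0 ∧ 0 < u y
  · obtain ⟨y, hy0, hy⟩ := hpos
    obtain ⟨v, m, -, -, hv⟩ := RH24.h2a5_exists_place hadd hK hy0 hy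
    refine ⟨-(m * D v), ?_⟩
    rw [hval, hv f hf, ← hdiv v]
    congr 1
    ring
  · have hzero : ∀ y : F, y ≠ 0 → u y = 0 := by
      intro y hy
      have h1 : u y ≤ 0 := by
        by_contra h
        exact hpos ⟨y, hy, not_le.mp h⟩
      have h2 : u y⁻¹ ≤ 0 := by
        by_contra h
        exact hpos ⟨y⁻¹, inv_ne_zero hy, not_le.mp h⟩
      rw [hadd.map_inv hy] at h2
      omega
    refine ⟨0, ?_⟩
    rw [hval, hzero f hf]
    simp

/-- **Existence** of the Kummer character of an `n`-torsion class. -/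
theorem h8k_char_exists (hφ : IsRealisation K Γ φ) (hn : n ≠ 0) (hroot : RootStatement n)
    (x : Pic0 K F) (hx : n • x = 0) : ∃ χ : Γ → ℂ, IsKummerChar Γ φ n x χ := by
  obtain ⟨D, rfl⟩ := Pic0.mk_surjective x
  have h1 : (QuotientAddGroup.mk (n • D) : Pic0 K F) = 0 := hx
  rw [QuotientAddGroup.eq_zero_iff] at h1
  obtain ⟨f, hf, hord⟩ := h1
  have hdiv : ∀ v : Place K F, (n : ℤ) * (D : Divisor K F) v = v.ord f := by
    intro v
    rw [← hord v]
    simp [Finsupp.smul_apply]
  have hφf : φ f ≠ 0 := (map_ne_zero φ).mpr hf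
  obtain ⟨G, hG⟩ := hroot (φ f) hφf (fun z₀ => h8k_ord_dvd hφ hf (D : Divisor K F) hdiv z₀)
  have hG0 : G ≠ 0 := h8k_gen_ne_zero hf hn hG
  have hex : ∀ γ : Γ, ∃ ζ : ℂ, precompMer (γ : SL(2, ℤ)) G = constMer ζ * G := by
    intro γ
    have h2 : (precompMer (γ : SL(2, ℤ)) G) ^ n = G ^ n := by
      rw [← map_pow, hG]
      exact hφ.inv _ γ.2 f
    obtain ⟨ζ, -, hζ⟩ := h8k_root_of_unity hn hG0 h2
    exact ⟨ζ, hζ⟩
  choose χ hχ using hex
  exact ⟨χ, D, f, G, rfl, hf, hdiv, hG, hχ⟩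

/-! ## finiteness -/

/-- the set of multiplicative functions `Γ → ℂ` with values in the `n`-th roots of unity is
finite, if `Γ` is finitely generated -/
theorem h8k_finite_chars (hΓ : Group.FG Γ) (hn : n ≠ 0) :
    {χ : Γ → ℂ | (∀ γ δ, χ (γ * δ) = χ γ * χ δ) ∧ ∀ γ, χ γ ^ n = 1}.Finite := by
  classical
  obtain ⟨S, hS⟩ := Group.fg_iff.mp hΓ
  obtain ⟨hSclo, hSfin⟩ := hS
  haveI : Finite S := hSfin
  have hn' : 0 < n := Nat.pos_of_ne_zero hn
  -- restriction to the generators, with values in the finite set of `n`-th roots of unity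
  let R : Type := {c : ℂ // c ∈ Polynomial.nthRootsFinset n (1 : ℂ)}
  haveI : Finite R := Finite.of_fintype _
  let T := {χ : Γ → ℂ | (∀ γ δ, χ (γ * δ) = χ γ * χ δ) ∧ ∀ γ, χ γ ^ n = 1}
  let res : T → (S → R) := fun χ s =>
    ⟨χ.1 s.1, (Polynomial.mem_nthRootsFinset hn' 1).mpr (χ.2.2 s.1)⟩
  have hinj : Function.Injective res := by
    intro χ ψ h
    apply Subtype.ext
    -- turn both into monoid homs to `ℂˣ`-free setting: use closure induction
    have hχ1 : χ.1 1 = 1 := by
      have := χ.2.1 1 1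
      rw [mul_one] at this
      have h0 : χ.1 1 ≠ 0 := by
        intro h0
        have := χ.2.2 1
        rw [h0, zero_pow hn] at this
        exact zero_ne_one this
      exact (mul_right_cancel₀ h0 (by rw [one_mul]; exact this)).symm
    have hψ1 : ψ.1 1 = 1 := by
      have := ψ.2.1 1 1
      rw [mul_one] at this
      have h0 : ψ.1 1 ≠ 0 := by
        intro h0
        have := ψ.2.2 1
        rw [h0, zero_pow hn] at this
        exact zero_ne_one this
      exact (mul_right_cancel₀ h0 (by rw [one_mul]; exact this)).symm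
    let fχ : Γ →* ℂ := ⟨⟨χ.1, hχ1⟩, χ.2.1⟩
    let fψ : Γ →* ℂ := ⟨⟨ψ.1, hψ1⟩, ψ.2.1⟩
    have heq : fχ = fψ := by
      apply MonoidHom.eq_of_eqOn_dense hSclo
      intro s hs
      have := congrFun h ⟨s, hs⟩
      exact congrArg Subtype.val this
    funext γ
    exact DFunLike.congr_fun heq γ
  haveI : Finite (S → R) := Pi.finite
  have : Finite T := Finite.of_injective res hinj
  exact Set.toFinite T

/-- **Finiteness** of the `n`-torsion of `Pic⁰(F)`. -/
theorem h8k_torsion_finite (hφ : IsRealisation K Γ φ) (hΓ : Group.FG Γ) (hn : n ≠ 0)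
    (hroot : RootStatement n) (hinv : InvRootStatement Γ φ n) :
    {x : Pic0 K F | n • x = 0}.Finite := by
  classical
  have hex : ∀ x : {x : Pic0 K F | n • x = 0}, ∃ χ : Γ → ℂ, IsKummerChar Γ φ n x.1 χ :=
    fun x => h8k_char_exists hφ hn hroot x.1 x.2
  choose κ hκ using hex
  have hfin := h8k_finite_chars (Γ := Γ) hΓ hn
  have hmem : ∀ x, κ x ∈ {χ : Γ → ℂ | (∀ γ δ, χ (γ * δ) = χ γ * χ δ) ∧ ∀ γ, χ γ ^ n = 1} :=
    fun x => ⟨fun γ δ => h8k_char_mul hn (hκ x) γ δ, fun γ => h8k_char_pow hφ hn (hκ x) γ⟩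
  have hinj : Function.Injective κ := by
    intro x y hxy
    apply Subtype.ext
    have hχ : ∀ γ, κ x γ ≠ 0 := by
      intro γ h0
      have := h8k_char_pow hφ hn (hκ x) γ
      rw [h0, zero_pow hn] at this
      exact zero_ne_one this
    have hy := hκ y
    rw [← hxy] at hy
    exact h8k_class_unique hinv hn hχ (hκ x) hy
  haveI : Finite {χ : Γ → ℂ | (∀ γ δ, χ (γ * δ) = χ γ * χ δ) ∧ ∀ γ, χ γ ^ n = 1} := hfin
  have : Finite {x : Pic0 K F | n • x = 0} :=
    Finite.of_injective (fun x => (⟨κ x, hmem x⟩ :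
      {χ : Γ → ℂ | (∀ γ δ, χ (γ * δ) = χ γ * χ δ) ∧ ∀ γ, χ γ ^ n = 1})) (by
        intro x y h
        exact hinj (congrArg Subtype.val h))
  exact Set.toFinite _

end H8KUM

end
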