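/-
helper13, item 80 (W3-G), slice K-PE, ELL half (for helper8): local analysis at elliptic points.

* `H13PE.zpow_eq_of_fixed_mult` : multiplier version of `RH24.h11b_zpow_eq_of_fixed`:
  `a(gz) b(z) = c a(z) b(gz)`, `g z₀ = z₀`  ⇒  `ζ₀^(ord a) = c ζ₀^(ord b)`, `ζ₀ = g'(z₀)`;
* `H13PE.pe_ell_local` **(E-LOC)** : `g • z₀ = z₀` ⇒ `∃ ζ ≠ 0, ∀ X ≠ 0 in Mer, ∀ c,
  precompMer g X = constMer c * X → c = ζ ^ (log (merVal z₀ X))`  (here `ζ = (c z₀ + d)²`);
* `H13PE.abs_trace_le_two_of_finOrder` : finite order in `SL(2, ℤ)` ⇒ `|trace| ≤ 2`;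
* `H13PE.pe_ell_fixed` **(E-GRP)** : finite order and `trace² ≠ 4` ⇒ fixed point in `ℍ`.
-/
import Mathlib
import Fermat.Agent.S24.BE
import Fermat.Agent.RR.DictPhi
import Fermat.Agent.W3G.EIGH0Abs_helper13

set_option autoImplicit false
set_option linter.style.longLine false
set_option linter.unusedVariables false

noncomputable section

open UpperHalfPlane ModularForm MatrixGroups CongruenceSubgroup Filter Topology
open scoped Manifold

namespace H13PE

open RH24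

/-- **Key lemma with multiplier**: comparison of trailing coefficients at a fixed point. -/
theorem zpow_eq_of_fixed_mult (g : SL(2, ℤ)) (z₀ : ℍ) (hz₀ : g • z₀ = z₀)
    (a b : ℍ → ℂ) (ha : MDiff a) (hb : MDiff b) (ha0 : ∃ z, a z ≠ 0) (hb0 : ∃ z, b z ≠ 0)
    (c : ℂ) (h : ∀ z : ℍ, a (g • z) * b z = c * (a z * b (g • z))) :
    ((1 : ℂ) / denom (h11b_gl g) z₀ ^ 2) ^ ((ordAt z₀ a).toNat)
      = c * ((1 : ℂ) / denom (h11b_gl g) z₀ ^ 2) ^ ((ordAt z₀ b).toNat) := by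
  set A : ℂ → ℂ := fun w => a (ofComplex w) with hA
  set B : ℂ → ℂ := fun w => b (ofComplex w) with hB
  set G : ℂ → ℂ := fun w => ↑(h11b_gl g • ofComplex w) with hG
  set C : ℂ → ℂ := fun _ => c with hC
  set ζ : ℂ := (1 : ℂ) / denom (h11b_gl g) z₀ ^ 2 with hζ
  have hAan : AnalyticAt ℂ A z₀ := h11b_analyticAt a ha z₀
  have hBan : AnalyticAt ℂ B z₀ := h11b_analyticAt b hb z₀
  have hGan : AnalyticAt ℂ G z₀ := z₀.analyticAt_smul (h11b_det_pos g)
  have hCan : AnalyticAt ℂ C z₀ := analyticAt_const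
  have hGz : G z₀ = z₀ := by
    change ((h11b_gl g • ofComplex (z₀ : ℂ) : ℍ) : ℂ) = z₀
    rw [ofComplex_apply, ← h11b_smul_eq, hz₀]
  have hGd : deriv G z₀ = ζ := by
    rw [hG, z₀.deriv_smul (h11b_det_pos g), hζ]
    congr 1
    have h2 : ((h11b_gl g).det : ℝ) = 1 := by
      unfold h11b_gl
      rw [Matrix.SpecialLinearGroup.det_mapGL]
      rfl
    have : (h11b_gl g).val.det = 1 := h2
    rw [this]; simp
  have hζ0 : ζ ≠ 0 := by
    rw [hζ]
    exact div_ne_zero one_ne_zero (pow_ne_zero _ (denom_ne_zero _ z₀))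
  have hGd0 : deriv G z₀ ≠ 0 := by rw [hGd]; exact hζ0
  have hnc : ¬ EventuallyConst G (𝓝 (z₀ : ℂ)) := by
    rw [eventuallyConst_iff_analyticOrderAt_sub_eq_top,
      hGan.analyticOrderAt_sub_eq_one_of_deriv_ne_zero hGd0]
    exact ENat.one_ne_top
  have htcG : meromorphicTrailingCoeffAt (G · - G z₀) z₀ = ζ := by
    have han : AnalyticAt ℂ (G · - G z₀) z₀ := hGan.sub analyticAt_const
    have hd : deriv (G · - G z₀) z₀ = deriv G z₀ := by
      simp
    rw [h11b_trailingCoeff_eq_deriv han (by simp) (by rw [hd]; exact hGd0), hd, hGd]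
  -- orders
  have hmA : meromorphicOrderAt A z₀ = ((ordAt z₀ a).toNat : ℤ) := by
    rw [hAan.meromorphicOrderAt_eq]
    obtain ⟨n, hn⟩ := ENat.ne_top_iff_exists.mp (h11b_ordAt_ne_top a ha ha0 z₀)
    have hn' : analyticOrderAt A z₀ = n := hn.symm
    have hn2 : (ordAt z₀ a).toNat = n := by rw [← hn]; simp
    rw [hn', hn2]
    rfl
  have hmB : meromorphicOrderAt B z₀ = ((ordAt z₀ b).toNat : ℤ) := by
    rw [hBan.meromorphicOrderAt_eq]
    obtain ⟨n, hn⟩ := ENat.ne_top_iff_exists.mp (h11b_ordAt_ne_top b hb hb0 z₀)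
    have hn' : analyticOrderAt B z₀ = n := hn.symm
    have hn2 : (ordAt z₀ b).toNat = n := by rw [← hn]; simp
    rw [hn', hn2]
    rfl
  have hAne : meromorphicTrailingCoeffAt A z₀ ≠ 0 :=
    hAan.meromorphicAt.meromorphicTrailingCoeffAt_ne_zero (by rw [hmA]; exact WithTop.coe_ne_top)
  have hBne : meromorphicTrailingCoeffAt B z₀ ≠ 0 :=
    hBan.meromorphicAt.meromorphicTrailingCoeffAt_ne_zero (by rw [hmB]; exact WithTop.coe_ne_top)
  -- trailing coefficients of the composites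
  have hAG : meromorphicTrailingCoeffAt (A ∘ G) z₀
      = ζ ^ ((ordAt z₀ a).toNat) * meromorphicTrailingCoeffAt A z₀ := by
    have hAm : MeromorphicAt A (G z₀) := by rw [hGz]; exact hAan.meromorphicAt
    rw [hAm.meromorphicTrailingCoeffAt_comp hGan hnc, htcG, hGz, hmA]
    simp
  have hBG : meromorphicTrailingCoeffAt (B ∘ G) z₀
      = ζ ^ ((ordAt z₀ b).toNat) * meromorphicTrailingCoeffAt B z₀ := by
    have hBm : MeromorphicAt B (G z₀) := by rw [hGz]; exact hBan.meromorphicAt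
    rw [hBm.meromorphicTrailingCoeffAt_comp hGan hnc, htcG, hGz, hmB]
    simp
  have hAGm : MeromorphicAt (A ∘ G) z₀ := by
    have : AnalyticAt ℂ A (G z₀) := by rw [hGz]; exact hAan
    exact (this.comp hGan).meromorphicAt
  have hBGm : MeromorphicAt (B ∘ G) z₀ := by
    have : AnalyticAt ℂ B (G z₀) := by rw [hGz]; exact hBan
    exact (this.comp hGan).meromorphicAt
  -- the functional equation
  have hfe : ((A ∘ G) * B) =ᶠ[𝓝[≠] (z₀ : ℂ)] (C * (A * (B ∘ G))) := by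
    have hmem : {w : ℂ | 0 < w.im} ∈ 𝓝 (z₀ : ℂ) := isOpen_upperHalfPlaneSet.mem_nhds z₀.im_pos
    refine Filter.Eventually.filter_mono nhdsWithin_le_nhds ?_
    filter_upwards [hmem] with w hw
    have e1 : ofComplex (G w) = g • ofComplex w := by
      change ofComplex ((h11b_gl g • ofComplex w : ℍ) : ℂ) = _
      rw [ofComplex_apply, ← h11b_smul_eq]
    simp only [Pi.mul_apply, Function.comp_apply, hA, hB, hC, e1]
    exact h (ofComplex w)
  have key := meromorphicTrailingCoeffAt_congr_nhdsNE hfe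
  rw [hAGm.meromorphicTrailingCoeffAt_mul hBan.meromorphicAt,
    hCan.meromorphicAt.meromorphicTrailingCoeffAt_mul (hAan.meromorphicAt.mul hBGm),
    hAan.meromorphicAt.meromorphicTrailingCoeffAt_mul hBGm, hAG, hBG,
    meromorphicTrailingCoeffAt_const] at key
  have key2 : ζ ^ (ordAt z₀ a).toNat * (meromorphicTrailingCoeffAt A z₀ * meromorphicTrailingCoeffAt B z₀)
      = (c * ζ ^ (ordAt z₀ b).toNat) * (meromorphicTrailingCoeffAt A z₀ * meromorphicTrailingCoeffAt B z₀) := by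
    linear_combination key
  exact mul_right_cancel₀ (mul_ne_zero hAne hBne) key2

theorem exists_ne_zero_of_ne_zero {a : H24D.Hol} (ha : a ≠ 0) : ∃ z, (a : ℍ → ℂ) z ≠ 0 := by
  by_contra hcon
  rw [not_exists] at hcon
  apply ha
  apply Subtype.ext
  funext z
  exact not_not.mp (hcon z)

/-- **(E-LOC)** the multiplier of a meromorphic function at a fixed point of `g`. -/
theorem pe_ell_local (g : SL(2, ℤ)) (z₀ : ℍ) (hz₀ : g • z₀ = z₀) :
    ∃ ζ : ℂ, ζ ≠ 0 ∧ ∀ (X : H24D.Mer) (c : ℂ), X ≠ 0 →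
      H24D.precompMer g X = H24D.constMer c * X →
        c = ζ ^ (WithZero.log (H24D.merVal z₀ X)) := by
  have hd0 : denom (h11b_gl g) z₀ ^ 2 ≠ 0 := pow_ne_zero _ (denom_ne_zero _ z₀)
  refine ⟨denom (h11b_gl g) z₀ ^ 2, hd0, ?_⟩
  intro X c hX hXc
  obtain ⟨a, b, hb, rfl⟩ := IsFractionRing.div_surjective (A := H24D.Hol) X
  have hb0 : b ≠ 0 := nonZeroDivisors.ne_zero hb
  have ha0 : a ≠ 0 := by
    rintro rfl
    simp at hX
  have hinj := IsFractionRing.injective H24D.Hol H24D.Mer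
  have hb' : algebraMap H24D.Hol H24D.Mer b ≠ 0 := fun h => hb0 (hinj (by rw [h, map_zero]))
  have hgb0 : H24D.precomp g b ≠ 0 := fun h => hb0 (H24D.precomp_injective g (by rw [h, map_zero]))
  have hgb' : algebraMap H24D.Hol H24D.Mer (H24D.precomp g b) ≠ 0 :=
    fun h => hgb0 (hinj (by rw [h, map_zero]))
  have hEq : H24D.precomp g a * b = H24D.constHol c * (a * H24D.precomp g b) := by
    apply hinj
    rw [map_mul, map_mul, map_mul]
    rw [map_div₀, H24D.precompMer_algebraMap, H24D.precompMer_algebraMap, H24D.constMer_apply,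
      div_eq_iff hgb'] at hXc
    rw [hXc]
    field_simp
  have hpt : ∀ z : ℍ, (a : ℍ → ℂ) (g • z) * (b : ℍ → ℂ) z
      = c * ((a : ℍ → ℂ) z * (b : ℍ → ℂ) (g • z)) := by
    intro z
    have := congrArg (fun f : H24D.Hol => (f : ℍ → ℂ) z) hEq
    simpa using this
  have key := zpow_eq_of_fixed_mult g z₀ hz₀ a b a.2 b.2 (exists_ne_zero_of_ne_zero ha0)
    (exists_ne_zero_of_ne_zero hb0) c hpt
  have hval : WithZero.log (H24D.merVal z₀ (algebraMap H24D.Hol H24D.Mer a / algebraMap H24D.Hol H24D.Mer b))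
      = (H24D.ordNat z₀ (b : ℍ → ℂ) : ℤ) - (H24D.ordNat z₀ (a : ℍ → ℂ) : ℤ) := by
    rw [map_div₀, H24D.merVal_algebraMap, H24D.merVal_algebraMap, H24D.ordVal_apply _ _ ha0,
      H24D.ordVal_apply _ _ hb0, WithZero.log_div WithZero.exp_ne_zero WithZero.exp_ne_zero,
      WithZero.log_exp, WithZero.log_exp]
    ring
  rw [hval]
  have e1 : (ordAt z₀ (a : ℍ → ℂ)).toNat = H24D.ordNat z₀ (a : ℍ → ℂ) := rfl
  have e2 : (ordAt z₀ (b : ℍ → ℂ)).toNat = H24D.ordNat z₀ (b : ℍ → ℂ) := rfl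
  rw [e1, e2] at key
  set ζ : ℂ := denom (h11b_gl g) z₀ ^ 2 with hζ
  rw [zpow_sub₀ hd0, zpow_natCast, zpow_natCast]
  rw [one_div, inv_pow, inv_pow] at key
  have h1 : ζ ^ H24D.ordNat z₀ (a : ℍ → ℂ) ≠ 0 := pow_ne_zero _ hd0
  have h2 : ζ ^ H24D.ordNat z₀ (b : ℍ → ℂ) ≠ 0 := pow_ne_zero _ hd0
  field_simp
  field_simp at key
  linear_combination -key

/-- the traces of the powers of a matrix of determinant `1` and `|trace| ≥ 3` grow strictly -/
theorem abs_trace_pow_lt (A : Matrix (Fin 2) (Fin 2) ℤ) (hA : A.det = 1) (ht : 3 ≤ |A.trace|)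
    (k : ℕ) : |(A ^ k).trace| < |(A ^ (k + 1)).trace| ∧ 2 ≤ |(A ^ k).trace| := by
  induction k with
  | zero =>
    refine ⟨?_, ?_⟩
    · simp only [pow_zero, zero_add, pow_one, Matrix.trace_one, Fintype.card_fin]
      have : |((2 : ℕ) : ℤ)| = 2 := by norm_num
      rw [this]; omega
    · simp only [pow_zero, Matrix.trace_one, Fintype.card_fin]
      norm_num
  | succ k ih =>
    obtain ⟨h1, h2⟩ := ih
    refine ⟨?_, by omega⟩
    rw [show k + 1 + 1 = k + 2 from rfl, H13E0.trace_pow_rec A hA k]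
    have h3 : |A.trace * (A ^ (k + 1)).trace| - |(A ^ k).trace|
        ≤ |A.trace * (A ^ (k + 1)).trace - (A ^ k).trace| := abs_sub_abs_le_abs_sub _ _
    rw [abs_mul] at h3
    have h4 : 3 * |(A ^ (k + 1)).trace| ≤ |A.trace| * |(A ^ (k + 1)).trace| :=
      mul_le_mul_of_nonneg_right ht (abs_nonneg _)
    omega

/-- an element of finite order of `SL(2, ℤ)` has `|trace| ≤ 2` -/
theorem abs_trace_le_two_of_finOrder (γ : SL(2, ℤ)) (hfin : IsOfFinOrder γ) :
    |(γ : Matrix (Fin 2) (Fin 2) ℤ).trace| ≤ 2 := by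
  by_contra hcon
  have ht : 3 ≤ |(γ : Matrix (Fin 2) (Fin 2) ℤ).trace| := by omega
  obtain ⟨m, hm, hγm⟩ := isOfFinOrder_iff_pow_eq_one.mp hfin
  have hmono : ∀ k : ℕ, 2 < |((γ : Matrix (Fin 2) (Fin 2) ℤ) ^ (k + 1)).trace| := by
    intro k
    have := abs_trace_pow_lt (γ : Matrix (Fin 2) (Fin 2) ℤ) γ.2 ht k
    omega
  obtain ⟨k, rfl⟩ : ∃ k, m = k + 1 := ⟨m - 1, by omega⟩
  have h1 := hmono k
  have h2 : ((γ : Matrix (Fin 2) (Fin 2) ℤ) ^ (k + 1)) = 1 := by
    rw [← Matrix.SpecialLinearGroup.coe_pow, hγm]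
    rfl
  rw [h2] at h1
  simp at h1

/-- **(E-GRP)** an element of finite order of `SL(2, ℤ)` with `trace² ≠ 4` has a fixed point
in the upper half plane -/
theorem pe_ell_fixed (γ : SL(2, ℤ)) (hfin : IsOfFinOrder γ)
    (htr : (γ : Matrix (Fin 2) (Fin 2) ℤ).trace ^ 2 ≠ 4) : ∃ z : ℍ, γ • z = z := by
  have hle := abs_trace_le_two_of_finOrder γ hfin
  rw [Matrix.trace_fin_two] at hle htr
  have hdet : γ 0 0 * γ 1 1 - γ 0 1 * γ 1 0 = 1 := by
    have := γ.2
    rwa [Matrix.det_fin_two] at this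
  set a : ℤ := γ 0 0 with ha
  set b : ℤ := γ 0 1 with hb
  set c : ℤ := γ 1 0 with hc
  set d : ℤ := γ 1 1 with hd
  have ht1 : (a + d) ^ 2 ≤ 1 := by
    have h1 : -2 ≤ a + d ∧ a + d ≤ 2 := abs_le.mp hle
    have h2 : a + d ≠ 2 := fun h => htr (by rw [h]; norm_num)
    have h3 : a + d ≠ -2 := fun h => htr (by rw [h]; norm_num)
    have h4 : -1 ≤ a + d ∧ a + d ≤ 1 := by omega
    nlinarith
  have hc0 : c ≠ 0 := by
    intro h0
    rw [h0, mul_zero, sub_zero] at hdet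
    have : a = d := by
      rcases Int.eq_one_or_neg_one_of_mul_eq_one' hdet with ⟨h1, h2⟩ | ⟨h1, h2⟩ <;> omega
    rw [this] at hdet ht1
    nlinarith
  -- the fixed point
  have hcR : (c : ℝ) ≠ 0 := by exact_mod_cast hc0
  have hD : (0 : ℝ) < 4 - ((a : ℝ) + d) ^ 2 := by
    have : (((a + d) ^ 2 : ℤ) : ℝ) ≤ 1 := by exact_mod_cast ht1
    push_cast at this
    linarith
  set x : ℝ := ((a : ℝ) - d) / (2 * c) with hx
  set y : ℝ := Real.sqrt (4 - ((a : ℝ) + d) ^ 2) / (2 * |(c : ℝ)|) with hy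
  have hy0 : 0 < y := by
    apply div_pos (Real.sqrt_pos.mpr hD)
    have : 0 < |(c : ℝ)| := abs_pos.mpr hcR
    linarith
  have hy2 : y ^ 2 = (4 - ((a : ℝ) + d) ^ 2) / (4 * (c : ℝ) ^ 2) := by
    rw [hy, div_pow, Real.sq_sqrt hD.le, mul_pow, sq_abs]
    norm_num
  have hdetR : (a : ℝ) * d - b * c = 1 := by exact_mod_cast hdet
  refine ⟨⟨⟨x, y⟩, hy0⟩, ?_⟩
  apply UpperHalfPlane.ext
  rw [coe_specialLinearGroup_apply]
  have hden : ((algebraMap ℤ ℝ (γ 1 0) : ℝ) : ℂ) * ((⟨⟨x, y⟩, hy0⟩ : ℍ) : ℂ)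
      + ((algebraMap ℤ ℝ (γ 1 1) : ℝ) : ℂ) ≠ 0 := by
    intro h
    have := congrArg Complex.im h
    simp at this
    rcases this with h1 | h1
    · exact hc0 h1
    · exact hy0.ne' h1
  rw [div_eq_iff hden]
  apply Complex.ext
  · simp
    show (a : ℝ) * x + b = x * (c * x + d) - y * (c * y)
    have e1 : y * ((c : ℝ) * y) = c * y ^ 2 := by ring
    rw [e1, hy2, hx]
    field_simp
    linear_combination (-16 : ℝ) * hdetR
  · simp
    show (a : ℝ) * y = x * (c * y) + y * (c * x + d)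
    rw [hx]
    field_simp
    ring

end H13PE

end
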