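import Fermat.Agent.W3G.KUMPEVal_helper8
import Fermat.Agent.W3G.KUMPEEll_helper13
import Fermat.Agent.S16.H8GroupPar

/-!
# Item 80 (W3G), slice KUM, part K-PE (helper8): the Kummer character is parabolic + elliptic

`h8pe_parEll : IsRealisation → IsKummerCharQ N n x χ → IsParEll χ`.

* parabolic elements (`trace = ± 2`): conjugate to `± Tʲ`; cusp half `h8pv_cusp`.
* elements of finite order with `trace² ≠ 4`: fixed point in `ℍ` (helper13 `H13PE.pe_ell_fixed`),
  local lemma (`H13PE.pe_ell_local`), abstract elliptic half `h8pe_ell_abs`.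
-/

set_option autoImplicit false
set_option linter.style.haveILetI false
set_option linter.unusedSectionVars false

noncomputable section

open UpperHalfPlane ModularForm MatrixGroups CongruenceSubgroup AlgebraicCurve ModularCurve
open scoped Manifold

namespace H8KUM

open H24D

theorem h8pe_precompMer_neg (γ : SL(2, ℤ)) : precompMer (-γ) = precompMer γ := by
  apply IsLocalization.ringHom_ext (nonZeroDivisors Hol)
  ext f
  simp only [RingHom.comp_apply, precompMer_algebraMap]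
  congr 1
  apply Subtype.ext
  funext z
  rw [precomp_apply, precomp_apply, ModularGroup.SL_neg_smul]

theorem h8pe_neg_mem {N : ℕ} {γ : SL(2, ℤ)} (h : γ ∈ Gamma0 N) : -γ ∈ Gamma0 N := by
  rw [Gamma0_mem] at h ⊢
  rw [Matrix.SpecialLinearGroup.coe_neg, Matrix.neg_apply, Int.cast_neg, h, neg_zero]

/-- the inverse multiplier -/
theorem h8pe_inv_mult {G : Mer} (hG : G ≠ 0) {σ : SL(2, ℤ)} {c : ℂ}
    (hc : precompMer σ G = constMer c * G) :
    precompMer σ⁻¹ G = constMer c⁻¹ * G := by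
  have h1 := congrArg (precompMer σ⁻¹) hc
  rw [← precompMer_mul_apply, mul_inv_cancel, precompMer_one, RingHom.id_apply, map_mul,
    h8k_precompMer_const] at h1
  have hc0 : c ≠ 0 := by
    rintro rfl
    rw [map_zero, zero_mul] at h1
    exact hG h1
  have hcM : constMer c ≠ 0 := (map_ne_zero constMer).mpr hc0
  rw [map_inv₀, eq_inv_mul_iff_mul_eq₀ hcM]
  exact h1.symm

variable {N : ℕ} [NeZero N]

/-- **parabolic elements of trace `2`** -/
theorem h8pe_par_two {n : ℕ} (hn : 0 < n)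
    {f : modularFunctionFieldBar N} (hf : f ≠ 0)
    (D : Divisor RH24.Kbar (modularFunctionFieldBar N))
    (hD : ∀ v : Place RH24.Kbar (modularFunctionFieldBar N), (n : ℤ) * D v = v.ord f)
    (G : Mer) (hG : G ^ n = phi N f) (σ : SL(2, ℤ)) (hσ : σ ∈ Gamma0 N)
    (htr : σ 0 0 + σ 1 1 = 2) (c : ℂ) (hc : precompMer σ G = constMer c * G) : c = 1 := by
  have hG0 : G ≠ 0 := h8k_gen_ne_zero hf hn.ne' hG
  obtain ⟨δ, j, hj⟩ := H8S16.h8g_trace_two σ htr
  rcases lt_trichotomy j 0 with hneg | hzero | hpos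
  · -- `j < 0`
    obtain ⟨k, hk⟩ : ∃ k : ℕ, (k : ℤ) = -j := ⟨(-j).toNat, Int.toNat_of_nonneg (by omega)⟩
    haveI : NeZero k := ⟨by rintro rfl; simp at hk; omega⟩
    have hσi : σ⁻¹ = δ * ModularGroup.T ^ (k : ℤ) * δ⁻¹ := by
      rw [hj, hk, zpow_neg]
      group
    have hmem : δ * ModularGroup.T ^ (k : ℤ) * δ⁻¹ ∈ Gamma0 N := by
      rw [← hσi]
      exact inv_mem hσ
    have h1 := h8pe_inv_mult hG0 hc
    rw [hσi] at h1
    have h2 := h8pv_cusp k hn δ hmem hf D hD G hG c⁻¹ h1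
    exact inv_eq_one.mp h2
  · -- `j = 0`
    rw [hzero, zpow_zero, mul_one, mul_inv_cancel] at hj
    rw [hj, precompMer_one, RingHom.id_apply] at hc
    have h2 : constMer c * G = constMer 1 * G := by rw [← hc, map_one, one_mul]
    exact h8k_mult_unique hG0 h2
  · -- `0 < j`
    obtain ⟨k, hk⟩ : ∃ k : ℕ, (k : ℤ) = j := ⟨j.toNat, Int.toNat_of_nonneg hpos.le⟩
    haveI : NeZero k := ⟨by rintro rfl; simp at hk; omega⟩
    have hσi : σ = δ * ModularGroup.T ^ (k : ℤ) * δ⁻¹ := by rw [hj, hk]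
    have hmem : δ * ModularGroup.T ^ (k : ℤ) * δ⁻¹ ∈ Gamma0 N := by
      rw [← hσi]
      exact hσ
    rw [hσi] at hc
    exact h8pv_cusp k hn δ hmem hf D hD G hG c hc

/-- **K-PE**: the Kummer character of a torsion class is trivial on the parabolic elements and
on the elements of finite order. -/
theorem h8pe_parEll (hU : IsRealisation (AlgebraicClosure ℚ) (Gamma0 N) (phi N))
    {n : ℕ} (hn : 0 < n) {x : JZero N} {χ : Gamma0 N → ℂ} (h : IsKummerCharQ N n x χ) :
    IsParEll χ := by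
  have hpar : ∀ γ : Gamma0 N,
      ((γ : SL(2, ℤ)) : Matrix (Fin 2) (Fin 2) ℤ).trace ^ 2 = 4 → χ γ = 1 := by
    intro γ htr
    obtain ⟨D, f, G, -, hf, hD, hG, hχ⟩ := h
    rw [Matrix.trace_fin_two] at htr
    have h2 : (γ : SL(2, ℤ)) 0 0 + (γ : SL(2, ℤ)) 1 1 = 2
        ∨ (γ : SL(2, ℤ)) 0 0 + (γ : SL(2, ℤ)) 1 1 = -2 := by
      have h3 : ((γ : SL(2, ℤ)) 0 0 + (γ : SL(2, ℤ)) 1 1 - 2)
          * ((γ : SL(2, ℤ)) 0 0 + (γ : SL(2, ℤ)) 1 1 + 2) = 0 := by
        linear_combination htr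
      rcases mul_eq_zero.mp h3 with h4 | h4
      · left; omega
      · right; omega
    rcases h2 with h2 | h2
    · exact h8pe_par_two hn hf (D : Divisor RH24.Kbar (modularFunctionFieldBar N)) hD G hG
        (γ : SL(2, ℤ)) γ.2 h2 (χ γ) (hχ γ)
    · refine h8pe_par_two hn hf (D : Divisor RH24.Kbar (modularFunctionFieldBar N)) hD G hG
        (-(γ : SL(2, ℤ))) (h8pe_neg_mem γ.2) ?_ (χ γ) ?_
      · rw [Matrix.SpecialLinearGroup.coe_neg, Matrix.neg_apply, Matrix.neg_apply]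
        omega
      · rw [h8pe_precompMer_neg]
        exact hχ γ
  intro γ hγ
  rcases hγ with htr | hfin
  · exact hpar γ htr
  · by_cases htr : ((γ : SL(2, ℤ)) : Matrix (Fin 2) (Fin 2) ℤ).trace ^ 2 = 4
    · exact hpar γ htr
    · have hfin' : IsOfFinOrder (γ : SL(2, ℤ)) := by
        obtain ⟨m, hm, hγm⟩ := isOfFinOrder_iff_pow_eq_one.mp hfin
        refine isOfFinOrder_iff_pow_eq_one.mpr ⟨m, hm, ?_⟩
        rw [← Subgroup.coe_pow, hγm, Subgroup.coe_one]
      obtain ⟨z₀, hz₀⟩ := H13PE.pe_ell_fixed (γ : SL(2, ℤ)) hfin' htr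
      obtain ⟨ζ, -, hloc⟩ := H13PE.pe_ell_local (γ : SL(2, ℤ)) z₀ hz₀
      exact h8pe_ell_abs hU hn.ne' h γ z₀ ζ hloc

end H8KUM

end
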