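import Fermat.Agent.W3G.KUMKum_helper8
import Fermat.Agent.W3G.KUMExist_helper8
import Fermat.Agent.W3G.KUMPE_helper8

/-!
# Item 80 (W3G), slice KUM, part KUM-GAL (helper8): assembly of `H11W3G.KumGalStatement N`

`kum n χ` := THE class with Kummer character `exp(2πi χ/n)` (as in `KUMKum_helper8.lean`);
* compatibility `m • kum (n m) χ = kum n (χ mod n)`: `h8k_char_level` + uniqueness of the class;
* surjectivity onto `J₀(N)[n]`: existence of the Kummer character (K-ROOT), K-PE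
  (`h8pe_parEll`), HPE-INV (a character with values in `μ_n`, trivial on parabolic and elliptic
  elements, comes from `Hpe N (ZMod n)`), uniqueness of the class.
-/

set_option autoImplicit false
set_option linter.style.haveILetI false
set_option linter.unusedSectionVars false

noncomputable section

open UpperHalfPlane WithZero AlgebraicCurve CongruenceSubgroup ModularCurve
open scoped MatrixGroups

namespace H8KUM

open H24D H11W3G

/-- **HPE-INV**: a character `Γ₀(N) → μ_n ⊆ ℂ`, trivial on parabolic and elliptic elements, is the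
exponential of an element of `Hpe N (ZMod n)`. -/
def HpeInvStatement (N : ℕ) : Prop :=
  ∀ n : ℕ, 0 < n → ∀ χ : Gamma0 N → ℂ, (∀ γ δ, χ (γ * δ) = χ γ * χ δ) → (∀ γ, χ γ ^ n = 1) →
    IsParEll χ → ∃ χ' : Hpe N (ZMod n), chi N n χ' = χ

theorem h8k_expZ_intCast {n : ℕ} (hn : 0 < n) (j : ℤ) :
    expZ n (Multiplicative.ofAdd ((j : ℤ) : ZMod n))
      = Complex.exp (2 * Real.pi * Complex.I * j / n) := by
  haveI : NeZero n := ⟨hn.ne'⟩
  unfold expZ
  rw [dif_neg hn.ne']
  exact ZMod.stdAddChar_coe j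

/-- the exponential is compatible with the reduction `ℤ/nm → ℤ/n` -/
theorem h8k_expZ_cast {n m : ℕ} (hn : 0 < n) (hm : 0 < m) (a : ZMod (n * m)) :
    expZ n (Multiplicative.ofAdd (ZMod.castHom (dvd_mul_right n m) (ZMod n) a))
      = expZ (n * m) (Multiplicative.ofAdd a) ^ m := by
  obtain ⟨j, rfl⟩ := ZMod.intCast_surjective a
  rw [map_intCast, h8k_expZ_intCast hn, h8k_expZ_intCast (Nat.mul_pos hn hm),
    ← Complex.exp_nat_mul]
  congr 1
  have hn' : (n : ℂ) ≠ 0 := Nat.cast_ne_zero.mpr hn.ne'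
  have hm' : (m : ℂ) ≠ 0 := Nat.cast_ne_zero.mpr hm.ne'
  push_cast
  field_simp

variable {N : ℕ} [NeZero N]

theorem h8k_kumFun_add (hInv : ∀ n, 0 < n → InvRootStatement (Gamma0 N) (phi N) n)
    (hSurj : ∀ n, 0 < n → KumSurjStatement N n) (n : ℕ) (χ ψ : Hpe N (ZMod n)) :
    kumFun hSurj n (χ + ψ) = kumFun hSurj n χ + kumFun hSurj n ψ := by
  by_cases hn : 0 < n
  · have h1 := h8k_kumFun_spec hSurj hn (χ + ψ)
    have h2 := h8k_char_add (h8k_kumFun_spec hSurj hn χ) (h8k_kumFun_spec hSurj hn ψ)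
    rw [← h8k_chi_add] at h2
    exact h8k_class_unique (hInv n hn) hn.ne' (h8k_chi_ne_zero N n _) h1 h2
  · unfold kumFun
    rw [dif_neg hn, dif_neg hn, dif_neg hn, add_zero]

/-- the Kummer comparison maps -/
def kumHom (hInv : ∀ n, 0 < n → InvRootStatement (Gamma0 N) (phi N) n)
    (hSurj : ∀ n, 0 < n → KumSurjStatement N n) (n : ℕ) : Hpe N (ZMod n) →+ JZero N :=
  AddMonoidHom.mk' (kumFun hSurj n) (h8k_kumFun_add hInv hSurj n)

theorem h8k_kumHom_apply (hInv : ∀ n, 0 < n → InvRootStatement (Gamma0 N) (phi N) n)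
    (hSurj : ∀ n, 0 < n → KumSurjStatement N n) (n : ℕ) (χ : Hpe N (ZMod n)) :
    kumHom hInv hSurj n χ = kumFun hSurj n χ := rfl

theorem h8k_isKum (hU : IsRealisation (AlgebraicClosure ℚ) (Gamma0 N) (phi N))
    (hInv : ∀ n, 0 < n → InvRootStatement (Gamma0 N) (phi N) n)
    (hSurj : ∀ n, 0 < n → KumSurjStatement N n)
    (hHpe : HpeHeckeStatement N) : IsKum N (kumHom hInv hSurj) := by
  refine ⟨?_, ?_⟩
  · intro n hn χ ψ h
    have h1 : kumFun hSurj n (χ - ψ) = 0 := by
      have h2 := h8k_kumFun_add hInv hSurj n (χ - ψ) ψ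
      rw [sub_add_cancel] at h2
      have h3 : kumFun hSurj n χ = kumFun hSurj n ψ := h
      rw [h3] at h2
      exact (add_eq_right.mp h2.symm)
    have h4 := h8k_kumFun_spec hSurj hn (χ - ψ)
    rw [h1] at h4
    have h5 := h8k_char_unique hU hn.ne' h4 (h8k_char_zero (K := AlgebraicClosure ℚ))
    have h6 : χ - ψ = 0 := by
      apply Subtype.ext
      apply AddMonoidHom.ext
      intro a
      have h7 := congrFun h5 (Additive.toMul a)
      unfold chi at h7
      have h8 : expZ n (Multiplicative.ofAdd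
          ((χ - ψ : Hpe N (ZMod n)) : Additive (Gamma0 N) →+ ZMod n) a) = expZ n 1 := by
        rw [map_one]; exact h7
      have h9 := h8k_expZ_injective hn h8
      exact h9
    exact sub_eq_zero.mp h6
  · intro n hn ℓ _ hℓ hℓN χ
    obtain ⟨χ', hχ'⟩ := hHpe n hn ℓ hℓN χ
    refine ⟨χ', hχ', ?_⟩
    have h1 := h8k_kumFun_spec hSurj hn χ'
    have h2 := H13HEQ.heq' n ℓ hℓ hℓN _ _ (h8k_kumFun_spec hSurj hn χ)
    have h3 : (haveI : Fact ℓ.Prime := ⟨hℓ⟩
        fun γ => ∏ y : OnePoint (ZMod ℓ), chi N n χ (H21S16.transT hℓN γ y))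
        = chi N n χ' := by
      funext γ
      unfold chi
      rw [hχ' γ]
      unfold H21S16.heckeTFun
      rw [ofAdd_sum, map_prod]
    rw [h3] at h2
    exact h8k_class_unique (hInv n hn) hn.ne' (h8k_chi_ne_zero N n _) h1 h2

/-- **KUM-GAL** (conditional form) -/
theorem h8k_kumGalStatement
    (hU : IsRealisation (AlgebraicClosure ℚ) (Gamma0 N) (phi N))
    (hInv : ∀ n, 0 < n → InvRootStatement (Gamma0 N) (phi N) n)
    (hSurj : ∀ n, 0 < n → KumSurjStatement N n)
    (hHpe : HpeHeckeStatement N)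
    (hRoot : ∀ n, 0 < n → RootStatement n)
    (hHpeInv : HpeInvStatement N) : KumGalStatement N := by
  refine ⟨kumHom hInv hSurj, h8k_isKum hU hInv hSurj hHpe, ?_, ?_⟩
  · -- compatibility
    intro n m hn hm χ χ' hχ'
    have hnm : 0 < n * m := Nat.mul_pos hn hm
    have h1 := h8k_kumFun_spec hSurj hnm χ
    have h2 : IsKummerChar (K := AlgebraicClosure ℚ) (Gamma0 N) (phi N) n
        (m • kumFun hSurj (n * m) χ) (fun γ => chi N (n * m) χ γ ^ m) := h8k_char_level h1
    have h3 := h8k_kumFun_spec hSurj hn χ'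
    have h4 : chi N n χ' = fun γ => chi N (n * m) χ γ ^ m := by
      funext γ
      unfold chi
      rw [hχ' γ]
      exact h8k_expZ_cast hn hm _
    rw [← h4] at h2
    show m • kumFun hSurj (n * m) χ = kumFun hSurj n χ'
    exact h8k_class_unique (hInv n hn) hn.ne' (h8k_chi_ne_zero N n _) h2 h3
  · -- surjectivity
    intro n hn x hx
    obtain ⟨χ₀, hχ₀⟩ := h8k_char_exists hU hn.ne' (hRoot n hn) x hx
    have hpe : IsParEll χ₀ := h8pe_parEll hU hn hχ₀
    obtain ⟨χ', hχ'⟩ := hHpeInv n hn χ₀ (fun γ δ => h8k_char_mul hn.ne' hχ₀ γ δ)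
      (fun γ => h8k_char_pow hU hn.ne' hχ₀ γ) hpe
    refine ⟨χ', ?_⟩
    have h3 := h8k_kumFun_spec hSurj hn χ'
    rw [hχ'] at h3
    show kumFun hSurj n χ' = x
    have hne : ∀ γ, χ₀ γ ≠ 0 := by
      intro γ h0
      have := h8k_char_pow hU hn.ne' hχ₀ γ
      rw [h0, zero_pow hn.ne'] at this
      exact zero_ne_one this
    exact h8k_class_unique (hInv n hn) hn.ne' hne h3 hχ₀

end H8KUM

end
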