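import Mathlib
import Fermat.Agent.W3G.KUMKum_helper8

/-!
# Item 80 (W3-G), KUM sub-slice HPE-INV (helper29)

Every character `χ : Γ₀(N) → ℂ` which is multiplicative, has values in `μ_n` and is trivial on
parabolic elements and on elements of finite order is `H8KUM.chi N n χ'` for some
`χ' ∈ Hpe N (ZMod n)`.
-/

set_option autoImplicit false
set_option linter.style.longLine false
set_option linter.unusedSectionVars false
set_option linter.unusedVariables false
set_option linter.style.haveILetI false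

noncomputable section

open CongruenceSubgroup

namespace H29HI

/-- every `n`-th root of unity in `ℂ` is a value of `expZ n` -/
theorem h29hi_expZ_surj {n : ℕ} (hn : 0 < n) (z : ℂ) (hz : z ^ n = 1) :
    ∃ a : ZMod n, H8KUM.expZ n (Multiplicative.ofAdd a) = z := by
  haveI : NeZero n := ⟨hn.ne'⟩
  have hz0 : z ≠ 0 := by
    rintro rfl
    rw [zero_pow hn.ne'] at hz
    exact zero_ne_one hz
  have hmem : Units.mk0 z hz0 ∈ rootsOfUnity n ℂ := by
    rw [mem_rootsOfUnity]
    apply Units.ext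
    rw [Units.val_pow_eq_pow_val, Units.val_mk0, hz, Units.val_one]
  obtain ⟨i, -, hi⟩ := (Complex.mem_rootsOfUnity n _).mp hmem
  refine ⟨(i : ZMod n), ?_⟩
  unfold H8KUM.expZ
  rw [dif_neg hn.ne', AddChar.toMonoidHom_apply, toAdd_ofAdd, ZMod.stdAddChar_apply,
    ZMod.toCircle_natCast]
  rw [Units.val_mk0] at hi
  rw [← hi]
  congr 1
  ring

/-- **HPE-INV** -/
theorem h29hi_hpeInv (N n : ℕ) [NeZero N] (hn : 0 < n) (χ : Gamma0 N → ℂ)
    (hmul : ∀ γ δ, χ (γ * δ) = χ γ * χ δ) (hpow : ∀ γ, χ γ ^ n = 1)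
    (hpe : H8KUM.IsParEll χ) :
    ∃ χ' : H11W3G.Hpe N (ZMod n), H8KUM.chi N n χ' = χ := by
  have hex : ∀ γ : Gamma0 N, ∃ a : ZMod n, H8KUM.expZ n (Multiplicative.ofAdd a) = χ γ :=
    fun γ => h29hi_expZ_surj hn (χ γ) (hpow γ)
  choose a ha using hex
  have hinj := H8KUM.h8k_expZ_injective hn
  have hone : χ 1 = 1 := by
    have h1 := hmul 1 1
    rw [mul_one] at h1
    have h0 : χ 1 ≠ 0 := by
      intro h
      have := hpow 1
      rw [h, zero_pow hn.ne'] at this
      exact zero_ne_one this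
    exact (mul_eq_left₀ h0).mp h1.symm
  have hzero : ∀ γ, χ γ = 1 → a γ = 0 := by
    intro γ hγ
    have h1 : H8KUM.expZ n (Multiplicative.ofAdd (a γ)) =
        H8KUM.expZ n (Multiplicative.ofAdd (0 : ZMod n)) := by
      rw [ha, hγ]
      exact (map_one (H8KUM.expZ n)).symm
    exact Multiplicative.ofAdd.injective (hinj h1)
  let φ : Additive (Gamma0 N) →+ ZMod n :=
    { toFun := fun γ => a (Additive.toMul γ)
      map_zero' := hzero 1 hone
      map_add' := fun γ δ => by
        have h1 : H8KUM.expZ n (Multiplicative.ofAdd (a (Additive.toMul γ * Additive.toMul δ))) =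
            H8KUM.expZ n (Multiplicative.ofAdd (a (Additive.toMul γ) + a (Additive.toMul δ))) := by
          rw [ha, hmul, ofAdd_add, map_mul, ha, ha]
        exact Multiplicative.ofAdd.injective (hinj h1) }
  have hφ : ∀ γ : Gamma0 N, φ (Additive.ofMul γ) = a γ := fun γ => rfl
  refine ⟨⟨φ, ⟨fun γ hγ => ?_, fun γ hγ => ?_⟩⟩, ?_⟩
  · rw [hφ]
    exact hzero γ (hpe γ (Or.inl hγ))
  · rw [hφ]
    exact hzero γ (hpe γ (Or.inr hγ))
  · funext γ
    unfold H8KUM.chi
    exact ha γ

end H29HI
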