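import Fermat.Agent.W3G.KUMGal_helper8

/-!
# Item 80 (W3G), slice KUM, part HPE-INV (helper8)

A character `χ : Γ₀(N) → ℂ` with values in the `n`-th roots of unity, trivial on parabolic and
elliptic elements, is the exponential of an element of `Hpe N (ZMod n)`.
-/

set_option autoImplicit false
set_option linter.style.haveILetI false

noncomputable section

open UpperHalfPlane WithZero AlgebraicCurve CongruenceSubgroup ModularCurve
open scoped MatrixGroups

namespace H8KUM

open H24D H11W3G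

/-- every `n`-th root of unity is a value of the exponential -/
theorem h8k_expZ_surj {n : ℕ} (hn : 0 < n) {c : ℂ} (hc : c ^ n = 1) :
    ∃ a : ZMod n, expZ n (Multiplicative.ofAdd a) = c := by
  haveI : NeZero n := ⟨hn.ne'⟩
  have hprim := Complex.isPrimitiveRoot_exp n hn.ne'
  obtain ⟨j, -, hj⟩ := hprim.eq_pow_of_pow_eq_one hc
  refine ⟨((j : ℤ) : ZMod n), ?_⟩
  rw [h8k_expZ_intCast hn, ← hj, ← Complex.exp_nat_mul]
  congr 1
  have hn' : (n : ℂ) ≠ 0 := Nat.cast_ne_zero.mpr hn.ne'
  push_cast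
  field_simp

/-- **HPE-INV** -/
theorem h8k_hpeInv (N : ℕ) : HpeInvStatement N := by
  intro n hn χ hmul hpow hpe
  have hex : ∀ γ : Gamma0 N, ∃ a : ZMod n, expZ n (Multiplicative.ofAdd a) = χ γ :=
    fun γ => h8k_expZ_surj hn (hpow γ)
  choose L hL using hex
  have hadd : ∀ γ δ : Gamma0 N, L (γ * δ) = L γ + L δ := by
    intro γ δ
    have h1 : expZ n (Multiplicative.ofAdd (L (γ * δ)))
        = expZ n (Multiplicative.ofAdd (L γ + L δ)) := by
      rw [hL, hmul, ofAdd_add, map_mul, hL, hL]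
    exact h8k_expZ_injective hn h1
  have hzero : ∀ γ : Gamma0 N, χ γ = 1 → L γ = 0 := by
    intro γ h
    have h1 : expZ n (Multiplicative.ofAdd (L γ)) = expZ n (Multiplicative.ofAdd 0) := by
      rw [hL, h, ofAdd_zero, map_one]
    exact h8k_expZ_injective hn h1
  let φ : Additive (Gamma0 N) →+ ZMod n :=
    AddMonoidHom.mk' (fun a => L (Additive.toMul a)) (fun a b => hadd _ _)
  have hφ : φ ∈ Hpe N (ZMod n) := by
    refine ⟨fun γ hγ => ?_, fun γ hγ => ?_⟩
    · exact hzero γ (hpe γ (Or.inl hγ))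
    · exact hzero γ (hpe γ (Or.inr hγ))
  refine ⟨⟨φ, hφ⟩, ?_⟩
  funext γ
  exact hL γ

end H8KUM

end
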