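import Fermat.Agent.S24.BLocalInf
import Fermat.Agent.RR.DictDH_helper15
import Fermat.Agent.W3G.KUMAbs_helper8

/-!
# Item 80 (W3G), slice KUM, part K-PE (helper8): the local lemma at the cusp

`h8pc_cusp_local`: let `g ∈ Mer` with `g(z + k) = c · g(z)` and `gⁿ = a / b`, where `a`, `b` are
`k`-periodic holomorphic functions of moderate growth whose orders at `i∞` (in the parameter
`q_k`) differ by a multiple of `n`.  Then `c = 1`.

Proof: `c⁻¹ = ωᵗ` (`ω = exp(2πi/n)`, `t < n`); `Y := g · b · exp(2πi t z/(n k))` is `k`-periodic,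
`Yⁿ = a bⁿ⁻¹ q_kᵗ` is holomorphic, so `Y` is holomorphic of moderate growth, and comparing orders
`n · ord Y = ord a + (n - 1) ord b + t`, hence `n ∣ t`, `t = 0`.
-/

set_option autoImplicit false
set_option linter.style.haveILetI false

noncomputable section

open UpperHalfPlane ModularForm MatrixGroups CongruenceSubgroup Filter Topology
open scoped Manifold

namespace H8KUM

open H24D

local notation "𝕢" => Function.Periodic.qParam
local notation "Δ" => ModularForm.discriminant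

/-- a root of a function of moderate growth has moderate growth -/
theorem h8pc_moderate_root {n : ℕ} (hn : 0 < n) (y : ℍ → ℂ)
    (h : RH24.ModerateGrowth (fun z => y z ^ n)) : RH24.ModerateGrowth y := by
  obtain ⟨M, hM⟩ := h
  refine ⟨M, ?_⟩
  have h1 : IsBoundedAtImInfty
      ((fun z => (fun z => y z ^ n) z * Δ z ^ M) * fun z => Δ z ^ (M * (n - 1))) :=
    Filter.BoundedAtFilter.mul hM (RH24.h24_bdd_disc_pow (M * (n - 1)))
  rw [UpperHalfPlane.isBoundedAtImInfty_iff] at h1 ⊢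
  obtain ⟨C, A, hCA⟩ := h1
  refine ⟨max C 1, A, fun z hz => ?_⟩
  have h2 := hCA z hz
  have h3 : ‖y z * Δ z ^ M‖ ^ n ≤ C := by
    rw [← norm_pow]
    have h4 : (y z * Δ z ^ M) ^ n = y z ^ n * Δ z ^ M * Δ z ^ (M * (n - 1)) := by
      rw [mul_pow, ← pow_mul, mul_assoc, ← pow_add]
      congr 2
      obtain ⟨m, rfl⟩ : ∃ m, n = m + 1 := ⟨n - 1, by omega⟩
      simp only [Nat.add_sub_cancel]
      ring
    rw [h4]
    exact h2
  by_contra hcon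
  push Not at hcon
  have h4 : 1 < ‖y z * Δ z ^ M‖ := lt_of_le_of_lt (le_max_right _ _) hcon
  have h5 : C < ‖y z * Δ z ^ M‖ := lt_of_le_of_lt (le_max_left _ _) hcon
  have h6 : ‖y z * Δ z ^ M‖ ≤ ‖y z * Δ z ^ M‖ ^ n := le_self_pow₀ h4.le hn.ne'
  linarith

/-- `z ↦ q_h(z)` is holomorphic -/
theorem h8pc_mdiff_qParam (h : ℝ) : MDiff (fun z : ℍ => 𝕢 h (z : ℂ)) := by
  rw [mdifferentiable_iff]
  have : DifferentiableOn ℂ (𝕢 h) {z : ℂ | 0 < z.im} :=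
    (Function.Periodic.differentiable_qParam (h := h)).differentiableOn
  refine this.congr fun w hw => ?_
  simp only [Function.comp_apply, ofComplex_apply_of_im_pos hw]

theorem h8pc_qParam_vadd (h : ℝ) (k : ℝ) (z : ℍ) :
    𝕢 h ((k +ᵥ z : ℍ) : ℂ) = 𝕢 h (k : ℂ) * 𝕢 h (z : ℂ) := by
  rw [UpperHalfPlane.coe_vadd, RH24.h11b_qParam_add]

theorem h8pc_qParam_self (k : ℕ) [NeZero k] : 𝕢 (k : ℝ) ((k : ℝ) : ℂ) = 1 := by
  unfold Function.Periodic.qParam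
  have hk : (k : ℂ) ≠ 0 := Nat.cast_ne_zero.mpr (NeZero.ne k)
  have : 2 * (Real.pi : ℂ) * Complex.I * ((k : ℝ) : ℂ) / ((k : ℝ) : ℂ) = 2 * Real.pi * Complex.I := by
    push_cast
    field_simp
  rw [this, Complex.exp_two_pi_mul_I]

/-- `q_{nk}ⁿ = q_k` -/
theorem h8pc_qParam_pow (n k : ℕ) [NeZero n] [NeZero k] (z : ℂ) :
    (𝕢 ((n * k : ℕ) : ℝ) z) ^ n = 𝕢 (k : ℝ) z := by
  have hn : (n : ℂ) ≠ 0 := Nat.cast_ne_zero.mpr (NeZero.ne n)
  have hk : (k : ℂ) ≠ 0 := Nat.cast_ne_zero.mpr (NeZero.ne k)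
  simp only [Function.Periodic.qParam, ← Complex.exp_nat_mul]
  congr 1
  push_cast
  field_simp

/-- `q_k ^ t` belongs to the ring at the cusp -/
theorem h8pc_qpow_mem (k : ℕ) [NeZero k] (t : ℕ) :
    (fun z : ℍ => 𝕢 (k : ℝ) (z : ℂ) ^ t) ∈ RH24.HolInf k := by
  refine ⟨(h8pc_mdiff_qParam _).pow t, fun z => ?_, ⟨0, ?_⟩⟩
  · show 𝕢 (k : ℝ) (((k : ℝ) +ᵥ z : ℍ) : ℂ) ^ t = 𝕢 (k : ℝ) (z : ℂ) ^ t
    rw [h8pc_qParam_vadd, h8pc_qParam_self, one_mul]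
  · simp only [pow_zero, mul_one]
    rw [UpperHalfPlane.isBoundedAtImInfty_iff]
    refine ⟨1, 0, fun z _ => ?_⟩
    rw [norm_pow]
    have h1 : ‖𝕢 (k : ℝ) (z : ℂ)‖ < 1 := by
      have h2 := (Function.Periodic.norm_qParam_lt_iff (RH24.h23c_pos k) 0 (z : ℂ)).mpr
        (by simpa using z.im_pos)
      simpa using h2
    exact pow_le_one₀ (norm_nonneg _) h1.le

/-- the order of `q_k ^ t` is `t` -/
theorem h8pc_ord_qpow (k : ℕ) [NeZero k] (t : ℕ) :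
    RH24.ordInf k (fun z : ℍ => 𝕢 (k : ℝ) (z : ℂ) ^ t) = (t : ℤ) := by
  refine RH24.h23c_ordInf_eq_of_factor k _ (fun _ => 1) (t : ℤ) 1 one_ne_zero
    mdifferentiable_const (fun _ => rfl) tendsto_const_nhds (fun z => ?_)
  rw [mul_one, zpow_natCast]

/-- the order function on the ring at the cusp -/
def cuspO (k : ℕ) (f : ℍ → ℂ) : ℤ := (RH24.ordInf k f).untop₀

theorem h8pc_o_mul (k : ℕ) [NeZero k] {a b : ℍ → ℂ} (ha : a ∈ RH24.HolInf k)
    (hb : b ∈ RH24.HolInf k) (ha0 : ∃ z, a z ≠ 0) (hb0 : ∃ z, b z ≠ 0) :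
    cuspO k (fun z => a z * b z) = cuspO k a + cuspO k b :=
  (RH24.h8_ringInf k).o_mul a b ha hb ha0 hb0

theorem h8pc_o_add (k : ℕ) [NeZero k] {a b : ℍ → ℂ} (ha : a ∈ RH24.HolInf k)
    (hb : b ∈ RH24.HolInf k) (ha0 : ∃ z, a z ≠ 0) (hb0 : ∃ z, b z ≠ 0)
    (hab : ∃ z, a z + b z ≠ 0) :
    min (cuspO k a) (cuspO k b) ≤ cuspO k (fun z => a z + b z) :=
  (RH24.h8_ringInf k).o_add a b ha hb ha0 hb0 hab

theorem h8pc_o_const (k : ℕ) [NeZero k] {c : ℂ} (hc : c ≠ 0) : cuspO k (fun _ => c) = 0 :=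
  (RH24.h8_ringInf k).o_const c hc

theorem h8pc_exists_mul {a b : ℍ → ℂ} (ha : MDiff a) (hb : MDiff b) (ha0 : ∃ z, a z ≠ 0)
    (hb0 : ∃ z, b z ≠ 0) : ∃ z, a z * b z ≠ 0 := by
  by_contra hcon
  push Not at hcon
  rcases RH24.Hol_noZeroDivisors a b ha hb hcon with h | h
  · obtain ⟨z, hz⟩ := ha0
    exact hz (h z)
  · obtain ⟨z, hz⟩ := hb0
    exact hz (h z)

theorem h8pc_pow_mem (k : ℕ) {a : ℍ → ℂ} (ha : a ∈ RH24.HolInf k) (m : ℕ) :
    (fun z => a z ^ m) ∈ RH24.HolInf k := (RH24.HolInf k).pow_mem ha m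

theorem h8pc_exists_pow {a : ℍ → ℂ} (ha0 : ∃ z, a z ≠ 0) (m : ℕ) : ∃ z, a z ^ m ≠ 0 := by
  obtain ⟨z, hz⟩ := ha0
  exact ⟨z, pow_ne_zero m hz⟩

theorem h8pc_o_pow (k : ℕ) [NeZero k] {a : ℍ → ℂ} (ha : a ∈ RH24.HolInf k)
    (ha0 : ∃ z, a z ≠ 0) (m : ℕ) : cuspO k (fun z => a z ^ m) = m * cuspO k a := by
  induction m with
  | zero =>
    simp only [pow_zero, Nat.cast_zero, zero_mul]
    exact h8pc_o_const k one_ne_zero
  | succ m ih =>
    have h1 : (fun z => a z ^ (m + 1)) = fun z => a z ^ m * a z := by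
      funext z
      rw [pow_succ]
    rw [h1, h8pc_o_mul k (h8pc_pow_mem k ha m) ha (h8pc_exists_pow ha0 m) ha0, ih]
    push_cast
    ring

/-- **the function-level core**: if `yⁿ = a bⁿ⁻¹ q_kᵗ` then `n ∣ ord a - ord b + t`. -/
theorem h8pc_core (k : ℕ) [NeZero k] {n : ℕ} (hn : 0 < n) (t : ℕ) {a b y : ℍ → ℂ}
    (ha : a ∈ RH24.HolInf k) (hb : b ∈ RH24.HolInf k) (ha0 : ∃ z, a z ≠ 0) (hb0 : ∃ z, b z ≠ 0)
    (hy : MDiff y) (hyp : ∀ z : ℍ, y ((k : ℝ) +ᵥ z) = y z)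
    (hyn : ∀ z, y z ^ n = a z * b z ^ (n - 1) * 𝕢 (k : ℝ) (z : ℂ) ^ t) :
    (n : ℤ) ∣ cuspO k a - cuspO k b + t := by
  have hq := h8pc_qpow_mem k t
  have hq0 : ∃ z : ℍ, 𝕢 (k : ℝ) (z : ℂ) ^ t ≠ 0 :=
    ⟨UpperHalfPlane.I, pow_ne_zero _ (Function.Periodic.qParam_ne_zero _)⟩
  have hbp := h8pc_pow_mem k hb (n - 1)
  have hbp0 := h8pc_exists_pow hb0 (n - 1)
  have hab : (fun z => a z * b z ^ (n - 1)) ∈ RH24.HolInf k := (RH24.HolInf k).mul_mem ha hbp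
  have hab0 : ∃ z, a z * b z ^ (n - 1) ≠ 0 := h8pc_exists_mul ha.1 hbp.1 ha0 hbp0
  have hrhs : (fun z => a z * b z ^ (n - 1) * 𝕢 (k : ℝ) (z : ℂ) ^ t) ∈ RH24.HolInf k :=
    (RH24.HolInf k).mul_mem hab hq
  have hyfun : (fun z => y z ^ n) = fun z => a z * b z ^ (n - 1) * 𝕢 (k : ℝ) (z : ℂ) ^ t :=
    funext hyn
  have hymem : y ∈ RH24.HolInf k := by
    refine ⟨hy, hyp, h8pc_moderate_root hn y ?_⟩
    rw [hyfun]
    exact hrhs.2.2
  have hy0 : ∃ z, y z ≠ 0 := by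
    obtain ⟨z, hz⟩ := h8pc_exists_mul hab.1 hq.1 hab0 hq0
    refine ⟨z, fun h => hz ?_⟩
    rw [← hyn z, h, zero_pow hn.ne']
  have h1 := h8pc_o_pow k hymem hy0 n
  rw [hyfun, h8pc_o_mul k hab hq hab0 hq0, h8pc_o_mul k ha hbp ha0 hbp0,
    h8pc_o_pow k hb hb0 (n - 1)] at h1
  have h2 : cuspO k (fun z : ℍ => 𝕢 (k : ℝ) (z : ℂ) ^ t) = t := by
    unfold cuspO
    rw [h8pc_ord_qpow]
    rfl
  rw [h2] at h1
  refine ⟨cuspO k y - cuspO k b, ?_⟩
  have h3 : ((n - 1 : ℕ) : ℤ) = (n : ℤ) - 1 := by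
    rw [Nat.cast_sub hn]
    simp
  rw [h3] at h1
  linear_combination h1

/-- a `k`-periodic holomorphic function is invariant under `T ^ k` -/
theorem h8pc_precomp_T (k : ℕ) (f : Hol)
    (hp : ∀ z : ℍ, (f : ℍ → ℂ) ((k : ℝ) +ᵥ z) = (f : ℍ → ℂ) z) :
    precomp (ModularGroup.T ^ (k : ℤ)) f = f := by
  apply Subtype.ext
  funext z
  rw [precomp_apply, RH24.T_zpow_smul_eq_vadd, Int.cast_natCast]
  exact hp z

theorem h8pc_hol_ne_zero {f : ℍ → ℂ} (hf : MDiff f) (h0 : ∃ z, f z ≠ 0) :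
    algebraMap Hol Mer ⟨f, hf⟩ ≠ 0 := by
  intro h
  have h1 : (⟨f, hf⟩ : Hol) = 0 := IsFractionRing.injective Hol Mer (by rw [h, map_zero])
  obtain ⟨z, hz⟩ := h0
  exact hz (congrFun (congrArg Subtype.val h1) z)

theorem h8pc_exists_of_ne_zero {f : Hol} (h : algebraMap Hol Mer f ≠ 0) :
    ∃ z, (f : ℍ → ℂ) z ≠ 0 := by
  by_contra hcon
  push Not at hcon
  apply h
  have : f = 0 := Subtype.ext (funext hcon)
  rw [this, map_zero]

/-- **the local lemma at the cusp** -/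
theorem h8pc_cusp_local (k : ℕ) [NeZero k] {n : ℕ} (hn : 0 < n) (g : Mer) (hg : g ≠ 0) (c : ℂ)
    (hc : precompMer (ModularGroup.T ^ (k : ℤ)) g = constMer c * g)
    {a b : ℍ → ℂ} (ha : a ∈ RH24.HolInf k) (hb : b ∈ RH24.HolInf k) (hb0 : ∃ z, b z ≠ 0)
    (hgab : g ^ n * algebraMap Hol Mer ⟨b, hb.1⟩ = algebraMap Hol Mer ⟨a, ha.1⟩)
    (hdiv : (n : ℤ) ∣ cuspO k a - cuspO k b) : c = 1 := by
  haveI : NeZero n := ⟨hn.ne'⟩
  set Tk : SL(2, ℤ) := ModularGroup.T ^ (k : ℤ) with hTk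
  set aH : Hol := ⟨a, ha.1⟩ with haH
  set bH : Hol := ⟨b, hb.1⟩ with hbH
  have hbM0 : algebraMap Hol Mer bH ≠ 0 := h8pc_hol_ne_zero hb.1 hb0
  have haM0 : algebraMap Hol Mer aH ≠ 0 := by
    rw [← hgab]
    exact mul_ne_zero (pow_ne_zero n hg) hbM0
  have ha0 : ∃ z, a z ≠ 0 := h8pc_exists_of_ne_zero haM0
  -- `c ^ n = 1`
  have hcn : c ^ n = 1 := by
    have h1 : precompMer Tk (g ^ n * algebraMap Hol Mer bH)
        = precompMer Tk (algebraMap Hol Mer aH) := by rw [hgab]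
    rw [map_mul, map_pow, hc, precompMer_algebraMap, precompMer_algebraMap,
      h8pc_precomp_T k bH hb.2.1, h8pc_precomp_T k aH ha.2.1, mul_pow, ← map_pow, mul_assoc,
      hgab] at h1
    have h2 : constMer (c ^ n) * algebraMap Hol Mer aH = constMer 1 * algebraMap Hol Mer aH := by
      rw [h1, map_one, one_mul]
    exact h8k_mult_unique haM0 h2
  have hc0 : c ≠ 0 := by
    rintro rfl
    rw [zero_pow hn.ne'] at hcn
    exact zero_ne_one hcn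
  -- the root of unity
  have hprim : IsPrimitiveRoot (𝕢 ((n * k : ℕ) : ℝ) ((k : ℝ) : ℂ)) n := by
    have := RH24.h11b_isPrimitiveRoot_qParam (n * k) k (dvd_mul_left k n) (NeZero.ne k)
    rwa [Nat.mul_div_cancel _ (NeZero.pos k)] at this
  obtain ⟨t, ht, hωt⟩ := hprim.eq_pow_of_pow_eq_one
    (show c⁻¹ ^ n = 1 by rw [inv_pow, hcn, inv_one])
  -- the exponential
  set e : ℍ → ℂ := fun z => 𝕢 ((n * k : ℕ) : ℝ) (z : ℂ) ^ t with he
  have heM : MDiff e := (h8pc_mdiff_qParam _).pow t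
  set eH : Hol := ⟨e, heM⟩ with heH
  have heT : precomp Tk eH = constHol c⁻¹ * eH := by
    apply Subtype.ext
    funext z
    show e (Tk • z) = c⁻¹ * e z
    rw [hTk, RH24.T_zpow_smul_eq_vadd, Int.cast_natCast]
    simp only [he]
    rw [h8pc_qParam_vadd, mul_pow, hωt]
  have hen : ∀ z : ℍ, e z ^ n = 𝕢 (k : ℝ) (z : ℂ) ^ t := by
    intro z
    simp only [he]
    rw [pow_right_comm, h8pc_qParam_pow]
  -- `Y`
  set Y : Mer := g * algebraMap Hol Mer bH * algebraMap Hol Mer eH with hY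
  have hYT : precompMer Tk Y = Y := by
    rw [hY, map_mul, map_mul, hc, precompMer_algebraMap, precompMer_algebraMap,
      h8pc_precomp_T k bH hb.2.1, heT, map_mul, ← constMer_apply]
    have : constMer c * constMer c⁻¹ = 1 := by rw [← map_mul, mul_inv_cancel₀ hc0, map_one]
    linear_combination (g * algebraMap Hol Mer bH * algebraMap Hol Mer eH) * this
  have hYn : Y ^ n = algebraMap Hol Mer (aH * bH ^ (n - 1) * eH ^ n) := by
    rw [hY, mul_pow, mul_pow, map_mul, map_mul, map_pow, map_pow, ← hgab]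
    obtain ⟨m, rfl⟩ : ∃ m, n = m + 1 := ⟨n - 1, by omega⟩
    simp only [Nat.add_sub_cancel]
    ring
  obtain ⟨y, hy⟩ := exists_hol_of_merVal_le Y (fun z₀ => by
    have h1 : merVal z₀ Y ^ n ≤ 1 := by
      rw [← map_pow, hYn, merVal_algebraMap]
      exact ordVal_le_one z₀ _
    by_contra hcon
    push Not at hcon
    exact absurd h1 (not_le.mpr (one_lt_pow₀ hcon hn.ne')))
  have hyT : precomp Tk y = y := by
    apply IsFractionRing.injective Hol Mer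
    rw [← precompMer_algebraMap, hy, hYT]
  have hyp : ∀ z : ℍ, (y : ℍ → ℂ) ((k : ℝ) +ᵥ z) = (y : ℍ → ℂ) z := by
    intro z
    have h1 := congrArg (fun f : Hol => (f : ℍ → ℂ) z) hyT
    simp only [precomp_apply] at h1
    rw [hTk, RH24.T_zpow_smul_eq_vadd, Int.cast_natCast] at h1
    exact h1
  have hyn : ∀ z : ℍ, (y : ℍ → ℂ) z ^ n = a z * b z ^ (n - 1) * 𝕢 (k : ℝ) (z : ℂ) ^ t := by
    have h1 : y ^ n = aH * bH ^ (n - 1) * eH ^ n := by
      apply IsFractionRing.injective Hol Mer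
      rw [map_pow, hy, hYn]
    intro z
    have h2 := congrArg (fun f : Hol => (f : ℍ → ℂ) z) h1
    have h3 : (y : ℍ → ℂ) z ^ n = a z * b z ^ (n - 1) * e z ^ n := h2
    rw [h3, hen]
  have hkey := h8pc_core k hn t ha hb ha0 hb0 y.2 hyp hyn
  have hnt : (n : ℤ) ∣ (t : ℤ) := (Int.dvd_add_right hdiv).mp hkey
  have ht0 : t = 0 := Nat.eq_zero_of_dvd_of_lt (Int.natCast_dvd_natCast.mp hnt) ht
  rw [ht0, pow_zero] at hωt
  exact inv_eq_one.mp hωt.symm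

end H8KUM

end
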