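import Fermat.Agent.W3G.KUMAbs_helper8

/-!
# Item 80 (W3G), slice KUM, part K-PE (helper8): the abstract core

`h8pe_key`: an additive valuation `u` on a function field `F / K`, trivial on `K`, takes on a
function `f` with `div f = n D` a value `n · d · u π`.

`h8pe_ell_abs`: the elliptic half of K-PE, from the local lemma at a fixed point
(`c = ζ ^ (log merVal z₀ X)` for `X ∘ γ = c X`).
-/

set_option autoImplicit false

noncomputable section

open UpperHalfPlane WithZero AlgebraicCurve CongruenceSubgroup ModularCurve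
open scoped MatrixGroups

namespace H8KUM

open H24D

variable {K F : Type*} [Field K] [Field F] [Algebra K F]

/-- **KEY**: values of an additive valuation on a function whose divisor is divisible by `n`. -/
theorem h8pe_key {u : F → ℤ} (hu : RH24.H2IsAddVal u)
    (hK : ∀ c : K, c ≠ 0 → u (algebraMap K F c) = 0) {n : ℕ} {f : F} (hf : f ≠ 0)
    (D : Divisor K F) (hD : ∀ v : Place K F, (n : ℤ) * D v = v.ord f) :
    ∃ (π : F) (d : ℤ), π ≠ 0 ∧ u f = n * d * u π := by
  by_cases h : ∃ y : F, y ≠ 0 ∧ 0 < u y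
  · obtain ⟨y, hy0, hy⟩ := h
    obtain ⟨v, m, -, -, hm⟩ := RH24.h2a5_exists_place hu hK hy0 hy
    obtain ⟨π, hπ⟩ := IsDiscreteValuationRing.exists_irreducible v.toValuationSubring
    have hπ0 : (π : F) ≠ 0 := fun h => hπ.ne_zero (Subtype.ext h)
    refine ⟨(π : F), D v, hπ0, ?_⟩
    rw [hm f hf, hm _ hπ0, v.ord_coe_irreducible hπ, ← hD v]
    ring
  · push Not at h
    refine ⟨1, 0, one_ne_zero, ?_⟩
    have h1 := h f hf
    have h2 := h f⁻¹ (inv_ne_zero hf)
    rw [hu.map_inv hf] at h2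
    rw [mul_zero, zero_mul]
    omega

/-- the additive valuation `- log merVal z₀ (φ ·)` is trivial on the constants -/
theorem h8pe_u_const {Γ : Subgroup SL(2, ℤ)} {φ : F →+* Mer} (hU : IsRealisation K Γ φ) (z₀ : ℍ)
    (c : K) (hc : c ≠ 0) : RH24.h2a5_u (merVal z₀) φ (algebraMap K F c) = 0 := by
  obtain ⟨c', hc'⟩ := hU.const c
  have hc0 : c' ≠ 0 := by
    rintro rfl
    rw [map_zero] at hc'
    have h1 : algebraMap K F c = 0 := φ.injective (by rw [hc', map_zero])
    exact hc ((algebraMap K F).injective (by rw [h1, map_zero]))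
  unfold RH24.h2a5_u
  rw [hc', h8k_merVal_const z₀ hc0]
  simp

/-- **K-PE, elliptic half (abstract)**: the Kummer character is trivial on an element `γ` which
satisfies the local lemma at a point `z₀`. -/
theorem h8pe_ell_abs {Γ : Subgroup SL(2, ℤ)} {φ : F →+* Mer} (hU : IsRealisation K Γ φ)
    {n : ℕ} (hn : n ≠ 0) {x : Pic0 K F} {χ : Γ → ℂ} (h : IsKummerChar Γ φ n x χ) (γ : Γ)
    (z₀ : ℍ) (ζ : ℂ)
    (hloc : ∀ (X : Mer) (c : ℂ), X ≠ 0 → precompMer (γ : SL(2, ℤ)) X = constMer c * X →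
      c = ζ ^ (WithZero.log (merVal z₀ X))) : χ γ = 1 := by
  obtain ⟨D, f, G, -, hf, hD, hG, hχ⟩ := h
  have hG0 : G ≠ 0 := h8k_gen_ne_zero hf hn hG
  obtain ⟨π, d, hπ0, hπ⟩ := h8pe_key (RH24.h2a5_isAddVal (merVal z₀) φ)
    (h8pe_u_const hU z₀) hf (D : Divisor K F) hD
  have hφπ : φ π ≠ 0 := (map_ne_zero φ).mpr hπ0
  have hφf : φ f ≠ 0 := (map_ne_zero φ).mpr hf
  -- the orders
  have h1 : WithZero.log (merVal z₀ (φ f)) = n * WithZero.log (merVal z₀ G) := by
    rw [← hG, map_pow, WithZero.log_pow]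
    simp
  have h2 : WithZero.log (merVal z₀ G) = d * WithZero.log (merVal z₀ (φ π)) := by
    unfold RH24.h2a5_u at hπ
    have hn' : (n : ℤ) ≠ 0 := by exact_mod_cast hn
    have h3 : (n : ℤ) * WithZero.log (merVal z₀ G)
        = n * (d * WithZero.log (merVal z₀ (φ π))) := by
      rw [← h1]
      linear_combination -hπ
    exact mul_left_cancel₀ hn' h3
  have h4 := hloc G (χ γ) hG0 (hχ γ)
  have h5 := hloc (φ π) 1 hφπ (by rw [map_one, one_mul]; exact hU.inv _ γ.2 π)
  rw [h4, h2, mul_comm, zpow_mul, ← h5, one_zpow]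

end H8KUM

end
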