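import Fermat.Agent.W3G.KUMPECusp_helper8
import Fermat.Agent.W3G.KUMPEKey_helper8
import Fermat.Agent.W3G.RIGDefs_helper27

/-!
# Item 80 (W3G), slice KUM, part K-PE (helper8): the valuation at a cusp, the cusp half of K-PE

For `δ ∈ SL(2, ℤ)` and `k > 0` with `δ Tᵏ δ⁻¹ ∈ Γ₀(N)`, the functions `(phi N f) ∘ δ` are
quotients of `k`-periodic holomorphic functions of moderate growth; the order at `i∞` in the
parameter `q_k` defines an additive valuation on `ℚ̄·F_N`, trivial on `ℚ̄`.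

`h8pv_cusp`: a Kummer generator `G` (`Gⁿ = phi N f`, `div f = n D`) with
`G ∘ (δ Tᵏ δ⁻¹) = c G` has `c = 1`.
-/

set_option autoImplicit false
set_option linter.style.haveILetI false
set_option linter.unusedSectionVars false

noncomputable section

open UpperHalfPlane ModularForm MatrixGroups CongruenceSubgroup AlgebraicCurve ModularCurve
open scoped Manifold

namespace H8KUM

open H24D
open RH24 (Dv jd jdt)

variable (k : ℕ) [NeZero k]

/-- the ring at the cusp, period `k` -/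
abbrev cuspR : RH24.h20_Ring k := RH24.h8_ringInf k

theorem h8pv_mem_A (f : ℍ → ℂ) :
    f ∈ (cuspR k).A ↔ f ∈ RH24.HolInf k := Iff.rfl

/-- the inclusion of the ring at the cusp into `Hol` -/
def cuspIncl : (cuspR k).A →+* Hol where
  toFun a := ⟨a.1, a.2.1⟩
  map_one' := rfl
  map_mul' _ _ := rfl
  map_zero' := rfl
  map_add' _ _ := rfl

/-- the inclusion of the ring at the cusp into `Mer` -/
def cuspIota : (cuspR k).A →+* Mer := (algebraMap Hol Mer).comp (cuspIncl k)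

theorem h8pv_cuspIota_apply (a : (cuspR k).A) :
    cuspIota k a = algebraMap Hol Mer ⟨a.1, a.2.1⟩ := rfl

theorem h8pv_cuspIota_injective : Function.Injective (cuspIota k) := by
  intro a b h
  have h1 : cuspIncl k a = cuspIncl k b := IsFractionRing.injective Hol Mer h
  exact Subtype.ext (congrArg (fun f : Hol => (f : ℍ → ℂ)) h1)

/-- the fraction field of the ring at the cusp, in `Mer` -/
def cuspLift : (cuspR k).E →+* Mer :=
  IsFractionRing.lift (h8pv_cuspIota_injective k)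

theorem h8pv_cuspLift_algebraMap (a : (cuspR k).A) :
    cuspLift k (algebraMap (cuspR k).A (cuspR k).E a) = cuspIota k a :=
  IsFractionRing.lift_algebraMap (h8pv_cuspIota_injective k) a

theorem h8pv_const_mem (c : ℂ) : constMer c ∈ (cuspLift k).fieldRange := by
  refine ⟨algebraMap (cuspR k).A _ (algebraMap ℂ (cuspR k).A c), ?_⟩
  rw [h8pv_cuspLift_algebraMap]
  rfl

variable {N : ℕ} [NeZero N]

/-- the translates of the generators are `k`-periodic of moderate growth -/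
theorem h8pv_jd_mem (δ : SL(2, ℤ)) (hδ : δ * ModularGroup.T ^ (k : ℤ) * δ⁻¹ ∈ Gamma0 N)
    (d : Dv N) : (fun z : ℍ => jd d.1 (δ • z)) ∈ RH24.HolInf k := by
  refine ⟨?_, fun z => ?_, ?_⟩
  · exact (precomp δ (jdHol d)).2
  · have h1 : δ • ((k : ℝ) +ᵥ z : ℍ)
        = (δ * ModularGroup.T ^ (k : ℤ) * δ⁻¹) • (δ • z) := by
      rw [mul_smul, mul_smul, inv_smul_smul, RH24.T_zpow_smul_eq_vadd, Int.cast_natCast]
    show jd d.1 (δ • ((k : ℝ) +ᵥ z : ℍ)) = jd d.1 (δ • z)
    rw [h1, RH24.jd_smul_of_mem_Gamma0 N d _ hδ]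
  · have h := RH24.jdt_moderateGrowth N d δ⁻¹
    have h2 : jdt d.1 δ⁻¹ = fun z : ℍ => jd d.1 (δ • z) := by
      funext z
      simp only [jdt, inv_inv]
    rwa [h2] at h

theorem h8pv_jd_mem_range (δ : SL(2, ℤ)) (hδ : δ * ModularGroup.T ^ (k : ℤ) * δ⁻¹ ∈ Gamma0 N)
    (d : Dv N) : precompMer δ (jdMer d) ∈ (cuspLift k).fieldRange := by
  refine ⟨algebraMap (cuspR k).A _ ⟨_, h8pv_jd_mem k δ hδ d⟩, ?_⟩
  rw [h8pv_cuspLift_algebraMap, h8pv_cuspIota_apply]
  unfold jdMer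
  rw [precompMer_algebraMap]
  rfl

/-- the realisation, translated by `δ`, has values in the field at the cusp -/
theorem h8pv_mem_range (δ : SL(2, ℤ)) (hδ : δ * ModularGroup.T ^ (k : ℤ) * δ⁻¹ ∈ Gamma0 N)
    (f : modularFunctionFieldBar N) : precompMer δ (phi N f) ∈ (cuspLift k).fieldRange := by
  have h1 : H2AN3.KN N ≤ ((cuspLift k).fieldRange).comap (precompMer δ) := by
    unfold H2AN3.KN
    rw [Subfield.closure_le]
    rintro x (⟨c, rfl⟩ | ⟨d, rfl⟩)
    · show precompMer δ (constMer c) ∈ (cuspLift k).fieldRange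
      rw [h8k_precompMer_const]
      exact h8pv_const_mem k c
    · exact h8pv_jd_mem_range k δ hδ d
  exact h1 (H27RIG.phi_mem_KN N f)

/-- the realisation at the cusp `δ ∞` (period `k`), with values in the fraction field of the ring
at the cusp -/
def cuspPsi (δ : SL(2, ℤ)) (hδ : δ * ModularGroup.T ^ (k : ℤ) * δ⁻¹ ∈ Gamma0 N) :
    modularFunctionFieldBar N →+* (cuspR k).E :=
  ((cuspLift k).rangeRestrictFieldEquiv.symm
    : (cuspLift k).fieldRange →+* (cuspR k).E).comp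
    (((precompMer δ).comp (phi N)).codRestrict (cuspLift k).fieldRange.toSubring
      (h8pv_mem_range k δ hδ))

theorem h8pv_cuspLift_psi (δ : SL(2, ℤ)) (hδ : δ * ModularGroup.T ^ (k : ℤ) * δ⁻¹ ∈ Gamma0 N)
    (f : modularFunctionFieldBar N) :
    cuspLift k (cuspPsi k δ hδ f) = precompMer δ (phi N f) := by
  unfold cuspPsi
  exact RingHom.rangeRestrictFieldEquiv_apply_symm_apply (cuspLift k) _

theorem h8pv_psi_const (δ : SL(2, ℤ)) (hδ : δ * ModularGroup.T ^ (k : ℤ) * δ⁻¹ ∈ Gamma0 N)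
    (c : RH24.Kbar) :
    cuspPsi k δ hδ (algebraMap RH24.Kbar (modularFunctionFieldBar N) c)
      = algebraMap (cuspR k).A (cuspR k).E (algebraMap ℂ (cuspR k).A (RH24.iota c)) := by
  apply (cuspLift k).injective
  rw [h8pv_cuspLift_psi, phi_const, h8k_precompMer_const, h8pv_cuspLift_algebraMap]
  rfl

/-- the additive valuation at the cusp -/
def cuspU (δ : SL(2, ℤ)) (hδ : δ * ModularGroup.T ^ (k : ℤ) * δ⁻¹ ∈ Gamma0 N) :
    modularFunctionFieldBar N → ℤ :=
  RH24.h2a5_u (cuspR k).w (cuspPsi k δ hδ)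

theorem h8pv_cuspU_const (δ : SL(2, ℤ)) (hδ : δ * ModularGroup.T ^ (k : ℤ) * δ⁻¹ ∈ Gamma0 N)
    (c : RH24.Kbar) (hc : c ≠ 0) :
    cuspU k δ hδ (algebraMap RH24.Kbar (modularFunctionFieldBar N) c) = 0 := by
  unfold cuspU RH24.h2a5_u
  rw [h8pv_psi_const]
  have hc' : RH24.iota c ≠ 0 := (map_ne_zero RH24.iota).mpr hc
  have h2 : algebraMap ℂ (cuspR k).A (RH24.iota c) ≠ 0 := by
    intro h
    apply hc'
    exact (algebraMap ℂ (cuspR k).A).injective (by rw [h, map_zero])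
  rw [(cuspR k).w_alg _ h2]
  have h3 : (cuspR k).oA (algebraMap ℂ (cuspR k).A (RH24.iota c)) = 0 :=
    (cuspR k).o_const _ hc'
  rw [h3]
  simp

/-- **K-PE, the cusp half**: a Kummer generator has trivial multiplier at `δ Tᵏ δ⁻¹`. -/
theorem h8pv_cusp {n : ℕ} (hn : 0 < n) (δ : SL(2, ℤ))
    (hδ : δ * ModularGroup.T ^ (k : ℤ) * δ⁻¹ ∈ Gamma0 N)
    {f : modularFunctionFieldBar N} (hf : f ≠ 0)
    (D : Divisor RH24.Kbar (modularFunctionFieldBar N))
    (hD : ∀ v : Place RH24.Kbar (modularFunctionFieldBar N), (n : ℤ) * D v = v.ord f)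
    (G : Mer) (hG : G ^ n = phi N f) (c : ℂ)
    (hc : precompMer (δ * ModularGroup.T ^ (k : ℤ) * δ⁻¹) G = constMer c * G) : c = 1 := by
  have hG0 : G ≠ 0 := h8k_gen_ne_zero hf hn.ne' hG
  set g : Mer := precompMer δ G with hg
  have hg0 : g ≠ 0 := (map_ne_zero (precompMer δ)).mpr hG0
  -- the multiplier of `g`
  have hgc : precompMer (ModularGroup.T ^ (k : ℤ)) g = constMer c * g := by
    rw [precompMer_mul_apply, precompMer_mul_apply] at hc
    have h1 := congrArg (precompMer δ) hc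
    rw [← precompMer_mul_apply, inv_mul_cancel, precompMer_one, RingHom.id_apply, map_mul,
      h8k_precompMer_const] at h1
    exact h1
  -- the fraction
  set ψ := cuspPsi (N := N) k δ hδ with hψ
  obtain ⟨a, b, hb, hab⟩ := IsFractionRing.div_surjective (A := (cuspR k).A) (ψ f)
  have hb0 : b ≠ 0 := nonZeroDivisors.ne_zero hb
  have hψf : ψ f ≠ 0 := (map_ne_zero ψ).mpr hf
  have hbE : algebraMap (cuspR k).A (cuspR k).E b ≠ 0 := by
    intro h
    exact hb0 (IsFractionRing.injective (cuspR k).A (cuspR k).E (by rw [h, map_zero]))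
  have ha0 : a ≠ 0 := by
    rintro rfl
    rw [map_zero, zero_div] at hab
    exact hψf hab.symm
  -- the value of the valuation
  have hu : cuspU k δ hδ f = cuspO k (a : ℍ → ℂ) - cuspO k (b : ℍ → ℂ) := by
    unfold cuspU RH24.h2a5_u
    rw [← hψ, ← hab, (cuspR k).w_div a b ha0 hb0]
    simp only [WithZero.log_exp, neg_neg]
    rfl
  obtain ⟨π, d, -, hπ⟩ := h8pe_key (RH24.h2a5_isAddVal (cuspR k).w (cuspPsi (N := N) k δ hδ))
    (h8pv_cuspU_const k δ hδ) hf D hD
  have hdiv : (n : ℤ) ∣ cuspO k (a : ℍ → ℂ) - cuspO k (b : ℍ → ℂ) := by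
    rw [← hu]
    exact ⟨d * RH24.h2a5_u (cuspR k).w (cuspPsi (N := N) k δ hδ) π, by
      show RH24.h2a5_u (cuspR k).w (cuspPsi (N := N) k δ hδ) f = _
      rw [hπ]; ring⟩
  -- `gⁿ = a / b`
  have hgab : g ^ n * algebraMap Hol Mer ⟨(b : ℍ → ℂ), b.2.1⟩
      = algebraMap Hol Mer ⟨(a : ℍ → ℂ), a.2.1⟩ := by
    have h1 : g ^ n = cuspLift k (ψ f) := by
      rw [h8pv_cuspLift_psi, hg, ← map_pow, hG]
    rw [h1, ← hab, ← h8pv_cuspIota_apply k b, ← h8pv_cuspIota_apply k a,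
      ← h8pv_cuspLift_algebraMap, ← h8pv_cuspLift_algebraMap, ← map_mul, div_mul_cancel₀ _ hbE]
  exact h8pc_cusp_local k hn g hg0 c hgc a.2 b.2 (((cuspR k).ne_zero_iff b).1 hb0) hgab hdiv

end H8KUM

end
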