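import Fermat.Agent.W3G.KUMDefs_helper8
import Fermat.Agent.W3G.AN1_helper23

/-!
# Item 80 (W3G), KUM sub-slice K-ROOT (helper16): AN1 in `Mer`-form

`H16KR.h16_rootStatement n (hn : 0 < n) : H8KUM.RootStatement n`: an element `W ≠ 0` of
`Mer = Frac Hol` all of whose orders `merVal z₀ W` are of the form `exp (n m)` is an `n`-th power
in `Mer`.

Route (helper8's sketch): `W = a / b`, `f = ext a / ext b` is meromorphic on the upper half plane
with orders divisible by `n`; helper23's AN1 gives `g` with `gⁿ = f` codiscretely; `h = g · ext b`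
has `hⁿ · b = a · bⁿ` codiscretely, so `h` has nonnegative orders and its normal form `h̃` is
holomorphic; `G := h̃ / b`.
-/

set_option autoImplicit false

noncomputable section

open UpperHalfPlane WithZero Filter Set
open scoped Topology Manifold

namespace H16KR

open H24D

/-- `merVal` of a fraction -/
theorem h16_merVal_div (z₀ : ℍ) (a b : Hol) (ha : a ≠ 0) (hb : b ≠ 0) :
    merVal z₀ (algebraMap Hol Mer a / algebraMap Hol Mer b)
      = WithZero.exp ((ordNat z₀ (b : ℍ → ℂ) : ℤ) - (ordNat z₀ (a : ℍ → ℂ) : ℤ)) := by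
  rw [map_div₀, merVal_algebraMap, merVal_algebraMap, ordVal_apply z₀ a ha, ordVal_apply z₀ b hb,
    ← WithZero.exp_sub]
  congr 1
  ring

/-- the meromorphic order of `ext a` for `a ∈ Hol`, `a ≠ 0` -/
theorem h16_meromorphicOrderAt_ext (a : Hol) (ha : a ≠ 0) (z₀ : ℍ) :
    meromorphicOrderAt (ext (a : ℍ → ℂ)) (z₀ : ℂ) = ((ordNat z₀ (a : ℍ → ℂ) : ℤ) : WithTop ℤ) := by
  have ha' : (a : ℍ → ℂ) ≠ 0 := fun h => ha (Subtype.ext h)
  rw [(analyticAt_ext a.2 z₀).meromorphicOrderAt_eq]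
  have h1 : analyticOrderAt (ext (a : ℍ → ℂ)) (z₀ : ℂ) = ((ordNat z₀ (a : ℍ → ℂ) : ℕ) : ℕ∞) :=
    (coe_ordNat a.2 ha' z₀).symm
  rw [h1]
  rfl

/-- **K-ROOT** (AN1 in `Mer`-form). -/
theorem h16_rootStatement (n : ℕ) (hn : 0 < n) : H8KUM.RootStatement n := by
  intro W hW hord
  classical
  have hn0 : n ≠ 0 := hn.ne'
  obtain ⟨a, b, hb, hab⟩ := IsFractionRing.div_surjective (A := Hol) W
  have hb0 : b ≠ 0 := nonZeroDivisors.ne_zero hb
  have ha0 : a ≠ 0 := by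
    rintro rfl
    apply hW
    rw [← hab, map_zero, zero_div]
  have hbM : algebraMap Hol Mer b ≠ 0 := by
    intro h
    exact hb0 ((IsFractionRing.injective Hol Mer) (by rw [h, map_zero]))
  set U : Set ℂ := H23AN.h23anU with hU
  have hUopen : IsOpen U := H23AN.h23anU_isOpen
  have hAa : AnalyticOnNhd ℂ (ext (a : ℍ → ℂ)) U := analyticOnNhd_ext a.2
  have hAb : AnalyticOnNhd ℂ (ext (b : ℍ → ℂ)) U := analyticOnNhd_ext b.2
  -- the order relation at every point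
  have hrel : ∀ z₀ : ℍ, ∃ m : ℤ,
      (ordNat z₀ (a : ℍ → ℂ) : ℤ) - (ordNat z₀ (b : ℍ → ℂ) : ℤ) = (n : ℤ) * m := by
    intro z₀
    obtain ⟨m, hm⟩ := hord z₀
    rw [← hab, h16_merVal_div z₀ a b ha0 hb0] at hm
    have h1 := WithZero.exp_injective hm
    exact ⟨-m, by rw [mul_neg]; omega⟩
  set f : ℂ → ℂ := ext (a : ℍ → ℂ) / ext (b : ℍ → ℂ) with hf
  have hfmer : MeromorphicOn f U := fun z hz =>
    (hAa z hz).meromorphicAt.div (hAb z hz).meromorphicAt
  have hford : ∀ (z : ℂ) (hz : z ∈ U), meromorphicOrderAt f z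
      = (((ordNat ⟨z, hz⟩ (a : ℍ → ℂ) : ℤ) - (ordNat ⟨z, hz⟩ (b : ℍ → ℂ) : ℤ) : ℤ) :
          WithTop ℤ) := by
    intro z hz
    have h1 := h16_meromorphicOrderAt_ext a ha0 ⟨z, hz⟩
    have h2 := h16_meromorphicOrderAt_ext b hb0 ⟨z, hz⟩
    rw [hf, meromorphicOrderAt_div (hAa z hz).meromorphicAt (hAb z hz).meromorphicAt]
    change meromorphicOrderAt (ext (a : ℍ → ℂ)) z = _ at h1
    change meromorphicOrderAt (ext (b : ℍ → ℂ)) z = _ at h2
    rw [h1, h2]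
    rfl
  have hord' : ∀ z ∈ U, ∃ m : ℤ, meromorphicOrderAt f z = ((n * m : ℤ) : WithTop ℤ) := by
    intro z hz
    obtain ⟨m, hm⟩ := hrel ⟨z, hz⟩
    exact ⟨m, by rw [hford z hz, hm]⟩
  obtain ⟨g, hgNF, hfg, hgord⟩ := H23AN.h23an_exists_root n hn0 f hfmer hord'
  -- `h = g * ext b`
  set h : ℂ → ℂ := g * ext (b : ℍ → ℂ) with hh
  have hhmer : MeromorphicOn h U := fun z hz =>
    (hgNF.meromorphicOn z hz).mul (hAb z hz).meromorphicAt
  set ht : ℂ → ℂ := toMeromorphicNFOn h U with hht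
  have htNF : MeromorphicNFOn ht U := meromorphicNFOn_toMeromorphicNFOn h U
  have hhteq : h =ᶠ[codiscreteWithin U] ht := toMeromorphicNFOn_eqOn_codiscrete hhmer
  -- orders of `ht` are nonnegative
  have htan : AnalyticOnNhd ℂ ht U := by
    intro z hz
    rw [← (htNF hz).meromorphicOrderAt_nonneg_iff_analyticAt]
    rw [hht, meromorphicOrderAt_toMeromorphicNFOn hhmer hz, hh,
      meromorphicOrderAt_mul (hgNF.meromorphicOn z hz) (hAb z hz).meromorphicAt]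
    obtain ⟨m, hm1, hm2⟩ := hgord z hz
    have h2 := h16_meromorphicOrderAt_ext b hb0 ⟨z, hz⟩
    change meromorphicOrderAt (ext (b : ℍ → ℂ)) z = _ at h2
    rw [hm1, h2]
    rw [hford z hz] at hm2
    have h3 : (ordNat ⟨z, hz⟩ (a : ℍ → ℂ) : ℤ) - (ordNat ⟨z, hz⟩ (b : ℍ → ℂ) : ℤ)
        = (n : ℤ) * m := by exact_mod_cast hm2
    have h4 : 0 ≤ m + (ordNat ⟨z, hz⟩ (b : ℍ → ℂ) : ℤ) := by
      by_contra hneg
      push Not at hneg
      have h5 : m + (ordNat ⟨z, hz⟩ (b : ℍ → ℂ) : ℤ) ≤ -1 := by omega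
      have hnZ : (1 : ℤ) ≤ n := by exact_mod_cast hn
      have h6 : (n : ℤ) * (m + (ordNat ⟨z, hz⟩ (b : ℍ → ℂ) : ℤ)) ≤ (n : ℤ) * (-1) :=
        mul_le_mul_of_nonneg_left h5 (by omega)
      have h7 : (0 : ℤ) ≤ (ordNat ⟨z, hz⟩ (a : ℍ → ℂ) : ℤ) := Int.natCast_nonneg _
      have h8 : (0 : ℤ) ≤ (ordNat ⟨z, hz⟩ (b : ℍ → ℂ) : ℤ) := Int.natCast_nonneg _
      have h9 : (ordNat ⟨z, hz⟩ (b : ℍ → ℂ) : ℤ) ≤ (n : ℤ) * (ordNat ⟨z, hz⟩ (b : ℍ → ℂ) : ℤ) :=
        le_mul_of_one_le_left h8 hnZ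
      nlinarith
    exact_mod_cast h4
  -- the key identity, codiscretely and hence everywhere
  have hkey_cod : (ht ^ n * ext (b : ℍ → ℂ))
      =ᶠ[codiscreteWithin U] (ext (a : ℍ → ℂ) * ext (b : ℍ → ℂ) ^ n) := by
    filter_upwards [hfg, hhteq] with w hw1 hw2
    simp only [Pi.mul_apply, Pi.pow_apply]
    rw [← hw2, hh]
    simp only [Pi.mul_apply]
    have hw1' : ext (a : ℍ → ℂ) w / ext (b : ℍ → ℂ) w = g w ^ n := by
      have := hw1
      simpa [hf] using this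
    rw [mul_pow, ← hw1']
    by_cases hbw : ext (b : ℍ → ℂ) w = 0
    · rw [hbw, mul_zero, zero_pow hn0, mul_zero]
    · field_simp
  have hkey : EqOn (ht ^ n * ext (b : ℍ → ℂ)) (ext (a : ℍ → ℂ) * ext (b : ℍ → ℂ) ^ n) U :=
    H23AN.h23an_eqOn_of_codiscrete hUopen
      (((htan.pow n).mul hAb).meromorphicNFOn) ((hAa.mul (hAb.pow n)).meromorphicNFOn) hkey_cod
  -- the holomorphic function `H`
  have hHmd : MDiff (fun z : ℍ => ht (z : ℂ)) := by
    rw [UpperHalfPlane.mdifferentiable_iff]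
    have h1 : DifferentiableOn ℂ ht {z : ℂ | 0 < z.im} := htan.differentiableOn
    refine h1.congr ?_
    intro w hw
    simp only [Function.comp_apply]
    rw [UpperHalfPlane.ofComplex_apply_of_im_pos hw]
  set H : Hol := ⟨fun z : ℍ => ht (z : ℂ), hHmd⟩ with hH
  have hHol : H ^ n * b = a * b ^ n := by
    apply Subtype.ext
    funext z
    have h1 := hkey (coe_mem_Hset z)
    simp only [Pi.mul_apply, Pi.pow_apply, ext_coe] at h1
    simpa [hH] using h1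
  refine ⟨algebraMap Hol Mer H / algebraMap Hol Mer b, ?_⟩
  rw [← hab, div_pow, div_eq_div_iff (pow_ne_zero n hbM) hbM, ← map_pow, ← map_pow, ← map_mul,
    ← map_mul, hHol]

end H16KR

end
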