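import Fermat.Agent.W3G.DefsGeom
import Mathlib.GroupTheory.FiniteAbelian.Basic
import Mathlib.GroupTheory.Abelianization.Defs
import Mathlib.GroupTheory.Schreier
import Mathlib.Algebra.Module.Projective
import Mathlib.LinearAlgebra.FreeModule.PID

/-!
# Item 80 (W3G): LIFT for an arbitrary modulus (helper11, after helper28's `Lift_helper28.lean`)

`h11ln_liftN` : for every `n > 0` there is `m > 0` such that every character
`χ : Hpe N (ZMod (n * m))` agrees modulo `n` with an element of `Lpar N`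
(`m` = the order of the torsion subgroup of `Γ₀(N)^ab / ⟨parabolic, finite order⟩`).
-/

set_option autoImplicit false
set_option linter.style.haveILetI false

noncomputable section

namespace H11W3G

open ModularCurve CongruenceSubgroup

/-- an element of `ℤ/(n m)` killed by `m` vanishes modulo `n` -/
theorem h11ln_cast_eq_zero (n m : ℕ) (hn : 0 < n) (hm : 0 < m) (c : ZMod (n * m))
    (hc : ((m : ℕ) : ZMod (n * m)) * c = 0) :
    ZMod.castHom (dvd_mul_right n m) (ZMod n) c = 0 := by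
  haveI : NeZero (n * m) := ⟨(Nat.mul_pos hn hm).ne'⟩
  have h1 : c = ((c.val : ℕ) : ZMod (n * m)) := (ZMod.natCast_zmod_val c).symm
  rw [h1, ← Nat.cast_mul, ZMod.natCast_eq_zero_iff] at hc
  rw [h1, map_natCast, ZMod.natCast_eq_zero_iff]
  have hc' : m * n ∣ m * c.val := by
    rw [mul_comm m n]; exact hc
  exact (Nat.mul_dvd_mul_iff_left hm).mp hc'

/-- **LIFT for modules**, arbitrary modulus. -/
theorem h11ln_lift_module (A : Type) [AddCommGroup A] [Module.Finite ℤ A] :
    ∃ m : ℕ, 0 < m ∧ ∀ (n : ℕ), 0 < n → ∀ χ : A →+ ZMod (n * m), ∃ φ : A →+ ℤ,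
      ∀ a, ((φ a : ℤ) : ZMod n) = ZMod.castHom (dvd_mul_right n m) (ZMod n) (χ a) := by
  classical
  haveI : IsNoetherian ℤ A := isNoetherian_of_isNoetherianRing_of_finite ℤ A
  haveI : Module.Finite ℤ (Submodule.torsion ℤ A) := Module.IsNoetherian.finite ℤ _
  haveI : Finite (Submodule.torsion ℤ A) :=
    Module.finite_of_fg_torsion _ (Submodule.torsion_isTorsion)
  have he : 0 < Nat.card (Submodule.torsion ℤ A) := Nat.card_pos
  obtain ⟨m, hm⟩ : ∃ m, m = Nat.card (Submodule.torsion ℤ A) := ⟨_, rfl⟩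
  rw [← hm] at he
  refine ⟨m, he, fun n hn χ => ?_⟩
  have hT : ∀ t ∈ Submodule.torsion ℤ A,
      ZMod.castHom (dvd_mul_right n m) (ZMod n) (χ t) = 0 := by
    intro t ht
    apply h11ln_cast_eq_zero n m hn he
    have h1 : Nat.card (Submodule.torsion ℤ A) • (⟨t, ht⟩ : Submodule.torsion ℤ A) = 0 :=
      card_nsmul_eq_zero'
    have h2 : Nat.card (Submodule.torsion ℤ A) • t = 0 := by
      have := congrArg (Submodule.subtype _) h1
      simpa using this
    have h3 : Nat.card (Submodule.torsion ℤ A) • χ t = 0 := by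
      rw [← map_nsmul, h2, map_zero]
    rw [← hm, nsmul_eq_mul] at h3
    exact h3
  let ψ : A →ₗ[ℤ] ZMod n :=
    ((ZMod.castHom (dvd_mul_right n m) (ZMod n)).toAddMonoidHom.comp χ).toIntLinearMap
  have hψ : Submodule.torsion ℤ A ≤ LinearMap.ker ψ := fun t ht => hT t ht
  let c : ℤ →ₗ[ℤ] ZMod n := (Int.castAddHom (ZMod n)).toIntLinearMap
  have hc : Function.Surjective c := ZMod.intCast_surjective
  obtain ⟨h, hh⟩ := Module.projective_lifting_property c
    ((Submodule.torsion ℤ A).liftQ ψ hψ) hc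
  refine ⟨(h ∘ₗ (Submodule.torsion ℤ A).mkQ).toAddMonoidHom, fun a => ?_⟩
  have := LinearMap.congr_fun hh ((Submodule.torsion ℤ A).mkQ a)
  simpa [c, ψ] using this

/-- **LIFT for groups**, arbitrary modulus. -/
theorem h11ln_lift_group (G : Type) [Group G] [hG : Group.FG G] (P : Set G) :
    ∃ m : ℕ, 0 < m ∧ ∀ (n : ℕ), 0 < n → ∀ χ : Additive G →+ ZMod (n * m),
      (∀ g ∈ P, χ (Additive.ofMul g) = 0) →
      ∃ φ : Additive G →+ ℤ, (∀ g ∈ P, φ (Additive.ofMul g) = 0) ∧
        ∀ g : G, ((φ (Additive.ofMul g) : ℤ) : ZMod n) =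
          ZMod.castHom (dvd_mul_right n m) (ZMod n) (χ (Additive.ofMul g)) := by
  classical
  let ι : Additive G →+ Additive (Abelianization G) := MonoidHom.toAdditive Abelianization.of
  let S : Submodule ℤ (Additive (Abelianization G)) :=
    Submodule.span ℤ ((fun g => ι (Additive.ofMul g)) '' P)
  haveI : Group.FG (Abelianization G) :=
    Group.fg_of_surjective (f := Abelianization.of)
      (fun x => QuotientGroup.mk_surjective (s := commutator G) x)
  haveI : Module.Finite ℤ (Additive (Abelianization G)) :=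
    Module.Finite.iff_addGroup_fg.mpr inferInstance
  obtain ⟨m, hm, hj⟩ := h11ln_lift_module (Additive (Abelianization G) ⧸ S)
  refine ⟨m, hm, fun n hn χ hχ => ?_⟩
  let χ₂ : Additive (Abelianization G) →+ ZMod (n * m) :=
    MonoidHom.toAdditiveLeft (Abelianization.lift (AddMonoidHom.toMultiplicativeRight χ))
  have hχ₂ : ∀ g : G, χ₂ (ι (Additive.ofMul g)) = χ (Additive.ofMul g) := fun g => by
    show (Abelianization.lift (AddMonoidHom.toMultiplicativeRight χ)
      (Abelianization.of g)).toAdd = _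
    rw [Abelianization.lift_apply_of]
    rfl
  have hS : S ≤ LinearMap.ker χ₂.toIntLinearMap := by
    rw [Submodule.span_le]
    rintro _ ⟨g, hg, rfl⟩
    show χ₂ _ = 0
    rw [hχ₂]
    exact hχ g hg
  obtain ⟨φ, hφ⟩ := hj n hn (S.liftQ χ₂.toIntLinearMap hS).toAddMonoidHom
  refine ⟨(φ.comp S.mkQ.toAddMonoidHom).comp ι, fun g hg => ?_, fun g => ?_⟩
  · show φ (S.mkQ (ι (Additive.ofMul g))) = 0
    have : S.mkQ (ι (Additive.ofMul g)) = 0 := by
      rw [Submodule.mkQ_apply, Submodule.Quotient.mk_eq_zero]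
      exact Submodule.subset_span ⟨g, hg, rfl⟩
    rw [this, map_zero]
  · show ((φ (S.mkQ (ι (Additive.ofMul g))) : ℤ) : ZMod n) = _
    rw [hφ]
    show ZMod.castHom _ _ (χ₂ (ι (Additive.ofMul g))) = _
    rw [hχ₂]

/-- **LIFT-N**: every character modulo `n m` agrees modulo `n` with an element of `Lpar N`. -/
theorem h11ln_liftN (N : ℕ) [NeZero N] :
    ∃ m : ℕ, 0 < m ∧ ∀ (n : ℕ), 0 < n → ∀ χ : Hpe N (ZMod (n * m)),
      ∃ φ : Lpar N, ∀ γ : Gamma0 N,
        (((φ : Additive (Gamma0 N) →+ ℤ) (Additive.ofMul γ) : ℤ) : ZMod n) =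
          ZMod.castHom (dvd_mul_right n m) (ZMod n)
            ((χ : Additive (Gamma0 N) →+ ZMod (n * m)) (Additive.ofMul γ)) := by
  haveI : Group.FG (Matrix.SpecialLinearGroup (Fin 2) ℤ) :=
    Group.fg_iff.mpr ⟨{ModularGroup.S, ModularGroup.T}, SpecialLinearGroup.SL2Z_generators,
      by simp⟩
  haveI : Group.FG (Gamma0 N) := Subgroup.fg_of_index_ne_zero _
  obtain ⟨m, hm, hj⟩ := h11ln_lift_group (Gamma0 N)
    ({γ | ((γ : Matrix.SpecialLinearGroup (Fin 2) ℤ) : Matrix (Fin 2) (Fin 2) ℤ).trace ^ 2 = 4}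
      ∪ {γ | IsOfFinOrder γ})
  refine ⟨m, hm, fun n hn χ => ?_⟩
  obtain ⟨φ, hφ0, hφ⟩ := hj n hn χ.1 (by
    rintro g (hg | hg)
    · exact χ.2.1 g hg
    · exact χ.2.2 g hg)
  exact ⟨⟨φ, fun γ hγ => hφ0 γ (Or.inl hγ)⟩, hφ⟩

end H11W3G

end
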