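/-
helper13, item 80 (W3-G), RIGORD sub-slice ORD-RAM: exact ramification by counting
(abstract, Layer A of T-RH).

In the situation of `RH24.HasLocalData` (local uniformisation data `D : H2LocalData K z X E` with
an equivalence relation `r` on `X` satisfying (H1), (H2)) and `[F : K(z)] ≤ card X`:

* `H13OR.ord_z_eq_card`   : `(D.place hz x).ord z = card (class of x)`   (EXACT ramification);
* `H13OR.place_eq_iff`    : `D.place hz x = D.place hz x' ↔ r x x'`;
* `H13OR.card_eq_finrank` : `card X = [F : K(z)]`;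
* `H13OR.card_mul_u`      : `card (class of x) * D.u x f = D.u x z * (D.place hz x).ord f`.

Versions `…_of_sum` take the two Layer-A facts (finiteness of the places over `z = 0` and
`∑ ord_v z = [F : K(z)]`) as hypotheses; the final versions are for `K` algebraically closed of
characteristic `0` and `z` transcendental.
-/
import Mathlib
import Fermat.Agent.S24.A5

set_option autoImplicit false
set_option linter.style.haveILetI false
set_option linter.unusedSectionVars false
set_option linter.unusedVariables false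
set_option linter.style.longLine false

noncomputable section

open scoped WithZero

open AlgebraicCurve IntermediateField Polynomial RH24

namespace H13OR

section Comb

/-- the combinatorial core: a surjection `φ : Q → V` of finite types with weights `e ∘ φ ≤ N`,
`0 < N`, and `∑ N ≤ ∑ e` is a bijection and `e ∘ φ = N`. -/
theorem comb_core {Q V : Type*} [Fintype Q] [Fintype V] (φ : Q → V) (hφ : Function.Surjective φ)
    (N : Q → ℕ) (e : V → ℕ) (hNpos : ∀ q, 0 < N q) (heN : ∀ q, e (φ q) ≤ N q)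
    (hsum : ∑ q, N q ≤ ∑ v, e v) :
    Function.Injective φ ∧ ∀ q, e (φ q) = N q := by
  classical
  let ψ : V → Q := Function.surjInv hφ
  have hψinj : Function.Injective ψ := Function.injective_surjInv hφ
  have hψφ : ∀ v, φ (ψ v) = v := Function.surjInv_eq hφ
  have h1 : ∑ v, e v ≤ ∑ v, N (ψ v) := by
    refine Finset.sum_le_sum (fun v _ => ?_)
    have := heN (ψ v)
    rwa [hψφ] at this
  have h2 : ∑ v, N (ψ v) = ∑ q ∈ Finset.univ.image ψ, N q :=
    (Finset.sum_image (fun a _ b _ hab => hψinj hab)).symm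
  have h3 : ∑ q ∈ Finset.univ.image ψ, N q ≤ ∑ q, N q :=
    Finset.sum_le_sum_of_subset (Finset.subset_univ _)
  have hψsurj : Function.Surjective ψ := by
    by_contra hns
    rw [Function.Surjective, not_forall] at hns
    obtain ⟨q₀, hq₀⟩ := hns
    rw [not_exists] at hq₀
    have h3' : ∑ q ∈ Finset.univ.image ψ, N q < ∑ q, N q := by
      refine Finset.sum_lt_sum_of_subset (Finset.subset_univ _) (Finset.mem_univ q₀) ?_
        (hNpos q₀) (fun _ _ _ => Nat.zero_le _)
      intro hmem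
      obtain ⟨v, -, hv⟩ := Finset.mem_image.mp hmem
      exact hq₀ v hv
    omega
  have hψφ' : ∀ q, ψ (φ q) = q := by
    intro q
    obtain ⟨v, rfl⟩ := hψsurj q
    rw [hψφ]
  have hinj : Function.Injective φ := by
    intro q q' h
    rw [← hψφ' q, ← hψφ' q', h]
  refine ⟨hinj, ?_⟩
  -- termwise equality
  have heq : ∑ v, e v = ∑ v, N (ψ v) := le_antisymm h1 (by omega)
  have hterm : ∀ v ∈ Finset.univ, e v = N (ψ v) := by
    have hle : ∀ v ∈ (Finset.univ : Finset V), e v ≤ N (ψ v) := by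
      intro v _
      have := heN (ψ v)
      rwa [hψφ] at this
    exact (Finset.sum_eq_sum_iff_of_le hle).mp heq
  intro q
  have := hterm (φ q) (Finset.mem_univ _)
  rwa [hψφ'] at this

end Comb

section Abstract

variable {K F : Type*} [Field K] [Field F] [Algebra K F] {z : F} {X E : Type*} [Field E]
  (D : H2LocalData K z X E)

/-- all conclusions at once (with the Layer-A facts as hypotheses) -/
theorem exact_of_sum [Finite X] [FiniteDimensional K⟮z⟯ F] (hz : z ≠ 0)
    (hdeg : Module.finrank K⟮z⟯ F ≤ Nat.card X) (r : Setoid X)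
    (H1 : ∀ x x', r x x' → ∀ f, D.w (D.σ x f) = D.w (D.σ x' f))
    (H2 : ∀ x (f : F), f ≠ 0 → ∃ m : ℤ,
      D.w (D.σ x f) ^ Nat.card {x' // r x' x} = D.w (D.σ x z) ^ m)
    (hfin : Finite {v : Place K F // 0 < v.ord z})
    (hsum : ∑ᶠ v : {v : Place K F // 0 < v.ord z}, v.1.ord z = (Module.finrank K⟮z⟯ F : ℤ)) :
    (∀ x, (D.place hz x).ord z = (Nat.card {x' // r x' x} : ℤ)) ∧
    (∀ x x', D.place hz x = D.place hz x' → r x x') := by
  classical
  letI : Fintype X := Fintype.ofFinite X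
  letI : Fintype {v : Place K F // 0 < v.ord z} := Fintype.ofFinite _
  letI : Fintype (Quotient r) := Fintype.ofFinite _
  let φ : Quotient r → {v : Place K F // 0 < v.ord z} :=
    Quotient.lift (fun x => ⟨D.place hz x, D.place_ord_z_pos hz x⟩)
      (fun x x' hxx' => Subtype.ext (D.place_eq_of_w_eq hz x x' (H1 x x' hxx')))
  have hφ : Function.Surjective φ := by
    rintro ⟨v, hv⟩
    obtain ⟨x, hx⟩ := D.exists_place_eq hz hdeg v hv
    exact ⟨Quotient.mk r x, Subtype.ext hx⟩
  let N : Quotient r → ℕ := fun q => Fintype.card {x : X // Quotient.mk r x = q}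
  have hNpos : ∀ q, 0 < N q := by
    intro q
    induction q using Quotient.inductionOn with
    | _ x => exact Fintype.card_pos_iff.mpr ⟨⟨x, rfl⟩⟩
  have hNsum : ∑ q, N q = Fintype.card X := by
    rw [← Fintype.card_sigma]
    exact Fintype.card_congr (Equiv.sigmaFiberEquiv (Quotient.mk r))
  have hcardX : Fintype.card X ≤ Module.finrank K⟮z⟯ F := by
    have := D.card_le
    rwa [Nat.card_eq_fintype_card] at this
  let e : {v : Place K F // 0 < v.ord z} → ℕ := fun v => (v.1.ord z).toNat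
  have hesum : ∑ v, e v = Module.finrank K⟮z⟯ F := by
    rw [finsum_eq_sum_of_fintype] at hsum
    have : ((∑ v, e v : ℕ) : ℤ) = (Module.finrank K⟮z⟯ F : ℤ) := by
      rw [← hsum]
      push_cast
      refine Finset.sum_congr rfl (fun v _ => ?_)
      exact Int.toNat_of_nonneg v.2.le
    exact_mod_cast this
  have hcard : ∀ x, Nat.card {x' // r x' x} = N (Quotient.mk r x) := by
    intro x
    rw [Nat.card_eq_fintype_card]
    refine Fintype.card_congr (Equiv.subtypeEquivRight (fun x' => ?_))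
    exact (Quotient.eq (r := r)).symm
  have heN : ∀ q, e (φ q) ≤ N q := by
    intro q
    induction q using Quotient.inductionOn with
    | _ x =>
      have hdvd := D.ord_z_dvd hz x (Nat.card {x' // r x' x}) (H2 x)
      rw [hcard] at hdvd
      exact h2a5_le_of_dvd (D.place_ord_z_pos hz x) (hNpos _) hdvd
  obtain ⟨hinj, heq⟩ := comb_core φ hφ N e hNpos heN (by omega)
  refine ⟨fun x => ?_, fun x x' h => ?_⟩
  · have h1 := heq (Quotient.mk r x)
    rw [hcard]
    have h2 : ((e (φ (Quotient.mk r x)) : ℕ) : ℤ) = (D.place hz x).ord z :=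
      Int.toNat_of_nonneg (D.place_ord_z_pos hz x).le
    rw [← h2, h1]
  · have : φ (Quotient.mk r x) = φ (Quotient.mk r x') := Subtype.ext h
    exact Quotient.exact (hinj this)

/-- **ORD-RAM**: the ramification index is EXACTLY the size of the class. -/
theorem ord_z_eq_card_of_sum [Finite X] [FiniteDimensional K⟮z⟯ F] (hz : z ≠ 0)
    (hdeg : Module.finrank K⟮z⟯ F ≤ Nat.card X) (r : Setoid X)
    (H1 : ∀ x x', r x x' → ∀ f, D.w (D.σ x f) = D.w (D.σ x' f))
    (H2 : ∀ x (f : F), f ≠ 0 → ∃ m : ℤ,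
      D.w (D.σ x f) ^ Nat.card {x' // r x' x} = D.w (D.σ x z) ^ m)
    (hfin : Finite {v : Place K F // 0 < v.ord z})
    (hsum : ∑ᶠ v : {v : Place K F // 0 < v.ord z}, v.1.ord z = (Module.finrank K⟮z⟯ F : ℤ))
    (x : X) : (D.place hz x).ord z = (Nat.card {x' // r x' x} : ℤ) :=
  (exact_of_sum D hz hdeg r H1 H2 hfin hsum).1 x

/-- the place determines the class -/
theorem place_eq_iff_of_sum [Finite X] [FiniteDimensional K⟮z⟯ F] (hz : z ≠ 0)
    (hdeg : Module.finrank K⟮z⟯ F ≤ Nat.card X) (r : Setoid X)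
    (H1 : ∀ x x', r x x' → ∀ f, D.w (D.σ x f) = D.w (D.σ x' f))
    (H2 : ∀ x (f : F), f ≠ 0 → ∃ m : ℤ,
      D.w (D.σ x f) ^ Nat.card {x' // r x' x} = D.w (D.σ x z) ^ m)
    (hfin : Finite {v : Place K F // 0 < v.ord z})
    (hsum : ∑ᶠ v : {v : Place K F // 0 < v.ord z}, v.1.ord z = (Module.finrank K⟮z⟯ F : ℤ))
    (x x' : X) : D.place hz x = D.place hz x' ↔ r x x' :=
  ⟨(exact_of_sum D hz hdeg r H1 H2 hfin hsum).2 x x',
    fun h => D.place_eq_of_w_eq hz x x' (H1 x x' h)⟩

/-- the analytic valuation `D.u x` in terms of the place: `card(class) * u f = u z * ord_v f` -/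
theorem card_mul_u_of_sum [Finite X] [FiniteDimensional K⟮z⟯ F] (hz : z ≠ 0)
    (hdeg : Module.finrank K⟮z⟯ F ≤ Nat.card X) (r : Setoid X)
    (H1 : ∀ x x', r x x' → ∀ f, D.w (D.σ x f) = D.w (D.σ x' f))
    (H2 : ∀ x (f : F), f ≠ 0 → ∃ m : ℤ,
      D.w (D.σ x f) ^ Nat.card {x' // r x' x} = D.w (D.σ x z) ^ m)
    (hfin : Finite {v : Place K F // 0 < v.ord z})
    (hsum : ∑ᶠ v : {v : Place K F // 0 < v.ord z}, v.1.ord z = (Module.finrank K⟮z⟯ F : ℤ))
    (x : X) (f : F) (hf : f ≠ 0) :
    (Nat.card {x' // r x' x} : ℤ) * D.u x f = D.u x z * (D.place hz x).ord f := by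
  obtain ⟨m, hm, -, hspec⟩ := D.place_spec hz x
  rw [hspec f hf, hspec z hz, ord_z_eq_card_of_sum D hz hdeg r H1 H2 hfin hsum x]
  ring

end Abstract

section Final

variable {K F : Type*} [Field K] [IsAlgClosed K] [CharZero K] [Field F] [Algebra K F] {z : F}
  {X E : Type*} [Field E] (D : H2LocalData K z X E)

theorem ne_zero_of_transcendental (hz : Transcendental K z) : z ≠ 0 :=
  fun h0 => hz (h0 ▸ isAlgebraic_zero)

/-- **ORD-RAM**: the ramification index is EXACTLY the size of the class. -/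
theorem ord_z_eq_card [Finite X] [FiniteDimensional K⟮z⟯ F] (hz : Transcendental K z)
    (hdeg : Module.finrank K⟮z⟯ F ≤ Nat.card X) (r : Setoid X)
    (H1 : ∀ x x', r x x' → ∀ f, D.w (D.σ x f) = D.w (D.σ x' f))
    (H2 : ∀ x (f : F), f ≠ 0 → ∃ m : ℤ,
      D.w (D.σ x f) ^ Nat.card {x' // r x' x} = D.w (D.σ x z) ^ m)
    (x : X) :
    (D.place (ne_zero_of_transcendental hz) x).ord z = (Nat.card {x' // r x' x} : ℤ) :=
  ord_z_eq_card_of_sum D _ hdeg r H1 H2 (finite_places_over z hz) (sum_ord_eq_finrank z hz) x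

theorem place_eq_iff [Finite X] [FiniteDimensional K⟮z⟯ F] (hz : Transcendental K z)
    (hdeg : Module.finrank K⟮z⟯ F ≤ Nat.card X) (r : Setoid X)
    (H1 : ∀ x x', r x x' → ∀ f, D.w (D.σ x f) = D.w (D.σ x' f))
    (H2 : ∀ x (f : F), f ≠ 0 → ∃ m : ℤ,
      D.w (D.σ x f) ^ Nat.card {x' // r x' x} = D.w (D.σ x z) ^ m)
    (x x' : X) :
    D.place (ne_zero_of_transcendental hz) x = D.place (ne_zero_of_transcendental hz) x'
      ↔ r x x' :=
  place_eq_iff_of_sum D _ hdeg r H1 H2 (finite_places_over z hz) (sum_ord_eq_finrank z hz) x x'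

theorem card_mul_u [Finite X] [FiniteDimensional K⟮z⟯ F] (hz : Transcendental K z)
    (hdeg : Module.finrank K⟮z⟯ F ≤ Nat.card X) (r : Setoid X)
    (H1 : ∀ x x', r x x' → ∀ f, D.w (D.σ x f) = D.w (D.σ x' f))
    (H2 : ∀ x (f : F), f ≠ 0 → ∃ m : ℤ,
      D.w (D.σ x f) ^ Nat.card {x' // r x' x} = D.w (D.σ x z) ^ m)
    (x : X) (f : F) (hf : f ≠ 0) :
    (Nat.card {x' // r x' x} : ℤ) * D.u x f
      = D.u x z * (D.place (ne_zero_of_transcendental hz) x).ord f :=
  card_mul_u_of_sum D _ hdeg r H1 H2 (finite_places_over z hz) (sum_ord_eq_finrank z hz) x f hf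

include D in
/-- the number of embeddings is the degree -/
theorem card_eq_finrank [Finite X] [FiniteDimensional K⟮z⟯ F] (hz : Transcendental K z)
    (hdeg : Module.finrank K⟮z⟯ F ≤ Nat.card X) :
    Nat.card X = Module.finrank K⟮z⟯ F :=
  le_antisymm D.card_le hdeg

/-- every place over `z = 0` is of the form `D.place x`, and `ord_v` is computed by `D.u x`:
`card(class) * u f = u z * ord_v f`. -/
theorem exists_index [Finite X] [FiniteDimensional K⟮z⟯ F] (hz : Transcendental K z)
    (hdeg : Module.finrank K⟮z⟯ F ≤ Nat.card X) (r : Setoid X)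
    (H1 : ∀ x x', r x x' → ∀ f, D.w (D.σ x f) = D.w (D.σ x' f))
    (H2 : ∀ x (f : F), f ≠ 0 → ∃ m : ℤ,
      D.w (D.σ x f) ^ Nat.card {x' // r x' x} = D.w (D.σ x z) ^ m)
    (v : Place K F) (hv : 0 < v.ord z) :
    ∃ x : X, v.ord z = (Nat.card {x' // r x' x} : ℤ) ∧
      ∀ f : F, f ≠ 0 → (Nat.card {x' // r x' x} : ℤ) * D.u x f = D.u x z * v.ord f := by
  obtain ⟨x, hx⟩ := D.exists_place_eq (ne_zero_of_transcendental hz) hdeg v hv
  refine ⟨x, ?_, fun f hf => ?_⟩
  · rw [← hx]; exact ord_z_eq_card D hz hdeg r H1 H2 x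
  · rw [← hx]; exact card_mul_u D hz hdeg r H1 H2 x f hf

end Final

end H13OR

end
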