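import Mathlib

/-!
# Item 80 (W3G), RIGORD step 6, lemma AUT-ALG (helper16), Mathlib only

Let `k ⊆ Ω` be fields, `Ω` algebraically closed, `k` infinite.

* `H16AA.h16_exists_translate`: for `t ∈ Ω` transcendental over `k` and `c : k` there is
  `σ : Ω ≃ₐ[k] Ω` with `σ t = t + c`.
* `H16AA.h16_isAlgebraic_of_finite_orbit`: an element with finite orbit under `Ω ≃ₐ[k] Ω` is
  algebraic over `k`.
* `H16AA.h16_mem_range_of_finite_orbit`: if moreover `k` is algebraically closed, it lies in `k`.
* `H16AA.h16_mem_range_of_fixed`: an element fixed by a subgroup of finite index of `Ω ≃ₐ[k] Ω`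
  lies in `k` (`k` algebraically closed).
-/

set_option autoImplicit false

noncomputable section

namespace H16AA

open MvPolynomial

section Translate

variable {k : Type*} [CommRing k] {ι : Type*}

/-- the translation `X i ↦ X i + C (c i)` of a polynomial ring -/
def h16_transHom (c : ι → k) : MvPolynomial ι k →ₐ[k] MvPolynomial ι k :=
  aeval (fun i => X i + C (c i))

@[simp] theorem h16_transHom_X (c : ι → k) (i : ι) :
    h16_transHom c (X i) = X i + C (c i) := by
  simp [h16_transHom]

theorem h16_transHom_comp (c d : ι → k) :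
    (h16_transHom c).comp (h16_transHom d) = h16_transHom (fun i => c i + d i) := by
  apply MvPolynomial.algHom_ext
  intro i
  simp only [AlgHom.comp_apply, h16_transHom_X, map_add, algHom_C, algebraMap_eq]
  ring

theorem h16_transHom_zero : h16_transHom (fun _ : ι => (0 : k)) = AlgHom.id k _ := by
  apply MvPolynomial.algHom_ext
  intro i
  simp

/-- the translation automorphism -/
def h16_transEquiv (c : ι → k) : MvPolynomial ι k ≃ₐ[k] MvPolynomial ι k :=
  AlgEquiv.ofAlgHom (h16_transHom c) (h16_transHom (fun i => - c i))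
    (by rw [h16_transHom_comp]; simp [h16_transHom_zero])
    (by rw [h16_transHom_comp]; simp [h16_transHom_zero])

@[simp] theorem h16_transEquiv_X (c : ι → k) (i : ι) :
    h16_transEquiv c (X i) = X i + C (c i) := by
  simp [h16_transEquiv]

end Translate

section Main

variable {k : Type*} [Field k] {Ω : Type*} [Field Ω] [Algebra k Ω]

section
variable [IsAlgClosed Ω]

/-- for `t` transcendental over `k` and `c ∈ k` there is a `k`-automorphism of the algebraically
closed field `Ω` with `t ↦ t + c`. -/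
theorem h16_exists_translate (t : Ω) (ht : Transcendental k t) (c : k) :
    ∃ σ : Ω ≃ₐ[k] Ω, σ t = t + algebraMap k Ω c := by
  classical
  -- a transcendence basis containing `t`
  have hind : AlgebraicIndepOn k id ({t} : Set Ω) := by
    let _ : Unique ({t} : Set Ω) := Set.uniqueSingleton t
    exact (algebraicIndependent_unique_type_iff (R := k)
      (x := fun x : ({t} : Set Ω) => id (x : Ω))).2 ht
  obtain ⟨s, hts, hs⟩ := exists_isTranscendenceBasis_superset hind
  have htmem : t ∈ s := hts rfl
  let v : s → Ω := fun x => (x : Ω)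
  have hv : IsTranscendenceBasis k v := hs
  let A := Algebra.adjoin k (Set.range v)
  have hAC : IsAlgClosure A Ω := IsAlgClosed.isAlgClosure_of_transcendence_basis v hv
  let ts : s := ⟨t, htmem⟩
  let cc : s → k := fun i => if i = ts then c else 0
  let e : A ≃ₐ[k] A :=
    (hv.1.aevalEquiv.symm.trans (h16_transEquiv cc)).trans hv.1.aevalEquiv
  let σ0 : Ω ≃+* Ω := IsAlgClosure.equivOfEquiv Ω Ω e.toRingEquiv
  have hσ0 : ∀ a : A, σ0 (algebraMap A Ω a) = algebraMap A Ω (e a) := fun a =>
    IsAlgClosure.equivOfEquiv_algebraMap Ω Ω e.toRingEquiv a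
  -- `σ0` is `k`-linear
  have hk : ∀ x : k, σ0 (algebraMap k Ω x) = algebraMap k Ω x := by
    intro x
    have h1 : algebraMap k Ω x = algebraMap A Ω (algebraMap k A x) := rfl
    rw [h1, hσ0, e.commutes]
  let σ : Ω ≃ₐ[k] Ω := AlgEquiv.ofRingEquiv (f := σ0) hk
  refine ⟨σ, ?_⟩
  -- `t` as an element of `A`
  have htA : hv.1.aevalEquiv (X ts) = (⟨t, Algebra.subset_adjoin ⟨ts, rfl⟩⟩ : A) := by
    apply Subtype.ext
    show algebraMap A Ω (hv.1.aevalEquiv (X ts)) = t
    rw [AlgebraicIndependent.algebraMap_aevalEquiv]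
    simp [v, ts]
  have het : e ⟨t, Algebra.subset_adjoin ⟨ts, rfl⟩⟩
      = ⟨t, Algebra.subset_adjoin ⟨ts, rfl⟩⟩ + algebraMap k A c := by
    rw [← htA]
    simp only [e, AlgEquiv.trans_apply, AlgEquiv.symm_apply_apply, h16_transEquiv_X, map_add]
    congr 1
    simp only [cc, if_true]
    rw [← MvPolynomial.algebraMap_eq, AlgEquiv.commutes]
  have h2 : (t : Ω) = algebraMap A Ω ⟨t, Algebra.subset_adjoin ⟨ts, rfl⟩⟩ := rfl
  show σ0 t = _
  rw [h2, hσ0, het, map_add]
  rfl

/-- an element of `Ω` with finite orbit under `Aut(Ω / k)` is algebraic over `k`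
(`k` infinite). -/
theorem h16_isAlgebraic_of_finite_orbit [Infinite k] (t : Ω)
    (hfin : (Set.range (fun σ : Ω ≃ₐ[k] Ω => σ t)).Finite) : IsAlgebraic k t := by
  by_contra hna
  have ht : Transcendental k t := hna
  have hsub : Set.range (fun c : k => t + algebraMap k Ω c)
      ⊆ Set.range (fun σ : Ω ≃ₐ[k] Ω => σ t) := by
    rintro _ ⟨c, rfl⟩
    obtain ⟨σ, hσ⟩ := h16_exists_translate t ht c
    exact ⟨σ, hσ⟩
  have hinj : Function.Injective (fun c : k => t + algebraMap k Ω c) := by
    intro a b hab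
    exact (algebraMap k Ω).injective (add_left_cancel hab)
  exact (Set.infinite_range_of_injective hinj) (hfin.subset hsub)

end

/-- if `k` is algebraically closed, an algebraic element of `Ω` lies in `k`. -/
theorem h16_mem_range_of_isAlgebraic [IsAlgClosed k] (t : Ω) (ht : IsAlgebraic k t) :
    t ∈ Set.range (algebraMap k Ω) := by
  have hint : IsIntegral k t := ht.isIntegral
  have hirr := minpoly.irreducible hint
  have hdeg : (minpoly k t).degree = 1 := IsAlgClosed.degree_eq_one_of_irreducible k hirr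
  exact minpoly.mem_range_of_degree_eq_one k t hdeg

/-- an element of `Ω` with finite orbit under `Aut(Ω / k)` lies in `k`
(`k` algebraically closed). -/
theorem h16_mem_range_of_finite_orbit [IsAlgClosed Ω] [IsAlgClosed k] (t : Ω)
    (hfin : (Set.range (fun σ : Ω ≃ₐ[k] Ω => σ t)).Finite) :
    t ∈ Set.range (algebraMap k Ω) :=
  haveI : Infinite k := IsAlgClosed.instInfinite
  h16_mem_range_of_isAlgebraic t (h16_isAlgebraic_of_finite_orbit t hfin)

/-- the orbit of an element fixed by a subgroup of finite index is finite. -/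
theorem h16_finite_orbit_of_fixed (S : Subgroup (Ω ≃ₐ[k] Ω)) [S.FiniteIndex] (t : Ω)
    (hfix : ∀ σ ∈ S, σ t = t) : (Set.range (fun σ : Ω ≃ₐ[k] Ω => σ t)).Finite := by
  classical
  have hfinq : Finite ((Ω ≃ₐ[k] Ω) ⧸ S) := Subgroup.finite_quotient_of_finiteIndex
  let F : ((Ω ≃ₐ[k] Ω) ⧸ S) → Ω := Quotient.lift (fun σ : Ω ≃ₐ[k] Ω => σ t) (by
    intro a b hab
    have h1 : a⁻¹ * b ∈ S := QuotientGroup.leftRel_apply.mp hab
    have h2 := hfix _ h1
    have h3 : b t = a ((a⁻¹ * b) t) := by
      simp [AlgEquiv.mul_apply]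
    show a t = b t
    rw [h3, h2])
  have hsub : Set.range (fun σ : Ω ≃ₐ[k] Ω => σ t) ⊆ Set.range F := by
    rintro _ ⟨σ, rfl⟩
    exact ⟨QuotientGroup.mk σ, rfl⟩
  exact (Set.finite_range F).subset hsub

/-- an element of `Ω` fixed by a subgroup of finite index of `Aut(Ω / k)` lies in `k`
(`k` algebraically closed). -/
theorem h16_mem_range_of_fixed [IsAlgClosed Ω] [IsAlgClosed k] (S : Subgroup (Ω ≃ₐ[k] Ω)) [S.FiniteIndex]
    (t : Ω) (hfix : ∀ σ ∈ S, σ t = t) : t ∈ Set.range (algebraMap k Ω) :=
  h16_mem_range_of_finite_orbit t (h16_finite_orbit_of_fixed S t hfix)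

end Main

end H16AA

end
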