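import Fermat.Agent.W3G.RIGLift_helper10
import Fermat.Agent.W3G.RIGDefs_helper27
import Fermat.Agent.W3G.KUMDesc_helper1
import Fermat.Prelude.Def_AlgebraicCurve_BaseChangeGalois

/-!
# Item 80 (W3G), slice RIG/AUT (helper10): `q`-expansion and the action of `Aut(ℂ)` on `KN N`

* `H10RIG.thetaKN N : MvPolynomial (Dv N) ℂ →+* KN N` (evaluation at the `j_d`);
* `H10RIG.qexp N : KN N →+* ℂ((q))`, the `q`-expansion (`qexp_thetaKN`);
* `H10RIG.rhoHom N σ : KN N →+* KN N` for `σ : ℂ ≃+* ℂ`, the coefficientwise action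
  (`rhoHom_thetaKN`, `qexp_rhoHom`), `rhoEquiv`, and
  `H10RIG.rho N : (ℂ ≃+* ℂ) →* SemilinearAut ℂ (KN N)`;
* `rho_smul_phiKN` : `rho σ` fixes `phiKN N f` if `σ` fixes `iota ℚ̄`.
-/

set_option autoImplicit false
set_option linter.style.longLine false
set_option linter.unusedSectionVars false
set_option linter.unusedVariables false
set_option linter.style.haveILetI false

noncomputable section

open UpperHalfPlane ModularCurve CongruenceSubgroup AlgebraicCurve
open scoped MatrixGroups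

namespace H10RIG

open H24D H27RIG H1KD
open RH24 (Kbar iota Dv Jgen formalEval JC Dv_ne_zero h22b_ev)

variable (N : ℕ) [NeZero N]

/-- evaluation of polynomials at the `j_d`, with values in `KN N` -/
def thetaKN : MvPolynomial (Dv N) ℂ →+* H2AN3.KN N :=
  (thetaC N).codRestrict (H2AN3.KN N).toSubring (thetaC_mem_KN N)

theorem coe_thetaKN (P : MvPolynomial (Dv N) ℂ) :
    ((thetaKN N P : H2AN3.KN N) : Mer) = thetaC N P := rfl

theorem thetaKN_C (c : ℂ) : thetaKN N (MvPolynomial.C c) = algebraMap ℂ (H2AN3.KN N) c := by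
  apply Subtype.ext
  rw [coe_thetaKN, coe_algebraMap_KN, thetaC_apply, MvPolynomial.eval₂_C]

theorem thetaKN_X (d : Dv N) : thetaKN N (MvPolynomial.X d) = jdKN N d := by
  apply Subtype.ext
  rw [coe_thetaKN, thetaC_apply, MvPolynomial.eval₂_X]
  rfl

theorem thetaKN_eq_zero_iff (P : MvPolynomial (Dv N) ℂ) :
    thetaKN N P = 0 ↔ thetaC N P = 0 := by
  constructor
  · intro h
    rw [← coe_thetaKN, h]
    rfl
  · intro h
    exact Subtype.ext h

theorem isFracOf_thetaKN : IsFracOf (thetaKN N) := by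
  intro x
  obtain ⟨P, R, hR, hx⟩ := exists_frac_of_mem_KN N x.2
  exact ⟨P, R, fun h => hR ((thetaKN_eq_zero_iff N R).1 h), Subtype.ext hx⟩

theorem thetaKN_ker_iff (P : MvPolynomial (Dv N) ℂ) :
    thetaKN N P = 0 ↔ (formalEval N : MvPolynomial (Dv N) ℂ →+* LaurentSeries ℂ) P = 0 := by
  rw [thetaKN_eq_zero_iff]
  exact (formalEval_eq_zero_iff N P).symm

/-- the `q`-expansion of the elements of `KN N` -/
def qexp : H2AN3.KN N →+* LaurentSeries ℂ :=
  fracLift (formalEval N : MvPolynomial (Dv N) ℂ →+* LaurentSeries ℂ) (isFracOf_thetaKN N)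
    (thetaKN_ker_iff N)

theorem qexp_thetaKN (P : MvPolynomial (Dv N) ℂ) : qexp N (thetaKN N P) = formalEval N P :=
  fracLift_apply _ (isFracOf_thetaKN N) (thetaKN_ker_iff N) P

theorem qexp_injective : Function.Injective (qexp N) := (qexp N).injective

theorem qexp_algebraMap (c : ℂ) :
    qexp N (algebraMap ℂ (H2AN3.KN N) c) = algebraMap ℂ (LaurentSeries ℂ) c := by
  rw [← thetaKN_C, qexp_thetaKN, formalEval, MvPolynomial.aeval_C]

theorem qexp_jdKN (d : Dv N) : qexp N (jdKN N d) = JC d := by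
  rw [← thetaKN_X, qexp_thetaKN, formalEval, MvPolynomial.aeval_X]

theorem qexp_mem (U : H2AN3.KN N) :
    qexp N U ∈ laurentBaseChange ℂ (modularFunctionFieldFull N) := by
  obtain ⟨P, R, hR, hx⟩ := isFracOf_thetaKN N U
  have h : qexp N U = formalEval N P / formalEval N R :=
    fracLift_eq_div _ (isFracOf_thetaKN N) (thetaKN_ker_iff N) U P R hR hx
  rw [h]
  exact div_mem (formalEval_mem N P) (formalEval_mem N R)

/-! ## the coefficientwise action -/

theorem JC_eq_coeffEmb (d : Dv N) :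
    haveI : NeZero d.1 := ⟨Dv_ne_zero d⟩
    JC d = coeffEmb ℂ (qExpand ℚ d.1 jq) := by
  haveI : NeZero d.1 := ⟨Dv_ne_zero d⟩
  rw [← RH24.h22b_coeffMap_Jgen d]
  exact H1S18.coeffMap_coeffEmb_hom iota _

theorem coeffMap_JC (σ : ℂ →+* ℂ) (d : Dv N) : coeffMap σ (JC d) = JC d := by
  haveI : NeZero d.1 := ⟨Dv_ne_zero d⟩
  rw [JC_eq_coeffEmb]
  exact H1S18.coeffMap_coeffEmb_hom σ _

theorem formalEval_map (σ : ℂ →+* ℂ) (P : MvPolynomial (Dv N) ℂ) :
    formalEval N (MvPolynomial.map σ P) = coeffMap σ (formalEval N P) := by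
  have hcomp : ((formalEval N : MvPolynomial (Dv N) ℂ →+* LaurentSeries ℂ).comp
      (MvPolynomial.map σ)) = (coeffMap σ).comp (formalEval N : MvPolynomial (Dv N) ℂ →+* _) := by
    apply MvPolynomial.ringHom_ext
    · intro c
      simp only [RingHom.comp_apply, MvPolynomial.map_C, RingHom.coe_coe]
      rw [formalEval, MvPolynomial.aeval_C, MvPolynomial.aeval_C]
      exact (H1S18.coeffMap_algebraMap_hom σ c).symm
    · intro d
      simp only [RingHom.comp_apply, MvPolynomial.map_X, RingHom.coe_coe]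
      rw [formalEval, MvPolynomial.aeval_X]
      exact (coeffMap_JC N σ d).symm
  exact RingHom.congr_fun hcomp P

theorem thetaKN_map_ker_iff (σ : ℂ →+* ℂ) (P : MvPolynomial (Dv N) ℂ) :
    thetaKN N P = 0 ↔ ((thetaKN N).comp (MvPolynomial.map σ)) P = 0 := by
  rw [RingHom.comp_apply, thetaKN_ker_iff, thetaKN_ker_iff]
  show formalEval N P = 0 ↔ formalEval N (MvPolynomial.map σ P) = 0
  rw [formalEval_map, map_eq_zero_iff (coeffMap σ) (coeffMap σ).injective]

/-- the coefficientwise action of a ring endomorphism of `ℂ` on `KN N` -/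
def rhoHom (σ : ℂ →+* ℂ) : H2AN3.KN N →+* H2AN3.KN N :=
  fracLift ((thetaKN N).comp (MvPolynomial.map σ)) (isFracOf_thetaKN N) (thetaKN_map_ker_iff N σ)

theorem rhoHom_thetaKN (σ : ℂ →+* ℂ) (P : MvPolynomial (Dv N) ℂ) :
    rhoHom N σ (thetaKN N P) = thetaKN N (MvPolynomial.map σ P) :=
  fracLift_apply _ (isFracOf_thetaKN N) (thetaKN_map_ker_iff N σ) P

theorem rhoHom_comp (σ τ : ℂ →+* ℂ) :
    (rhoHom N σ).comp (rhoHom N τ) = rhoHom N (σ.comp τ) := by
  apply (isFracOf_thetaKN N).hom_ext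
  intro a
  rw [RingHom.comp_apply, rhoHom_thetaKN, rhoHom_thetaKN, rhoHom_thetaKN, MvPolynomial.map_map]

theorem rhoHom_id : rhoHom N (RingHom.id ℂ) = RingHom.id _ := by
  apply (isFracOf_thetaKN N).hom_ext
  intro a
  rw [rhoHom_thetaKN, MvPolynomial.map_id, RingHom.id_apply]

theorem qexp_rhoHom (σ : ℂ →+* ℂ) (U : H2AN3.KN N) :
    qexp N (rhoHom N σ U) = coeffMap σ (qexp N U) := by
  have h : (qexp N).comp (rhoHom N σ) = (coeffMap σ).comp (qexp N) := by
    apply (isFracOf_thetaKN N).hom_ext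
    intro a
    rw [RingHom.comp_apply, RingHom.comp_apply, rhoHom_thetaKN, qexp_thetaKN, qexp_thetaKN,
      formalEval_map]
  exact RingHom.congr_fun h U

theorem rhoHom_algebraMap (σ : ℂ →+* ℂ) (c : ℂ) :
    rhoHom N σ (algebraMap ℂ (H2AN3.KN N) c) = algebraMap ℂ (H2AN3.KN N) (σ c) := by
  rw [← thetaKN_C, rhoHom_thetaKN, MvPolynomial.map_C, thetaKN_C]

theorem rhoHom_jdKN (σ : ℂ →+* ℂ) (d : Dv N) : rhoHom N σ (jdKN N d) = jdKN N d := by
  rw [← thetaKN_X, rhoHom_thetaKN, MvPolynomial.map_X]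

theorem rhoHom_jKN (σ : ℂ →+* ℂ) : rhoHom N σ (jKN N) = jKN N := rhoHom_jdKN N σ _

/-- the action as a ring automorphism -/
def rhoEquiv (σ : ℂ ≃+* ℂ) : H2AN3.KN N ≃+* H2AN3.KN N :=
  RingEquiv.ofRingHom (rhoHom N (σ : ℂ →+* ℂ)) (rhoHom N (σ.symm : ℂ →+* ℂ))
    (by
      rw [rhoHom_comp]
      have : (σ : ℂ →+* ℂ).comp (σ.symm : ℂ →+* ℂ) = RingHom.id ℂ := by
        ext x
        simp
      rw [this, rhoHom_id])
    (by
      rw [rhoHom_comp]
      have : (σ.symm : ℂ →+* ℂ).comp (σ : ℂ →+* ℂ) = RingHom.id ℂ := by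
        ext x
        simp
      rw [this, rhoHom_id])

theorem rhoEquiv_apply (σ : ℂ ≃+* ℂ) (U : H2AN3.KN N) :
    rhoEquiv N σ U = rhoHom N (σ : ℂ →+* ℂ) U := rfl

theorem rhoEquiv_mul (σ τ : ℂ ≃+* ℂ) : rhoEquiv N (σ * τ) = rhoEquiv N σ * rhoEquiv N τ := by
  apply RingEquiv.ext
  intro U
  show rhoHom N _ U = rhoHom N _ (rhoHom N _ U)
  rw [← RingHom.comp_apply, rhoHom_comp]
  rfl

theorem rhoEquiv_one : rhoEquiv N 1 = 1 := by
  apply RingEquiv.ext
  intro U
  show rhoHom N _ U = U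
  have : ((1 : ℂ ≃+* ℂ) : ℂ →+* ℂ) = RingHom.id ℂ := rfl
  rw [this, rhoHom_id]
  rfl

/-- **the action of `Aut(ℂ)` on `KN N`** by semilinear automorphisms -/
def rho : (ℂ ≃+* ℂ) →* SemilinearAut ℂ (H2AN3.KN N) where
  toFun σ := ⟨(rhoEquiv N σ, σ), by
    rw [SemilinearAut.mem_iff]
    intro a
    exact rhoHom_algebraMap N (σ : ℂ →+* ℂ) a⟩
  map_one' := by
    apply Subtype.ext
    show (rhoEquiv N 1, (1 : ℂ ≃+* ℂ)) = 1
    rw [rhoEquiv_one]
    rfl
  map_mul' σ τ := by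
    apply Subtype.ext
    show (rhoEquiv N (σ * τ), σ * τ) = (rhoEquiv N σ, σ) * (rhoEquiv N τ, τ)
    rw [rhoEquiv_mul]
    rfl

theorem rho_smul (σ : ℂ ≃+* ℂ) (U : H2AN3.KN N) :
    rho N σ • U = rhoHom N (σ : ℂ →+* ℂ) U := rfl

theorem rho_baseAut (σ : ℂ ≃+* ℂ) : SemilinearAut.baseAut (rho N σ) = σ := rfl

theorem rho_smul_jKN (σ : ℂ ≃+* ℂ) : rho N σ • jKN N = jKN N := rhoHom_jKN N _

theorem qexp_rho_smul (σ : ℂ ≃+* ℂ) (U : H2AN3.KN N) :
    qexp N (rho N σ • U) = coeffMap (σ : ℂ →+* ℂ) (qexp N U) := qexp_rhoHom N _ U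

/-- `rho σ` fixes the realisation of `ℚ̄·F_N` if `σ` fixes `ℚ̄`. -/
theorem rho_smul_phiKN (σ : ℂ ≃+* ℂ) (hσ : ∀ c : Kbar, σ (iota c) = iota c)
    (f : modularFunctionFieldBar N) : rho N σ • phiKN N f = phiKN N f := by
  obtain ⟨A, B, hB, hf⟩ := RH24.h22b_exists_rep N f
  have key : ∀ A : MvPolynomial (Dv N) Kbar,
      phiKN N (h22b_ev N A) = thetaKN N (MvPolynomial.map iota A) := fun A =>
    Subtype.ext (phi_ev N A)
  have hmap : ∀ A : MvPolynomial (Dv N) Kbar,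
      MvPolynomial.map (σ : ℂ →+* ℂ) (MvPolynomial.map iota A) = MvPolynomial.map iota A := by
    intro A
    rw [MvPolynomial.map_map]
    have h : (σ : ℂ →+* ℂ).comp iota = iota := RingHom.ext hσ
    rw [h]
  rw [rho_smul, hf, map_div₀, map_div₀, key, key, rhoHom_thetaKN, rhoHom_thetaKN, hmap, hmap]

/-- the `q`-expansion of the realisation of `f ∈ ℚ̄·F_N` -/
theorem qexp_phiKN (f : modularFunctionFieldBar N) :
    qexp N (phiKN N f) = coeffMap iota (f : LaurentSeries Kbar) := by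
  obtain ⟨A, B, hB, hf⟩ := RH24.h22b_exists_rep N f
  have key : ∀ A : MvPolynomial (Dv N) Kbar,
      phiKN N (h22b_ev N A) = thetaKN N (MvPolynomial.map iota A) := fun A =>
    Subtype.ext (phi_ev N A)
  have h2 := qx_div N (h22b_ev N A) (h22b_ev N B)
  rw [← hf] at h2
  show _ = qx N f
  rw [h2, qx_ev, qx_ev, hf, map_div₀, map_div₀, key, key, qexp_thetaKN, qexp_thetaKN]

end H10RIG

end
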