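import Fermat.Agent.S24.BLocalInf
import Fermat.Agent.S24.A5Count

/-!
# Item 80 (W3G), RIGORD, slice ORD-CUSP (helper27), part A: the local data of a ring with order
function (`RH24.h20_Ring`), unpacked

The proof of `RH24.h20_Ring.hasLocalData` constructs the data `(R.E, R.w, R.sigma)`; here the same
data as a `RH24.H2LocalData`, together with (H1) and (H2) for it.
-/

set_option autoImplicit false
set_option linter.style.haveILetI false

noncomputable section

open UpperHalfPlane ModularForm MatrixGroups CongruenceSubgroup AlgebraicCurve IntermediateField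
open scoped Manifold WithZero

namespace H27RIG

open RH24

namespace CuspA

variable {N : ℕ} [NeZero N] (R : h20_Ring N)

/-- the local data of `R` at the zero of `zF` -/
def locData (zF : ModularCurve.modularFunctionFieldBar N) (u v : R.A) (hu0 : u ≠ 0)
    (hv0 : v ≠ 0) (hz : ∀ δ, R.phi δ zF = algebraMap R.A R.E u / algebraMap R.A R.E v)
    (t : ℤ) (ht : 0 < t) (huv : R.oA u - R.oA v = t) :
    H2LocalData Kbar zF (SL(2, ℤ) ⧸ Gamma0 N) R.E where
  w := R.w
  σ := R.sigma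
  inj := R.sigma_injective
  agreeK := by
    intro x x' c
    obtain ⟨δ, rfl⟩ := QuotientGroup.mk_surjective x
    obtain ⟨δ', rfl⟩ := QuotientGroup.mk_surjective x'
    rw [h20_Ring.sigma_mk, h20_Ring.sigma_mk, h20_Ring.phi_const, h20_Ring.phi_const]
  leK := by
    intro x c
    obtain ⟨δ, rfl⟩ := QuotientGroup.mk_surjective x
    rw [h20_Ring.sigma_mk, h20_Ring.phi_const]
    exact R.w_const _
  agreez := by
    intro x x'
    obtain ⟨δ, rfl⟩ := QuotientGroup.mk_surjective x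
    obtain ⟨δ', rfl⟩ := QuotientGroup.mk_surjective x'
    rw [h20_Ring.sigma_mk, h20_Ring.sigma_mk, hz, hz]
  ltz := by
    intro x
    obtain ⟨δ, rfl⟩ := QuotientGroup.mk_surjective x
    rw [h20_Ring.sigma_mk, hz, R.w_div u v hu0 hv0, huv, ← WithZero.exp_zero,
      WithZero.exp_lt_exp]
    omega

theorem w_sigma_z (zF : ModularCurve.modularFunctionFieldBar N) (u v : R.A) (hu0 : u ≠ 0)
    (hv0 : v ≠ 0) (hz : ∀ δ, R.phi δ zF = algebraMap R.A R.E u / algebraMap R.A R.E v)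
    (t : ℤ) (huv : R.oA u - R.oA v = t) (x : SL(2, ℤ) ⧸ Gamma0 N) :
    R.w (R.sigma x zF) = WithZero.exp (-t) := by
  obtain ⟨δ, rfl⟩ := QuotientGroup.mk_surjective x
  rw [h20_Ring.sigma_mk, hz, R.w_div u v hu0 hv0, huv]

/-- (H1) -/
theorem locData_H1 (r : Setoid (SL(2, ℤ) ⧸ Gamma0 N))
    (hr : ∀ x x', r x x' → ∃ h : SL(2, ℤ), x = h • x' ∧
      ∀ a : ℍ → ℂ, a ∈ R.A → (fun z => a (h⁻¹ • z)) ∈ R.A →
        R.o (fun z => a (h⁻¹ • z)) = R.o a) :
    ∀ x x', r x x' → ∀ f, R.w (R.sigma x f) = R.w (R.sigma x' f) := by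
  intro x x' hxx' f
  obtain ⟨h, hx, ho⟩ := hr x x' hxx'
  obtain ⟨δ', rfl⟩ := QuotientGroup.mk_surjective x'
  rw [hx, h20_Ring.smul_mk_eq, h20_Ring.sigma_mk, h20_Ring.sigma_mk]
  obtain ⟨P, Q, hQ, rfl⟩ := exists_frac N f
  by_cases hP : MvPolynomial.aeval (fun d : Dv N => Jgen d) P = 0
  · simp only [hP, zero_div, map_zero]
  · rw [R.w_phi_frac _ P Q hP hQ, R.w_phi_frac _ P Q hP hQ]
    have e1 : R.oA (R.polyHol (h * δ') (MvPolynomial.map iota P))
        = R.oA (R.polyHol δ' (MvPolynomial.map iota P)) := by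
      have := ho (R.polyHol δ' (MvPolynomial.map iota P) : ℍ → ℂ) (Subtype.property _)
        (by rw [h20_Ring.polyHol_comp]; exact Subtype.property _)
      rw [h20_Ring.polyHol_comp] at this
      exact this
    have e2 : R.oA (R.polyHol (h * δ') (MvPolynomial.map iota Q))
        = R.oA (R.polyHol δ' (MvPolynomial.map iota Q)) := by
      have := ho (R.polyHol δ' (MvPolynomial.map iota Q) : ℍ → ℂ) (Subtype.property _)
        (by rw [h20_Ring.polyHol_comp]; exact Subtype.property _)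
      rw [h20_Ring.polyHol_comp] at this
      exact this
    rw [e1, e2]

/-- (H2) -/
theorem locData_H2 (r : Setoid (SL(2, ℤ) ⧸ Gamma0 N))
    (zF : ModularCurve.modularFunctionFieldBar N) (u v : R.A) (hu0 : u ≠ 0) (hv0 : v ≠ 0)
    (hz : ∀ δ, R.phi δ zF = algebraMap R.A R.E u / algebraMap R.A R.E v)
    (t : ℤ) (huv : R.oA u - R.oA v = t)
    (hH2 : ∀ x : SL(2, ℤ) ⧸ Gamma0 N, ∃ (h : SL(2, ℤ)) (m : ℤ), h • x = x ∧
       t ∣ (Nat.card {x' // r x' x} : ℤ) * m ∧
       ∀ a b : ℍ → ℂ, a ∈ R.A → b ∈ R.A → (∃ z, a z ≠ 0) → (∃ z, b z ≠ 0) →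
         (∀ z, a (h⁻¹ • z) * b z = a z * b (h⁻¹ • z)) → m ∣ R.o a - R.o b) :
    ∀ x (f : ModularCurve.modularFunctionFieldBar N), f ≠ 0 → ∃ m : ℤ,
      R.w (R.sigma x f) ^ Nat.card {x' // r x' x} = R.w (R.sigma x zF) ^ m := by
  intro x f hf
  obtain ⟨h, m, hx, hdvd, hm⟩ := hH2 x
  obtain ⟨δ, rfl⟩ := QuotientGroup.mk_surjective x
  obtain ⟨P, Q, hQ, rfl⟩ := exists_frac N f
  have hP : MvPolynomial.aeval (fun d : Dv N => Jgen d) P ≠ 0 := by
    intro h0
    apply hf
    rw [h0, zero_div]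
  have hphi : R.phi (h * δ) = R.phi δ := by
    rw [← h20_Ring.sigma_mk, ← h20_Ring.sigma_mk, ← h20_Ring.smul_mk_eq, hx]
  have hfr := congrArg (fun φ => φ (MvPolynomial.aeval (fun d : Dv N => Jgen d) P /
      MvPolynomial.aeval (fun d : Dv N => Jgen d) Q)) hphi
  simp only [h20_Ring.phi_frac] at hfr
  have ha := R.polyHol_ne_zero δ P hP
  have hb := R.polyHol_ne_zero δ Q hQ
  have ha' := R.polyHol_ne_zero (h * δ) P hP
  have hb' := R.polyHol_ne_zero (h * δ) Q hQ
  have hinj := IsFractionRing.injective R.A R.E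
  have hne : ∀ a : R.A, a ≠ 0 → algebraMap R.A R.E a ≠ 0 := fun a ha h0 =>
    ha (hinj (by rw [h0, map_zero]))
  rw [div_eq_div_iff (hne _ hb') (hne _ hb), ← map_mul, ← map_mul] at hfr
  have hcross := hinj hfr
  have hmd : m ∣ R.oA (R.polyHol δ (MvPolynomial.map iota P))
      - R.oA (R.polyHol δ (MvPolynomial.map iota Q)) := by
    apply hm _ _ (Subtype.property _) (Subtype.property _) ((R.ne_zero_iff _).1 ha)
      ((R.ne_zero_iff _).1 hb)
    intro z
    have h5 := congrFun (congrArg Subtype.val hcross) z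
    have h6 : (R.polyHol (h * δ) (MvPolynomial.map iota P) : ℍ → ℂ) z
          * (R.polyHol δ (MvPolynomial.map iota Q) : ℍ → ℂ) z
        = (R.polyHol δ (MvPolynomial.map iota P) : ℍ → ℂ) z
          * (R.polyHol (h * δ) (MvPolynomial.map iota Q) : ℍ → ℂ) z := h5
    rw [R.polyHol_mul_left, R.polyHol_mul_left] at h6
    exact h6
  obtain ⟨k, hk⟩ : t ∣ (Nat.card {x' // r x' (δ : SL(2, ℤ) ⧸ Gamma0 N)} : ℤ) *
      (R.oA (R.polyHol δ (MvPolynomial.map iota P))
        - R.oA (R.polyHol δ (MvPolynomial.map iota Q))) :=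
    dvd_trans hdvd (mul_dvd_mul_left _ hmd)
  refine ⟨k, ?_⟩
  rw [h20_Ring.sigma_mk, R.w_phi_frac δ P Q hP hQ, hz, R.w_div u v hu0 hv0, huv,
    ← WithZero.exp_nsmul, ← WithZero.exp_zsmul]
  congr 1
  rw [nsmul_eq_mul, smul_eq_mul, mul_neg, mul_neg, hk]
  ring

end CuspA

end H27RIG

end
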