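import Fermat.Agent.W3G.RIGCuspA_helper27
import Fermat.Agent.W3G.RIGOrdDefs_helper27
import Fermat.Agent.W3G.OrdRam_helper6
import Fermat.Agent.S24.A1
import Fermat.Agent.S24.A2
import Fermat.Agent.S24.BDegreeFinal

/-!
# Item 80 (W3G), RIGORD, slice ORD-CUSP (helper27), part B: the local data at the cusps

`H27RIG.cuspData N` : the local data of `ℚ̄·F_N` at `j = ∞` (ring `HolInf N`, order `ordInf N`),
with (H1), (H2) for the orbits of `T`, and the exact ramification.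
-/

set_option autoImplicit false
set_option linter.style.haveILetI false

noncomputable section

open UpperHalfPlane ModularForm MatrixGroups CongruenceSubgroup AlgebraicCurve IntermediateField
open scoped Manifold WithZero

namespace H27RIG

open RH24

variable (N : ℕ) [NeZero N]

/-- the orbit relation of `T` on the cosets -/
abbrev relT : Setoid (SL(2, ℤ) ⧸ Gamma0 N) :=
  MulAction.orbitRel (Subgroup.zpowers ModularGroup.T) (SL(2, ℤ) ⧸ Gamma0 N)

theorem jf_ne_zero_inf : (⟨jf, (h8_ringInf N).jf_mem⟩ : (h8_ringInf N).A) ≠ 0 := by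
  rw [h20_Ring.ne_zero_iff]
  obtain ⟨z, hz⟩ := exists_jf_eq 1
  exact ⟨z, by show jf z ≠ 0; rw [hz]; exact one_ne_zero⟩

theorem phi_inv_Jbar (δ : SL(2, ℤ)) :
    (h8_ringInf N).phi δ (Jbar N)⁻¹
      = algebraMap (h8_ringInf N).A (h8_ringInf N).E 1
        / algebraMap (h8_ringInf N).A (h8_ringInf N).E ⟨jf, (h8_ringInf N).jf_mem⟩ := by
  rw [map_inv₀ ((h8_ringInf N).phi δ), h20_Ring.phi_Jbar, RingHom.map_one, one_div]

theorem oA_sub_inf :
    (h8_ringInf N).oA 1 - (h8_ringInf N).oA ⟨jf, (h8_ringInf N).jf_mem⟩ = (N : ℤ) := by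
  rw [h20_Ring.oA_one]
  show 0 - (h8_ringInf N).o jf = (N : ℤ)
  rw [h8i_o_apply, ordInf_jf]
  show (0 : ℤ) - (-(N : ℤ)) = N
  ring

/-- **the local data at the cusps** -/
def cuspData : H2LocalData Kbar (Jbar N)⁻¹ (SL(2, ℤ) ⧸ Gamma0 N) (h8_ringInf N).E :=
  CuspA.locData (h8_ringInf N) (Jbar N)⁻¹ 1 ⟨jf, (h8_ringInf N).jf_mem⟩ one_ne_zero
    (jf_ne_zero_inf N) (phi_inv_Jbar N) (N : ℤ)
    (by exact_mod_cast Nat.pos_of_ne_zero (NeZero.ne N)) (oA_sub_inf N)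

theorem cuspData_w_z (x : SL(2, ℤ) ⧸ Gamma0 N) :
    (cuspData N).w ((cuspData N).σ x (Jbar N)⁻¹) = WithZero.exp (-(N : ℤ)) :=
  CuspA.w_sigma_z (h8_ringInf N) (Jbar N)⁻¹ 1 ⟨jf, (h8_ringInf N).jf_mem⟩ one_ne_zero
    (jf_ne_zero_inf N) (phi_inv_Jbar N) (N : ℤ) (oA_sub_inf N) x

theorem cuspData_H1 :
    ∀ x x', relT N x x' → ∀ f, (cuspData N).w ((cuspData N).σ x f)
      = (cuspData N).w ((cuspData N).σ x' f) := by
  refine CuspA.locData_H1 (h8_ringInf N) (relT N) ?_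
  intro x x' hxx'
  rw [MulAction.orbitRel_apply] at hxx'
  obtain ⟨⟨g, hg⟩, hgx⟩ := hxx'
  obtain ⟨k, rfl⟩ := Subgroup.mem_zpowers_iff.mp hg
  refine ⟨ModularGroup.T ^ k, hgx.symm, ?_⟩
  intro a ha _
  rw [h8i_mem_A] at ha
  rw [h8i_o_apply, h8i_o_apply]
  have h1 : (fun z : ℍ => a ((ModularGroup.T ^ k)⁻¹ • z))
      = fun z : ℍ => a ((((-k : ℤ) : ℝ)) +ᵥ z) := by
    funext z
    rw [h8i_T_zpow_inv_smul]
  rw [h1, ordInf_comp_vadd N a ha.1 ha.2.1 ha.2.2 (-k)]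

theorem cuspData_H2 :
    ∀ x (f : ModularCurve.modularFunctionFieldBar N), f ≠ 0 → ∃ m : ℤ,
      (cuspData N).w ((cuspData N).σ x f) ^ Nat.card {x' // relT N x' x}
        = (cuspData N).w ((cuspData N).σ x (Jbar N)⁻¹) ^ m := by
  have hN : 0 < N := Nat.pos_of_ne_zero (NeZero.ne N)
  refine CuspA.locData_H2 (h8_ringInf N) (relT N) (Jbar N)⁻¹ 1 ⟨jf, (h8_ringInf N).jf_mem⟩
    one_ne_zero (jf_ne_zero_inf N) (phi_inv_Jbar N) (N : ℤ) (oA_sub_inf N) ?_
  intro x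
  obtain ⟨h1, h2, h3⟩ := class_card_spec ModularGroup.T N hN x (T_pow_smul N x)
  set c : ℕ := Nat.card {x' : SL(2, ℤ) ⧸ Gamma0 N // relT N x' x} with hc
  refine ⟨(ModularGroup.T ^ c)⁻¹, ((N / c : ℕ) : ℤ), ?_, ?_, ?_⟩
  · rw [inv_smul_eq_iff]
    exact h1.symm
  · have h6 : c * (N / c) = N := Nat.mul_div_cancel' h2
    rw [← Nat.cast_mul, h6]
  · intro a b ha hb ha0 hb0 hab
    rw [h8i_mem_A] at ha hb
    rw [h8i_o_apply, h8i_o_apply]
    refine dvd_ordInf_of_periodic N c h2 (Nat.pos_iff_ne_zero.mp h3) a b ha.1 hb.1 ha.2.1 hb.2.1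
      ha.2.2 hb.2.2 ha0 hb0 ?_
    intro z
    have h4 := hab z
    rw [inv_inv] at h4
    have h5 : (ModularGroup.T ^ c) • z = ((c : ℝ) +ᵥ z : ℍ) := by
      rw [← zpow_natCast, T_zpow_smul_eq_vadd]
      norm_cast
    rw [h5] at h4
    exact h4

theorem Jbar_ne_zero : Jbar N ≠ 0 := by
  have := Jbar_sub_ne_zero N 0
  rwa [map_zero, sub_zero] at this

theorem zInf_ne_zero : (Jbar N)⁻¹ ≠ 0 := inv_ne_zero (Jbar_ne_zero N)

theorem transcendental_zInf : Transcendental Kbar (Jbar N)⁻¹ := by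
  intro h
  apply RH24.B_transcendental N
  have := h.inv
  rwa [inv_inv] at this

theorem finiteDimensional_zInf :
    FiniteDimensional Kbar⟮(Jbar N)⁻¹⟯ (ModularCurve.modularFunctionFieldBar N) := by
  rw [RH24.h5a_adjoin_inv]
  exact (RH24.B_degree N).1

theorem finrank_zInf_le :
    Module.finrank Kbar⟮(Jbar N)⁻¹⟯ (ModularCurve.modularFunctionFieldBar N)
      ≤ Nat.card (SL(2, ℤ) ⧸ Gamma0 N) := by
  rw [RH24.h5a_adjoin_inv]
  exact (RH24.B_degree N).2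

/-- **Exhaustion and exact ramification at the cusps**: every place over `j = ∞` is the place of
a coset `[δ]`, of width `c` (`= ` the size of the `T`-orbit of `[δ]`), and the order in `q_N`
is `N / c` times the order at the place. -/
theorem cusp_exists (v : Place Kbar (ModularCurve.modularFunctionFieldBar N))
    (hv : v.ord (Jbar N) < 0) :
    ∃ (δ : SL(2, ℤ)) (c : ℕ), 0 < c ∧ c ∣ N ∧
      ModularGroup.T ^ c • (δ : SL(2, ℤ) ⧸ Gamma0 N) = (δ : SL(2, ℤ) ⧸ Gamma0 N) ∧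
      ∀ f : ModularCurve.modularFunctionFieldBar N, f ≠ 0 →
        - WithZero.log ((h8_ringInf N).w ((h8_ringInf N).phi δ f))
          = ((N / c : ℕ) : ℤ) * v.ord f := by
  have hN : 0 < N := Nat.pos_of_ne_zero (NeZero.ne N)
  haveI : Finite (SL(2, ℤ) ⧸ Gamma0 N) := Subgroup.finite_quotient_of_finiteIndex
  haveI := finiteDimensional_zInf N
  have hz := zInf_ne_zero N
  have hvz : 0 < v.ord (Jbar N)⁻¹ := by
    rw [v.ord_inv]
    omega
  obtain ⟨x, hx⟩ := (cuspData N).exists_place_eq hz (finrank_zInf_le N) v hvz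
  obtain ⟨m, hm, -, hspec⟩ := (cuspData N).place_spec hz x
  have hram := H6ORD.ord_z_eq_card (Jbar N)⁻¹ hz (finrank_zInf_le N) (relT N) (cuspData N)
    (cuspData_H1 N) (cuspData_H2 N)
    (RH24.finite_places_over _ (transcendental_zInf N))
    (RH24.sum_ord_eq_finrank _ (transcendental_zInf N)) x
  obtain ⟨h1, h2, h3⟩ := class_card_spec ModularGroup.T N hN x (T_pow_smul N x)
  set c : ℕ := Nat.card {x' : SL(2, ℤ) ⧸ Gamma0 N // relT N x' x} with hc
  obtain ⟨δ, rfl⟩ := QuotientGroup.mk_surjective x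
  rw [hx] at hram hspec
  -- `m * c = N`
  have huz : (cuspData N).u (δ : SL(2, ℤ) ⧸ Gamma0 N) (Jbar N)⁻¹ = (N : ℤ) := by
    show - WithZero.log ((cuspData N).w ((cuspData N).σ _ (Jbar N)⁻¹)) = _
    rw [cuspData_w_z, WithZero.log_exp, neg_neg]
  have hmc : (N : ℤ) = m * c := by
    rw [← huz, hspec _ hz, hram]
  have hmeq : m = ((N / c : ℕ) : ℤ) := by
    have hc0 : (c : ℤ) ≠ 0 := by exact_mod_cast h3.ne'
    have h6 : c * (N / c) = N := Nat.mul_div_cancel' h2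
    have h7 : (m : ℤ) * c = ((N / c : ℕ) : ℤ) * c := by
      rw [← hmc, ← Nat.cast_mul, mul_comm, h6]
    exact mul_right_cancel₀ hc0 h7
  refine ⟨δ, c, h3, h2, h1, fun f hf => ?_⟩
  rw [← hmeq, ← hspec f hf]
  show _ = - WithZero.log ((cuspData N).w ((cuspData N).σ _ f))
  show _ = - WithZero.log ((h8_ringInf N).w ((h8_ringInf N).sigma _ f))
  rw [h20_Ring.sigma_mk]

end H27RIG

end
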