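/-
Item 80 (W3G), RIGORD slice DESC-END (helper2): an element `U = P(j_d) / R(j_d)` of `ℂ(j_d)`
whose formal `q`-expansion `P(j(q^d)) / R(j(q^d))` has all its coefficients in `ι(ℚ̄)` is the
realisation `phi N f` of an element `f` of `ℚ̄ · F_N`.
-/
import Mathlib
import Fermat.Agent.W3G.KUMDesc_helper1

set_option autoImplicit false
set_option linter.style.haveILetI false

noncomputable section

open UpperHalfPlane ModularCurve CongruenceSubgroup
open scoped MatrixGroups

namespace H2DE

open H24D
open RH24 (Kbar iota Dv Jgen formalEval)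

/-- **DESC-END.** -/
theorem descEnd (N : ℕ) [NeZero N] (U : Mer) (P R : MvPolynomial (Dv N) ℂ)
    (hR : H1KD.thetaC N R ≠ 0) (hU : U * H1KD.thetaC N R = H1KD.thetaC N P)
    (hc : ∀ i : ℤ, (RH24.formalEval N P / RH24.formalEval N R).coeff i ∈ Set.range RH24.iota) :
    ∃ f : modularFunctionFieldBar N, phi N f = U := by
  have hR' : formalEval N R ≠ 0 := by
    rw [Ne, H1KD.formalEval_eq_zero_iff]
    exact hR
  set g : LaurentSeries ℂ := formalEval N P / formalEval N R with hg
  obtain ⟨y, hy⟩ := H1KD.exists_coeffMap_eq iota g (fun i => by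
    obtain ⟨a, ha⟩ := hc i
    exact RingHom.mem_fieldRange.2 ⟨a, ha⟩)
  have hgmem : g ∈ laurentBaseChange ℂ (modularFunctionFieldFull N) :=
    div_mem (H1KD.formalEval_mem N P) (H1KD.formalEval_mem N R)
  have hymem : y ∈ modularFunctionFieldBar N := by
    letI : Algebra Kbar ℂ := iota.toAlgebra
    have : coeffMap (algebraMap Kbar ℂ) y ∈ laurentBaseChange ℂ (modularFunctionFieldFull N) := by
      show coeffMap iota y ∈ _
      rw [hy]
      exact hgmem
    exact H1RIG.mem_lbc_of_coeffMap_mem this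
  refine ⟨⟨y, hymem⟩, ?_⟩
  have h3 : H1KD.qx N ⟨y, hymem⟩ * formalEval N R = formalEval N P := by
    show coeffMap iota y * formalEval N R = formalEval N P
    rw [hy, hg, div_mul_cancel₀ _ hR']
  have h4 := (H1KD.transfer N ⟨y, hymem⟩ P R).2 h3
  have h5 : U * H1KD.thetaC N R = phi N ⟨y, hymem⟩ * H1KD.thetaC N R := by rw [hU, h4]
  exact (mul_right_cancel₀ hR h5).symm

end H2DE

end
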