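import Mathlib
import Fermat.Agent.W3G.RIGDefs_helper27
import Fermat.Agent.W3G.KUMRoot_helper23
import Fermat.Agent.S24.A5Local
import Fermat.Agent.S24.A1
import Fermat.Agent.W3G.AN3L1a_helper2

/-!
# Item 80 (W3-G), slice RIGORD, sub-slice FIN-ROOT (helper4)

Every point `z₀ ∈ ℍ` gives a place of `KN N / ℂ` (`exists_place_at`): the order at `z₀` is a
positive multiple of the order at a place `v`, which is centred at `j = j(z₀)`.

`finRoot` : an element `U ≠ 0` of `KN N` whose orders at all places `v` with `0 ≤ v.ord j` are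
divisible by `n` is an `n`-th power in `Mer`.
-/

set_option autoImplicit false

noncomputable section

open UpperHalfPlane WithZero AlgebraicCurve CongruenceSubgroup ModularCurve
open scoped MatrixGroups

namespace H4RIG

open H24D H27RIG
open RH24 (Kbar Jbar iota Dv Jgen jf)

variable (N : ℕ) [NeZero N]

/-- the inclusion `KN N ⊆ Mer` -/
def inclKN : H2AN3.KN N →+* Mer := (H2AN3.KN N).subtype

theorem inclKN_apply (f : H2AN3.KN N) : inclKN N f = (f : Mer) := rfl

/-- the additive valuation "order at `z₀`" on `KN N` -/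
def ordAtKN (z₀ : ℍ) : H2AN3.KN N → ℤ := RH24.h2a5_u (merVal z₀) (inclKN N)

theorem ordAtKN_def (z₀ : ℍ) (f : H2AN3.KN N) :
    ordAtKN N z₀ f = - WithZero.log (merVal z₀ (f : Mer)) := rfl

theorem merVal_constMer_of_ne {c : ℂ} (hc : c ≠ 0) (z₀ : ℍ) : merVal z₀ (constMer c) = 1 := by
  rw [constMer_apply, merVal_algebraMap, ordVal_eq_one_iff]
  exact hc

theorem ordAtKN_algebraMap (z₀ : ℍ) (c : ℂ) (hc : c ≠ 0) :
    ordAtKN N z₀ (algebraMap ℂ (H2AN3.KN N) c) = 0 := by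
  rw [ordAtKN_def, coe_algebraMap_KN, merVal_constMer_of_ne hc, WithZero.log_one, neg_zero]

theorem coe_jKN_sub (c : ℂ) :
    ((jKN N - algebraMap ℂ (H2AN3.KN N) c : H2AN3.KN N) : Mer)
      = algebraMap Hol Mer (jHol - constHol c) := by
  rw [map_sub]
  show ((jKN N : H2AN3.KN N) : Mer) - ((algebraMap ℂ (H2AN3.KN N) c : H2AN3.KN N) : Mer) = _
  rw [coe_jKN, coe_algebraMap_KN, constMer_apply]

theorem jHol_sub_ne_zero (c : ℂ) : jHol - constHol c ≠ 0 := by
  intro h
  -- `j` is not constant: `j = P(j)` for the constant polynomial `P = c` contradicts injectivity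
  have h1 : H2AN3.polyJHol Polynomial.X = H2AN3.polyJHol (Polynomial.C c) := by
    have hX : H2AN3.polyJHol Polynomial.X = jHol := by
      simp [H2AN3.polyJHol]
    have hC : H2AN3.polyJHol (Polynomial.C c) = constHol c := by
      simp [H2AN3.polyJHol]
    rw [hX, hC]
    exact sub_eq_zero.mp h
  have h2 := H2AN3.polyJHol_injective h1
  have h3 := congrArg Polynomial.natDegree h2
  rw [Polynomial.natDegree_X, Polynomial.natDegree_C] at h3
  exact one_ne_zero h3

theorem jKN_sub_ne_zero (c : ℂ) : jKN N - algebraMap ℂ (H2AN3.KN N) c ≠ 0 := by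
  intro h
  have h1 : ((jKN N - algebraMap ℂ (H2AN3.KN N) c : H2AN3.KN N) : Mer)
      = ((0 : H2AN3.KN N) : Mer) := congrArg (fun x : H2AN3.KN N => (x : Mer)) h
  rw [coe_jKN_sub] at h1
  have h2 : algebraMap Hol Mer (jHol - constHol c) = algebraMap Hol Mer 0 := by
    rw [h1, map_zero]
    rfl
  exact jHol_sub_ne_zero c (IsFractionRing.injective Hol Mer h2)

theorem ordAtKN_jKN_sub_pos (z₀ : ℍ) :
    0 < ordAtKN N z₀ (jKN N - algebraMap ℂ (H2AN3.KN N) (jf z₀)) := by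
  have hne := jKN_sub_ne_zero N (jf z₀)
  unfold ordAtKN
  rw [RH24.h2a5_u_pos_iff (merVal z₀) (inclKN N) hne, inclKN_apply, coe_jKN_sub,
    merVal_algebraMap, ordVal_lt_one_iff]
  show jf z₀ - jf z₀ = 0
  exact sub_self _

/-- **the place of `KN N / ℂ` at a point of `ℍ`**: the order at `z₀` is a positive multiple of
the order at a place `v`, and `v` is centred at `j = j(z₀)`. -/
theorem exists_place_at (z₀ : ℍ) :
    ∃ (v : Place ℂ (H2AN3.KN N)) (m : ℤ), 0 < m ∧
      0 < v.ord (jKN N - algebraMap ℂ (H2AN3.KN N) (jf z₀)) ∧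
      ∀ f : H2AN3.KN N, f ≠ 0 → ordAtKN N z₀ f = m * v.ord f := by
  obtain ⟨v, m, hm, -, hv⟩ := RH24.h2a5_exists_place (K := ℂ)
    (RH24.h2a5_isAddVal (merVal z₀) (inclKN N))
    (fun c hc => ordAtKN_algebraMap N z₀ c hc) (jKN_sub_ne_zero N (jf z₀))
    (ordAtKN_jKN_sub_pos N z₀)
  refine ⟨v, m, hm, ?_, hv⟩
  have h1 := hv _ (jKN_sub_ne_zero N (jf z₀))
  have h2 : 0 < RH24.h2a5_u (merVal z₀) (inclKN N)
      (jKN N - algebraMap ℂ (H2AN3.KN N) (jf z₀)) := ordAtKN_jKN_sub_pos N z₀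
  rw [h1] at h2
  by_contra hle
  rw [not_lt] at hle
  have : m * v.ord (jKN N - algebraMap ℂ (H2AN3.KN N) (jf z₀)) ≤ 0 :=
    mul_nonpos_of_nonneg_of_nonpos hm.le hle
  omega

/-- a place centred at `j = c` has `0 ≤ ord j`. -/
theorem ord_jKN_nonneg_of_center (v : Place ℂ (H2AN3.KN N)) (c : ℂ)
    (h : 0 < v.ord (jKN N - algebraMap ℂ (H2AN3.KN N) c)) : 0 ≤ v.ord (jKN N) := by
  have hmem : jKN N - algebraMap ℂ (H2AN3.KN N) c ∈ v.toValuationSubring :=
    (RH24.h20_mem_iff_ord_nonneg v (jKN_sub_ne_zero N c)).2 h.le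
  have hc : algebraMap ℂ (H2AN3.KN N) c ∈ v.toValuationSubring := v.algebraMap_mem' c
  have hj : jKN N ∈ v.toValuationSubring := by
    have := v.toValuationSubring.add_mem _ _ hmem hc
    rwa [sub_add_cancel] at this
  have hj0 : jKN N ≠ 0 := by
    have := jKN_sub_ne_zero N 0
    rwa [map_zero, sub_zero] at this
  exact (RH24.h20_mem_iff_ord_nonneg v hj0).1 hj

/-- **FIN-ROOT**: an element of `KN N` whose orders at all places with `0 ≤ ord j` are divisible
by `n` is an `n`-th power in `Mer`. -/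
theorem finRoot (n : ℕ) (hn : 0 < n) (U : H2AN3.KN N) (hU : U ≠ 0)
    (h : ∀ v : Place ℂ (H2AN3.KN N), 0 ≤ v.ord (jKN N) → (n : ℤ) ∣ v.ord U) :
    ∃ G : Mer, G ^ n = (U : Mer) := by
  have hU' : (U : Mer) ≠ 0 := fun h0 => hU (Subtype.ext h0)
  refine H23KR.h23kr_root n hn (U : Mer) hU' (fun z₀ => ?_)
  obtain ⟨v, m, -, hc, hv⟩ := exists_place_at N z₀
  obtain ⟨k, hk⟩ := h v (ord_jKN_nonneg_of_center N v _ hc)
  have h1 := hv U hU
  rw [ordAtKN_def, hk] at h1
  refine ⟨-(m * k), ?_⟩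
  have hne : merVal z₀ (U : Mer) ≠ 0 := (Valuation.ne_zero_iff _).mpr hU'
  have h2 : WithZero.log (merVal z₀ (U : Mer)) = (n : ℤ) * -(m * k) := by
    have : WithZero.log (merVal z₀ (U : Mer)) = -(m * ((n : ℤ) * k)) := by omega
    rw [this]
    ring
  rw [← h2, WithZero.exp_log hne]

/-- **FIN-ROOT**, in the form of helper10's plan. -/
theorem finRoot' (n : ℕ) (hn : 0 < n) (U : H2AN3.KN N) (hU : U ≠ 0)
    (h : ∀ v : Place ℂ (H2AN3.KN N), (n : ℤ) ∣ v.ord U) :
    ∃ G : Mer, G ^ n = (U : Mer) :=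
  finRoot N n hn U hU (fun v _ => h v)

end H4RIG

end
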