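import Mathlib
import Fermat.Agent.W3G.KUMAbs_helper8
import Fermat.Agent.W3G.KUMSurj_helper4
import Fermat.Agent.W3G.AN3Alg2_helper2

/-!
# Item 80 (W3G), RIGORD slice FIN-AN (helper23)

`H23FIN.h23fin_an N n (hn : 0 < n)`: there is a finite set `X` and `cl : Mer → X` such that two
nonzero `G, G' ∈ Mer` with `Gⁿ, G'ⁿ ∈ KN N = ℂ(j(d z) : d ∣ N)` and `cl G = cl G'` differ by an
element of `KN N`.  (`cl G` = the multiplier of `G` on a finite generating set of `Γ₀(N)`; equal
multipliers ⇒ `G / G'` is `Γ₀(N)`-invariant and algebraic over `KN N`, hence in `KN N` by AN3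
form A, `H2AN3.algStatement`.)

Also: `h23fin_exists_mult` (the multiplier exists), `h23fin_invariant_of_generators`.
-/

set_option autoImplicit false
set_option linter.style.longLine false
set_option linter.unusedSectionVars false
set_option linter.unnecessarySimpa false
set_option linter.style.haveILetI false

noncomputable section

namespace H23FIN

open H24D H8KUM CongruenceSubgroup
open scoped MatrixGroups

theorem h23fin_groupFG_SL2Z : Group.FG SL(2, ℤ) :=
  Group.fg_iff.mpr ⟨{ModularGroup.S, ModularGroup.T}, SpecialLinearGroup.SL2Z_generators,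
    by simp⟩

theorem h23fin_groupFG_Gamma0 (N : ℕ) [NeZero N] : Group.FG (Gamma0 N) := by
  have := h23fin_groupFG_SL2Z
  exact Subgroup.fg_of_index_ne_zero _

/-- an element of `Mer` fixed by a generating set of `Γ₀(N)` is `Γ₀(N)`-invariant -/
theorem h23fin_invariant_of_generators (N : ℕ) [NeZero N] {s : Set (Gamma0 N)}
    (hs : Subgroup.closure s = ⊤) {h : Mer}
    (hh : ∀ x ∈ s, precompMer (x : SL(2, ℤ)) h = h) :
    ∀ γ ∈ Gamma0 N, precompMer γ h = h := by
  intro γ hγ
  have h1 : ∀ x : Gamma0 N, x ∈ Subgroup.closure s → precompMer (x : SL(2, ℤ)) h = h := by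
    intro x hx
    induction hx using Subgroup.closure_induction with
    | mem y hy => exact hh y hy
    | one =>
      show precompMer (1 : SL(2, ℤ)) h = h
      rw [precompMer_one]; rfl
    | mul a b _ _ ha hb =>
      show precompMer ((a : SL(2, ℤ)) * (b : SL(2, ℤ))) h = h
      rw [precompMer_mul_apply, ha, hb]
    | inv a _ ha =>
      show precompMer ((a : SL(2, ℤ))⁻¹) h = h
      have h1 : precompMer ((a : SL(2, ℤ)) * (a : SL(2, ℤ))⁻¹) h = h := by
        rw [mul_inv_cancel, precompMer_one]; rfl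
      rw [precompMer_mul_apply, ha] at h1
      exact h1
  exact h1 ⟨γ, hγ⟩ (by rw [hs]; exact Subgroup.mem_top _)

/-- the multiplier of a Kummer generator at `γ ∈ Γ₀(N)` -/
theorem h23fin_exists_mult (N : ℕ) [NeZero N] {n : ℕ} (hn : 0 < n) {G : Mer} (hG : G ≠ 0)
    (hGn : G ^ n ∈ H2AN3.KN N) (γ : SL(2, ℤ)) (hγ : γ ∈ Gamma0 N) :
    ∃ c : ℂ, c ^ n = 1 ∧ precompMer γ G = constMer c * G := by
  apply h8k_root_of_unity hn.ne' hG
  rw [← map_pow, H4KUM.precompMer_of_mem_KN N γ hγ hGn]

/-- **FIN-AN**: Kummer generators modulo `KN N` are classified by a finite set. -/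
theorem h23fin_an (N : ℕ) [NeZero N] (n : ℕ) (hn : 0 < n) :
    ∃ (X : Type) (_ : Finite X) (cl : Mer → X),
      ∀ G G' : Mer, G ≠ 0 → G' ≠ 0 → G ^ n ∈ H2AN3.KN N → G' ^ n ∈ H2AN3.KN N →
        cl G = cl G' → ∃ h ∈ H2AN3.KN N, G = G' * h := by
  classical
  obtain ⟨s, hs1, hs2⟩ := Group.fg_iff.1 (h23fin_groupFG_Gamma0 N)
  haveI : Finite s := hs2.to_subtype
  let μ : Type := ↥(Polynomial.nthRootsFinset n (1 : ℂ))
  let cl : Mer → (s → Option μ) := fun G x =>
    if h : ∃ c : μ, precompMer ((x : Gamma0 N) : SL(2, ℤ)) G = constMer (c : ℂ) * G then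
      some (Classical.choose h) else none
  refine ⟨s → Option μ, inferInstance, cl, ?_⟩
  intro G G' hG hG' hGn hG'n hcl
  have hex : ∀ (G : Mer), G ≠ 0 → G ^ n ∈ H2AN3.KN N → ∀ x : s,
      ∃ c : μ, precompMer ((x : Gamma0 N) : SL(2, ℤ)) G = constMer (c : ℂ) * G := by
    intro G hG hGn x
    obtain ⟨c, hc1, hc2⟩ := h23fin_exists_mult N hn hG hGn (x : Gamma0 N) (x : Gamma0 N).2
    exact ⟨⟨c, (Polynomial.mem_nthRootsFinset hn 1).2 hc1⟩, hc2⟩
  have hne : ∀ c : μ, constMer (c : ℂ) ≠ 0 := by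
    intro c
    have h1 : (c : ℂ) ^ n = 1 := (Polynomial.mem_nthRootsFinset hn 1).1 c.2
    have h2 : (c : ℂ) ≠ 0 := by
      intro h0
      rw [h0, zero_pow hn.ne'] at h1
      exact zero_ne_one h1
    exact (map_ne_zero constMer).2 h2
  have hinv : ∀ x ∈ s, precompMer ((x : Gamma0 N) : SL(2, ℤ)) (G / G') = G / G' := by
    intro x hx
    have h1 := hex G hG hGn ⟨x, hx⟩
    have h2 := hex G' hG' hG'n ⟨x, hx⟩
    have h3 : cl G ⟨x, hx⟩ = some (Classical.choose h1) := dif_pos h1
    have h4 : cl G' ⟨x, hx⟩ = some (Classical.choose h2) := dif_pos h2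
    have h5 : Classical.choose h1 = Classical.choose h2 := by
      have := congrFun hcl ⟨x, hx⟩
      rw [h3, h4] at this
      exact Option.some.inj this
    have h6 := Classical.choose_spec h1
    have h7 := Classical.choose_spec h2
    rw [← h5] at h7
    rw [map_div₀, h6, h7, mul_div_mul_left _ _ (hne _)]
  have hinv' := h23fin_invariant_of_generators N hs1 hinv
  have halg : IsAlgebraic (H2AN3.KN N) (G / G') := by
    have hmem : (G / G') ^ n ∈ H2AN3.KN N := by
      rw [div_pow]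
      exact div_mem hGn hG'n
    refine ⟨Polynomial.X ^ n - Polynomial.C ⟨(G / G') ^ n, hmem⟩, ?_, ?_⟩
    · exact Polynomial.X_pow_sub_C_ne_zero hn _
    · simp only [Polynomial.aeval_def, Polynomial.eval₂_sub, Polynomial.eval₂_pow, Polynomial.eval₂_X, Polynomial.eval₂_C]
      exact sub_self _
  refine ⟨G / G', H2AN3.algStatement (N := N) _ hinv' halg, ?_⟩
  rw [mul_div_cancel₀ _ hG']

end H23FIN

end
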