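import Mathlib
import Fermat.Agent.W3G.RIGFinRoot_helper4
import Fermat.Agent.W3G.RIGFin_helper23
import Fermat.Agent.W3G.RIGFCC_helper2
import Fermat.Agent.S24.A0

/-!
# Item 80 (W3-G), slice RIGORD, sub-slice FIN-T (helper4)

`T` := the places of `KN N / ℂ` over `j ∈ {0, 1728, ∞}` (a finite set).

`finT` : the elements `U ≠ 0` of `KN N` whose orders at all places outside `T` are divisible
by `n` are classified modulo `n`-th powers by a finite set:
the orders modulo `n` at the places of `T`, and the multiplier of an `n`-th root (FIN-AN +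
FIN-ROOT).
-/

set_option autoImplicit false
set_option linter.style.haveILetI false

noncomputable section

open UpperHalfPlane WithZero AlgebraicCurve CongruenceSubgroup ModularCurve IntermediateField
open scoped MatrixGroups

namespace H4RIG

open H24D H27RIG
open RH24 (Kbar Jbar iota Dv Jgen jf)

variable (N : ℕ) [NeZero N]

/-- the condition "`v` does not lie over `j ∈ {0, 1728, ∞}`" -/
def IsGenPlace (v : Place ℂ (H2AN3.KN N)) : Prop :=
  v.ord (jKN N) = 0 ∧ v.ord (jKN N - algebraMap ℂ (H2AN3.KN N) 1728) = 0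

/-- the exceptional places -/
abbrev ExcPlace : Type := {v : Place ℂ (H2AN3.KN N) // ¬ IsGenPlace N v}

theorem jKN_ne_zero : jKN N ≠ 0 := by
  have := jKN_sub_ne_zero N 0
  rwa [map_zero, sub_zero] at this

theorem finiteDimensional_jKN : FiniteDimensional ℂ⟮jKN N⟯ (H2AN3.KN N) := by
  have h := ((H2FCC.fcBasics N).2 0).1
  have e : jKN N - algebraMap ℂ (H2AN3.KN N) 0 = jKN N := by rw [map_zero, sub_zero]
  rw [e] at h
  exact h

theorem transcendental_jKN_sub (c : ℂ) :
    Transcendental ℂ (jKN N - algebraMap ℂ (H2AN3.KN N) c) := by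
  intro halg
  have h2 : IsAlgebraic ℂ (algebraMap ℂ (H2AN3.KN N) c) := isAlgebraic_algebraMap c
  have := halg.add h2
  rw [sub_add_cancel] at this
  exact (H2FCC.fcBasics N).1 this

theorem transcendental_jKN_inv : Transcendental ℂ (jKN N)⁻¹ := by
  intro halg
  have := halg.inv
  rw [inv_inv] at this
  exact (H2FCC.fcBasics N).1 this

theorem finite_excPlace : Finite (ExcPlace N) := by
  haveI := finiteDimensional_jKN N
  haveI h1 : Finite {v : Place ℂ (H2AN3.KN N) // 0 < v.ord (jKN N)} :=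
    RH24.finite_places_over (jKN N) (H2FCC.fcBasics N).1
  haveI : FiniteDimensional ℂ⟮(jKN N)⁻¹⟯ (H2AN3.KN N) :=
    RH24.finiteDimensional_adjoin_of_transcendental (jKN N) _ (transcendental_jKN_inv N)
  haveI h2 : Finite {v : Place ℂ (H2AN3.KN N) // 0 < v.ord (jKN N)⁻¹} :=
    RH24.finite_places_over (jKN N)⁻¹ (transcendental_jKN_inv N)
  haveI : FiniteDimensional ℂ⟮jKN N - algebraMap ℂ (H2AN3.KN N) 1728⟯ (H2AN3.KN N) :=
    ((H2FCC.fcBasics N).2 1728).1
  haveI h3 : Finite {v : Place ℂ (H2AN3.KN N) //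
      0 < v.ord (jKN N - algebraMap ℂ (H2AN3.KN N) 1728)} :=
    RH24.finite_places_over _ (transcendental_jKN_sub N 1728)
  -- an injection of the exceptional places into the sum of the three fibres
  have key : ∀ v : Place ℂ (H2AN3.KN N), ¬ IsGenPlace N v →
      0 < v.ord (jKN N) ∨ 0 < v.ord (jKN N)⁻¹ ∨
        0 < v.ord (jKN N - algebraMap ℂ (H2AN3.KN N) 1728) := by
    intro v hv
    simp only [IsGenPlace, not_and_or] at hv
    by_cases hj : v.ord (jKN N) = 0
    · rcases hv with hv | hv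
      · exact absurd hj hv
      · right; right
        rcases lt_or_gt_of_ne hv with hlt | hgt
        · exfalso
          have hjm : jKN N ∈ v.toValuationSubring :=
            (RH24.h20_mem_iff_ord_nonneg v (jKN_ne_zero N)).2 hj.ge
          have hc : algebraMap ℂ (H2AN3.KN N) 1728 ∈ v.toValuationSubring :=
            v.algebraMap_mem' 1728
          have hm : jKN N - algebraMap ℂ (H2AN3.KN N) 1728 ∈ v.toValuationSubring :=
            sub_mem hjm hc
          have := (RH24.h20_mem_iff_ord_nonneg v (jKN_sub_ne_zero N 1728)).1 hm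
          omega
        · exact hgt
    · rcases lt_or_gt_of_ne hj with hlt | hgt
      · right; left
        rw [Place.ord_inv]
        omega
      · left
        exact hgt
  classical
  let ι : ExcPlace N → ({v : Place ℂ (H2AN3.KN N) // 0 < v.ord (jKN N)} ⊕
      {v : Place ℂ (H2AN3.KN N) // 0 < v.ord (jKN N)⁻¹}) ⊕
      {v : Place ℂ (H2AN3.KN N) // 0 < v.ord (jKN N - algebraMap ℂ (H2AN3.KN N) 1728)} :=
    fun v =>
      if h1 : 0 < v.1.ord (jKN N) then Sum.inl (Sum.inl ⟨v.1, h1⟩)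
      else if h2 : 0 < v.1.ord (jKN N)⁻¹ then Sum.inl (Sum.inr ⟨v.1, h2⟩)
      else Sum.inr ⟨v.1, by
        rcases key v.1 v.2 with h | h | h
        · exact absurd h h1
        · exact absurd h h2
        · exact h⟩
  refine Finite.of_injective ι (fun v w hvw => ?_)
  apply Subtype.ext
  simp only [ι] at hvw
  (split_ifs at hvw <;> simp at hvw) <;> exact hvw

/-- the orders modulo `n` at the exceptional places -/
def ordT (n : ℕ) (U : H2AN3.KN N) : ExcPlace N → ZMod n := fun v => ((v.1.ord U : ℤ) : ZMod n)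

/-- the elements of `KN N` whose orders outside `T` are divisible by `n` -/
def IsKumT (n : ℕ) (U : H2AN3.KN N) : Prop :=
  U ≠ 0 ∧ ∀ v : Place ℂ (H2AN3.KN N), IsGenPlace N v → (n : ℤ) ∣ v.ord U

theorem dvd_ord_div (n : ℕ) {U R : H2AN3.KN N} (hU : IsKumT N n U) (hR : IsKumT N n R)
    (h : ordT N n U = ordT N n R) (v : Place ℂ (H2AN3.KN N)) : (n : ℤ) ∣ v.ord (U * R⁻¹) := by
  rw [v.ord_mul hU.1 (inv_ne_zero hR.1), Place.ord_inv, ← sub_eq_add_neg]
  by_cases hv : IsGenPlace N v
  · exact dvd_sub (hU.2 v hv) (hR.2 v hv)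
  · have := congrFun h ⟨v, hv⟩
    simp only [ordT] at this
    exact (ZMod.intCast_eq_intCast_iff_dvd_sub _ _ n).mp this.symm

/-- **FIN-T**: the classes modulo `n`-th powers of the elements of `KN N` whose orders outside
`T` (the places over `j ∈ {0, 1728, ∞}`) are divisible by `n` are classified by a finite set. -/
theorem finT (n : ℕ) (hn : 0 < n) :
    ∃ (X : Type) (_ : Finite X) (cl : H2AN3.KN N → X), ∀ U U' : H2AN3.KN N, U ≠ 0 → U' ≠ 0 →
      (∀ v : Place ℂ (H2AN3.KN N), v.ord (jKN N) = 0 →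
        v.ord (jKN N - algebraMap ℂ (H2AN3.KN N) 1728) = 0 → (n : ℤ) ∣ v.ord U) →
      (∀ v : Place ℂ (H2AN3.KN N), v.ord (jKN N) = 0 →
        v.ord (jKN N - algebraMap ℂ (H2AN3.KN N) 1728) = 0 → (n : ℤ) ∣ v.ord U') →
      cl U = cl U' → ∃ h : H2AN3.KN N, U = U' * h ^ n := by
  classical
  haveI : NeZero n := ⟨hn.ne'⟩
  haveI := finite_excPlace N
  obtain ⟨Xan, hXan, clan, hclan⟩ := H23FIN.h23fin_an N n hn
  -- representatives of the order vectors
  let rep : (ExcPlace N → ZMod n) → H2AN3.KN N := fun a =>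
    if h : ∃ R : H2AN3.KN N, IsKumT N n R ∧ ordT N n R = a then Classical.choose h else 1
  -- `n`-th roots
  let root : H2AN3.KN N → Mer := fun V =>
    if h : ∃ G : Mer, G ^ n = (V : Mer) then Classical.choose h else 1
  let cl : H2AN3.KN N → (ExcPlace N → ZMod n) × Xan := fun U =>
    (ordT N n U, clan (root (U * (rep (ordT N n U))⁻¹)))
  refine ⟨(ExcPlace N → ZMod n) × Xan, inferInstance, cl, ?_⟩
  intro U U' hU hU' hUT hU'T hcl
  have hKU : IsKumT N n U := ⟨hU, fun v hv => hUT v hv.1 hv.2⟩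
  have hKU' : IsKumT N n U' := ⟨hU', fun v hv => hU'T v hv.1 hv.2⟩
  have hord : ordT N n U = ordT N n U' := congrArg Prod.fst hcl
  have hex : ∃ R : H2AN3.KN N, IsKumT N n R ∧ ordT N n R = ordT N n U := ⟨U, hKU, rfl⟩
  set R := rep (ordT N n U) with hR
  have hRspec : IsKumT N n R ∧ ordT N n R = ordT N n U := by
    have : R = Classical.choose hex := by
      rw [hR]
      exact dif_pos hex
    rw [this]
    exact Classical.choose_spec hex
  have hR' : rep (ordT N n U') = R := by rw [← hord]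
  have hcl2 : clan (root (U * R⁻¹)) = clan (root (U' * R⁻¹)) := by
    have := congrArg Prod.snd hcl
    simp only [cl] at this
    rw [hR'] at this
    exact this
  -- the roots
  have hroot : ∀ V : H2AN3.KN N, V ≠ 0 → (∀ v : Place ℂ (H2AN3.KN N), (n : ℤ) ∣ v.ord V) →
      root V ^ n = (V : Mer) := by
    intro V hV hVd
    have hexG := finRoot' N n hn V hV hVd
    have : root V = Classical.choose hexG := dif_pos hexG
    rw [this]
    exact Classical.choose_spec hexG
  have hV0 : U * R⁻¹ ≠ 0 := mul_ne_zero hU (inv_ne_zero hRspec.1.1)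
  have hV'0 : U' * R⁻¹ ≠ 0 := mul_ne_zero hU' (inv_ne_zero hRspec.1.1)
  have h1 := hroot _ hV0 (dvd_ord_div N n hKU hRspec.1 hRspec.2.symm)
  have h2 := hroot _ hV'0 (dvd_ord_div N n hKU' hRspec.1 (hord ▸ hRspec.2.symm))
  have hG0 : root (U * R⁻¹) ≠ 0 := by
    intro h0
    rw [h0, zero_pow hn.ne'] at h1
    exact hV0 (Subtype.ext h1.symm)
  have hG'0 : root (U' * R⁻¹) ≠ 0 := by
    intro h0
    rw [h0, zero_pow hn.ne'] at h2
    exact hV'0 (Subtype.ext h2.symm)
  obtain ⟨h, hh, hGh⟩ := hclan _ _ hG0 hG'0 (by rw [h1]; exact (U * R⁻¹).2)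
    (by rw [h2]; exact (U' * R⁻¹).2) hcl2
  refine ⟨⟨h, hh⟩, ?_⟩
  have h3 : ((U * R⁻¹ : H2AN3.KN N) : Mer) = ((U' * R⁻¹ * ⟨h, hh⟩ ^ n : H2AN3.KN N) : Mer) := by
    rw [← h1, hGh, mul_pow, h2]
    rfl
  have h4 : U * R⁻¹ = U' * R⁻¹ * ⟨h, hh⟩ ^ n := Subtype.ext h3
  have hR0 : R ≠ 0 := hRspec.1.1
  calc U = U * R⁻¹ * R := by rw [mul_assoc, inv_mul_cancel₀ hR0, mul_one]
    _ = U' * R⁻¹ * ⟨h, hh⟩ ^ n * R := by rw [h4]
    _ = U' * ⟨h, hh⟩ ^ n := by
        rw [mul_assoc U' R⁻¹, mul_comm R⁻¹, ← mul_assoc, mul_assoc (U' * _), inv_mul_cancel₀ hR0,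
          mul_one]

end H4RIG

end
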