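import Mathlib
import Fermat.Agent.RRD.Principal
import Fermat.Agent.S24.A1Deg
import Fermat.Agent.S24.PlaceBasic
import Fermat.Prelude.Def_AlgebraicCurve_BaseChangeGalois

/-!
# W3G (item 80), RIGORD slice NF-ALG (helper1): the algebraic normal form

`F / K` a function field over an algebraically closed field of characteristic `0`, `vinf` a place,
`W ∈ Fˣ`, `n > 0`.  Among the `x = W hⁿ` (`h ≠ 0`) which are regular outside `vinf` there is one,
`x₀ = W H₀ⁿ`, with maximal order at `vinf`; it is unique up to a constant factor.  Hence every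
semilinear automorphism `g` which fixes `vinf` and the class of `W` modulo `n`-th powers maps `x₀`
to a constant multiple of `x₀`.

* `H1NF.nf_abs'` : the normal form with all its properties;
* `H1NF.nf_abs`  : the form consumed by the descent (helper10's signature).
-/

set_option autoImplicit false
set_option linter.style.longLine false
set_option linter.unusedSectionVars false
set_option linter.unusedVariables false
set_option linter.style.haveILetI false

noncomputable section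

open AlgebraicCurve IntermediateField

namespace H1NF

variable {K F : Type*} [Field K] [Field F] [Algebra K F] [IsAlgClosed K] [CharZero K]

/-- regular outside `vinf` -/
def Reg (vinf : Place K F) (x : F) : Prop := ∀ v : Place K F, v ≠ vinf → 0 ≤ v.ord x

/-- the candidates: `x = W hⁿ ≠ 0`, regular outside `vinf` -/
def Cand (vinf : Place K F) (W : F) (n : ℕ) (x : F) : Prop :=
  x ≠ 0 ∧ Reg vinf x ∧ ∃ h : F, h ≠ 0 ∧ x = W * h ^ n

theorem ord_pow_nat (v : Place K F) (x : F) (n : ℕ) : v.ord (x ^ n) = n * v.ord x := by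
  have := v.ord_zpow x n
  simpa using this

theorem ord_mul_pow (v : Place K F) {x t : F} (hx : x ≠ 0) (ht : t ≠ 0) (n : ℕ) :
    v.ord (x * t ^ n) = v.ord x + n * v.ord t := by
  rw [v.ord_mul hx (pow_ne_zero n ht), ord_pow_nat]

/-- `ord (t - c) ≥ min (ord t) 0` for a constant `c` -/
theorem min_le_ord_sub_const (v : Place K F) {t : F} (ht : t ≠ 0) (c : K)
    (htc : t - algebraMap K F c ≠ 0) : min (v.ord t) 0 ≤ v.ord (t - algebraMap K F c) := by
  rcases eq_or_ne c 0 with rfl | hc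
  · rw [map_zero, sub_zero]
    exact min_le_left _ _
  · have hc' : -algebraMap K F c ≠ 0 := neg_ne_zero.2 ((map_ne_zero _).2 hc)
    have h := RH24.h20_ord_add v ht hc' (by rwa [← sub_eq_add_neg])
    rw [← sub_eq_add_neg, ← map_neg, RH24.h20_ord_algebraMap] at h
    exact h

section Main

variable (y : F) (hy : Transcendental K y) [FiniteDimensional K⟮y⟯ F]
variable (vinf : Place K F) (n : ℕ) (W : F)

include hy in
/-- (a) there are candidates -/
theorem exists_cand (hn : 0 < n) (hW : W ≠ 0) : ∃ x, Cand vinf W n x := by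
  obtain ⟨D, hD, -⟩ := (RRD.hasPrincipalDivisors y hy).exists_divisor W hW
  obtain ⟨g, hg⟩ := RRD.riemann_exists (K := K) y hy
  set D' : Divisor K F := D.mapRange (fun a : ℤ => a / (n : ℤ)) (by simp) with hD'
  set E : Divisor K F := D' + Finsupp.single vinf ((g : ℤ) - Divisor.degree D') with hE
  have hdeg : Divisor.degree E = g := by
    rw [hE, map_add, Divisor.degree_single, RRD.deg_eq_one y hy vinf]
    push_cast
    ring
  obtain ⟨f, hf0, hf⟩ := hg E hdeg.ge
  refine ⟨W * f ^ n, mul_ne_zero hW (pow_ne_zero n hf0), ?_, f, hf0, rfl⟩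
  intro v hv
  have h1 := hf v
  have hEv : E v = v.ord W / (n : ℤ) := by
    classical
    rw [hE, Finsupp.add_apply, Finsupp.single_apply, if_neg (Ne.symm hv), add_zero, hD',
      Finsupp.mapRange_apply, hD v]
  rw [hEv] at h1
  rw [ord_mul_pow v hW hf0]
  have hn' : (0 : ℤ) < n := by exact_mod_cast hn
  have h2 : (n : ℤ) * (v.ord W / (n : ℤ)) ≤ v.ord W := Int.mul_ediv_self_le hn'.ne'
  nlinarith

include hy in
/-- (b) the order at `vinf` of a candidate is `≤ 0` -/
theorem ord_le_zero_of_cand {x : F} (hx : Cand vinf W n x) : vinf.ord x ≤ 0 := by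
  by_contra hcon
  push Not at hcon
  have hall : ∀ v : Place K F, 0 ≤ v.ord x := by
    intro v
    by_cases hv : v = vinf
    · rw [hv]
      exact hcon.le
    · exact hx.2.1 v hv
  obtain ⟨c, hc⟩ := RRD.exists_const_of_ord_eq_zero y hy x hall
  rw [hc, RH24.h20_ord_algebraMap] at hcon
  exact lt_irrefl _ hcon

include hy in
/-- (c) a candidate of maximal order at `vinf` -/
theorem exists_max_cand (hn : 0 < n) (hW : W ≠ 0) :
    ∃ x₀, Cand vinf W n x₀ ∧ ∀ x, Cand vinf W n x → vinf.ord x ≤ vinf.ord x₀ := by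
  obtain ⟨x, hx⟩ := exists_cand y hy vinf n W hn hW
  obtain ⟨ub, ⟨x₀, hx₀, rfl⟩, hub⟩ := Int.exists_greatest_of_bdd
    (P := fun z : ℤ => ∃ x, Cand vinf W n x ∧ vinf.ord x = z)
    ⟨0, fun z ⟨x, hx, hz⟩ => hz ▸ ord_le_zero_of_cand y hy vinf n W hx⟩ ⟨_, x, hx, rfl⟩
  exact ⟨x₀, hx₀, fun x hx => hub _ ⟨x, hx, rfl⟩⟩

include hy in
/-- (d) uniqueness up to constants -/
theorem const_of_max (hn : 0 < n) (hW : W ≠ 0) {x₀ : F} (hx₀ : Cand vinf W n x₀)
    (hmax : ∀ x, Cand vinf W n x → vinf.ord x ≤ vinf.ord x₀) {t : F} (ht : t ≠ 0)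
    (hreg : Reg vinf (x₀ * t ^ n)) (hord : vinf.ord (x₀ * t ^ n) = vinf.ord x₀) :
    ∃ c : K, c ≠ 0 ∧ t = algebraMap K F c := by
  have hn' : (0 : ℤ) < n := by exact_mod_cast hn
  have hx₀0 : x₀ ≠ 0 := hx₀.1
  obtain ⟨h₀, hh₀, hx₀W⟩ := hx₀.2.2
  have ht0 : vinf.ord t = 0 := by
    rw [ord_mul_pow vinf hx₀0 ht] at hord
    have : (n : ℤ) * vinf.ord t = 0 := by linarith
    rcases mul_eq_zero.1 this with h | h
    · exact absurd h hn'.ne'
    · exact h
  have htmem : t ∈ vinf.toValuationSubring := (RH24.h20_mem_iff_ord_nonneg vinf ht).2 ht0.ge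
  obtain ⟨c, s, hs⟩ := RH24.h22a_res y hy vinf ⟨t, htmem⟩
  have hsF : t - algebraMap K F c = ((RH24.h22a_unif vinf : vinf.toValuationSubring) : F) * (s : F) := by
    have := congrArg (fun a : vinf.toValuationSubring => (a : F)) hs
    simpa using this
  by_cases htc : t - algebraMap K F c = 0
  · refine ⟨c, ?_, sub_eq_zero.1 htc⟩
    rintro rfl
    rw [map_zero, sub_zero] at htc
    exact ht htc
  exfalso
  -- `0 < ord (t - c)`
  have hs0 : (s : F) ≠ 0 := by
    intro h0
    rw [hsF, h0, mul_zero] at htc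
    exact htc rfl
  have hpos : 0 < vinf.ord (t - algebraMap K F c) := by
    rw [hsF, vinf.ord_mul (RH24.h22a_unif_ne_zero vinf) hs0, RH24.h22a_ord_unif]
    have := RH24.h20_ord_nonneg_of_mem vinf s.2
    omega
  -- the new candidate
  have hcand : Cand vinf W n (x₀ * (t - algebraMap K F c) ^ n) := by
    refine ⟨mul_ne_zero hx₀0 (pow_ne_zero n htc), ?_, h₀ * (t - algebraMap K F c),
      mul_ne_zero hh₀ htc, ?_⟩
    · intro v hv
      rw [ord_mul_pow v hx₀0 htc]
      have h1 := min_le_ord_sub_const v ht c htc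
      have h2 := hreg v hv
      rw [ord_mul_pow v hx₀0 ht] at h2
      have h3 := hx₀.2.1 v hv
      rcases le_total (v.ord t) 0 with h | h
      · rw [min_eq_left h] at h1
        nlinarith
      · rw [min_eq_right h] at h1
        nlinarith
    · rw [hx₀W, mul_pow, mul_assoc]
  have := hmax _ hcand
  rw [ord_mul_pow vinf hx₀0 htc] at this
  nlinarith

include hy in
/-- **NF-ALG**, full form. -/
theorem nf_abs' (hn : 0 < n) (hW : W ≠ 0) :
    ∃ H₀ : F, H₀ ≠ 0 ∧ (∀ v : Place K F, v ≠ vinf → 0 ≤ v.ord (W * H₀ ^ n)) ∧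
      (∀ t : F, t ≠ 0 → (∀ v : Place K F, v ≠ vinf → 0 ≤ v.ord (W * H₀ ^ n * t ^ n)) →
        vinf.ord (W * H₀ ^ n * t ^ n) = vinf.ord (W * H₀ ^ n) →
        ∃ c : K, c ≠ 0 ∧ t = algebraMap K F c) ∧
      ∀ g : SemilinearAut K F, g • vinf = vinf → (∃ h : F, g • W = W * h ^ n) →
        ∃ c : K, c ≠ 0 ∧ g • (W * H₀ ^ n) = algebraMap K F c * (W * H₀ ^ n) := by
  obtain ⟨x₀, hx₀, hmax⟩ := exists_max_cand y hy vinf n W hn hW
  obtain ⟨h₀, hh₀, hx₀W⟩ := hx₀.2.2
  have hx₀0 : x₀ ≠ 0 := hx₀.1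
  refine ⟨h₀, hh₀, ?_, ?_, ?_⟩
  · rw [← hx₀W]
    exact hx₀.2.1
  · rw [← hx₀W]
    intro t ht hreg hord
    exact const_of_max y hy vinf n W hn hW hx₀ hmax ht hreg hord
  · rw [← hx₀W]
    intro g hg ⟨h, hh⟩
    have hgW0 : g • W ≠ 0 := by
      rw [SemilinearAut.smul_def]
      exact (map_ne_zero _).2 hW
    have hh0 : h ≠ 0 := by
      rintro rfl
      rw [zero_pow hn.ne', mul_zero] at hh
      exact hgW0 hh
    have hgh₀ : g • h₀ ≠ 0 := by
      rw [SemilinearAut.smul_def]
      exact (map_ne_zero _).2 hh₀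
    set t : F := h * (g • h₀) / h₀ with ht
    have ht0 : t ≠ 0 := div_ne_zero (mul_ne_zero hh0 hgh₀) hh₀
    have hgx : g • x₀ = x₀ * t ^ n := by
      rw [hx₀W, smul_mul', smul_pow', hh, ht, div_pow, mul_pow]
      field_simp
    have hginv : g⁻¹ • vinf = vinf := by
      rw [inv_smul_eq_iff, hg]
    have hordg : ∀ v : Place K F, v.ord (g • x₀) = (g⁻¹ • v).ord x₀ := by
      intro v
      have := SemilinearAut.ord_smul (K := K) (F := F) g (g⁻¹ • v) x₀
      rwa [smul_inv_smul] at this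
    have hreg : Reg vinf (x₀ * t ^ n) := by
      rw [← hgx]
      intro v hv
      rw [hordg]
      apply hx₀.2.1
      intro hcon
      apply hv
      rw [inv_smul_eq_iff, hg] at hcon
      exact hcon
    have hord : vinf.ord (x₀ * t ^ n) = vinf.ord x₀ := by
      rw [← hgx, hordg, hginv]
    obtain ⟨c, hc, htc⟩ := const_of_max y hy vinf n W hn hW hx₀ hmax ht0 hreg hord
    refine ⟨c ^ n, pow_ne_zero n hc, ?_⟩
    rw [hgx, htc, map_pow, mul_comm]

end Main

/-- **NF-ALG** in the form consumed by the descent (the hypotheses `hvinf` and `g • y = y` are not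
needed). -/
theorem nf_abs (y : F) (hy : Transcendental K y) [FiniteDimensional K⟮y⟯ F]
    (vinf : Place K F) (hvinf : vinf.ord y < 0) (n : ℕ) (hn : 0 < n) (W : F) (hW : W ≠ 0) :
    ∃ H₀ : F, H₀ ≠ 0 ∧ ∀ g : SemilinearAut K F, g • y = y → g • vinf = vinf →
      (∃ h : F, g • W = W * h ^ n) →
      ∃ c : K, c ≠ 0 ∧ g • (W * H₀ ^ n) = algebraMap K F c * (W * H₀ ^ n) := by
  obtain ⟨H₀, hH₀, -, -, h⟩ := nf_abs' y hy vinf n W hn hW
  exact ⟨H₀, hH₀, fun g _ hg hgW => h g hg hgW⟩

end H1NF
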