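import Fermat.Agent.W3G.RIGAut_helper10
import Fermat.Agent.W3G.RIGNF_helper1
import Fermat.Agent.W3G.RIGFinT_helper4
import Fermat.Agent.W3G.RIGDescEnd_helper2
import Fermat.Agent.W3G.RIGAutAlg_helper16
import Fermat.Agent.W3G.RIGFCC_helper2

/-!
# Item 80 (W3G), slice RIG (helper10): the descent `ℂ → ℚ̄` of Kummer classes

`H10RIG.descent_of_vinf` : `VinfStatement N → H27RIG.DescentStatement N n` (`0 < n`), from

* NF-ABS (`H1NF.nf_abs`, helper1), FIN-T (`H4RIG.finT`, helper4; FIN-AN helper23, FIN-ROOT helper4),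
* FC-C (`H2FCC`, helper2), AUT-ALG (`H16AA`, helper16), DESC-END (`H2DE.descEnd`, helper2),
* AUT (`H10RIG.rho`, `H10RIG.qexp`).

Proof.  `U₀ = W H₀ⁿ` the normal form: every `g = rho σ` which fixes the class of `W` modulo `n`-th
powers maps `U₀` to a constant multiple of `U₀`; hence it fixes `U₁ := a⁻¹ U₀`, `a` the leading
`q`-coefficient of `U₀`.  The class of `rho σ • W` runs through a finite set (FIN-T), so every
`q`-coefficient of `U₁` has a finite orbit under `Aut(ℂ/ℚ̄)`, hence lies in `ι(ℚ̄)`; by DESC-END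
`U₁ = phi N f`.
-/

set_option autoImplicit false
set_option linter.style.longLine false
set_option linter.unusedSectionVars false
set_option linter.unusedVariables false
set_option linter.style.haveILetI false

noncomputable section

open UpperHalfPlane ModularCurve CongruenceSubgroup AlgebraicCurve IntermediateField
open scoped MatrixGroups

namespace H10RIG

open H24D H27RIG H1KD
open RH24 (Kbar iota Dv Jgen formalEval JC Dv_ne_zero h22b_ev)

variable (N : ℕ) [NeZero N]

/-- **VINF**: the `q`-place of `KN N / ℂ`, fixed by the action of `Aut(ℂ)`. -/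
def VinfStatement : Prop :=
  ∃ vinf : Place ℂ (H2AN3.KN N), vinf.ord (jKN N) < 0 ∧
    ∀ σ : ℂ ≃+* ℂ, rho N σ • vinf = vinf

theorem qexp_eq_div (U : H2AN3.KN N) (P R : MvPolynomial (Dv N) ℂ) (hR : thetaKN N R ≠ 0)
    (hx : U * thetaKN N R = thetaKN N P) : qexp N U = formalEval N P / formalEval N R :=
  fracLift_eq_div _ (isFracOf_thetaKN N) (thetaKN_ker_iff N) U P R hR hx

/-- the order of `g • f` at `v` is the order of `f` at `g⁻¹ • v` -/
theorem ord_smul_eq (g : SemilinearAut ℂ (H2AN3.KN N)) (v : Place ℂ (H2AN3.KN N))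
    (f : H2AN3.KN N) : v.ord (g • f) = (g⁻¹ • v).ord f := by
  have h := SemilinearAut.ord_smul g (g⁻¹ • v) f
  rwa [smul_inv_smul] at h

theorem rho_smul_sub_const (σ : ℂ ≃+* ℂ) (m : ℕ) :
    rho N σ • (jKN N - algebraMap ℂ (H2AN3.KN N) (m : ℂ)) =
      jKN N - algebraMap ℂ (H2AN3.KN N) (m : ℂ) := by
  rw [smul_sub, rho_smul_jKN, SemilinearAut.smul_algebraMap, rho_baseAut, map_natCast]

/-- the genericity condition is stable under the action -/
theorem generic_stable (n : ℕ) (W : H2AN3.KN N)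
    (hord : ∀ v : Place ℂ (H2AN3.KN N), v.ord (jKN N) = 0 →
      v.ord (jKN N - algebraMap ℂ _ 1728) = 0 → (n : ℤ) ∣ v.ord W) (σ : ℂ ≃+* ℂ) :
    ∀ v : Place ℂ (H2AN3.KN N), v.ord (jKN N) = 0 →
      v.ord (jKN N - algebraMap ℂ _ 1728) = 0 → (n : ℤ) ∣ v.ord (rho N σ • W) := by
  intro v h0 h1
  rw [ord_smul_eq]
  apply hord
  · rw [← ord_smul_eq, rho_smul_jKN]
    exact h0
  · rw [← ord_smul_eq]
    have h := rho_smul_sub_const N σ 1728
    simp only [Nat.cast_ofNat] at h
    rw [h]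
    exact h1

set_option maxHeartbeats 3200000 in
/-- **the descent**, from the `q`-place. -/
theorem descent_of_vinf (n : ℕ) (hn : 0 < n) (hV : VinfStatement N) :
    DescentStatement N n := by
  intro W hW hord
  obtain ⟨vinf, hvinf, hfix⟩ := hV
  have hy : Transcendental ℂ (jKN N) := H2FCC.transcendental_jKN N
  haveI : FiniteDimensional ℂ⟮jKN N⟯ (H2AN3.KN N) := (H2FCC.finrank_le N).1
  obtain ⟨H₀, hH₀, hNF⟩ := H1NF.nf_abs (jKN N) hy vinf hvinf n hn W hW
  obtain ⟨X, hX, cl, hcl⟩ := H4RIG.finT N n hn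
  -- the normal form and its leading coefficient
  set U₀ : H2AN3.KN N := W * H₀ ^ n with hU₀def
  have hU₀ : U₀ ≠ 0 := mul_ne_zero hW (pow_ne_zero n hH₀)
  have hqU₀ : qexp N U₀ ≠ 0 := (map_ne_zero (qexp N)).2 hU₀
  set k : ℤ := (qexp N U₀).order with hk
  set a : ℂ := (qexp N U₀).coeff k with ha
  have ha0 : a ≠ 0 := HahnSeries.coeff_order_eq_zero.not.2 hqU₀
  obtain ⟨r, hr⟩ : ∃ r : ℂ, r ^ n = a⁻¹ := IsAlgClosed.exists_pow_nat_eq a⁻¹ hn
  have hr0 : r ≠ 0 := by
    intro h
    rw [h, zero_pow hn.ne'] at hr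
    exact inv_ne_zero ha0 hr.symm
  set H : H2AN3.KN N := algebraMap ℂ (H2AN3.KN N) r * H₀ with hHdef
  have hH : H ≠ 0 := mul_ne_zero ((map_ne_zero _).2 hr0) hH₀
  set U₁ : H2AN3.KN N := W * H ^ n with hU₁def
  have hU₁ : U₁ = algebraMap ℂ (H2AN3.KN N) a⁻¹ * U₀ := by
    rw [hU₁def, hHdef, mul_pow, ← map_pow, hr, hU₀def]
    ring
  have hU₁0 : U₁ ≠ 0 := mul_ne_zero hW (pow_ne_zero n hH)
  -- every `rho σ` which fixes the class of `W` fixes `U₁`
  have hfixU : ∀ σ : ℂ ≃+* ℂ, (∃ h : H2AN3.KN N, rho N σ • W = W * h ^ n) →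
      rho N σ • U₁ = U₁ := by
    intro σ hσ
    obtain ⟨c, hc0, hc⟩ := hNF (rho N σ) (rho_smul_jKN N σ) (hfix σ) hσ
    have h1 : coeffMap (σ : ℂ →+* ℂ) (qexp N U₀) =
        algebraMap ℂ (LaurentSeries ℂ) c * qexp N U₀ := by
      rw [← qexp_rho_smul, hc, map_mul, qexp_algebraMap]
    have h2 : σ a = c * a := by
      have := congrArg (fun x : LaurentSeries ℂ => x.coeff k) h1
      simp only [coeffMap_coeff, H1RIG.coeff_algebraMap_mul] at this
      exact this
    rw [hU₁, smul_mul', SemilinearAut.smul_algebraMap, rho_baseAut, hc, map_inv₀, h2,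
      ← mul_assoc, ← map_mul]
    congr 2
    field_simp
  -- the coefficients of `U₁` lie in `ι(ℚ̄)`
  have hcoef : ∀ i : ℤ, (qexp N U₁).coeff i ∈ Set.range iota := by
    intro i
    letI : Algebra Kbar ℂ := iota.toAlgebra
    set t : ℂ := (qexp N U₁).coeff i with ht
    have hfin : (Set.range (fun σ : ℂ ≃ₐ[Kbar] ℂ => σ t)).Finite := by
      rw [← Set.finite_coe_iff]
      let Φ : (ℂ ≃ₐ[Kbar] ℂ) → X := fun σ => cl (rho N σ.toRingEquiv • W)
      have key : ∀ σ τ : ℂ ≃ₐ[Kbar] ℂ, Φ σ = Φ τ → σ t = τ t := by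
        intro σ τ hΦ
        have hσW : rho N σ.toRingEquiv • W ≠ 0 := (smul_ne_zero_iff_ne _).2 hW
        have hτW : rho N τ.toRingEquiv • W ≠ 0 := (smul_ne_zero_iff_ne _).2 hW
        obtain ⟨h, hh⟩ := hcl _ _ hσW hτW (generic_stable N n W hord σ.toRingEquiv)
          (generic_stable N n W hord τ.toRingEquiv) hΦ
        -- apply `rho τ⁻¹`
        set s : ℂ ≃+* ℂ := τ.toRingEquiv⁻¹ * σ.toRingEquiv with hs
        have hsW : rho N s • W = W * ((rho N τ.toRingEquiv)⁻¹ • h) ^ n := by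
          rw [hs, map_mul, mul_smul, hh, smul_mul', map_inv, inv_smul_smul, smul_pow']
        have h3 := hfixU s ⟨_, hsW⟩
        have h4 : coeffMap (s : ℂ →+* ℂ) (qexp N U₁) = qexp N U₁ := by
          rw [← qexp_rho_smul, h3]
        have h5 := congrArg (fun x : LaurentSeries ℂ => x.coeff i) h4
        simp only [coeffMap_coeff] at h5
        -- `s t = τ⁻¹ (σ t)`
        have h6 : τ.toRingEquiv.symm (σ.toRingEquiv t) = t := h5
        have h7 := congrArg τ.toRingEquiv h6
        rw [RingEquiv.apply_symm_apply] at h7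
        exact h7
      refine Finite.of_injective
        (fun y : Set.range (fun σ : ℂ ≃ₐ[Kbar] ℂ => σ t) => Φ (Classical.choose y.2)) ?_
      intro y y' hyy
      have h1 := key _ _ hyy
      have e1 := Classical.choose_spec y.2
      have e2 := Classical.choose_spec y'.2
      simp only at e1 e2
      apply Subtype.ext
      rw [← e1, ← e2]
      exact h1
    have := H16AA.h16_mem_range_of_finite_orbit (k := Kbar) (Ω := ℂ) t hfin
    exact this
  -- DESC-END
  obtain ⟨P, R, hR, hx⟩ := isFracOf_thetaKN N U₁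
  have hq : qexp N U₁ = formalEval N P / formalEval N R := qexp_eq_div N U₁ P R hR hx
  have hR' : thetaC N R ≠ 0 := fun h => hR ((thetaKN_eq_zero_iff N R).2 h)
  have hx' : (U₁ : Mer) * thetaC N R = thetaC N P := by
    have := congrArg (Subtype.val) hx
    exact this
  obtain ⟨f, hf⟩ := H2DE.descEnd N (U₁ : Mer) P R hR' hx' (by
    intro i
    rw [← hq]
    exact hcoef i)
  refine ⟨H, f, hH, ?_, ?_⟩
  · rintro rfl
    rw [map_zero] at hf
    exact hU₁0 (Subtype.ext hf.symm)
  · exact Subtype.ext hf.symm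

end H10RIG

end
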