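import Mathlib
import Fermat.Agent.W3G.AN3Alg2_helper2
import Fermat.Agent.S24.BC2J

/-!
# Item 80 (W3-G), slice RIGORD, sub-slice NF-INT (helper4), part 1

The *normal form condition* `IsNF M U` for `U ∈ Mer`: `U` is holomorphic on `ℍ` and
`(U ∘ δ) Δ^M` is bounded at `i∞` for every `δ ∈ SL(2, ℤ)`.

The *weighted integral equation* `HasWEq M U`: `U` is a root of a monic polynomial
`Y^r + P₁(j) Y^(r-1) + … + P_r(j)` with `deg P_i ≤ i M`.

* `isNF_of_hasWEq : HasWEq M U → IsNF M U`;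
* `hasWEq_map` : the weighted equation is transported by ring homomorphisms which fix `j` and
  act on the constants through a ring endomorphism of `ℂ`;
* `isNF_pow_iff : IsNF (n * m) (Φ ^ n) ↔ IsNF m Φ`.

The converse `IsNF M U → HasWEq M U` for `Γ₀(N)`-invariant `U` is in part 2.
-/

set_option autoImplicit false

noncomputable section

open UpperHalfPlane ModularForm MatrixGroups CongruenceSubgroup EisensteinSeries Filter
open scoped Manifold Topology

namespace H4RIG

open H24D H2AN3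
open RH24 (Dv jf jd)

local notation "Δ" => ModularForm.discriminant

/-! ### polynomials in `j` and powers of `Δ` -/

theorem jf_pow_mul_disc_pow (z : ℍ) (l k : ℕ) :
    jf z ^ l * Δ z ^ (l + k) = E₄ z ^ (3 * l) * Δ z ^ k := by
  rw [pow_add, ← mul_assoc, ← mul_pow, jf_mul_disc, ← pow_mul]

theorem bdd_E4_pow (l : ℕ) : IsBoundedAtImInfty (fun z : ℍ => E₄ z ^ l) := by
  induction l with
  | zero =>
    simp only [pow_zero]
    exact Filter.const_boundedAtFilter _ (1 : ℂ)
  | succ l ih =>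
    simp only [pow_succ]
    exact ih.mul bdd_E4

/-- `P(j) Δ^m` is bounded at `i∞` if `deg P ≤ m`. -/
theorem bdd_poly_mul_disc_pow (P : Polynomial ℂ) (m : ℕ) (h : P.natDegree ≤ m) :
    IsBoundedAtImInfty (fun z : ℍ => P.eval (jf z) * Δ z ^ m) := by
  have he : (fun z : ℍ => P.eval (jf z) * Δ z ^ m)
      = fun z => ∑ l ∈ Finset.range (P.natDegree + 1),
          P.coeff l * (E₄ z ^ (3 * l) * Δ z ^ (m - l)) := by
    funext z
    rw [Polynomial.eval_eq_sum_range, Finset.sum_mul]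
    refine Finset.sum_congr rfl (fun l hl => ?_)
    have hl' : l ≤ m := le_trans (Nat.lt_succ_iff.mp (Finset.mem_range.mp hl)) h
    have : Δ z ^ m = Δ z ^ (l + (m - l)) := by rw [Nat.add_sub_cancel' hl']
    rw [mul_assoc, this, jf_pow_mul_disc_pow]
  rw [he]
  have hsum : ∀ s : Finset ℕ, IsBoundedAtImInfty (fun z : ℍ => ∑ l ∈ s,
      P.coeff l * (E₄ z ^ (3 * l) * Δ z ^ (m - l))) := by
    intro s
    induction s using Finset.induction_on with
    | empty =>
      simp only [Finset.sum_empty]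
      exact Filter.const_boundedAtFilter _ (0 : ℂ)
    | insert a s ha ih =>
      simp only [Finset.sum_insert ha]
      refine Filter.BoundedAtFilter.add ?_ ih
      exact (Filter.const_boundedAtFilter _ (P.coeff a)).mul
        ((bdd_E4_pow (3 * a)).mul (RH24.h24_bdd_disc_pow (m - a)))
  exact hsum _

theorem tendsto_disc : Tendsto (fun z : ℍ => Δ z) atImInfty (𝓝 0) :=
  CuspFormClass.zero_at_infty CuspForm.discriminant

theorem tendsto_disc_pow (k : ℕ) (hk : 0 < k) :
    Tendsto (fun z : ℍ => Δ z ^ k) atImInfty (𝓝 0) := by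
  have := tendsto_disc.pow k
  rwa [zero_pow hk.ne'] at this

/-- `P(j) Δ^d → leading coefficient` for `d = deg P`. -/
theorem tendsto_poly_mul_disc_pow (P : Polynomial ℂ) :
    Tendsto (fun z : ℍ => P.eval (jf z) * Δ z ^ P.natDegree) atImInfty (𝓝 P.leadingCoeff) := by
  have he : (fun z : ℍ => P.eval (jf z) * Δ z ^ P.natDegree)
      = fun z => ∑ l ∈ Finset.range (P.natDegree + 1),
          P.coeff l * (E₄ z ^ (3 * l) * Δ z ^ (P.natDegree - l)) := by
    funext z
    rw [Polynomial.eval_eq_sum_range, Finset.sum_mul]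
    refine Finset.sum_congr rfl (fun l hl => ?_)
    have hl' : l ≤ P.natDegree := Nat.lt_succ_iff.mp (Finset.mem_range.mp hl)
    have : Δ z ^ P.natDegree = Δ z ^ (l + (P.natDegree - l)) := by rw [Nat.add_sub_cancel' hl']
    rw [mul_assoc, this, jf_pow_mul_disc_pow]
  rw [he]
  have hlim : ∀ l ∈ Finset.range (P.natDegree + 1),
      Tendsto (fun z : ℍ => P.coeff l * (E₄ z ^ (3 * l) * Δ z ^ (P.natDegree - l))) atImInfty
        (𝓝 (if l = P.natDegree then P.leadingCoeff else 0)) := by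
    intro l hl
    have hl' : l ≤ P.natDegree := Nat.lt_succ_iff.mp (Finset.mem_range.mp hl)
    have hE : Tendsto (fun z : ℍ => E₄ z ^ (3 * l)) atImInfty (𝓝 1) := by
      have := RH24.h23c_tendsto_E4.pow (3 * l)
      rwa [one_pow] at this
    by_cases hd : l = P.natDegree
    · rw [if_pos hd]
      subst hd
      simp only [Nat.sub_self, pow_zero, mul_one]
      have := (tendsto_const_nhds (x := P.coeff P.natDegree)).mul hE
      rw [mul_one] at this
      exact this
    · rw [if_neg hd]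
      have hpos : 0 < P.natDegree - l := Nat.sub_pos_of_lt (lt_of_le_of_ne hl' hd)
      have := (tendsto_const_nhds (x := P.coeff l)).mul (hE.mul (tendsto_disc_pow _ hpos))
      rw [mul_zero, mul_zero] at this
      exact this
  have := tendsto_finsetSum _ hlim
  rw [Finset.sum_ite_eq' (Finset.range (P.natDegree + 1)) P.natDegree] at this
  rw [if_pos (Finset.mem_range.mpr (Nat.lt_succ_self _))] at this
  exact this

/-- if `P(j) Δ^m` is bounded at `i∞` then `deg P ≤ m`. -/
theorem natDegree_le_of_bdd (P : Polynomial ℂ) (m : ℕ)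
    (h : IsBoundedAtImInfty (fun z : ℍ => P.eval (jf z) * Δ z ^ m)) : P.natDegree ≤ m := by
  by_contra hlt
  rw [not_le] at hlt
  have hP0 : P ≠ 0 := by
    intro h0
    rw [h0, Polynomial.natDegree_zero] at hlt
    exact Nat.not_lt_zero _ hlt
  have hpos : 0 < P.natDegree - m := Nat.sub_pos_of_lt hlt
  have h0 : Tendsto (fun z : ℍ => (P.eval (jf z) * Δ z ^ m) * Δ z ^ (P.natDegree - m))
      atImInfty (𝓝 0) := by
    have h1 : (fun z : ℍ => Δ z ^ (P.natDegree - m)) =o[atImInfty] (fun _ : ℍ => (1 : ℂ)) :=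
      (Asymptotics.isLittleO_one_iff ℂ).mpr (tendsto_disc_pow _ hpos)
    have h2 : (fun z : ℍ => P.eval (jf z) * Δ z ^ m) =O[atImInfty] (fun _ : ℍ => (1 : ℂ)) := by
      have h' : (fun z : ℍ => P.eval (jf z) * Δ z ^ m) =O[atImInfty] (1 : ℍ → ℝ) := h
      refine h'.trans (Asymptotics.isBigO_of_le _ (fun z => ?_))
      simp
    have h3 := h2.mul_isLittleO h1
    simp only [mul_one] at h3
    exact (Asymptotics.isLittleO_one_iff ℂ).mp h3
  have h1 : (fun z : ℍ => (P.eval (jf z) * Δ z ^ m) * Δ z ^ (P.natDegree - m))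
      = fun z => P.eval (jf z) * Δ z ^ P.natDegree := by
    funext z
    rw [mul_assoc, ← pow_add, Nat.add_sub_cancel' hlt.le]
  rw [h1] at h0
  have h2 := tendsto_nhds_unique h0 (tendsto_poly_mul_disc_pow P)
  exact (Polynomial.leadingCoeff_ne_zero.mpr hP0) h2.symm

/-! ### the two conditions -/

/-- the normal form condition: holomorphic on `ℍ`, and `(U ∘ δ) Δ^M` bounded at `i∞` for all
`δ ∈ SL(2, ℤ)` -/
def IsNF (M : ℕ) (U : Mer) : Prop :=
  ∃ f : Hol, algebraMap Hol Mer f = U ∧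
    ∀ δ : SL(2, ℤ), IsBoundedAtImInfty (fun z : ℍ => (f : ℍ → ℂ) (δ • z) * Δ z ^ M)

/-- the weighted integral equation over `ℂ[j]` -/
def HasWEq (M : ℕ) (U : Mer) : Prop :=
  ∃ q : Polynomial (Polynomial ℂ), q.Monic ∧
    (∀ i, (q.coeff i).natDegree ≤ (q.natDegree - i) * M) ∧ q.eval₂ polyJ U = 0

theorem precomp_coe (δ : SL(2, ℤ)) (f : Hol) (z : ℍ) :
    ((precomp δ f : Hol) : ℍ → ℂ) z = (f : ℍ → ℂ) (δ • z) := by
  rw [precomp_apply]

/-- the weighted equation implies the normal form condition -/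
theorem isNF_of_hasWEq {M : ℕ} {U : Mer} (h : HasWEq M U) : IsNF M U := by
  obtain ⟨q, hq, hdeg, hroot⟩ := h
  obtain ⟨f, hf, hfroot⟩ := exists_hol_of_integral U q hq hroot
  refine ⟨f, hf, fun δ => ?_⟩
  have hfδ : q.eval₂ polyJHol (precomp δ f) = 0 := by
    apply algebraMap_Hol_injective
    rw [map_zero, Polynomial.hom_eval₂, ← precompMer_algebraMap, hf]
    have := congrArg (precompMer δ) hroot
    rw [map_zero, Polynomial.hom_eval₂, precompMer_comp_polyJ] at this
    exact this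
  -- the bound
  have key : ∀ z : ℍ, ‖(f : ℍ → ℂ) (δ • z) * Δ z ^ M‖ ≤
      1 + ∑ i ∈ Finset.range q.natDegree,
        ‖(q.coeff i).eval (jf z) * Δ z ^ ((q.natDegree - i) * M)‖ := by
    intro z
    set p : Polynomial ℂ := q.map (Polynomial.evalRingHom (jf z)) with hp
    have hm : p.Monic := hq.map _
    have hpd : p.natDegree = q.natDegree := hq.natDegree_map _
    have hr : p.eval ((f : ℍ → ℂ) (δ • z)) = 0 := by
      have := pointwise_of_eval₂ (precomp δ f) q hfδ z
      rwa [precomp_coe] at this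
    have hr' : (p.scaleRoots (Δ z ^ M)).eval (Δ z ^ M * (f : ℍ → ℂ) (δ • z)) = 0 := by
      rw [Polynomial.scaleRoots_eval_mul, hr, mul_zero]
    have hm' : (p.scaleRoots (Δ z ^ M)).Monic := (Polynomial.monic_scaleRoots_iff _).mpr hm
    have hb := norm_le_of_monic_root _ hm' _ hr'
    rw [Polynomial.natDegree_scaleRoots, hpd] at hb
    rw [mul_comm]
    refine hb.trans (le_of_eq ?_)
    congr 1
    refine Finset.sum_congr rfl (fun i _ => ?_)
    rw [Polynomial.coeff_scaleRoots, hpd, hp, Polynomial.coeff_map, Polynomial.coe_evalRingHom,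
      ← pow_mul, mul_comm M]
  have hb := bdd_of_le (Finset.range q.natDegree)
    (fun i z => (q.coeff i).eval (jf z) * Δ z ^ ((q.natDegree - i) * M)) 0
    (fun i _ => by
      simp only [pow_zero, mul_one]
      exact bdd_poly_mul_disc_pow _ _ (hdeg i))
    (fun z => (f : ℍ → ℂ) (δ • z) * Δ z ^ M) key
  simpa using hb

/-! ### transport of the weighted equation -/

/-- The weighted equation is transported by a ring homomorphism `s` which fixes `j` and acts on
the constants through `σ : ℂ →+* ℂ`. -/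
theorem hasWEq_map {R : Type*} [CommRing R] (ι s : R →+* Mer) (hι : Function.Injective ι)
    (c : ℂ →+* R) (σ : ℂ →+* ℂ) (jR : R)
    (hιc : ∀ a, ι (c a) = constMer a) (hsc : ∀ a, s (c a) = constMer (σ a))
    (hιj : ι jR = jMer) (hsj : s jR = jMer) {M : ℕ} (u : R) (h : HasWEq M (ι u)) :
    HasWEq M (s u) := by
  obtain ⟨q, hq, hdeg, hroot⟩ := h
  set pR : Polynomial ℂ →+* R := Polynomial.eval₂RingHom c jR with hpR
  have h1 : ι.comp pR = polyJ := by
    apply Polynomial.ringHom_ext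
    · intro a
      simp only [hpR, RingHom.comp_apply, Polynomial.coe_eval₂RingHom, Polynomial.eval₂_C]
      rw [hιc, polyJ_C]
    · simp only [hpR, RingHom.comp_apply, Polynomial.coe_eval₂RingHom, Polynomial.eval₂_X]
      rw [hιj, polyJ_X]
  have h2 : s.comp pR = polyJ.comp (Polynomial.mapRingHom σ) := by
    apply Polynomial.ringHom_ext
    · intro a
      simp only [hpR, RingHom.comp_apply, Polynomial.coe_eval₂RingHom, Polynomial.eval₂_C,
        Polynomial.coe_mapRingHom, Polynomial.map_C]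
      rw [hsc, polyJ_C]
    · simp only [hpR, RingHom.comp_apply, Polynomial.coe_eval₂RingHom, Polynomial.eval₂_X,
        Polynomial.coe_mapRingHom, Polynomial.map_X]
      rw [hsj, polyJ_X]
  have h3 : q.eval₂ pR u = 0 := by
    apply hι
    rw [map_zero, Polynomial.hom_eval₂, h1]
    exact hroot
  refine ⟨q.map (Polynomial.mapRingHom σ), hq.map _, fun i => ?_, ?_⟩
  · rw [hq.natDegree_map, Polynomial.coeff_map, Polynomial.coe_mapRingHom]
    exact (Polynomial.natDegree_map_le).trans (hdeg i)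
  · rw [Polynomial.eval₂_map, ← h2]
    have := congrArg s h3
    rwa [map_zero, Polynomial.hom_eval₂] at this

/-! ### powers -/

theorem isNF_pow {m : ℕ} {Φ : Mer} (h : IsNF m Φ) (n : ℕ) : IsNF (n * m) (Φ ^ n) := by
  obtain ⟨f, hf, hb⟩ := h
  refine ⟨f ^ n, by rw [map_pow, hf], fun δ => ?_⟩
  have h1 : (fun z : ℍ => ((f ^ n : Hol) : ℍ → ℂ) (δ • z) * Δ z ^ (n * m))
      = fun z => ((f : ℍ → ℂ) (δ • z) * Δ z ^ m) ^ n := by
    funext z
    rw [mul_pow, ← pow_mul, mul_comm m n]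
    rfl
  rw [h1]
  have h2 : ∀ k : ℕ, IsBoundedAtImInfty (fun z : ℍ => ((f : ℍ → ℂ) (δ • z) * Δ z ^ m) ^ k) := by
    intro k
    induction k with
    | zero =>
      simp only [pow_zero]
      exact Filter.const_boundedAtFilter _ (1 : ℂ)
    | succ k ih =>
      simp only [pow_succ]
      exact ih.mul (hb δ)
  exact h2 n

theorem isNF_of_pow {n m : ℕ} (hn : 0 < n) {Φ : Mer} (h : IsNF (n * m) (Φ ^ n)) : IsNF m Φ := by
  obtain ⟨g, hg, hb⟩ := h
  -- `Φ` is integral over `Hol`
  have hint : (algebraMap Hol Mer).IsIntegralElem Φ := by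
    refine ⟨Polynomial.X ^ n - Polynomial.C g, Polynomial.monic_X_pow_sub_C g hn.ne', ?_⟩
    rw [Polynomial.eval₂_sub, Polynomial.eval₂_pow, Polynomial.eval₂_X, Polynomial.eval₂_C, hg,
      sub_self]
  obtain ⟨f, hf⟩ := exists_hol_of_merVal_le Φ (merVal_le_one_of_isIntegralElem Φ hint)
  have hfg : f ^ n = g := by
    apply algebraMap_Hol_injective
    rw [map_pow, hf, hg]
  refine ⟨f, hf, fun δ => ?_⟩
  have hbδ := hb δ
  rw [← hfg] at hbδ
  have h1 : (fun z : ℍ => ((f ^ n : Hol) : ℍ → ℂ) (δ • z) * Δ z ^ (n * m))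
      = fun z => ((f : ℍ → ℂ) (δ • z) * Δ z ^ m) ^ n := by
    funext z
    rw [mul_pow, ← pow_mul, mul_comm m n]
    rfl
  rw [h1] at hbδ
  -- a function whose `n`-th power is bounded is bounded
  rw [IsBoundedAtImInfty, Filter.BoundedAtFilter, Asymptotics.isBigO_iff] at hbδ ⊢
  obtain ⟨C, hC⟩ := hbδ
  refine ⟨max C 1, ?_⟩
  filter_upwards [hC] with z hz
  simp only [Pi.one_apply, norm_one, mul_one, norm_pow] at hz ⊢
  by_contra hlt
  rw [not_le] at hlt
  have h1 : (1 : ℝ) < ‖(f : ℍ → ℂ) (δ • z) * Δ z ^ m‖ := lt_of_le_of_lt (le_max_right _ _) hlt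
  have h2 : ‖(f : ℍ → ℂ) (δ • z) * Δ z ^ m‖ ≤ ‖(f : ℍ → ℂ) (δ • z) * Δ z ^ m‖ ^ n :=
    le_self_pow₀ h1.le hn.ne'
  have h3 : max C 1 < C := lt_of_lt_of_le hlt (h2.trans hz)
  exact absurd (le_max_left C 1) (not_le.mpr h3)

theorem isNF_pow_iff {n m : ℕ} (hn : 0 < n) (Φ : Mer) : IsNF (n * m) (Φ ^ n) ↔ IsNF m Φ :=
  ⟨isNF_of_pow hn, fun h => isNF_pow h n⟩

/-! ### the normal forms are a `ℂ`-vector space -/

theorem isNF_zero (M : ℕ) : IsNF M 0 :=
  ⟨0, map_zero _, fun δ => by
    have : (fun z : ℍ => ((0 : Hol) : ℍ → ℂ) (δ • z) * Δ z ^ M) = fun _ => (0 : ℂ) := by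
      funext z
      show (0 : ℂ) * _ = 0
      rw [zero_mul]
    rw [this]
    exact Filter.const_boundedAtFilter _ (0 : ℂ)⟩

theorem isNF_add {M : ℕ} {U V : Mer} (hU : IsNF M U) (hV : IsNF M V) : IsNF M (U + V) := by
  obtain ⟨f, hf, hfb⟩ := hU
  obtain ⟨g, hg, hgb⟩ := hV
  refine ⟨f + g, by rw [map_add, hf, hg], fun δ => ?_⟩
  have : (fun z : ℍ => ((f + g : Hol) : ℍ → ℂ) (δ • z) * Δ z ^ M)
      = (fun z : ℍ => (f : ℍ → ℂ) (δ • z) * Δ z ^ M) + fun z => (g : ℍ → ℂ) (δ • z) * Δ z ^ M := by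
    funext z
    show ((f : ℍ → ℂ) (δ • z) + (g : ℍ → ℂ) (δ • z)) * _ = _
    rw [add_mul]
    rfl
  rw [this]
  exact (hfb δ).add (hgb δ)

theorem isNF_const_mul {M : ℕ} {U : Mer} (hU : IsNF M U) (a : ℂ) : IsNF M (constMer a * U) := by
  obtain ⟨f, hf, hfb⟩ := hU
  refine ⟨constHol a * f, by rw [map_mul, hf]; rfl, fun δ => ?_⟩
  have : (fun z : ℍ => ((constHol a * f : Hol) : ℍ → ℂ) (δ • z) * Δ z ^ M)
      = fun z => a * ((f : ℍ → ℂ) (δ • z) * Δ z ^ M) := by
    funext z
    show (a * (f : ℍ → ℂ) (δ • z)) * _ = _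
    rw [mul_assoc]
  rw [this]
  exact (Filter.const_boundedAtFilter _ a).mul (hfb δ)

end H4RIG

end
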