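import Mathlib

/-!
# Item 80 (W3G), slice RIG/AUT (helper10): lifting ring homomorphisms to a field of fractions

`φ : A →+* F` a ring homomorphism into a field such that every element of `F` is a quotient
`φ P / φ R`; `ψ : A →+* L` a ring homomorphism into a field with the same kernel.  Then there is a
unique ring homomorphism `Θ : F →+* L` with `Θ ∘ φ = ψ` (`H10RIG.fracLift`).
-/

set_option autoImplicit false

noncomputable section

namespace H10RIG

section Lift

variable {A F L : Type*} [CommRing A] [Field F] [Field L]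

/-- every element of `F` is a quotient of elements of `φ A` -/
def IsFracOf (φ : A →+* F) : Prop :=
  ∀ x : F, ∃ P R : A, φ R ≠ 0 ∧ x * φ R = φ P

variable {φ : A →+* F}

/-- two ring homomorphisms which agree on `φ A` are equal -/
theorem IsFracOf.hom_ext (hφ : IsFracOf φ) {f g : F →+* L} (h : ∀ a, f (φ a) = g (φ a)) :
    f = g := by
  ext x
  obtain ⟨P, R, hR, hx⟩ := hφ x
  have hfR : f (φ R) ≠ 0 := (map_ne_zero f).2 hR
  have h1 : f x * f (φ R) = g x * f (φ R) := by
    rw [← map_mul, hx, h P, ← hx, map_mul, h R]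
  exact mul_right_cancel₀ hfR h1

variable (ψ : A →+* L)

/-- the numerator chosen for `x` -/
def IsFracOf.num (hφ : IsFracOf φ) (x : F) : A := (hφ x).choose

/-- the denominator chosen for `x` -/
def IsFracOf.den (hφ : IsFracOf φ) (x : F) : A := (hφ x).choose_spec.choose

theorem IsFracOf.den_ne (hφ : IsFracOf φ) (x : F) : φ (hφ.den x) ≠ 0 :=
  (hφ x).choose_spec.choose_spec.1

theorem IsFracOf.num_den (hφ : IsFracOf φ) (x : F) : x * φ (hφ.den x) = φ (hφ.num x) :=
  (hφ x).choose_spec.choose_spec.2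

/-- the lift, as a function -/
def IsFracOf.liftFun (hφ : IsFracOf φ) (x : F) : L := ψ (hφ.num x) / ψ (hφ.den x)

theorem IsFracOf.liftFun_eq (hφ : IsFracOf φ) (hker : ∀ a, φ a = 0 ↔ ψ a = 0) (x : F) (P R : A)
    (hR : φ R ≠ 0) (hx : x * φ R = φ P) : hφ.liftFun ψ x = ψ P / ψ R := by
  have hR0 : φ (hφ.den x) ≠ 0 := hφ.den_ne x
  have hψR : ψ R ≠ 0 := fun h => hR ((hker R).2 h)
  have hψR0 : ψ (hφ.den x) ≠ 0 := fun h => hR0 ((hker _).2 h)
  have h1 : φ (hφ.num x * R - P * hφ.den x) = 0 := by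
    rw [map_sub, map_mul, map_mul, ← hφ.num_den x, ← hx]
    ring
  have h2 : ψ (hφ.num x * R - P * hφ.den x) = 0 := (hker _).1 h1
  rw [map_sub, map_mul, map_mul, sub_eq_zero] at h2
  unfold IsFracOf.liftFun
  rw [div_eq_div_iff hψR0 hψR]
  exact h2

/-- **the lift** of `ψ` along `φ` -/
def fracLift (hφ : IsFracOf φ) (hker : ∀ a, φ a = 0 ↔ ψ a = 0) : F →+* L where
  toFun := hφ.liftFun ψ
  map_one' := by
    rw [hφ.liftFun_eq ψ hker 1 1 1 (by rw [map_one]; exact one_ne_zero) (by rw [one_mul]),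
      map_one, div_one]
  map_zero' := by
    rw [hφ.liftFun_eq ψ hker 0 0 1 (by rw [map_one]; exact one_ne_zero)
      (by rw [zero_mul, map_zero]), map_zero, zero_div]
  map_mul' x y := by
    have hx := hφ.num_den x
    have hy := hφ.num_den y
    have hxy : φ (hφ.den x * hφ.den y) ≠ 0 := by
      rw [map_mul]
      exact mul_ne_zero (hφ.den_ne x) (hφ.den_ne y)
    rw [hφ.liftFun_eq ψ hker (x * y) (hφ.num x * hφ.num y) (hφ.den x * hφ.den y) hxy
      (by rw [map_mul, map_mul, ← hx, ← hy]; ring)]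
    unfold IsFracOf.liftFun
    rw [map_mul, map_mul, mul_div_mul_comm]
  map_add' x y := by
    have hx := hφ.num_den x
    have hy := hφ.num_den y
    have hxy : φ (hφ.den x * hφ.den y) ≠ 0 := by
      rw [map_mul]
      exact mul_ne_zero (hφ.den_ne x) (hφ.den_ne y)
    have hψx : ψ (hφ.den x) ≠ 0 := fun h => hφ.den_ne x ((hker _).2 h)
    have hψy : ψ (hφ.den y) ≠ 0 := fun h => hφ.den_ne y ((hker _).2 h)
    rw [hφ.liftFun_eq ψ hker (x + y) (hφ.num x * hφ.den y + hφ.num y * hφ.den x)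
      (hφ.den x * hφ.den y) hxy
      (by rw [map_mul, map_add, map_mul, map_mul, ← hx, ← hy]; ring)]
    unfold IsFracOf.liftFun
    rw [map_add, map_mul, map_mul, map_mul, div_add_div _ _ hψx hψy, mul_comm (ψ (hφ.den x)) (ψ (hφ.num y))]

theorem fracLift_apply (hφ : IsFracOf φ) (hker : ∀ a, φ a = 0 ↔ ψ a = 0) (a : A) :
    fracLift ψ hφ hker (φ a) = ψ a := by
  show hφ.liftFun ψ (φ a) = ψ a
  rw [hφ.liftFun_eq ψ hker (φ a) a 1 (by rw [map_one]; exact one_ne_zero)
    (by rw [map_one, mul_one]), map_one, div_one]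

theorem fracLift_eq_div (hφ : IsFracOf φ) (hker : ∀ a, φ a = 0 ↔ ψ a = 0) (x : F) (P R : A)
    (hR : φ R ≠ 0) (hx : x * φ R = φ P) : fracLift ψ hφ hker x = ψ P / ψ R :=
  hφ.liftFun_eq ψ hker x P R hR hx

end Lift

end H10RIG

end
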